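import Fermat.Agent.S52.Family

/-! # S52: the discriminant of the icosahedral family. -/

set_option autoImplicit false

namespace Fermat.Agent.S52

set_option maxHeartbeats 4000000 in
theorem disc_family {R : Type*} [CommRing R] (c4 c6 μ : R) :
    bc4 c4 c6 μ ^ 3 - bc6 c4 c6 μ ^ 2 = (c4 ^ 3 - c6 ^ 2) * bD c4 c6 μ ^ 5 := by
  simp only [bc4, bc6, bD, g4, g6]
  ring

end Fermat.Agent.S52
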