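import Fermat.Agent.S52.CardCongrAB
import Fermat.Agent.S52.DiscFamily

set_option autoImplicit false

namespace Fermat.Agent.S52

open WeierstrassCurve WeierstrassCurve.Affine

/-- A + B: the point counts of `E` and `E'` over `𝔽_ℓ` agree mod 5. -/
theorem card_congr (ℓ : ℕ) [Fact ℓ.Prime] (hℓ : 7 ≤ ℓ) (c4 c6 μ : ZMod ℓ) (hΔ : c4 ^ 3 - c6 ^ 2 ≠ 0)
    (hD : bD c4 c6 μ ≠ 0) :
    (5 : ℤ) ∣ (Nat.card (EC (bc4 c4 c6 μ) (bc6 c4 c6 μ)).toAffine.Point : ℤ)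
      - (Nat.card (EC c4 c6).toAffine.Point : ℤ) :=
  card_congr' ℓ hℓ c4 c6 μ hΔ hD (disc_family c4 c6 μ)

end Fermat.Agent.S52
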