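import Fermat.Agent.S52.ThmA
import Fermat.Agent.S52.CardCongr

/-! # S52, Part C: the integral model `twist5 W ν`. -/

set_option autoImplicit false

namespace Fermat.Agent.S52

open WeierstrassCurve

/-- The member of the icosahedral family of `W` with parameter `μ = 1728 ν`, as an integral model which is
congruent to `W` modulo `ν`. -/
def twist5 (W : WeierstrassCurve ℤ) (ν : ℤ) : WeierstrassCurve ℤ :=
  ⟨W.a₁, W.a₂, W.a₃, W.a₄ - 36 * ν * g4 W.c₄ W.c₆ (1728 * ν),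
    W.a₆ - 3 * ν * W.b₂ * g4 W.c₄ W.c₆ (1728 * ν) - 2 * ν * g6 W.c₄ W.c₆ (1728 * ν)⟩

section maps

variable {R S : Type*} [CommRing R] [CommRing S] (φ : R →+* S)

theorem map_g4 (a b c : R) : φ (g4 a b c) = g4 (φ a) (φ b) (φ c) := by
  simp only [g4, map_add, map_mul, map_pow, map_neg, map_ofNat]

theorem map_bc4 (a b c : R) : φ (bc4 a b c) = bc4 (φ a) (φ b) (φ c) := by
  simp only [bc4, map_add, map_mul, map_g4]

theorem map_bD (a b c : R) : φ (bD a b c) = bD (φ a) (φ b) (φ c) := by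
  simp only [bD, map_add, map_mul, map_pow, map_neg, map_ofNat, map_one]

theorem bD_zero (a b : R) : bD a b 0 = 1 := by
  simp [bD]

end maps

theorem twist5_c₄ (W : WeierstrassCurve ℤ) (ν : ℤ) :
    (twist5 W ν).c₄ = bc4 W.c₄ W.c₆ (1728 * ν) := by
  generalize hG : g4 W.c₄ W.c₆ (1728 * ν) = G
  simp only [twist5, bc4, hG, WeierstrassCurve.c₄, WeierstrassCurve.b₂, WeierstrassCurve.b₄]
  ring

theorem twist5_c₆ (W : WeierstrassCurve ℤ) (ν : ℤ) :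
    (twist5 W ν).c₆ = bc6 W.c₄ W.c₆ (1728 * ν) := by
  generalize hG : g4 W.c₄ W.c₆ (1728 * ν) = G
  generalize hG' : g6 W.c₄ W.c₆ (1728 * ν) = G'
  simp only [twist5, bc6, WeierstrassCurve.c₆, WeierstrassCurve.c₄, WeierstrassCurve.b₂,
    WeierstrassCurve.b₄, WeierstrassCurve.b₆] at hG hG' ⊢
  rw [hG, hG']
  ring

theorem twist5_Δ (W : WeierstrassCurve ℤ) (ν : ℤ) :
    (twist5 W ν).Δ = W.Δ * bD W.c₄ W.c₆ (1728 * ν) ^ 5 := by
  have h1 := (twist5 W ν).c_relation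
  have h2 := W.c_relation
  rw [twist5_c₄, twist5_c₆, disc_family, ← h2] at h1
  have h3 : (1728 : ℤ) ≠ 0 := by norm_num
  apply mul_left_cancel₀ h3
  rw [h1]
  ring

theorem bD_cast_eq_one (c4 c6 ν : ℤ) (ℓ : ℕ) (h : (ℓ : ℤ) ∣ ν) :
    ((bD c4 c6 (1728 * ν) : ℤ) : ZMod ℓ) = 1 := by
  have h1 := map_bD (Int.castRingHom (ZMod ℓ)) c4 c6 (1728 * ν)
  have h2 : (Int.castRingHom (ZMod ℓ)) (1728 * ν) = 0 := by
    rw [eq_intCast, ZMod.intCast_zmod_eq_zero_iff_dvd]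
    exact Dvd.dvd.mul_left h _
  rw [h2, bD_zero] at h1
  exact h1

theorem bD_ne_zero (c4 c6 ν : ℤ) : bD c4 c6 (1728 * ν) ≠ 0 := by
  intro h
  have h1 := map_bD (Int.castRingHom (ZMod 2)) c4 c6 (1728 * ν)
  have h2 : (Int.castRingHom (ZMod 2)) (1728 * ν) = 0 := by
    rw [eq_intCast, ZMod.intCast_zmod_eq_zero_iff_dvd]
    exact Dvd.dvd.mul_right (by norm_num) _
  rw [h2, bD_zero, h, map_zero] at h1
  exact zero_ne_one h1

theorem twist5_Δ_ne_zero (W : WeierstrassCurve ℤ) (hΔ : W.Δ ≠ 0) (ν : ℤ) : (twist5 W ν).Δ ≠ 0 := by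
  rw [twist5_Δ]
  exact mul_ne_zero hΔ (pow_ne_zero _ (bD_ne_zero _ _ _))

theorem twist5_reductionMod (W : WeierstrassCurve ℤ) (ν : ℤ) (ℓ : ℕ) (h : (ℓ : ℤ) ∣ ν) :
    (twist5 W ν).reductionMod ℓ = W.reductionMod ℓ := by
  have hν : ((ν : ℤ) : ZMod ℓ) = 0 := (ZMod.intCast_zmod_eq_zero_iff_dvd _ _).mpr h
  generalize g4 W.c₄ W.c₆ (1728 * ν) = G
  generalize g6 W.c₄ W.c₆ (1728 * ν) = G'
  ext <;> simp [WeierstrassCurve.reductionMod, twist5, hν]

theorem twist5_semistable (W : WeierstrassCurve ℤ) (hΔ : W.Δ ≠ 0) (hW : W.IsSemistableModel) (ν : ℤ)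
    (hν : 30 * W.Δ ∣ ν) : (twist5 W ν).IsSemistableModel := by
  intro q hq hqΔ hqc
  have hqp : Prime (q : ℤ) := Nat.prime_iff_prime_int.mp hq
  have : Fact q.Prime := ⟨hq⟩
  rw [twist5_Δ] at hqΔ
  rw [twist5_c₄] at hqc
  by_cases h30 : (q : ℤ) ∣ 30 * W.Δ
  · have hqν : (q : ℤ) ∣ ν := h30.trans hν
    have hD : ¬ (q : ℤ) ∣ bD W.c₄ W.c₆ (1728 * ν) := by
      intro h
      have h1 := bD_cast_eq_one W.c₄ W.c₆ ν q hqν
      rw [(ZMod.intCast_zmod_eq_zero_iff_dvd _ _).mpr h] at h1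
      exact zero_ne_one h1
    have h1 : (q : ℤ) ∣ W.Δ := by
      rcases hqp.dvd_or_dvd hqΔ with h | h
      · exact h
      · exact absurd (hqp.dvd_of_dvd_pow h) hD
    apply hW q hq h1
    rw [bc4] at hqc
    have h2 : (q : ℤ) ∣ 1728 * ν * g4 W.c₄ W.c₆ (1728 * ν) :=
      Dvd.dvd.mul_right (Dvd.dvd.mul_left hqν _) _
    exact (Int.dvd_add_left h2).mp hqc
  · have hqΔ' : ¬ (q : ℤ) ∣ W.Δ := fun h => h30 (Dvd.dvd.mul_left h _)
    have hq30 : ¬ (q : ℤ) ∣ 30 := fun h => h30 (Dvd.dvd.mul_right h _)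
    have hD : (q : ℤ) ∣ bD W.c₄ W.c₆ (1728 * ν) := by
      rcases hqp.dvd_or_dvd hqΔ with h | h
      · exact absurd h hqΔ'
      · exact hqp.dvd_of_dvd_pow h
    let K := AlgebraicClosure (ZMod q)
    let φ : ℤ →+* K := (algebraMap (ZMod q) K).comp (Int.castRingHom (ZMod q))
    have hφ : ∀ n : ℤ, φ n = 0 ↔ (q : ℤ) ∣ n := by
      intro n
      change algebraMap (ZMod q) K ((n : ℤ) : ZMod q) = 0 ↔ _
      rw [map_eq_zero, ZMod.intCast_zmod_eq_zero_iff_dvd]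
    refine bc4_bD_not_both_zero K ?_ (φ W.c₄) (φ W.c₆) (φ (1728 * ν)) ?_ ?_ ?_
    · have h1 : (30 : K) = φ 30 := by simp
      rw [h1, Ne, hφ]
      exact hq30
    · have h1 : φ W.c₄ ^ 3 - φ W.c₆ ^ 2 = φ (1728 * W.Δ) := by
        rw [W.c_relation, map_sub, map_pow, map_pow]
      rw [h1, Ne, hφ]
      intro h
      rcases hqp.dvd_or_dvd h with h | h
      · apply hq30
        have h2 : (1728 : ℤ) = 2 ^ 6 * 3 ^ 3 := by norm_num
        rw [h2] at h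
        rcases hqp.dvd_or_dvd h with h | h
        · exact (hqp.dvd_of_dvd_pow h).trans (by norm_num)
        · exact (hqp.dvd_of_dvd_pow h).trans (by norm_num)
      · exact hqΔ' h
    · rw [← map_bc4, hφ]
      exact hqc
    · rw [← map_bD, hφ]
      exact hD

end Fermat.Agent.S52
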