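import Fermat.Agent.S52.ThmD
import Fermat.Agent.S51.Main
import Fermat.Prelude.Def_FLTPrelim_ModularRep

/-! # S52, Part E: transfer to the short model, irreducibility criterion. -/

set_option autoImplicit false

namespace Fermat.Agent.S52

open WeierstrassCurve WeierstrassCurve.Affine WeierstrassCurve.Affine.Point

section ShortModel

variable {F : Type*} [Field F] (W : WeierstrassCurve F)

theorem nonsingular_EC_iff (h2 : (2 : F) ≠ 0) (h3 : (3 : F) ≠ 0) (x y : F) :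
    (EC W.c₄ W.c₆).toAffine.Nonsingular (36 * x + 3 * W.b₂) (108 * (2 * y + W.a₁ * x + W.a₃)) ↔
      W.toAffine.Nonsingular x y := by
  have h46656 : (46656 : F) ≠ 0 := by
    have : (46656 : F) = 2 ^ 6 * 3 ^ 6 := by norm_num
    rw [this]
    exact mul_ne_zero (pow_ne_zero _ h2) (pow_ne_zero _ h3)
  have h216 : (216 : F) ≠ 0 := by
    have : (216 : F) = 2 ^ 3 * 3 ^ 3 := by norm_num
    rw [this]
    exact mul_ne_zero (pow_ne_zero _ h2) (pow_ne_zero _ h3)
  have h1296 : (1296 : F) ≠ 0 := by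
    have : (1296 : F) = 2 ^ 4 * 3 ^ 4 := by norm_num
    rw [this]
    exact mul_ne_zero (pow_ne_zero _ h2) (pow_ne_zero _ h3)
  rw [nonsingular_iff', nonsingular_iff', equation_iff, equation_iff]
  simp only [EC, WeierstrassCurve.c₄, WeierstrassCurve.c₆, WeierstrassCurve.b₂, WeierstrassCurve.b₄,
    WeierstrassCurve.b₆]
  have e1 : ((108 * (2 * y + W.a₁ * x + W.a₃)) ^ 2 + 0 * (36 * x + 3 * (W.a₁ ^ 2 + 4 * W.a₂)) *
        (108 * (2 * y + W.a₁ * x + W.a₃)) + 0 * (108 * (2 * y + W.a₁ * x + W.a₃)) =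
      (36 * x + 3 * (W.a₁ ^ 2 + 4 * W.a₂)) ^ 3 + 0 * (36 * x + 3 * (W.a₁ ^ 2 + 4 * W.a₂)) ^ 2 +
        -27 * ((W.a₁ ^ 2 + 4 * W.a₂) ^ 2 - 24 * (2 * W.a₄ + W.a₁ * W.a₃)) *
          (36 * x + 3 * (W.a₁ ^ 2 + 4 * W.a₂)) +
        -54 * (-(W.a₁ ^ 2 + 4 * W.a₂) ^ 3 + 36 * (W.a₁ ^ 2 + 4 * W.a₂) * (2 * W.a₄ + W.a₁ * W.a₃) -
          216 * (W.a₃ ^ 2 + 4 * W.a₆))) ↔
      (y ^ 2 + W.a₁ * x * y + W.a₃ * y = x ^ 3 + W.a₂ * x ^ 2 + W.a₄ * x + W.a₆) := by
    constructor
    · intro h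
      apply mul_left_cancel₀ h46656
      linear_combination h
    · intro h
      linear_combination 46656 * h
  rw [e1]
  apply and_congr_right
  intro _
  constructor
  · intro h
    by_contra hcon
    rw [not_or, not_not, not_not] at hcon
    obtain ⟨c1, c2⟩ := hcon
    rcases h with h | h
    · apply h
      linear_combination 1296 * c1 - 648 * W.a₁ * c2
    · apply h
      linear_combination 216 * c2
  · intro h
    by_contra hcon
    rw [not_or, not_not, not_not] at hcon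
    obtain ⟨c1, c2⟩ := hcon
    have c2' : 2 * y + W.a₁ * x + W.a₃ = 0 := by
      apply mul_left_cancel₀ h216
      linear_combination c2
    rcases h with h | h
    · apply h
      apply mul_left_cancel₀ h1296
      linear_combination c1 + 648 * W.a₁ * c2'
    · exact h c2'

/-- the bijection between the points of `W` and those of its short model. -/
noncomputable def shortEquiv (h2 : (2 : F) ≠ 0) (h3 : (3 : F) ≠ 0) :
    W.toAffine.Point ≃ (EC W.c₄ W.c₆).toAffine.Point where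
  toFun P := match P with
    | .zero => .zero
    | .some x y h => .some (36 * x + 3 * W.b₂) (108 * (2 * y + W.a₁ * x + W.a₃))
        ((nonsingular_EC_iff W h2 h3 x y).mpr h)
  invFun P := match P with
    | .zero => .zero
    | .some X Y h => .some ((X - 3 * W.b₂) / 36)
        ((Y / 108 - W.a₁ * ((X - 3 * W.b₂) / 36) - W.a₃) / 2)
        ((nonsingular_EC_iff W h2 h3 _ _).mp (by
          have h36 : (36 : F) ≠ 0 := by
            have : (36 : F) = 2 ^ 2 * 3 ^ 2 := by norm_num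
            rw [this]
            exact mul_ne_zero (pow_ne_zero _ h2) (pow_ne_zero _ h3)
          have h108 : (108 : F) ≠ 0 := by
            have : (108 : F) = 2 ^ 2 * 3 ^ 3 := by norm_num
            rw [this]
            exact mul_ne_zero (pow_ne_zero _ h2) (pow_ne_zero _ h3)
          have e1 : 36 * ((X - 3 * W.b₂) / 36) + 3 * W.b₂ = X := by field_simp; ring
          have e2 : 108 * (2 * ((Y / 108 - W.a₁ * ((X - 3 * W.b₂) / 36) - W.a₃) / 2)
              + W.a₁ * ((X - 3 * W.b₂) / 36) + W.a₃) = Y := by field_simp; ring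
          rw [e1, e2]
          exact h))
  left_inv P := by
    have h36 : (36 : F) ≠ 0 := by
      have : (36 : F) = 2 ^ 2 * 3 ^ 2 := by norm_num
      rw [this]
      exact mul_ne_zero (pow_ne_zero _ h2) (pow_ne_zero _ h3)
    have h108 : (108 : F) ≠ 0 := by
      have : (108 : F) = 2 ^ 2 * 3 ^ 3 := by norm_num
      rw [this]
      exact mul_ne_zero (pow_ne_zero _ h2) (pow_ne_zero _ h3)
    match P with
    | .zero => rfl
    | .some x y h =>
      simp only [Point.some.injEq]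
      constructor
      · field_simp; ring
      · field_simp; ring
  right_inv P := by
    have h36 : (36 : F) ≠ 0 := by
      have : (36 : F) = 2 ^ 2 * 3 ^ 2 := by norm_num
      rw [this]
      exact mul_ne_zero (pow_ne_zero _ h2) (pow_ne_zero _ h3)
    have h108 : (108 : F) ≠ 0 := by
      have : (108 : F) = 2 ^ 2 * 3 ^ 3 := by norm_num
      rw [this]
      exact mul_ne_zero (pow_ne_zero _ h2) (pow_ne_zero _ h3)
    match P with
    | .zero => rfl
    | .some X Y h =>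
      simp only [Point.some.injEq]
      constructor
      · field_simp; ring
      · field_simp; ring

theorem card_short (h2 : (2 : F) ≠ 0) (h3 : (3 : F) ≠ 0) :
    Nat.card W.toAffine.Point = Nat.card (EC W.c₄ W.c₆).toAffine.Point :=
  Nat.card_congr (shortEquiv W h2 h3)

end ShortModel

/-- The reduction of `W` mod `ℓ ≥ 5` has as many points as the short model with the same `c₄, c₆`. -/
theorem card_reductionMod (W : WeierstrassCurve ℤ) (ℓ : ℕ) [Fact ℓ.Prime] (hℓ : 5 ≤ ℓ) :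
    Nat.card (W.reductionMod ℓ).toAffine.Point
      = Nat.card (EC ((W.c₄ : ℤ) : ZMod ℓ) ((W.c₆ : ℤ) : ZMod ℓ)).toAffine.Point := by
  have h2 : (2 : ZMod ℓ) ≠ 0 := by
    intro h
    have : ((2 : ℕ) : ZMod ℓ) = 0 := by exact_mod_cast h
    rw [ZMod.natCast_eq_zero_iff] at this
    have := Nat.le_of_dvd (by norm_num) this
    omega
  have h3 : (3 : ZMod ℓ) ≠ 0 := by
    intro h
    have : ((3 : ℕ) : ZMod ℓ) = 0 := by exact_mod_cast h
    rw [ZMod.natCast_eq_zero_iff] at this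
    have := Nat.le_of_dvd (by norm_num) this
    omega
  rw [card_short _ h2 h3, WeierstrassCurve.reductionMod, WeierstrassCurve.map_c₄,
    WeierstrassCurve.map_c₆]
  rfl

theorem psi3EC_eq {R : Type*} [CommRing R] (b2 b4 b6 b8 x : R) (hrel : 4 * b8 = b2 * b6 - b4 ^ 2) :
    psi3EC (b2 ^ 2 - 24 * b4) (-b2 ^ 3 + 36 * b2 * b4 - 216 * b6) (36 * x + 3 * b2)
      = 1679616 * (3 * x ^ 4 + b2 * x ^ 3 + 3 * b4 * x ^ 2 + 3 * b6 * x + b8) := by
  simp only [psi3EC]
  linear_combination (-419904) * hrel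

section Generic

variable {K : Type*} [Field K] [DecidableEq K] [Algebra ℚ K] [IsAlgClosed K] [IsGalois ℚ K]

theorem exists_root_generic (W : WeierstrassCurve ℤ) (hΔ : W.Δ ≠ 0)
    (h : ¬ GaloisRepIsIrreducible (K := K) ℚ (W.map (Int.castRingHom ℚ)) 3) :
    ∃ ξ : ℚ, psi3EC (W.c₄ : ℚ) (W.c₆ : ℚ) ξ = 0 := by
  have : CharZero K := algebraRat.charZero K
  set E : WeierstrassCurve.Affine ℚ := W.map (Int.castRingHom ℚ) with hE
  have hb2 : (E⁄K).b₂ = ((W.b₂ : ℚ) : K) := by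
    rw [hE, Affine.baseChange, WeierstrassCurve.baseChange, WeierstrassCurve.map_b₂,
      WeierstrassCurve.map_b₂, eq_ratCast, eq_intCast]
  have hb4 : (E⁄K).b₄ = ((W.b₄ : ℚ) : K) := by
    rw [hE, Affine.baseChange, WeierstrassCurve.baseChange, WeierstrassCurve.map_b₄,
      WeierstrassCurve.map_b₄, eq_ratCast, eq_intCast]
  have hb6 : (E⁄K).b₆ = ((W.b₆ : ℚ) : K) := by
    rw [hE, Affine.baseChange, WeierstrassCurve.baseChange, WeierstrassCurve.map_b₆,
      WeierstrassCurve.map_b₆, eq_ratCast, eq_intCast]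
  have hb8 : (E⁄K).b₈ = ((W.b₈ : ℚ) : K) := by
    rw [hE, Affine.baseChange, WeierstrassCurve.baseChange, WeierstrassCurve.map_b₈,
      WeierstrassCurve.map_b₈, eq_ratCast, eq_intCast]
  have hΔK : (E⁄K).Δ ≠ 0 := by
    rw [hE, Affine.baseChange, WeierstrassCurve.baseChange, WeierstrassCurve.map_Δ,
      WeierstrassCurve.map_Δ, eq_ratCast, eq_intCast]
    exact_mod_cast hΔ
  obtain ⟨N3, hst3, hN3b, hN3t⟩ : ∃ N : Submodule (ZMod 3)
      (Submodule.torsionBy ℤ (E⁄K).Point (3 : ℕ)), IsGaloisStable ℚ N ∧ N ≠ ⊥ ∧ N ≠ ⊤ := by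
    by_contra hno
    apply h
    refine ⟨?_, ?_⟩
    · obtain ⟨P, hP, hP3⟩ := S51.exists_three_torsion hΔK
      exact ⟨⟨⟨P, (S51.mem_torsionBy_iff' 3 P).mpr hP3⟩, 0, fun h => hP (congrArg Subtype.val h)⟩⟩
    · intro N hN
      by_contra hN'
      rw [not_or] at hN'
      exact hno ⟨N, hN, hN'.1, hN'.2⟩
  obtain ⟨P3, q3, hP3, h3P3, hq3⟩ := S51.stable_three N3 hst3 hN3b hN3t
  have R3 := S51.psi3_of_three_nsmul hP3 h3P3
  rw [hq3] at R3
  simp only [S51.psi3, hb2, hb4, hb6, hb8] at R3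
  have R3' : 3 * q3 ^ 4 + (W.b₂ : ℚ) * q3 ^ 3 + 3 * (W.b₄ : ℚ) * q3 ^ 2 + 3 * (W.b₆ : ℚ) * q3
      + (W.b₈ : ℚ) = 0 := by exact_mod_cast R3
  have hrel : 4 * (W.b₈ : ℚ) = (W.b₂ : ℚ) * (W.b₆ : ℚ) - (W.b₄ : ℚ) ^ 2 := by
    have := W.b_relation
    exact_mod_cast congrArg (fun z : ℤ => (z : ℚ)) this
  refine ⟨36 * q3 + 3 * (W.b₂ : ℚ), ?_⟩
  have hc4 : ((W.c₄ : ℤ) : ℚ) = (W.b₂ : ℚ) ^ 2 - 24 * (W.b₄ : ℚ) := by
    rw [WeierstrassCurve.c₄]; push_cast; ring
  have hc6 : ((W.c₆ : ℤ) : ℚ) = -(W.b₂ : ℚ) ^ 3 + 36 * (W.b₂ : ℚ) * (W.b₄ : ℚ) - 216 * (W.b₆ : ℚ) := by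
    rw [WeierstrassCurve.c₆]; push_cast; ring
  rw [hc4, hc6, psi3EC_eq _ _ _ _ _ hrel, R3', mul_zero]

end Generic

/-- If the mod 3 representation is not irreducible, the 3-division polynomial of the short model has a
rational root. -/
theorem exists_root_of_not_irreducible (W : WeierstrassCurve ℤ) (hΔ : W.Δ ≠ 0)
    (h : ¬ W.ModRepIsIrreducible 3) : ∃ ξ : ℚ, psi3EC (W.c₄ : ℚ) (W.c₆ : ℚ) ξ = 0 := by
  have hgal : @IsGalois ℚ _ (AlgebraicClosure ℚ) _ DivisionRing.toRatAlgebra := by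
    have : (DivisionRing.toRatAlgebra : Algebra ℚ (AlgebraicClosure ℚ)) =
        AlgebraicClosure.instAlgebra ℚ := Subsingleton.elim _ _
    rw [this]
    infer_instance
  exact exists_root_generic (K := AlgebraicClosure ℚ) W hΔ h

end Fermat.Agent.S52
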