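import Mathlib

/-!
# S52, Part B, piece B1: `WeierstrassCurve.addSubMap` does what it should

`addSubMap W` maps `(x(P)x(Q) : x(P)+x(Q) : 1)` to `(x(P+Q)x(P-Q) : x(P+Q)+x(P-Q) : 1)`
(`addSubMap_sym2x`, all cases, any elliptic curve over a field).
-/

set_option autoImplicit false

namespace Fermat.Agent.S52

open WeierstrassCurve WeierstrassCurve.Affine MvPolynomial

variable {F : Type*} [Field F] [DecidableEq F]

theorem eval_addSubMap {R : Type*} [CommRing R] (W : WeierstrassCurve R) (v : Fin 3 → R) :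
    (fun i => (addSubMap W i).eval v) =
      ![v 0 ^ 2 - W.b₄ * v 0 * v 2 - W.b₆ * v 1 * v 2 - W.b₈ * v 2 ^ 2,
        2 * v 1 * v 0 + W.b₂ * v 0 * v 2 + W.b₄ * v 1 * v 2 + W.b₆ * v 2 ^ 2,
        v 1 ^ 2 - 4 * v 0 * v 2] := by
  funext i
  fin_cases i <;> simp [addSubMap]

theorem addSub_generic (W : Affine F) {x₁ y₁ x₂ y₂ : F} (h₁ : W.Equation x₁ y₁)
    (h₂ : W.Equation x₂ y₂) (hx : x₁ ≠ x₂) :
    (x₁ - x₂) ^ 2 * (W.addX x₁ x₂ (W.slope x₁ x₂ y₁ y₂) *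
        W.addX x₁ x₂ (W.slope x₁ x₂ y₁ (W.negY x₂ y₂))) =
      (x₁ * x₂) ^ 2 - W.b₄ * (x₁ * x₂) - W.b₆ * (x₁ + x₂) - W.b₈ ∧
    (x₁ - x₂) ^ 2 * (W.addX x₁ x₂ (W.slope x₁ x₂ y₁ y₂) +
        W.addX x₁ x₂ (W.slope x₁ x₂ y₁ (W.negY x₂ y₂))) =
      2 * (x₁ + x₂) * (x₁ * x₂) + W.b₂ * (x₁ * x₂) + W.b₄ * (x₁ + x₂) + W.b₆ := by
  have hd : x₁ - x₂ ≠ 0 := sub_ne_zero.mpr hx
  have hd2 : (x₁ - x₂) ^ 2 ≠ 0 := pow_ne_zero 2 hd
  rw [slope_of_X_ne hx, slope_of_X_ne hx]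
  rw [equation_iff] at h₁ h₂
  have e3 : (x₁ - x₂) ^ 2 * W.addX x₁ x₂ ((y₁ - y₂) / (x₁ - x₂)) =
      (y₁ - y₂) ^ 2 + W.a₁ * (x₁ - x₂) * (y₁ - y₂) - (x₁ - x₂) ^ 2 * (W.a₂ + x₁ + x₂) := by
    simp only [addX]
    field_simp
    ring
  have e4 : (x₁ - x₂) ^ 2 * W.addX x₁ x₂ ((y₁ - W.negY x₂ y₂) / (x₁ - x₂)) =
      (y₁ + y₂ + W.a₁ * x₂ + W.a₃) ^ 2 + W.a₁ * (x₁ - x₂) * (y₁ + y₂ + W.a₁ * x₂ + W.a₃) -
        (x₁ - x₂) ^ 2 * (W.a₂ + x₁ + x₂) := by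
    simp only [addX, negY]
    field_simp
    ring
  constructor
  · apply mul_left_cancel₀ hd2
    rw [show (x₁ - x₂) ^ 2 * ((x₁ - x₂) ^ 2 * (W.addX x₁ x₂ ((y₁ - y₂) / (x₁ - x₂)) *
        W.addX x₁ x₂ ((y₁ - W.negY x₂ y₂) / (x₁ - x₂)))) =
        ((x₁ - x₂) ^ 2 * W.addX x₁ x₂ ((y₁ - y₂) / (x₁ - x₂))) *
        ((x₁ - x₂) ^ 2 * W.addX x₁ x₂ ((y₁ - W.negY x₂ y₂) / (x₁ - x₂))) by ring, e3, e4]
    simp only [b₄, b₆, b₈]
    linear_combination (W.a₁^2*x₁*x₂ - W.a₁^2*x₂^2 + W.a₁*W.a₃*x₁ - W.a₁*W.a₃*x₂ + W.a₁*x₁*y₁ - 2*W.a₁*x₂*y₂ - W.a₂*x₁^2 + 4*W.a₂*x₁*x₂ - 2*W.a₂*x₂^2 + W.a₃*y₁ - 2*W.a₃*y₂ + W.a₄*x₁ + W.a₆ - x₁^3 + 2*x₁^2*x₂ + 2*x₁*x₂^2 + y₁^2 - 2*x₂^3 - 2*y₂^2) * h₁ + (-W.a₁^2*x₁^2 + W.a₁^2*x₁*x₂ - W.a₁*W.a₃*x₁ + W.a₁*W.a₃*x₂ + W.a₁*x₂*y₂ - 4*W.a₂*x₁^2 + 4*W.a₂*x₁*x₂ - W.a₂*x₂^2 + W.a₃*y₂ - 2*W.a₄*x₁ + W.a₄*x₂ - W.a₆ - 4*x₁^3 + 2*x₁^2*x₂ + 2*x₁*x₂^2 - x₂^3 + y₂^2) * h₂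
  · rw [mul_add, e3, e4]
    simp only [b₂, b₄, b₆]
    linear_combination 2 * h₁ + 2 * h₂

theorem addSub_psi_sq (W : Affine F) {x y : F} (h : W.Equation x y) :
    (y - W.negY x y) ^ 2 = 4 * x ^ 3 + W.b₂ * x ^ 2 + 2 * W.b₄ * x + W.b₆ := by
  rw [equation_iff] at h
  simp only [negY, b₂, b₄, b₆]
  linear_combination 4 * h

theorem addSub_double (W : Affine F) {x y : F} (h : W.Equation x y) (hy : y ≠ W.negY x y) :
    (y - W.negY x y) ^ 2 * W.addX x x (W.slope x x y y) =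
      x ^ 4 - W.b₄ * x ^ 2 - 2 * W.b₆ * x - W.b₈ := by
  have hd : y - W.negY x y ≠ 0 := sub_ne_zero.mpr hy
  rw [slope_of_Y_ne rfl hy]
  have e : (y - W.negY x y) ^ 2 * W.addX x x ((3 * x ^ 2 + 2 * W.a₂ * x + W.a₄ - W.a₁ * y) /
      (y - W.negY x y)) = (3 * x ^ 2 + 2 * W.a₂ * x + W.a₄ - W.a₁ * y) ^ 2 +
      W.a₁ * (3 * x ^ 2 + 2 * W.a₂ * x + W.a₄ - W.a₁ * y) * (y - W.negY x y) -
      (y - W.negY x y) ^ 2 * (W.a₂ + 2 * x) := by
    simp only [addX]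
    field_simp
    ring
  rw [e]
  rw [equation_iff] at h
  simp only [negY, b₄, b₆, b₈]
  linear_combination (-W.a₁^2 - 4*W.a₂ - 8*x) * h

/-- `addSubMap` does what it should: it maps `(x(P)x(Q) : x(P)+x(Q) : 1)` to
`(x(P+Q)x(P-Q) : x(P+Q)+x(P-Q) : 1)`. -/
theorem addSubMap_sym2x (W : Affine F) [W.IsElliptic] (P Q : W.Point) :
    ∃ c : F, c ≠ 0 ∧
      (fun i => (addSubMap W i).eval (P.sym2x Q)) = c • (P + Q).sym2x (P - Q) := by
  -- the case `Q = P`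
  have hPP : ∀ P : W.Point, ∃ c : F, c ≠ 0 ∧
      (fun i => (addSubMap W i).eval (P.sym2x P)) = c • (P + P).sym2x 0 := by
    intro P
    rcases P with _ | ⟨x, y, h⟩
    · refine ⟨1, one_ne_zero, ?_⟩
      rw [eval_addSubMap, ← Point.zero_def, add_zero, Point.sym2x_zero_zero]
      simp
    · rw [eval_addSubMap, Point.sym2x_some_some]
      by_cases hy : y = W.negY x y
      · rw [Point.add_self_of_Y_eq hy, Point.sym2x_zero_zero]
        have h2 := addSub_psi_sq W h.1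
        rw [sub_eq_zero.mpr hy] at h2
        have hne := addSubMap_ne_zero W (x := ![x * x, x + x, 1]) (by
          intro h0
          have := congrFun h0 2
          simp at this)
        rw [eval_addSubMap] at hne
        refine ⟨x ^ 4 - W.b₄ * x ^ 2 - 2 * W.b₆ * x - W.b₈, ?_, ?_⟩
        · intro h0
          apply hne
          simp only [Matrix.cons_val_zero, Matrix.cons_val_one, Matrix.cons_val]
          funext i
          fin_cases i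
          · simp; linear_combination h0
          · simp; linear_combination -h2
          · simp; ring
        · simp only [Matrix.cons_val_zero, Matrix.cons_val_one, Matrix.cons_val]
          funext i
          fin_cases i
          · simp; ring
          · simp; linear_combination -h2
          · simp; ring
      · rw [Point.add_self_of_Y_ne hy, Point.sym2x_some_zero]
        refine ⟨(y - W.negY x y) ^ 2, pow_ne_zero 2 (sub_ne_zero.mpr hy), ?_⟩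
        have h2 := addSub_psi_sq W h.1
        have h3 := addSub_double W h.1 hy
        generalize W.addX x x (W.slope x x y y) = X3 at h3 ⊢
        generalize (y - W.negY x y) ^ 2 = c at h2 h3 ⊢
        simp only [Matrix.cons_val_zero, Matrix.cons_val_one, Matrix.cons_val]
        funext i
        fin_cases i
        · simp; linear_combination -h3
        · simp; linear_combination -h2
        · simp; ring
  rcases P with _ | ⟨x₁, y₁, h₁⟩
  · rw [← Point.zero_def, zero_add, zero_sub, Point.sym2x_neg_right]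
    refine ⟨1, one_ne_zero, ?_⟩
    rcases Q with _ | ⟨x₂, y₂, h₂⟩
    · rw [eval_addSubMap, ← Point.zero_def, Point.sym2x_zero_zero]
      simp
    · rw [eval_addSubMap, Point.sym2x_zero_some, Point.sym2x_some_some]
      funext i
      fin_cases i <;> simp <;> ring
  rcases Q with _ | ⟨x₂, y₂, h₂⟩
  · rw [← Point.zero_def, add_zero, sub_zero]
    refine ⟨1, one_ne_zero, ?_⟩
    rw [eval_addSubMap, Point.sym2x_some_zero, Point.sym2x_some_some]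
    funext i
    fin_cases i <;> simp <;> ring
  by_cases hx : x₁ = x₂
  · rcases Point.X_eq_iff.mp hx with h | h
    · rw [← h, sub_self]
      exact hPP _
    · rw [h, Point.sym2x_neg_left, neg_add_cancel, ← neg_add', Point.sym2x_neg_right,
        Point.sym2x_comm 0]
      exact hPP _
  · refine ⟨(x₁ - x₂) ^ 2, pow_ne_zero 2 (sub_ne_zero.mpr hx), ?_⟩
    obtain ⟨e1, e2⟩ := addSub_generic W h₁.1 h₂.1 hx
    rw [show Point.some x₁ y₁ h₁ - Point.some x₂ y₂ h₂ =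
        Point.some x₁ y₁ h₁ + -Point.some x₂ y₂ h₂ from sub_eq_add_neg _ _,
      Point.neg_some, Point.add_of_X_ne hx, Point.add_of_X_ne hx,
      eval_addSubMap, Point.sym2x_some_some, Point.sym2x_some_some]
    generalize W.addX x₁ x₂ (W.slope x₁ x₂ y₁ y₂) = X3 at e1 e2 ⊢
    generalize W.addX x₁ x₂ (W.slope x₁ x₂ y₁ (W.negY x₂ y₂)) = X4 at e1 e2 ⊢
    simp only [Matrix.cons_val_zero, Matrix.cons_val_one, Matrix.cons_val]
    funext i
    fin_cases i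
    · simp; linear_combination -e1
    · simp; linear_combination -e2
    · simp; ring

end Fermat.Agent.S52
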