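import Fermat.Agent.S52.PrimTriple

/-!
# S52, Part B, piece BC: the degree of a composition of rational functions (Mathlib + PrimTriple)

`homEval N A C D = ∑_{i ≤ N} a_i C^i D^(N-i)` (homogenisation of `A` in degree `N`, evaluated at `(C,D)`).

Paper proof.  KEY LEMMA (`homVal_not_both_zero`): let `κ` be a field extension of `k`, `(c,d) ≠ (0,0)` in `κ²`,
`A, B` coprime in `k[X]`, `N = H2 A B`.  Then `∑ a_i c^i d^(N-i)` and `∑ b_i c^i d^(N-i)` are not both `0`:
if `d ≠ 0` they are `d^N A(c/d)`, `d^N B(c/d)` and `u A + v B = 1` evaluated at `c/d` gives a contradiction;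
if `d = 0` they are `a_N c^N`, `b_N c^N` and `(a_N, b_N) ≠ 0` (`lead_H2_ne_zero`).
* coprimality: otherwise both lie in a maximal ideal `M`; apply the key lemma in `κ = k[X]/M` to the
  images of `C, D` (not both `0` as `C, D` are coprime).
* height: with `m = H2 C D`, `(c,d)` = coefficients of degree `m` of `(C,D)` (`lead_H2_ne_zero`), the `IsLead`
  calculus gives `IsLead (N m) (homEval N A C D) (∑ a_i c^i d^(N-i))`; apply the key lemma with `κ = k`.
-/

set_option autoImplicit false

namespace Fermat.Agent.S52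

open Polynomial

variable {k : Type*} [Field k]

/-- `∑_{i ≤ N} a_i C^i D^(N-i)`. -/
noncomputable def homEval {R : Type*} [CommRing R] [Algebra k R] (N : ℕ) (A : k[X]) (c d : R) : R :=
  ∑ i ∈ Finset.range (N + 1), algebraMap k R (A.coeff i) * c ^ i * d ^ (N - i)

theorem homEval_eq {κ : Type*} [Field κ] [Algebra k κ] {N : ℕ} {A : k[X]} (hN : A.natDegree ≤ N)
    (c : κ) {d : κ} (hd : d ≠ 0) : homEval N A c d = d ^ N * aeval (c / d) A := by
  rw [aeval_eq_sum_range' (Nat.lt_succ_of_le hN), homEval, Finset.mul_sum]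
  refine Finset.sum_congr rfl fun i hi => ?_
  have hi' : i ≤ N := Nat.lt_succ_iff.mp (Finset.mem_range.mp hi)
  obtain ⟨j, rfl⟩ := Nat.exists_eq_add_of_le hi'
  rw [Nat.add_sub_cancel_left, Algebra.smul_def, div_pow, pow_add]
  field_simp

theorem homEval_zero_right {R : Type*} [CommRing R] [Algebra k R] (N : ℕ) (A : k[X]) (c : R) :
    homEval N A c 0 = algebraMap k R (A.coeff N) * c ^ N := by
  rw [homEval, Finset.sum_range_succ, Finset.sum_eq_zero, zero_add, Nat.sub_self, pow_zero, mul_one]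
  intro i hi
  have hi' : i < N := Finset.mem_range.mp hi
  rw [zero_pow (by omega), mul_zero]

theorem map_homEval {R S : Type*} [CommRing R] [Algebra k R] [CommRing S] [Algebra k S]
    (φ : R →ₐ[k] S) (N : ℕ) (A : k[X]) (c d : R) :
    φ (homEval N A c d) = homEval N A (φ c) (φ d) := by
  rw [homEval, homEval, map_sum]
  refine Finset.sum_congr rfl fun i _ => ?_
  rw [map_mul, map_mul, map_pow, map_pow, AlgHom.commutes]

theorem homVal_not_both_zero {κ : Type*} [Field κ] [Algebra k κ] {A B : k[X]} (hAB : IsCoprime A B)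
    {c d : κ} (hcd : ¬ (c = 0 ∧ d = 0)) :
    ¬ (homEval (H2 A B) A c d = 0 ∧ homEval (H2 A B) B c d = 0) := by
  rintro ⟨hA, hB⟩
  by_cases hd : d = 0
  · have hc : c ≠ 0 := fun hc => hcd ⟨hc, hd⟩
    rw [hd, homEval_zero_right] at hA hB
    have hA' := (mul_eq_zero.mp hA).resolve_right (pow_ne_zero _ hc)
    have hB' := (mul_eq_zero.mp hB).resolve_right (pow_ne_zero _ hc)
    rw [map_eq_zero] at hA' hB'
    exact lead_H2_ne_zero (not_both_zero_of_isCoprime hAB) ⟨hA', hB'⟩
  · rw [homEval_eq (show A.natDegree ≤ H2 A B from le_max_left _ _) c hd] at hA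
    rw [homEval_eq (show B.natDegree ≤ H2 A B from le_max_right _ _) c hd] at hB
    have hA' := (mul_eq_zero.mp hA).resolve_left (pow_ne_zero _ hd)
    have hB' := (mul_eq_zero.mp hB).resolve_left (pow_ne_zero _ hd)
    obtain ⟨u, v, huv⟩ := hAB
    have h1 := congrArg (aeval (c / d)) huv
    rw [map_add, map_mul, map_mul, hA', hB', mul_zero, mul_zero, add_zero, map_one] at h1
    exact zero_ne_one h1

theorem isCoprime_homEval {A B C D : k[X]} (hAB : IsCoprime A B) (hCD : IsCoprime C D) :
    IsCoprime (homEval (H2 A B) A C D) (homEval (H2 A B) B C D) := by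
  rw [← Ideal.isCoprime_span_singleton_iff, Ideal.isCoprime_iff_sup_eq]
  by_contra hne
  obtain ⟨M, hM, hle⟩ := Ideal.exists_le_maximal _ hne
  let _ := Ideal.Quotient.field M
  have hx : homEval (H2 A B) A C D ∈ M :=
    hle (Ideal.mem_sup_left (Ideal.mem_span_singleton_self _))
  have hy : homEval (H2 A B) B C D ∈ M :=
    hle (Ideal.mem_sup_right (Ideal.mem_span_singleton_self _))
  have hx' : Ideal.Quotient.mkₐ k M (homEval (H2 A B) A C D) = 0 :=
    Ideal.Quotient.eq_zero_iff_mem.mpr hx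
  have hy' : Ideal.Quotient.mkₐ k M (homEval (H2 A B) B C D) = 0 :=
    Ideal.Quotient.eq_zero_iff_mem.mpr hy
  rw [map_homEval] at hx' hy'
  refine homVal_not_both_zero hAB ?_ ⟨hx', hy'⟩
  rintro ⟨hC, hD⟩
  exact not_mem_of_isCoprime hCD hM.ne_top (Ideal.Quotient.eq_zero_iff_mem.mp hC)
    (Ideal.Quotient.eq_zero_iff_mem.mp hD)

theorem IsLead.zero' {R : Type*} [CommRing R] (n : ℕ) : IsLead n (0 : R[X]) 0 := ⟨by simp, by simp⟩

theorem IsLead.sum' {R : Type*} [CommRing R] {ι : Type*} (s : Finset ι) {n : ℕ} {p : ι → R[X]}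
    {a : ι → R} (h : ∀ i ∈ s, IsLead n (p i) (a i)) :
    IsLead n (∑ i ∈ s, p i) (∑ i ∈ s, a i) := by
  classical
  induction s using Finset.induction_on with
  | empty => simpa using IsLead.zero' n
  | insert i s hi ih =>
    rw [Finset.sum_insert hi, Finset.sum_insert hi]
    exact (h i (Finset.mem_insert_self i s)).add
      (ih fun j hj => h j (Finset.mem_insert_of_mem hj))

theorem isLead_homEval (N : ℕ) (A : k[X]) {m : ℕ} {C D : k[X]} {c d : k} (hC : IsLead m C c)
    (hD : IsLead m D d) : IsLead (N * m) (homEval N A C D) (homEval N A c d) := by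
  rw [homEval, homEval]
  refine IsLead.sum' _ fun i hi => ?_
  have hi' : i ≤ N := Nat.lt_succ_iff.mp (Finset.mem_range.mp hi)
  refine (((hC.pow i).C_mul (A.coeff i)).mul (hD.pow (N - i))).congr ?_ ?_ ?_
  · rw [← Nat.add_mul, Nat.add_sub_cancel' hi']
  · rfl
  · rfl

theorem H2_homEval {A B C D : k[X]} (hAB : IsCoprime A B) (hCD : IsCoprime C D) :
    H2 (homEval (H2 A B) A C D) (homEval (H2 A B) B C D) = H2 A B * H2 C D := by
  have lC : IsLead (H2 C D) C _ := IsLead.mk' (le_max_left _ _)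
  have lD : IsLead (H2 C D) D _ := IsLead.mk' (le_max_right _ _)
  have n₁ := lead_H2_ne_zero (not_both_zero_of_isCoprime hCD)
  have lA := isLead_homEval (H2 A B) A lC lD
  have lB := isLead_homEval (H2 A B) B lC lD
  have hne := homVal_not_both_zero hAB n₁
  apply le_antisymm
  · exact max_le lA.1 lB.1
  · by_cases h0 : homEval (H2 A B) A (C.coeff (H2 C D)) (D.coeff (H2 C D)) = 0
    · have h1 : homEval (H2 A B) B (C.coeff (H2 C D)) (D.coeff (H2 C D)) ≠ 0 :=
        fun h1 => hne ⟨h0, h1⟩
      rw [← lB.natDegree_eq h1]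
      exact le_max_right _ _
    · rw [← lA.natDegree_eq h0]
      exact le_max_left _ _

/-- `homEval` commutes with `aeval τ`. -/
theorem aeval_homEval {K : Type*} [Field K] [Algebra k K] (τ : K) (N : ℕ) (A C D : k[X]) :
    aeval τ (homEval N A C D) = homEval N A (aeval τ C) (aeval τ D) :=
  map_homEval (aeval τ) N A C D

end Fermat.Agent.S52
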