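import Fermat.Agent.S52.BGeneric

/-!
# S52, Part B, piece BZ: from generic points to all points

Paper proof.  `T := 2 (π² - a π + ℓ)` is an additive endomorphism of `E(K)` (`Fr` is an `AddMonoidHom`).
* `Q = 0`: trivial.  * `Q = (x, y)`, `x` transcendental over `ZMod ℓ`: `frob_charpoly_generic` with `τ := x`.
* `Q = (x, y)`, `x` algebraic.  Pick `y₀` with `y₀^2 = f(τ)` (`IsAlgClosed.exists_pow_nat_eq`), `G = (τ, y₀)`
  (nonsingular since the curve is elliptic: `Δ = 2^6 3^9 (c4^3 - c6^2) ≠ 0`, `ℓ ≥ 5`).  `Q + G ≠ 0` and its `x`-coordinate is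
  transcendental: let `L = algebraicClosure (ZMod ℓ) K` (an `IntermediateField`); the range of
  `Point.map (W' := EC c4 c6) L.val : E(L) →+ E(K)` is a subgroup which contains every point `(x, y)` with `x` algebraic
  (then `y` is algebraic too: root of `Y^2 - f(x)`), and all its nonzero points have algebraic `x`.  If `Q + G` were in it, so
  would be `G = (Q + G) - Q`, contradiction with `τ` transcendental.  Then `T Q = T (Q + G) - T G = 0`.
-/

set_option autoImplicit false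

namespace Fermat.Agent.S52

open WeierstrassCurve WeierstrassCurve.Affine

/-- same statement as `frob_charpoly` in `ThmB.lean`. -/
theorem frob_charpoly' (ℓ : ℕ) [Fact ℓ.Prime] (hℓ : 5 ≤ ℓ) (c4 c6 : ZMod ℓ) (hΔ : c4 ^ 3 - c6 ^ 2 ≠ 0)
    (K : Type*) [Field K] [DecidableEq K] [Algebra (ZMod ℓ) K] [IsAlgClosed K]
    (τ : K) (hτ : Transcendental (ZMod ℓ) τ) (Q : ((EC c4 c6)⁄K).Point) :
    (2 : ℤ) • (Fr ℓ K (EC c4 c6) (Fr ℓ K (EC c4 c6) Q)
      - ((ℓ : ℤ) + 1 - (Nat.card (EC c4 c6).toAffine.Point : ℤ)) • Fr ℓ K (EC c4 c6) Q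
      + (ℓ : ℤ) • Q) = 0 := by
  classical
  have hell : (EC c4 c6).IsElliptic := isElliptic_EC hℓ hΔ
  have hellK : ((EC c4 c6)⁄K).IsElliptic :=
    inferInstanceAs ((EC c4 c6).map (algebraMap (ZMod ℓ) K)).IsElliptic
  set a : ℤ := (ℓ : ℤ) + 1 - (Nat.card (EC c4 c6).toAffine.Point : ℤ) with ha
  set π := Fr ℓ K (EC c4 c6) with hπ
  let T : ((EC c4 c6)⁄K).Point →+ ((EC c4 c6)⁄K).Point :=
    (2 : ℤ) • (π.comp π - a • π + (ℓ : ℤ) • AddMonoidHom.id _)
  have hT : ∀ P, T P = (2 : ℤ) • (π (π P) - a • π P + (ℓ : ℤ) • P) := fun P => rfl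
  rw [← hT]
  have hgen : ∀ (x y : K) (h : ((EC c4 c6)⁄K).Nonsingular x y), Transcendental (ZMod ℓ) x →
      T (Point.some x y h) = 0 := by
    intro x y h hx
    rw [hT]
    exact frob_charpoly_generic ℓ hℓ c4 c6 hΔ K x y hx h
  let L := algebraicClosure (ZMod ℓ) K
  let H : AddSubgroup ((EC c4 c6)⁄K).Point := (Point.map (W' := EC c4 c6) L.val).range
  have hH1 : ∀ (x y : K) (h : ((EC c4 c6)⁄K).Nonsingular x y), IsAlgebraic (ZMod ℓ) x →
      Point.some x y h ∈ H := by
    intro x y h hx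
    have hxL : x ∈ L := mem_algebraicClosure_iff.mpr hx
    have hy : y ^ 2 = Polynomial.aeval x (fP c4 c6) := (equation_EC_iff c4 c6 x y).mp h.1
    have hyL : y ∈ L := by
      rw [mem_algebraicClosure_iff]
      refine IsAlgebraic.of_pow (n := 2) (by norm_num) ?_
      rw [hy, ← mem_algebraicClosure_iff]
      have e := Polynomial.aeval_algHom_apply L.val (⟨x, hxL⟩ : L) (fP c4 c6)
      change Polynomial.aeval x (fP c4 c6) = _ at e
      rw [e]
      exact (Polynomial.aeval (⟨x, hxL⟩ : L) (fP c4 c6)).2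
    have hns : ((EC c4 c6)⁄L).Nonsingular (⟨x, hxL⟩ : L) (⟨y, hyL⟩ : L) :=
      (Affine.baseChange_nonsingular (EC c4 c6) L.val.injective (⟨x, hxL⟩ : L) (⟨y, hyL⟩ : L)).mp h
    exact ⟨Point.some _ _ hns, rfl⟩
  have hH2 : ∀ (x y : K) (h : ((EC c4 c6)⁄K).Nonsingular x y), Point.some x y h ∈ H →
      IsAlgebraic (ZMod ℓ) x := by
    rintro x y h ⟨P, hP⟩
    rcases P with _ | ⟨x', y', h'⟩
    · exact absurd hP (by intro h0; cases h0)
    · rw [Point.map_some] at hP
      have hx : L.val x' = x := (Point.some.inj hP).1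
      rw [← hx]
      exact mem_algebraicClosure_iff.mp x'.2
  rcases Q with _ | ⟨x, y, h⟩
  · exact map_zero T
  by_cases hx : Transcendental (ZMod ℓ) x
  · exact hgen x y h hx
  have hx' : IsAlgebraic (ZMod ℓ) x := by
    rwa [Transcendental, not_not] at hx
  obtain ⟨y₀, hy₀⟩ := IsAlgClosed.exists_pow_nat_eq (Polynomial.aeval τ (fP c4 c6))
    (n := 2) (by norm_num)
  have hG : ((EC c4 c6)⁄K).Nonsingular τ y₀ :=
    Affine.equation_iff_nonsingular.mp ((equation_EC_iff c4 c6 τ y₀).mpr hy₀)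
  have hGH : Point.some τ y₀ hG ∉ H := fun hmem => hτ (hH2 _ _ _ hmem)
  have hQH : Point.some x y h ∈ H := hH1 _ _ _ hx'
  have hsum : Point.some x y h + Point.some τ y₀ hG ∉ H := by
    intro hmem
    apply hGH
    have := H.sub_mem hmem hQH
    rwa [add_sub_cancel_left] at this
  have hTsum : T (Point.some x y h + Point.some τ y₀ hG) = 0 := by
    generalize Point.some x y h + Point.some τ y₀ hG = R at hsum
    rcases R with _ | ⟨x', y', h'⟩
    · exact map_zero T
    · refine hgen x' y' h' fun halg => hsum (hH1 _ _ _ halg)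
  rw [map_add, hgen τ y₀ hG hτ, add_zero] at hTsum
  exact hTsum

end Fermat.Agent.S52
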