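import Fermat.Agent.S52.AddSub

/-!
# S52, Part B, piece B2: primitive polynomial triples and their heights

* `IsLead n p a`: `natDegree p ≤ n` and `coeff p n = a` (calculus of "leading" coefficients).
* `Prim3 v`: the three entries generate the unit ideal.
* `sym2 A₁ B₁ A₂ B₂ = (A₁A₂, A₁B₂+B₁A₂, B₁B₂)` is primitive of height `H2 A₁ B₁ + H2 A₂ B₂`.
* `addSubMap` maps primitive triples of height `n` to primitive triples of height `2n`.
* primitive triples which become proportional in a field have the same height.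
-/

set_option autoImplicit false

namespace Fermat.Agent.S52

open Polynomial WeierstrassCurve

/-! ### leading coefficient calculus -/

section lead

variable {R : Type*} [CommRing R]

/-- `p` has degree `≤ n` and its coefficient of degree `n` is `a`. -/
def IsLead (n : ℕ) (p : R[X]) (a : R) : Prop := p.natDegree ≤ n ∧ p.coeff n = a

theorem IsLead.mk' {n : ℕ} {p : R[X]} (h : p.natDegree ≤ n) : IsLead n p (p.coeff n) := ⟨h, rfl⟩

theorem IsLead.mul {n m : ℕ} {p q : R[X]} {a b : R} (hp : IsLead n p a) (hq : IsLead m q b) :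
    IsLead (n + m) (p * q) (a * b) :=
  ⟨natDegree_mul_le_of_le hp.1 hq.1, by rw [coeff_mul_add_eq_of_natDegree_le hp.1 hq.1, hp.2, hq.2]⟩

theorem IsLead.add {n : ℕ} {p q : R[X]} {a b : R} (hp : IsLead n p a) (hq : IsLead n q b) :
    IsLead n (p + q) (a + b) :=
  ⟨natDegree_add_le_of_degree_le hp.1 hq.1, by rw [coeff_add, hp.2, hq.2]⟩

theorem IsLead.sub {n : ℕ} {p q : R[X]} {a b : R} (hp : IsLead n p a) (hq : IsLead n q b) :
    IsLead n (p - q) (a - b) :=
  ⟨(natDegree_sub_le_of_le hp.1 hq.1).trans (by simp), by rw [coeff_sub, hp.2, hq.2]⟩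

theorem IsLead.C_mul {n : ℕ} {p : R[X]} {a : R} (c : R) (hp : IsLead n p a) :
    IsLead n (C c * p) (c * a) :=
  ⟨(natDegree_C_mul_le _ _).trans hp.1, by rw [coeff_C_mul, hp.2]⟩

theorem IsLead.one : IsLead 0 (1 : R[X]) 1 := ⟨by simp, by simp⟩

theorem IsLead.pow {n : ℕ} {p : R[X]} {a : R} (hp : IsLead n p a) (m : ℕ) :
    IsLead (m * n) (p ^ m) (a ^ m) := by
  induction m with
  | zero => simpa using (IsLead.one : IsLead 0 (1 : R[X]) 1)
  | succ m ih =>
    rw [pow_succ, pow_succ, Nat.succ_mul]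
    exact ih.mul hp

theorem IsLead.congr {n m : ℕ} {p q : R[X]} {a b : R} (hp : IsLead n p a) (hn : n = m)
    (hq : p = q) (ha : a = b) : IsLead m q b := hn ▸ hq ▸ ha ▸ hp

theorem IsLead.natDegree_eq {n : ℕ} {p : R[X]} {a : R} (hp : IsLead n p a) (ha : a ≠ 0) :
    p.natDegree = n :=
  le_antisymm hp.1 (le_natDegree_of_ne_zero (by rw [hp.2]; exact ha))

end lead

/-! ### primitive triples -/

section prim

variable {R : Type*} [CommRing R]

/-- the entries of `v` generate the unit ideal. -/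
def Prim3 (v : Fin 3 → R) : Prop := Ideal.span (Set.range v) = ⊤

theorem prim3_of_forall_maximal {v : Fin 3 → R}
    (h : ∀ M : Ideal R, M.IsMaximal → ¬ ∀ i, v i ∈ M) : Prim3 v := by
  by_contra hne
  obtain ⟨M, hM, hle⟩ := Ideal.exists_le_maximal _ hne
  exact h M hM fun i => hle (Ideal.subset_span ⟨i, rfl⟩)

theorem Prim3.not_forall_mem {v : Fin 3 → R} (hv : Prim3 v) {M : Ideal R} (hM : M ≠ ⊤) :
    ¬ ∀ i, v i ∈ M := by
  intro h
  apply hM
  rw [eq_top_iff, ← hv, Ideal.span_le]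
  rintro _ ⟨i, rfl⟩
  exact h i

theorem Prim3.exists_sum {v : Fin 3 → R} (hv : Prim3 v) : ∃ r : Fin 3 → R, ∑ i, r i * v i = 1 := by
  have h1 : (1 : R) ∈ Ideal.span (Set.range v) := by rw [hv]; trivial
  obtain ⟨r, hr⟩ := (Ideal.mem_span_range_iff_exists_fun).mp h1
  exact ⟨r, hr⟩

/-- `(A₁ : B₁), (A₂ : B₂) ↦ (A₁A₂ : A₁B₂ + B₁A₂ : B₁B₂)`. -/
def sym2 (A₁ B₁ A₂ B₂ : R) : Fin 3 → R := ![A₁ * A₂, A₁ * B₂ + B₁ * A₂, B₁ * B₂]

theorem not_mem_of_isCoprime {A B : R} (h : IsCoprime A B) {M : Ideal R} (hM : M ≠ ⊤)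
    (hA : A ∈ M) : B ∉ M := by
  intro hB
  obtain ⟨a, b, hab⟩ := h
  apply hM
  rw [Ideal.eq_top_iff_one, ← hab]
  exact M.add_mem (M.mul_mem_left _ hA) (M.mul_mem_left _ hB)

theorem prim3_sym2 {A₁ B₁ A₂ B₂ : R} (h₁ : IsCoprime A₁ B₁) (h₂ : IsCoprime A₂ B₂) :
    Prim3 (sym2 A₁ B₁ A₂ B₂) := by
  refine prim3_of_forall_maximal fun M hM h => ?_
  have hMt := hM.ne_top
  have hp := hM.isPrime
  have h0 : A₁ * A₂ ∈ M := h 0
  have h1 : A₁ * B₂ + B₁ * A₂ ∈ M := h 1
  have h2 : B₁ * B₂ ∈ M := h 2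
  rcases hp.mem_or_mem h0 with hA | hA
  · have hB₁ := not_mem_of_isCoprime h₁ hMt hA
    have hB₂ : B₂ ∈ M := (hp.mem_or_mem h2).resolve_left hB₁
    have hA₂ := not_mem_of_isCoprime h₂.symm hMt hB₂
    have h3 : B₁ * A₂ ∈ M := (Ideal.add_mem_iff_right M (M.mul_mem_right _ hA)).mp h1
    rcases hp.mem_or_mem h3 with h | h
    · exact hB₁ h
    · exact hA₂ h
  · have hB₂ := not_mem_of_isCoprime h₂ hMt hA
    have hB₁ : B₁ ∈ M := (hp.mem_or_mem h2).resolve_right hB₂
    have hA₁ := not_mem_of_isCoprime h₁.symm hMt hB₁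
    have h3 : A₁ * B₂ ∈ M := (Ideal.add_mem_iff_left M (M.mul_mem_right _ hB₁)).mp h1
    rcases hp.mem_or_mem h3 with h | h
    · exact hA₁ h
    · exact hB₂ h

theorem prim3_addSubMap (W : WeierstrassCurve R) [W.IsElliptic] {v : Fin 3 → R} (hv : Prim3 v) :
    Prim3 (fun i => (addSubMap W i).eval v) := by
  refine prim3_of_forall_maximal fun M hM h => ?_
  refine hv.not_forall_mem hM.ne_top fun i => ?_
  have := addSubMapCoeff_condition W v i
  refine hM.isPrime.mem_of_pow_mem 4 ?_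
  rw [← this]
  exact M.sum_mem fun j _ => M.mul_mem_left _ (h j)

end prim

/-! ### heights -/

section height

variable {k : Type*} [Field k]

/-- the height of a pair of polynomials. -/
def H2 (A B : k[X]) : ℕ := max A.natDegree B.natDegree

/-- the height of a triple of polynomials. -/
def H3 (v : Fin 3 → k[X]) : ℕ := max (v 0).natDegree (max (v 1).natDegree (v 2).natDegree)

theorem natDegree_le_H3 (v : Fin 3 → k[X]) (i : Fin 3) : (v i).natDegree ≤ H3 v := by
  fin_cases i <;> simp [H3]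

theorem H3_eq_of_isLead {n : ℕ} {v : Fin 3 → k[X]} {a : Fin 3 → k}
    (h : ∀ i, IsLead n (v i) (a i)) (ha : a ≠ 0) : H3 v = n := by
  apply le_antisymm
  · exact max_le (h 0).1 (max_le (h 1).1 (h 2).1)
  · obtain ⟨i, hi⟩ := Function.ne_iff.mp ha
    rw [← (h i).natDegree_eq hi]
    exact natDegree_le_H3 v i

theorem coeff_eq_zero_imp {p : k[X]} {n : ℕ} (h : p.natDegree ≤ n) (h0 : p.coeff n = 0) :
    p = 0 ∨ p.natDegree < n := by
  by_cases hp : p = 0
  · exact Or.inl hp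
  · right
    refine lt_of_le_of_ne h fun he => ?_
    rw [← he, coeff_natDegree, leadingCoeff_eq_zero] at h0
    exact hp h0

theorem lead_H3_ne_zero {v : Fin 3 → k[X]} (hv : v ≠ 0) :
    (fun i => (v i).coeff (H3 v)) ≠ 0 := by
  intro h
  have h' : ∀ i, v i = 0 ∨ (v i).natDegree < H3 v := fun i =>
    coeff_eq_zero_imp (natDegree_le_H3 v i) (congrFun h i)
  by_cases hn : H3 v = 0
  · apply hv
    funext i
    rcases h' i with h | h
    · exact h
    · omega
  · have h'' : ∀ i, (v i).natDegree < H3 v := by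
      intro i
      rcases h' i with h | h
      · rw [h, natDegree_zero]; omega
      · exact h
    have := max_lt (h'' 0) (max_lt (h'' 1) (h'' 2))
    exact lt_irrefl _ this

theorem lead_H2_ne_zero {A B : k[X]} (h : ¬ (A = 0 ∧ B = 0)) :
    ¬ (A.coeff (H2 A B) = 0 ∧ B.coeff (H2 A B) = 0) := by
  rintro ⟨hA, hB⟩
  have hA1 : A.natDegree ≤ H2 A B := le_max_left _ _
  have hB1 : B.natDegree ≤ H2 A B := le_max_right _ _
  have hmax : H2 A B ≤ A.natDegree ∨ H2 A B ≤ B.natDegree := le_max_iff.mp le_rfl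
  generalize H2 A B = n at *
  have hA' := coeff_eq_zero_imp hA1 hA
  have hB' := coeff_eq_zero_imp hB1 hB
  rcases hA' with hA' | hA' <;> rcases hB' with hB' | hB'
  · exact h ⟨hA', hB'⟩
  · rw [hA', natDegree_zero] at hmax
    omega
  · rw [hB', natDegree_zero] at hmax
    omega
  · omega

theorem not_both_zero_of_isCoprime {A B : k[X]} (h : IsCoprime A B) : ¬ (A = 0 ∧ B = 0) := by
  rintro ⟨rfl, rfl⟩
  obtain ⟨a, b, hab⟩ := h
  simp at hab

theorem H3_sym2 {A₁ B₁ A₂ B₂ : k[X]} (h₁ : ¬ (A₁ = 0 ∧ B₁ = 0)) (h₂ : ¬ (A₂ = 0 ∧ B₂ = 0)) :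
    H3 (sym2 A₁ B₁ A₂ B₂) = H2 A₁ B₁ + H2 A₂ B₂ := by
  have lA₁ : IsLead (H2 A₁ B₁) A₁ _ := IsLead.mk' (le_max_left _ _)
  have lB₁ : IsLead (H2 A₁ B₁) B₁ _ := IsLead.mk' (le_max_right _ _)
  have lA₂ : IsLead (H2 A₂ B₂) A₂ _ := IsLead.mk' (le_max_left _ _)
  have lB₂ : IsLead (H2 A₂ B₂) B₂ _ := IsLead.mk' (le_max_right _ _)
  have n₁ := lead_H2_ne_zero h₁
  have n₂ := lead_H2_ne_zero h₂
  generalize A₁.coeff (H2 A₁ B₁) = a₁ at *
  generalize B₁.coeff (H2 A₁ B₁) = b₁ at *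
  generalize A₂.coeff (H2 A₂ B₂) = a₂ at *
  generalize B₂.coeff (H2 A₂ B₂) = b₂ at *
  refine H3_eq_of_isLead (a := ![a₁ * a₂, a₁ * b₂ + b₁ * a₂, b₁ * b₂]) ?_ ?_
  · intro i
    fin_cases i
    · exact lA₁.mul lA₂
    · exact (lA₁.mul lB₂).add (lB₁.mul lA₂)
    · exact lB₁.mul lB₂
  · intro h
    have e0 : a₁ * a₂ = 0 := congrFun h 0
    have e1 : a₁ * b₂ + b₁ * a₂ = 0 := congrFun h 1
    have e2 : b₁ * b₂ = 0 := congrFun h 2
    rcases mul_eq_zero.mp e0 with ha | ha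
    · have hb₁ : b₁ ≠ 0 := fun hb => n₁ ⟨ha, hb⟩
      have hb₂ : b₂ = 0 := (mul_eq_zero.mp e2).resolve_left hb₁
      rw [ha, zero_mul, zero_add] at e1
      exact n₂ ⟨(mul_eq_zero.mp e1).resolve_left hb₁, hb₂⟩
    · have hb₂ : b₂ ≠ 0 := fun hb => n₂ ⟨ha, hb⟩
      have hb₁ : b₁ = 0 := (mul_eq_zero.mp e2).resolve_right hb₂
      rw [ha, mul_zero, add_zero] at e1
      exact n₁ ⟨(mul_eq_zero.mp e1).resolve_right hb₂, hb₁⟩

theorem H3_addSubMap (W : WeierstrassCurve k) [W.IsElliptic] {v : Fin 3 → k[X]} (hv : v ≠ 0) :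
    H3 (fun i => (addSubMap (W.map C) i).eval v) = 2 * H3 v := by
  have l : ∀ i, IsLead (H3 v) (v i) ((v i).coeff (H3 v)) := fun i =>
    IsLead.mk' (natDegree_le_H3 v i)
  have hne := lead_H3_ne_zero hv
  set a : Fin 3 → k := fun i => (v i).coeff (H3 v) with ha
  have hne' := addSubMap_ne_zero W hne
  rw [eval_addSubMap] at hne' ⊢
  refine H3_eq_of_isLead (fun i => ?_) hne'
  have l0 : IsLead (H3 v) (v 0) (a 0) := l 0
  have l1 : IsLead (H3 v) (v 1) (a 1) := l 1
  have l2 : IsLead (H3 v) (v 2) (a 2) := l 2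
  simp only [map_b₂, map_b₄, map_b₆, map_b₈]
  fin_cases i
  · refine ((((l0.pow 2).sub (((l0.C_mul W.b₄).mul l2).congr (two_mul _).symm rfl rfl)).sub
      (((l1.C_mul W.b₆).mul l2).congr (two_mul _).symm rfl rfl)).sub
      ((l2.pow 2).C_mul W.b₈)).congr rfl ?_ ?_ <;> simp
  · refine ((((((l1.C_mul 2).mul l0).congr (two_mul _).symm rfl rfl).add
      (((l0.C_mul W.b₂).mul l2).congr (two_mul _).symm rfl rfl)).add
      (((l1.C_mul W.b₄).mul l2).congr (two_mul _).symm rfl rfl)).add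
      ((l2.pow 2).C_mul W.b₆)).congr rfl ?_ ?_ <;> simp [map_ofNat]
  · refine ((l1.pow 2).sub (((l0.C_mul 4).mul l2).congr (two_mul _).symm rfl rfl)).congr rfl ?_ ?_
      <;> simp [map_ofNat]

theorem Prim3.ne_zero {v : Fin 3 → k[X]} (hv : Prim3 v) : v ≠ 0 := by
  rintro rfl
  obtain ⟨r, hr⟩ := hv.exists_sum
  simp at hr

theorem H3_eq_of_proportional {K : Type*} [Field K] (ι : k[X] →+* K)
    (hι : Function.Injective ι) {v w : Fin 3 → k[X]} (hv : Prim3 v) (hw : Prim3 w) {c : K}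
    (h : ∀ i, ι (v i) = c * ι (w i)) : H3 v = H3 w := by
  have cross : ∀ i j, v i * w j = v j * w i := by
    intro i j
    apply hι
    rw [map_mul, map_mul, h i, h j]
    ring
  obtain ⟨r, hr⟩ := hw.exists_sum
  obtain ⟨r', hr'⟩ := hv.exists_sum
  set e : k[X] := ∑ j, r j * v j with he
  set e' : k[X] := ∑ j, r' j * w j with he'
  have h1 : ∀ i, v i = e * w i := by
    intro i
    calc v i = v i * ∑ j, r j * w j := by rw [hr, mul_one]
      _ = ∑ j, r j * (v i * w j) := by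
          rw [Finset.mul_sum]; exact Finset.sum_congr rfl fun j _ => by ring
      _ = ∑ j, r j * (v j * w i) := Finset.sum_congr rfl fun j _ => by rw [cross i j]
      _ = e * w i := by
          rw [he, Finset.sum_mul]; exact Finset.sum_congr rfl fun j _ => by ring
  have h2 : ∀ i, w i = e' * v i := by
    intro i
    calc w i = w i * ∑ j, r' j * v j := by rw [hr', mul_one]
      _ = ∑ j, r' j * (v j * w i) := by
          rw [Finset.mul_sum]; exact Finset.sum_congr rfl fun j _ => by ring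
      _ = ∑ j, r' j * (v i * w j) := Finset.sum_congr rfl fun j _ => by rw [cross i j]
      _ = e' * v i := by
          rw [he', Finset.sum_mul]; exact Finset.sum_congr rfl fun j _ => by ring
  obtain ⟨i, hi⟩ := Function.ne_iff.mp hv.ne_zero
  have hee : e * e' = 1 := by
    have : (e * e') * v i = 1 * v i := by
      rw [one_mul, mul_assoc, ← h2 i, ← h1 i]
    exact mul_right_cancel₀ hi this
  have hu : IsUnit e := IsUnit.of_mul_eq_one _ hee
  obtain ⟨c', hc', hce⟩ := Polynomial.isUnit_iff.mp hu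
  have hd : ∀ i, (v i).natDegree = (w i).natDegree := by
    intro i
    rw [h1 i, ← hce, natDegree_C_mul hc'.ne_zero]
  rw [H3, H3, hd 0, hd 1, hd 2]

end height

end Fermat.Agent.S52
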