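import Fermat.Agent.S52.Defs
import Fermat.Agent.S52.PrimTriple

/-!
# S52, Part B, piece BM: Manin's count

`f = X^3 - 27 c4 X - 54 c6`, `RnP = f (f^((ℓ-1)/2) + 1)^2 - (X^ℓ + X)(X^ℓ - X)^2`, `RdP = (X^ℓ - X)^2`
(`x(π P - P) = RnP(x)/RdP(x)` for `P = (x,y)`).  In lowest terms `RnP/RdP` has height `#E(𝔽_ℓ)`.

Paper proof.  `f^ℓ = f(X^ℓ) = X^(3ℓ) + a X^ℓ + b` (`ZMod ℓ`: `expand`/`frobenius`), so
`RnP = X^(2ℓ+1) + X^(ℓ+2) - X^3 + a X^ℓ + b + 2 f^((ℓ+1)/2) + f`: monic of degree `2ℓ+1` (`3(ℓ+1)/2 < 2ℓ+1`).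
`X^ℓ - X = ∏_{c} (X - c)`.  `S₊, S₀, S₋` = `{c | f(c)` nonzero square / zero / non-square`}`;
`f(c)^((ℓ-1)/2) = 1, 0, -1` (Euler).  `D = ∏_{S₋} (X-c)^2 ∏_{S₀} (X-c)`.
* `c ∈ S₋`: `(X-c) ∣ f^((ℓ-1)/2)+1` so `(X-c)^2 ∣ RnP`.  * `c ∈ S₀`: `(X-c) ∣ f`, so `(X-c) ∣ RnP`.
  Pairwise coprime factors: `D ∣ RnP`, `RnP = D A`; `RdP = D B`, `B = ∏_{S₊} (X-c)^2 ∏_{S₀} (X-c)`.
* `IsCoprime A B`: `A(c) ≠ 0` for `c ∈ S₊` since `RnP(c) = 4 f(c) ≠ 0`; for `c ∈ S₀`: `f = (X-c) g`, `g(c) ≠ 0`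
  (`f` separable as `Δ ≠ 0`), `RnP = (X-c) [g (f^((ℓ-1)/2)+1)^2 - (X^ℓ+X)(X^ℓ-X) ∏_{c' ≠ c}(X-c')]`, the bracket has
  value `g(c) ≠ 0` at `c`.
* `natDegree A = 2ℓ+1 - 2#S₋ - #S₀ = 1 + 2#S₊ + #S₀ > natDegree B = 2#S₊ + #S₀`.
* `#E(𝔽_ℓ) = 1 + ∑_c #{y | y^2 = f(c)} = 1 + 2#S₊ + #S₀`.
Can be split: BM-a (everything about polynomials, conclusion `H2 A B = 1 + 2#S₊ + #S₀`), BM-b (the count).
-/

set_option autoImplicit false

namespace Fermat.Agent.S52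

open Polynomial WeierstrassCurve

/-- `X^3 - 27 c4 X - 54 c6`. -/
noncomputable def fP {R : Type*} [CommRing R] (c4 c6 : R) : R[X] :=
  X ^ 3 + C (-27 * c4) * X + C (-54 * c6)

/-- numerator of `x(π P - P)`. -/
noncomputable def RnP (ℓ : ℕ) (c4 c6 : ZMod ℓ) : (ZMod ℓ)[X] :=
  fP c4 c6 * (fP c4 c6 ^ ((ℓ - 1) / 2) + 1) ^ 2 - (X ^ ℓ + X) * (X ^ ℓ - X) ^ 2

/-- denominator of `x(π P - P)`. -/
noncomputable def RdP (ℓ : ℕ) : (ZMod ℓ)[X] := (X ^ ℓ - X) ^ 2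

namespace BM

theorem eval_fP {R : Type*} [CommRing R] (c4 c6 x : R) :
    (fP c4 c6).eval x = x ^ 3 + (-27 * c4) * x + (-54 * c6) := by
  simp [fP]

theorem EC_disc {R : Type*} [CommRing R] (c4 c6 : R) :
    (EC c4 c6).Δ = 1259712 * (c4 ^ 3 - c6 ^ 2) := by
  simp only [EC, WeierstrassCurve.Δ, WeierstrassCurve.b₂, WeierstrassCurve.b₄,
    WeierstrassCurve.b₆, WeierstrassCurve.b₈]
  ring

variable {ℓ : ℕ} [Fact ℓ.Prime]

theorem two_ne_zero' (hℓ : 5 ≤ ℓ) : (2 : ZMod ℓ) ≠ 0 := by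
  intro h
  have h2 : ((2 : ℕ) : ZMod ℓ) = 0 := by exact_mod_cast h
  rw [ZMod.natCast_eq_zero_iff] at h2
  have := Nat.le_of_dvd (by norm_num) h2
  omega

theorem three_ne_zero' (hℓ : 5 ≤ ℓ) : (3 : ZMod ℓ) ≠ 0 := by
  intro h
  have h2 : ((3 : ℕ) : ZMod ℓ) = 0 := by exact_mod_cast h
  rw [ZMod.natCast_eq_zero_iff] at h2
  have := Nat.le_of_dvd (by norm_num) h2
  omega

theorem ringChar_ne_two (hℓ : 5 ≤ ℓ) : ringChar (ZMod ℓ) ≠ 2 := by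
  rw [ZMod.ringChar_zmod_n]
  omega

theorem EC_disc_ne_zero (hℓ : 5 ≤ ℓ) (c4 c6 : ZMod ℓ) (hΔ : c4 ^ 3 - c6 ^ 2 ≠ 0) :
    (EC c4 c6).Δ ≠ 0 := by
  rw [EC_disc]
  have : (1259712 : ZMod ℓ) = 2 ^ 6 * 3 ^ 9 := by norm_num
  rw [this]
  exact mul_ne_zero (mul_ne_zero (pow_ne_zero _ (two_ne_zero' hℓ))
    (pow_ne_zero _ (three_ne_zero' hℓ))) hΔ

/-- number of square roots of `f(c)`. -/
noncomputable def ee (c4 c6 c : ZMod ℓ) : ℕ :=
  Fintype.card {y : ZMod ℓ // y ^ 2 = (fP c4 c6).eval c}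

/-- the points of `E(𝔽_ℓ)`. -/
noncomputable def pointEquiv (hℓ : 5 ≤ ℓ) (c4 c6 : ZMod ℓ) (hΔ : c4 ^ 3 - c6 ^ 2 ≠ 0) :
    (EC c4 c6).toAffine.Point ≃
      Option (Σ c : ZMod ℓ, {y : ZMod ℓ // y ^ 2 = (fP c4 c6).eval c}) where
  toFun
    | .zero => none
    | .some x y h => some ⟨x, y, by
        have := h.1
        rw [WeierstrassCurve.Affine.equation_iff] at this
        rw [eval_fP]
        simp only [EC] at this
        linear_combination this⟩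
  invFun
    | none => .zero
    | some ⟨x, y, h⟩ => .some x y
        ((WeierstrassCurve.Affine.equation_iff_nonsingular_of_Δ_ne_zero
          (EC_disc_ne_zero hℓ c4 c6 hΔ)).mp (by
            rw [WeierstrassCurve.Affine.equation_iff]
            rw [eval_fP] at h
            simp only [EC]
            linear_combination h))
  left_inv := by rintro (_ | _) <;> rfl
  right_inv := by rintro (_ | _) <;> rfl

theorem card_point (hℓ : 5 ≤ ℓ) (c4 c6 : ZMod ℓ) (hΔ : c4 ^ 3 - c6 ^ 2 ≠ 0) :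
    Nat.card (EC c4 c6).toAffine.Point = 1 + ∑ c : ZMod ℓ, ee c4 c6 c := by
  rw [Nat.card_congr (pointEquiv hℓ c4 c6 hΔ), Nat.card_eq_fintype_card, Fintype.card_option,
    Fintype.card_sigma, add_comm]
  rfl

theorem odd_l (hℓ : 5 ≤ ℓ) : ℓ % 2 = 1 := by
  have := (Fact.out : ℓ.Prime).eq_two_or_odd
  omega

theorem tri (hℓ : 5 ≤ ℓ) (c4 c6 c : ZMod ℓ) :
    (ee c4 c6 c = 1 ∧ (fP c4 c6).eval c = 0) ∨
    (ee c4 c6 c = 2 ∧ (fP c4 c6).eval c ≠ 0 ∧ (fP c4 c6).eval c ^ ((ℓ - 1) / 2) = 1) ∨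
    (ee c4 c6 c = 0 ∧ (fP c4 c6).eval c ^ ((ℓ - 1) / 2) = -1) := by
  unfold ee
  generalize (fP c4 c6).eval c = a
  have h1 := quadraticChar_card_sqrts (ringChar_ne_two hℓ) a
  have h2 := quadraticChar_eq_pow_of_char_ne_two' (ringChar_ne_two hℓ) a
  have h3 : Fintype.card (ZMod ℓ) / 2 = (ℓ - 1) / 2 := by
    rw [ZMod.card]
    have := odd_l hℓ
    omega
  rw [h3] at h2
  have h4 : Fintype.card {y : ZMod ℓ // y ^ 2 = a} = {x : ZMod ℓ | x ^ 2 = a}.toFinset.card := by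
    rw [Set.toFinset_card]
    rfl
  rw [h4]
  by_cases ha : a = 0
  · left
    rw [quadraticChar_eq_zero_iff.mpr ha] at h1
    exact ⟨by exact_mod_cast h1, ha⟩
  · right
    rcases quadraticChar_dichotomy ha with h | h
    · left
      rw [h] at h1 h2
      refine ⟨by exact_mod_cast h1, ha, ?_⟩
      rw [← h2]; simp
    · right
      rw [h] at h1 h2
      refine ⟨by simpa using h1, ?_⟩
      rw [← h2]; simp

theorem X_pow_sub_X_eq_prod : (X ^ ℓ - X : (ZMod ℓ)[X]) = ∏ c : ZMod ℓ, (X - C c) := by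
  have h1 : (X ^ ℓ - X : (ZMod ℓ)[X]).roots = Finset.univ.val := by
    have := FiniteField.roots_X_pow_card_sub_X (ZMod ℓ)
    rwa [ZMod.card] at this
  have hl : 1 < ℓ := (Fact.out : ℓ.Prime).one_lt
  have h2 : (X ^ ℓ - X : (ZMod ℓ)[X]).Monic := by
    apply monic_X_pow_sub
    rw [degree_X]
    exact_mod_cast hl
  have h3 : Multiset.card (X ^ ℓ - X : (ZMod ℓ)[X]).roots = (X ^ ℓ - X : (ZMod ℓ)[X]).natDegree := by
    rw [h1, FiniteField.X_pow_card_sub_X_natDegree_eq _ hl]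
    simp
  have h4 := prod_multiset_X_sub_C_of_monic_of_roots_card_eq h2 h3
  rw [h1] at h4
  exact h4.symm

theorem X_sub_C_dvd_U (c : ZMod ℓ) : (X - C c) ∣ (X ^ ℓ - X : (ZMod ℓ)[X]) := by
  rw [X_pow_sub_X_eq_prod]
  exact Finset.dvd_prod_of_mem _ (Finset.mem_univ c)

theorem fP_pow_l (c4 c6 : ZMod ℓ) :
    fP c4 c6 ^ ℓ = X ^ (3 * ℓ) + C (-27 * c4) * X ^ ℓ + C (-54 * c6) := by
  rw [← ZMod.expand_card, fP]
  simp only [map_add, map_mul, map_pow, expand_X, expand_C]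
  rw [← pow_mul, mul_comm ℓ 3]

theorem RnP_eq (hℓ : 5 ≤ ℓ) (c4 c6 : ZMod ℓ) :
    RnP ℓ c4 c6 = X ^ (2 * ℓ + 1) + (X ^ (ℓ + 2) - X ^ 3 + C (-27 * c4) * X ^ ℓ + C (-54 * c6)
      + 2 * fP c4 c6 ^ ((ℓ - 1) / 2 + 1) + fP c4 c6) := by
  have h1 : fP c4 c6 * (fP c4 c6 ^ ((ℓ - 1) / 2)) ^ 2 = fP c4 c6 ^ ℓ := by
    rw [← pow_mul, ← pow_succ']
    congr 1
    have := odd_l hℓ
    omega
  have h2 := fP_pow_l c4 c6
  rw [RnP]
  have h3 : fP c4 c6 * (fP c4 c6 ^ ((ℓ - 1) / 2) + 1) ^ 2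
      = fP c4 c6 * (fP c4 c6 ^ ((ℓ - 1) / 2)) ^ 2 + 2 * fP c4 c6 ^ ((ℓ - 1) / 2 + 1) + fP c4 c6 := by
    ring
  rw [h3, h1, h2]
  ring

omit [Fact ℓ.Prime] in
theorem natDegree_fP_le (c4 c6 : ZMod ℓ) : (fP c4 c6).natDegree ≤ 3 := by
  rw [fP]
  compute_degree

theorem natDegree_RnP (hℓ : 5 ≤ ℓ) (c4 c6 : ZMod ℓ) : (RnP ℓ c4 c6).natDegree = 2 * ℓ + 1 := by
  rw [RnP_eq hℓ]
  have h0 : (fP c4 c6 ^ ((ℓ - 1) / 2 + 1)).natDegree ≤ 2 * ℓ := by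
    refine le_trans (natDegree_pow_le_of_le _ (natDegree_fP_le c4 c6)) ?_
    omega
  have h1 : (X ^ (ℓ + 2) - X ^ 3 + C (-27 * c4) * X ^ ℓ + C (-54 * c6)
      + 2 * fP c4 c6 ^ ((ℓ - 1) / 2 + 1) + fP c4 c6).natDegree ≤ 2 * ℓ := by
    refine natDegree_add_le_of_degree_le (natDegree_add_le_of_degree_le ?_ ?_)
      ((natDegree_fP_le c4 c6).trans (by omega))
    · compute_degree
      omega
    · have : (2 : (ZMod ℓ)[X]) = C 2 := rfl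
      rw [this]
      exact (natDegree_C_mul_le _ _).trans h0
  rw [natDegree_add_eq_left_of_natDegree_lt]
  · exact natDegree_X_pow _
  · rw [natDegree_X_pow]
    omega

theorem eval_RnP (c4 c6 c : ZMod ℓ) :
    (RnP ℓ c4 c6).eval c
      = (fP c4 c6).eval c * ((fP c4 c6).eval c ^ ((ℓ - 1) / 2) + 1) ^ 2 := by
  simp [RnP, ZMod.pow_card]

theorem eval_derivative_RnP (hℓ : 5 ≤ ℓ) (c4 c6 c : ZMod ℓ) (h0 : (fP c4 c6).eval c = 0) :
    (derivative (RnP ℓ c4 c6)).eval c = (derivative (fP c4 c6)).eval c := by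
  have hU : (X ^ ℓ - X : (ZMod ℓ)[X]).eval c = 0 := by simp [ZMod.pow_card]
  have hm : (ℓ - 1) / 2 ≠ 0 := by omega
  rw [RnP, derivative_sub, derivative_mul, derivative_mul, derivative_pow (X ^ ℓ - X) 2]
  simp only [eval_sub, eval_add, eval_mul, eval_pow, h0, hU, eval_one]
  simp [hm]

theorem pow_dvd_RnP (hℓ : 5 ≤ ℓ) (c4 c6 c : ZMod ℓ) :
    (X - C c) ^ (2 - ee c4 c6 c) ∣ RnP ℓ c4 c6 := by
  have hU2 : (X - C c) ^ 2 ∣ (X ^ ℓ + X) * (X ^ ℓ - X) ^ 2 :=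
    Dvd.dvd.mul_left (pow_dvd_pow_of_dvd (X_sub_C_dvd_U c) 2) _
  rcases tri hℓ c4 c6 c with ⟨h1, h2⟩ | ⟨h1, h2, h3⟩ | ⟨h1, h2⟩
  · rw [h1]
    norm_num
    exact dvd_sub (Dvd.dvd.mul_right (dvd_iff_isRoot.mpr h2) _)
      ((dvd_pow_self _ two_ne_zero).trans hU2)
  · rw [h1]; simp
  · rw [h1]
    refine dvd_sub (Dvd.dvd.mul_left (pow_dvd_pow_of_dvd (dvd_iff_isRoot.mpr ?_) 2) _) hU2
    simp [IsRoot, h2]

theorem eval_derivative_fP_ne_zero (hℓ : 5 ≤ ℓ) (c4 c6 c : ZMod ℓ) (hΔ : c4 ^ 3 - c6 ^ 2 ≠ 0)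
    (h0 : (fP c4 c6).eval c = 0) : (derivative (fP c4 c6)).eval c ≠ 0 := by
  intro h1
  have h1' : 3 * c ^ 2 + (-27 * c4) = 0 := by
    have : (derivative (fP c4 c6)).eval c = 3 * c ^ 2 + (-27 * c4) := by
      simp [fP]
      left; norm_num
    rw [← this, h1]
  rw [eval_fP] at h0
  have h2 := two_ne_zero' hℓ
  have h3 := three_ne_zero' hℓ
  have e1 : c ^ 2 = 9 * c4 := by
    have : 3 * (c ^ 2 - 9 * c4) = 0 := by linear_combination h1'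
    rcases mul_eq_zero.mp this with h | h
    · exact absurd h h3
    · exact sub_eq_zero.mp h
  have e2 : c ^ 3 = -27 * c6 := by
    have : 2 * (c ^ 3 + 27 * c6) = 0 := by linear_combination (-1 : ZMod ℓ) * h0 + 3 * c * e1
    rcases mul_eq_zero.mp this with h | h
    · exact absurd h h2
    · linear_combination h
  apply hΔ
  have : (3 : ZMod ℓ) ^ 6 * (c4 ^ 3 - c6 ^ 2) = 0 := by
    linear_combination (-(c ^ 4 + c ^ 2 * (9 * c4) + (9 * c4) ^ 2)) * e1 + (c ^ 3 - 27 * c6) * e2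
  rcases mul_eq_zero.mp this with h | h
  · exact absurd h (pow_ne_zero _ h3)
  · exact h

theorem isCoprime_of_eval_ne_zero {A : (ZMod ℓ)[X]} {c : ZMod ℓ} (h : A.eval c ≠ 0) (n : ℕ) :
    IsCoprime A ((X - C c) ^ n) := by
  refine IsCoprime.pow_right ?_
  rw [isCoprime_comm, (irreducible_X_sub_C c).coprime_iff_not_dvd, dvd_iff_isRoot]
  exact h

end BM

open BM in
theorem manin_count (ℓ : ℕ) [Fact ℓ.Prime] (hℓ : 5 ≤ ℓ) (c4 c6 : ZMod ℓ) (hΔ : c4 ^ 3 - c6 ^ 2 ≠ 0) :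
    ∃ A B : (ZMod ℓ)[X], IsCoprime A B ∧ A * RdP ℓ = B * RnP ℓ c4 c6 ∧
      H2 A B = Nat.card (EC c4 c6).toAffine.Point := by
  classical
  have he2 : ∀ c, ee c4 c6 c ≤ 2 := by
    intro c
    rcases tri hℓ c4 c6 c with ⟨h1, -⟩ | ⟨h1, -⟩ | ⟨h1, -⟩ <;> omega
  set D : (ZMod ℓ)[X] := ∏ c, (X - C c) ^ (2 - ee c4 c6 c) with hDdef
  set B : (ZMod ℓ)[X] := ∏ c, (X - C c) ^ (ee c4 c6 c) with hBdef
  have hDB : D * B = RdP ℓ := by
    rw [RdP, X_pow_sub_X_eq_prod, ← Finset.prod_pow, ← Finset.prod_mul_distrib]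
    refine Finset.prod_congr rfl fun c _ => ?_
    rw [← pow_add]
    congr 1
    have := he2 c
    omega
  have hD : D ∣ RnP ℓ c4 c6 :=
    Finset.prod_dvd_of_coprime
      (fun c _ c' _ hcc' => IsCoprime.pow (pairwise_coprime_X_sub_C Function.injective_id hcc'))
      (fun c _ => pow_dvd_RnP hℓ c4 c6 c)
  obtain ⟨A, hA⟩ := hD
  have hR0 : RnP ℓ c4 c6 ≠ 0 := by
    intro h
    have := natDegree_RnP hℓ c4 c6
    rw [h, natDegree_zero] at this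
    omega
  have hA0 : A ≠ 0 := by
    rintro rfl
    exact hR0 (by rw [hA, mul_zero])
  have hDmonic : D.Monic := monic_prod_of_monic _ _ fun c _ => (monic_X_sub_C c).pow _
  have hdegD : D.natDegree = ∑ c, (2 - ee c4 c6 c) := by
    rw [hDdef, natDegree_prod_of_monic _ _ fun c _ => (monic_X_sub_C c).pow _]
    exact Finset.sum_congr rfl fun c _ => by rw [(monic_X_sub_C c).natDegree_pow, natDegree_X_sub_C, mul_one]
  have hdegB : B.natDegree = ∑ c, ee c4 c6 c := by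
    rw [hBdef, natDegree_prod_of_monic _ _ fun c _ => (monic_X_sub_C c).pow _]
    exact Finset.sum_congr rfl fun c _ => by rw [(monic_X_sub_C c).natDegree_pow, natDegree_X_sub_C, mul_one]
  have hsum : ∑ c, (2 - ee c4 c6 c) + ∑ c, ee c4 c6 c = 2 * ℓ := by
    rw [← Finset.sum_add_distrib]
    have : ∀ c ∈ (Finset.univ : Finset (ZMod ℓ)), 2 - ee c4 c6 c + ee c4 c6 c = 2 := fun c _ => by
      have := he2 c
      omega
    rw [Finset.sum_congr rfl this, Finset.sum_const, Finset.card_univ, ZMod.card, smul_eq_mul,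
      mul_comm]
  have hdegA : D.natDegree + A.natDegree = 2 * ℓ + 1 := by
    rw [← hDmonic.natDegree_mul' hA0, ← hA, natDegree_RnP hℓ]
  refine ⟨A, B, ?_, ?_, ?_⟩
  · refine IsCoprime.prod_right fun c _ => ?_
    rcases tri hℓ c4 c6 c with ⟨h1, h2⟩ | ⟨h1, h2, h3⟩ | ⟨h1, h2⟩
    · refine isCoprime_of_eval_ne_zero ?_ _
      intro hAc
      have hd1 : (X - C c) ∣ A := dvd_iff_isRoot.mpr hAc
      have hd2 : (X - C c) ∣ D := by
        have := Finset.dvd_prod_of_mem (fun c => (X - C c) ^ (2 - ee c4 c6 c)) (Finset.mem_univ c)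
        simpa [h1] using this
      obtain ⟨h, hh⟩ : (X - C c) * (X - C c) ∣ RnP ℓ c4 c6 := hA ▸ mul_dvd_mul hd2 hd1
      have h5 := eval_derivative_RnP hℓ c4 c6 c h2
      rw [hh] at h5
      apply eval_derivative_fP_ne_zero hℓ c4 c6 c hΔ h2
      rw [← h5]
      simp [derivative_mul]
    · refine isCoprime_of_eval_ne_zero ?_ _
      intro hAc
      have h5 := eval_RnP c4 c6 c
      rw [hA, eval_mul, hAc, mul_zero, h3] at h5
      have h6 : ((1 : ZMod ℓ) + 1) ^ 2 ≠ 0 := by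
        rw [one_add_one_eq_two]
        exact pow_ne_zero _ (two_ne_zero' hℓ)
      exact mul_ne_zero h2 h6 h5.symm
    · rw [h1, pow_zero]
      exact isCoprime_one_right
  · rw [← hDB, hA]; ring
  · rw [card_point hℓ c4 c6 hΔ, H2]
    rw [max_eq_left] <;> omega

end Fermat.Agent.S52
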