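import Fermat.Agent.S52.BRep
import Fermat.Agent.S52.BManin
import Fermat.Agent.S52.BCompose

/-!
# S52, Part B, piece BF: `d(π S - S) = #E(𝔽_ℓ) d(S)`

Paper proofs.
* `frob_sub_xRep`: `π P = (x^ℓ, y^ℓ)`, `-P = (x, -y)`, `x^ℓ ≠ x`: `Point.add_of_X_ne`, slope `(y^ℓ + y)/(x^ℓ - x)`,
  `x' (x^ℓ - x)^2 = (y^ℓ + y)^2 - (x^ℓ + x)(x^ℓ - x)^2` and `(y^ℓ + y)^2 = y^2 ((y^2)^((ℓ-1)/2) + 1)^2`, `y^2 = f(x)`.
* `hasDeg_frob_sub`: `IsRep τ S C D`, `H2 C D = m ≥ 1`.  Then `S = (x, y)`, `x = C(τ)/D(τ)`, `D(τ) ≠ 0` and `x^ℓ ≠ x`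
  (otherwise `C^ℓ D = C D^ℓ` in `k[X]`; `C, D ≠ 0` coprime, so `C^(ℓ-1) = D^(ℓ-1)` forces `C, D` units, `m = 0`).
  `A, B` from `manin_count`, `N = H2 A B`.  `r = xRep (π S - S)`: `r₀ Rd(x) = r₁ Rn(x)`, `A(x) Rd(x) = B(x) Rn(x)`,
  `Rd(x) ≠ 0` give `r₀ B(x) = r₁ A(x)`; multiply by `D(τ)^N` and use `homEval_eq`, `aeval_homEval`:
  `IsRep τ (π S - S) (homEval N A C D) (homEval N B C D)`; conclude by `isCoprime_homEval`, `H2_homEval`.
-/

set_option autoImplicit false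

namespace Fermat.Agent.S52

open Polynomial WeierstrassCurve WeierstrassCurve.Affine

variable {ℓ : ℕ} [Fact ℓ.Prime] {K : Type*} [Field K] [DecidableEq K] [Algebra (ZMod ℓ) K]

omit [DecidableEq K] in
theorem bf_equation_iff (c4 c6 : ZMod ℓ) (x y : K) :
    ((EC c4 c6)⁄K).toAffine.Equation x y ↔ y ^ 2 = aeval x (fP c4 c6) := by
  rw [Affine.equation_iff]
  simp only [EC, WeierstrassCurve.baseChange, WeierstrassCurve.map, fP]
  simp

theorem frob_sub_xRep (hℓ : ℓ ≠ 2) (c4 c6 : ZMod ℓ) {x y : K} (h : ((EC c4 c6)⁄K).Nonsingular x y)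
    (hx : x ^ ℓ ≠ x) :
    (Fr ℓ K (EC c4 c6) (Point.some x y h) - Point.some x y h).xRep 0 * aeval x (RdP ℓ) =
      (Fr ℓ K (EC c4 c6) (Point.some x y h) - Point.some x y h).xRep 1 * aeval x (RnP ℓ c4 c6) := by
  have hy : y ^ 2 = aeval x (fP c4 c6) := (bf_equation_iff c4 c6 x y).mp h.1
  have hodd : Odd ℓ := (Fact.out : ℓ.Prime).odd_of_ne_two hℓ
  obtain ⟨t, ht⟩ := hodd
  have ht' : (ℓ - 1) / 2 = t := by omega
  have hx' : frobAlg ℓ K x ≠ x := by rwa [frobAlg_apply]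
  rw [sub_eq_add_neg, Fr, Point.map_some, Point.neg_some, Point.add_of_X_ne hx', Point.xRep_some]
  simp only [Matrix.cons_val_zero, Matrix.cons_val_one, Matrix.cons_val_fin_one, one_mul]
  rw [Affine.slope_of_X_ne hx']
  have hyl : y ^ ℓ = y * (aeval x (fP c4 c6)) ^ t := by
    rw [← hy, ← pow_mul, ht, pow_succ, mul_comm]
  have hne : x ^ ℓ - x ≠ 0 := sub_ne_zero.mpr hx
  simp only [Affine.addX, Affine.negY, frobAlg_apply, RdP, RnP, ht', map_sub, map_mul, map_pow,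
    map_add, aeval_X, map_one]
  have e1 : ((EC c4 c6)⁄K).toAffine.a₁ = 0 := by
    simp [EC, WeierstrassCurve.baseChange, WeierstrassCurve.map]
  have e2 : ((EC c4 c6)⁄K).toAffine.a₂ = 0 := by
    simp [EC, WeierstrassCurve.baseChange, WeierstrassCurve.map]
  have e3 : ((EC c4 c6)⁄K).toAffine.a₃ = 0 := by
    simp [EC, WeierstrassCurve.baseChange, WeierstrassCurve.map]
  rw [e1, e2, e3, hyl]
  generalize aeval x (fP c4 c6) = F at *
  field_simp
  rw [← hy]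
  ring

omit [DecidableEq K] in
theorem exists_algebraMap_eq_of_pow_eq {x : K} (hx : x ^ ℓ = x) :
    ∃ c : ZMod ℓ, algebraMap (ZMod ℓ) K c = x := by
  have : CharP K ℓ := charP_of_injective_algebraMap (algebraMap (ZMod ℓ) K).injective ℓ
  have h1 : x ∈ (⊥ : Subfield K) := (Subfield.mem_bot_iff_pow_eq_self K ℓ).mpr hx
  rw [← ZMod.fieldRange_castHom_eq_bot ℓ] at h1
  obtain ⟨c, hc⟩ := h1
  refine ⟨c, ?_⟩
  rw [← hc]
  exact congrFun (congrArg DFunLike.coe (Subsingleton.elim (algebraMap (ZMod ℓ) K)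
    (ZMod.castHom dvd_rfl K))) c

theorem hasDeg_frob_sub (hℓ : 5 ≤ ℓ) (c4 c6 : ZMod ℓ) (hΔ : c4 ^ 3 - c6 ^ 2 ≠ 0) {τ : K}
    (hτ : Transcendental (ZMod ℓ) τ) {S : ((EC c4 c6)⁄K).Point} {m : ℕ} (hm : 1 ≤ m)
    (h : HasDeg (ZMod ℓ) τ S m) :
    HasDeg (ZMod ℓ) τ (Fr ℓ K (EC c4 c6) S - S) (Nat.card (EC c4 c6).toAffine.Point * m) := by
  have hinj := aeval_injective_of_transcendental hτ
  obtain ⟨C', D, ⟨hCD, hrep⟩, rfl⟩ := h
  have hunit : ∀ {P Q : (ZMod ℓ)[X]}, IsUnit P → (∃ c : ZMod ℓ, Q = C c * P) → H2 Q P = 0 := by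
    rintro P Q hP ⟨c, rfl⟩
    have h0 : P.natDegree = 0 := natDegree_eq_zero_of_isUnit hP
    have h1 : (C c * P).natDegree ≤ 0 := (natDegree_C_mul_le _ _).trans h0.le
    rw [H2, h0]
    omega
  rcases S with _ | ⟨x, y, hxy⟩
  · exfalso
    rw [← Point.zero_def, Point.xRep_zero] at hrep
    simp only [Matrix.cons_val_zero, Matrix.cons_val_one, Matrix.cons_val_fin_one, one_mul,
      zero_mul] at hrep
    have hD : D = 0 := hinj (by rw [hrep, map_zero])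
    subst hD
    have hC : IsUnit C' := isCoprime_zero_right.mp hCD
    have h0 : C'.natDegree = 0 := natDegree_eq_zero_of_isUnit hC
    rw [H2, h0, natDegree_zero] at hm
    omega
  rw [Point.xRep_some] at hrep
  simp only [Matrix.cons_val_zero, Matrix.cons_val_one, Matrix.cons_val_fin_one, one_mul] at hrep
  have hD : aeval τ D ≠ 0 := by
    intro h0
    rw [h0, mul_zero] at hrep
    exact not_both_zero_of_isCoprime hCD
      ⟨hinj (by rw [← hrep, map_zero]), hinj (by rw [h0, map_zero])⟩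
  have hx : x ^ ℓ ≠ x := by
    intro hx
    obtain ⟨c, rfl⟩ := exists_algebraMap_eq_of_pow_eq hx
    have hC : C' = C c * D := by
      apply hinj
      rw [map_mul, aeval_C, hrep]
    have hDu : IsUnit D := by
      rw [hC] at hCD
      exact isCoprime_self.mp (IsCoprime.of_mul_left_right hCD)
    have := hunit hDu ⟨c, hC⟩
    omega
  obtain ⟨A, B, hAB, hrel, hN⟩ := manin_count ℓ hℓ c4 c6 hΔ
  have hfs := frob_sub_xRep (by omega) c4 c6 hxy hx
  set r := (Fr ℓ K (EC c4 c6) (Point.some x y hxy) - Point.some x y hxy).xRep with hr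
  have hRd : aeval x (RdP ℓ) ≠ 0 := by
    simp only [RdP, map_pow, map_sub, aeval_X]
    exact pow_ne_zero _ (sub_ne_zero.mpr hx)
  have hrel' := congrArg (aeval x) hrel
  rw [map_mul, map_mul] at hrel'
  have hkey : r 0 * aeval x B = r 1 * aeval x A := by
    apply mul_right_cancel₀ hRd
    calc r 0 * aeval x B * aeval x (RdP ℓ) = (r 0 * aeval x (RdP ℓ)) * aeval x B := by ring
      _ = r 1 * (aeval x B * aeval x (RnP ℓ c4 c6)) := by rw [hfs]; ring
      _ = r 1 * aeval x A * aeval x (RdP ℓ) := by rw [← hrel']; ring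
  have hxe : x = aeval τ C' / aeval τ D := by rw [eq_div_iff hD, hrep]
  refine ⟨homEval (H2 A B) A C' D, homEval (H2 A B) B C' D, ⟨isCoprime_homEval hAB hCD, ?_⟩, ?_⟩
  · rw [aeval_homEval, aeval_homEval,
      homEval_eq (show A.natDegree ≤ H2 A B from le_max_left _ _) _ hD,
      homEval_eq (show B.natDegree ≤ H2 A B from le_max_right _ _) _ hD, ← hxe]
    calc r 0 * (aeval τ D ^ H2 A B * aeval x B) = aeval τ D ^ H2 A B * (r 0 * aeval x B) := by ring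
      _ = r 1 * (aeval τ D ^ H2 A B * aeval x A) := by rw [hkey]; ring
  · rw [H2_homEval hAB hCD, hN]

end Fermat.Agent.S52
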