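import Fermat.Agent.S52.BRep
import Fermat.Agent.S52.BManin

/-!
# S52, Part B, piece BG: the subgroup `GG` of "odd" points over `k(τ)`

`W = EC c4 c6` over `k`, `τ ∈ K`, `y₀ ∈ K`, `y₀ ≠ 0`, `y₀^2 = f(τ) =: φ`, `F₀ = k(τ)`.
`InGG P`: `P = 0` or `P = (x, y)` with `x ∈ F₀` and `y * y₀ ∈ F₀`.

Paper proof of closure under `+` (`a₁ = a₂ = a₃ = 0`, `negY x y = -y`): `z_i = y_i y₀ ∈ F₀`, `φ = y₀^2 ∈ F₀`.
`μ := slope * y₀ ∈ F₀`: if `x₁ ≠ x₂`: `μ = (z₁ - z₂)/(x₁ - x₂)`; if `x₁ = x₂`, `y₁ ≠ -y₂`: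
`μ = (3 x₁^2 + a₄) φ / (2 z₁)`.  Then `x₃ = slope^2 - x₁ - x₂ = μ^2/φ - x₁ - x₂ ∈ F₀` and
`y₃ y₀ = -(μ (x₃ - x₁) + z₁) ∈ F₀`.   Frobenius (`k = ZMod ℓ`, `ℓ` odd):
`y^ℓ y₀ = (y y₀)^ℓ / φ^((ℓ-1)/2)`.
-/

set_option autoImplicit false
set_option linter.unusedSectionVars false

namespace Fermat.Agent.S52

open Polynomial WeierstrassCurve WeierstrassCurve.Affine

variable {k K : Type*} [Field k] [Field K] [Algebra k K]

/-- membership in `GG`. -/
def InGG (k : Type*) {K : Type*} [Field k] [Field K] [Algebra k K] {W : Affine K} (τ y₀ : K) :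
    W.Point → Prop
  | .zero => True
  | .some x y _ => x ∈ IntermediateField.adjoin k {τ} ∧ y * y₀ ∈ IntermediateField.adjoin k {τ}

theorem bg_a₁ (c4 c6 : k) : ((EC c4 c6)⁄K).a₁ = 0 := by simp [EC, WeierstrassCurve.baseChange]
theorem bg_a₂ (c4 c6 : k) : ((EC c4 c6)⁄K).a₂ = 0 := by simp [EC, WeierstrassCurve.baseChange]
theorem bg_a₃ (c4 c6 : k) : ((EC c4 c6)⁄K).a₃ = 0 := by simp [EC, WeierstrassCurve.baseChange]
theorem bg_a₄ (c4 c6 : k) : ((EC c4 c6)⁄K).a₄ = algebraMap k K (-27 * c4) := by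
  simp [EC, WeierstrassCurve.baseChange]
theorem bg_a₆ (c4 c6 : k) : ((EC c4 c6)⁄K).a₆ = algebraMap k K (-54 * c6) := by
  simp [EC, WeierstrassCurve.baseChange]

theorem bg_negY (c4 c6 : k) (x y : K) : ((EC c4 c6)⁄K).toAffine.negY x y = -y := by
  rw [Affine.negY, bg_a₁, bg_a₃]; ring

theorem bg_aeval_fP (c4 c6 : k) (x : K) :
    aeval x (fP c4 c6) = x ^ 3 + algebraMap k K (-27 * c4) * x + algebraMap k K (-54 * c6) := by
  rw [fP, map_add, map_add, map_mul, map_pow, aeval_X, aeval_C, aeval_C]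

theorem bg_equation {c4 c6 : k} {x y : K} (h : ((EC c4 c6)⁄K).toAffine.Equation x y) :
    y ^ 2 = aeval x (fP c4 c6) := by
  rw [Affine.equation_iff, bg_a₁, bg_a₂, bg_a₃, bg_a₄, bg_a₆] at h
  rw [bg_aeval_fP]
  linear_combination h

variable [DecidableEq K]

theorem InGG.neg {c4 c6 : k} {τ y₀ : K} {P : ((EC c4 c6)⁄K).Point} (h : InGG k τ y₀ P) :
    InGG k τ y₀ (-P) := by
  rcases P with _ | ⟨x, y, hxy⟩
  · exact h
  · rw [Point.neg_some]
    refine ⟨h.1, ?_⟩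
    rw [bg_negY, neg_mul]
    exact neg_mem h.2

theorem InGG.add {c4 c6 : k} {τ y₀ : K} (hy₀ : y₀ ≠ 0) (hy : y₀ ^ 2 = aeval τ (fP c4 c6))
    {P Q : ((EC c4 c6)⁄K).Point} (hP : InGG k τ y₀ P) (hQ : InGG k τ y₀ Q) :
    InGG k τ y₀ (P + Q) := by
  rcases P with _ | ⟨x₁, y₁, h₁⟩
  · rw [← Point.zero_def, zero_add]; exact hQ
  rcases Q with _ | ⟨x₂, y₂, h₂⟩
  · rw [← Point.zero_def, add_zero]; exact hP
  set F₀ := IntermediateField.adjoin k {τ} with hF₀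
  have hτ : τ ∈ F₀ := IntermediateField.mem_adjoin_simple_self k τ
  have hφ : y₀ ^ 2 ∈ F₀ := by
    rw [hy, bg_aeval_fP]
    exact add_mem (add_mem (pow_mem hτ 3) (mul_mem (F₀.algebraMap_mem _) hτ)) (F₀.algebraMap_mem _)
  obtain ⟨hx₁, hz₁⟩ := hP
  obtain ⟨hx₂, hz₂⟩ := hQ
  by_cases hxy : x₁ = x₂ ∧ y₁ = ((EC c4 c6)⁄K).toAffine.negY x₂ y₂
  · rw [Point.add_of_Y_eq hxy.1 hxy.2]
    trivial
  · rw [Point.add_some hxy]
    set s := ((EC c4 c6)⁄K).toAffine.slope x₁ x₂ y₁ y₂ with hs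
    have hμ : s * y₀ ∈ F₀ := by
      by_cases hx : x₁ = x₂
      · have hyne : y₁ ≠ ((EC c4 c6)⁄K).toAffine.negY x₂ y₂ := fun h => hxy ⟨hx, h⟩
        rw [hs, Affine.slope_of_Y_ne hx hyne, bg_a₁, bg_a₂, bg_a₄, bg_negY]
        have hy12 : y₁ = y₂ := by
          have := Affine.Y_eq_of_Y_ne h₁.1 h₂.1 hx hyne
          exact this
        have hy1 : y₁ ≠ 0 := by
          intro h0
          apply hyne
          rw [bg_negY, ← hy12, h0, neg_zero]
        have : (3 * x₁ ^ 2 + 2 * 0 * x₁ + algebraMap k K (-27 * c4) - 0 * y₁) / (y₁ - -y₁) * y₀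
            = (3 * x₁ ^ 2 + algebraMap k K (-27 * c4)) * y₀ ^ 2 / (2 * (y₁ * y₀)) := by
          field_simp
          ring
        rw [this]
        refine div_mem (mul_mem (add_mem (mul_mem ?_ (pow_mem hx₁ 2)) (F₀.algebraMap_mem _)) hφ)
          (mul_mem ?_ hz₁)
        · exact_mod_cast F₀.natCast_mem 3
        · exact_mod_cast F₀.natCast_mem 2
      · rw [hs, Affine.slope_of_X_ne hx]
        have : (y₁ - y₂) / (x₁ - x₂) * y₀ = (y₁ * y₀ - y₂ * y₀) / (x₁ - x₂) := by ring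
        rw [this]
        exact div_mem (sub_mem hz₁ hz₂) (sub_mem hx₁ hx₂)
    have hX : ((EC c4 c6)⁄K).toAffine.addX x₁ x₂ s ∈ F₀ := by
      rw [Affine.addX, bg_a₁, bg_a₂]
      have : s ^ 2 + 0 * s - 0 - x₁ - x₂ = (s * y₀) ^ 2 / y₀ ^ 2 - x₁ - x₂ := by
        field_simp
        ring
      rw [this]
      exact sub_mem (sub_mem (div_mem (pow_mem hμ 2) hφ) hx₁) hx₂
    refine ⟨hX, ?_⟩
    rw [Affine.addY, bg_negY, Affine.negAddY]
    have : -(s * (((EC c4 c6)⁄K).toAffine.addX x₁ x₂ s - x₁) + y₁) * y₀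
        = -((s * y₀) * (((EC c4 c6)⁄K).toAffine.addX x₁ x₂ s - x₁) + y₁ * y₀) := by ring
    rw [this]
    exact neg_mem (add_mem (mul_mem hμ (sub_mem hX hx₁)) hz₁)

/-- the subgroup of odd points over `k(τ)`. -/
def GG (c4 c6 : k) (τ y₀ : K) (hy₀ : y₀ ≠ 0) (hy : y₀ ^ 2 = aeval τ (fP c4 c6)) :
    AddSubgroup ((EC c4 c6)⁄K).Point where
  carrier := {P | InGG k τ y₀ P}
  zero_mem' := trivial
  add_mem' hP hQ := InGG.add hy₀ hy hP hQ
  neg_mem' hP := InGG.neg hP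

theorem InGG.exists_hasDeg {W : Affine K} {τ y₀ : K} {P : W.Point} (h : InGG k τ y₀ P) :
    ∃ n, HasDeg k τ P n := by
  rcases P with _ | ⟨x, y, hxy⟩
  · exact ⟨0, hasDeg_zero τ⟩
  · exact Fermat.Agent.S52.exists_hasDeg hxy h.1

theorem InGG.frob {ℓ : ℕ} [Fact ℓ.Prime] (hℓ : ℓ ≠ 2) {K : Type*} [Field K] [DecidableEq K]
    [Algebra (ZMod ℓ) K] {c4 c6 : ZMod ℓ} {τ y₀ : K} (hy₀ : y₀ ≠ 0)
    (hy : y₀ ^ 2 = aeval τ (fP c4 c6)) {P : ((EC c4 c6)⁄K).Point} (h : InGG (ZMod ℓ) τ y₀ P) :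
    InGG (ZMod ℓ) τ y₀ (Fr ℓ K (EC c4 c6) P) := by
  rcases P with _ | ⟨x, y, hxy⟩
  · exact h
  · have hp : ℓ.Prime := Fact.out
    set F₀ := IntermediateField.adjoin (ZMod ℓ) {τ} with hF₀
    have hτ : τ ∈ F₀ := IntermediateField.mem_adjoin_simple_self (ZMod ℓ) τ
    have hφ : y₀ ^ 2 ∈ F₀ := by
      rw [hy, bg_aeval_fP]
      exact add_mem (add_mem (pow_mem hτ 3) (mul_mem (F₀.algebraMap_mem _) hτ))
        (F₀.algebraMap_mem _)
    change InGG (ZMod ℓ) τ y₀ (Point.map (W' := EC c4 c6) (frobAlg ℓ K) (Point.some x y hxy))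
    rw [Point.map_some]
    refine ⟨?_, ?_⟩
    · rw [frobAlg_apply]
      exact pow_mem h.1 ℓ
    · rw [frobAlg_apply]
      have hodd : ℓ = 2 * ((ℓ - 1) / 2) + 1 := by
        rcases hp.eq_two_or_odd with h2 | h2
        · exact absurd h2 hℓ
        · omega
      have : y ^ ℓ * y₀ = (y * y₀) ^ ℓ / (y₀ ^ 2) ^ ((ℓ - 1) / 2) := by
        rw [eq_div_iff (pow_ne_zero _ (pow_ne_zero _ hy₀)), mul_pow, ← pow_mul, mul_assoc,
          ← pow_succ', ← hodd]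
      rw [this]
      exact div_mem (pow_mem h.2 ℓ) (pow_mem hφ _)

theorem bg_natDegree_fP (c4 c6 : k) : (fP c4 c6).natDegree = 3 := by
  rw [fP]
  compute_degree!

theorem InGG.two_nsmul_eq_zero {c4 c6 : k} {τ y₀ : K} (hτ : Transcendental k τ) (hy₀ : y₀ ≠ 0)
    (hy : y₀ ^ 2 = aeval τ (fP c4 c6)) {P : ((EC c4 c6)⁄K).Point} (h : InGG k τ y₀ P)
    (h0 : HasDeg k τ P 0) : P + P = 0 := by
  rcases h0.eq_zero_or with rfl | ⟨c, y, hxy, rfl⟩
  · rw [add_zero]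
  · obtain ⟨-, hz⟩ := h
    obtain ⟨U, V, hUV⟩ := (IntermediateField.mem_adjoin_simple_iff k _).mp hz
    have hinj := aeval_injective_of_transcendental hτ
    have hy2 : y ^ 2 = algebraMap k K ((fP c4 c6).eval c) := by
      rw [bg_equation hxy.1, aeval_algebraMap_apply, coe_aeval_eq_eval]
    have hy0 : y = 0 := by
      by_cases hV : V = 0
      · rw [hV, map_zero, div_zero] at hUV
        exact (mul_eq_zero.mp hUV).resolve_right hy₀
      · have hV' : aeval τ V ≠ 0 := fun h => hV (hinj (by rw [h, map_zero]))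
        have hpoly : U ^ 2 = C ((fP c4 c6).eval c) * V ^ 2 * fP c4 c6 := by
          apply hinj
          rw [map_pow, map_mul, map_mul, map_pow, aeval_C, ← hy2, ← hy]
          have : aeval τ U = y * y₀ * aeval τ V := by
            rw [hUV]; field_simp
          rw [this]; ring
        by_contra hyne
        have hfc : (fP c4 c6).eval c ≠ 0 := by
          intro h0
          rw [h0, map_zero] at hy2
          exact hyne (eq_zero_of_pow_eq_zero hy2)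
        have hd := congrArg natDegree hpoly
        have hf0 : fP c4 c6 ≠ 0 := by
          intro h0
          have := bg_natDegree_fP c4 c6
          rw [h0, natDegree_zero] at this
          omega
        rw [natDegree_pow, natDegree_mul (mul_ne_zero (C_ne_zero.mpr hfc) (pow_ne_zero 2 hV)) hf0,
          natDegree_C_mul hfc, natDegree_pow, bg_natDegree_fP] at hd
        omega
    apply Point.add_self_of_Y_eq
    rw [bg_negY, hy0, neg_zero]

end Fermat.Agent.S52
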