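import Mathlib

/-!
# S52, Part B, piece BQ: a function with the parallelogram law is a quadratic form (Mathlib only)

Paper proof.  `d 0 = 0` (`x = y = 0`), `d (-y) = d y` (`x = 0`).
`quad_three`: add the law for `(x+y, z)`, subtract the law for `(x-z, y)`, add the law for `(x, y+z)`
and use `d (x-z) = 2 d x + 2 d z - d (x+z)`; everything is an identity in `ℤ` after dividing by `2`.
Hence `B u v = d (u+v) - d u - d v` is additive in each variable, `B (m • u) (n • v) = m n B u v`,
`B u u = 2 d u`, `d (n • u) = n^2 d u` and `quad_eval` follows by expanding.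
-/

set_option autoImplicit false

namespace Fermat.Agent.S52

variable {A : Type*} [AddCommGroup A] (d : A → ℤ)

/-- the bilinear form attached to `d`. -/
def quadB (u v : A) : ℤ := d (u + v) - d u - d v

variable {d}

theorem quad_three (hd : ∀ x y, d (x + y) + d (x - y) = 2 * d x + 2 * d y) (x y z : A) :
    d (x + y + z) = d (x + y) + d (y + z) + d (x + z) - d x - d y - d z := by
  have h1 := hd (x + y) z
  have h2 := hd (x - z) y
  have h3 := hd x (y + z)
  have h4 := hd x z
  rw [show x - z + y = x + y - z by abel, show x - z - y = x - (y + z) by abel] at h2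
  rw [show x + (y + z) = x + y + z by abel] at h3
  omega

theorem quadB_add_left (hd : ∀ x y, d (x + y) + d (x - y) = 2 * d x + 2 * d y) (u u' v : A) :
    quadB d (u + u') v = quadB d u v + quadB d u' v := by
  have h := quad_three hd u u' v
  simp only [quadB]
  omega

theorem quadB_comm (u v : A) : quadB d u v = quadB d v u := by
  simp only [quadB, add_comm u v]
  ring

theorem quadB_add_right (hd : ∀ x y, d (x + y) + d (x - y) = 2 * d x + 2 * d y) (u v v' : A) :
    quadB d u (v + v') = quadB d u v + quadB d u v' := by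
  rw [quadB_comm, quadB_add_left hd, quadB_comm v, quadB_comm v']

theorem quadB_zsmul_left (hd : ∀ x y, d (x + y) + d (x - y) = 2 * d x + 2 * d y) (n : ℤ)
    (u v : A) : quadB d (n • u) v = n * quadB d u v := by
  have h := map_zsmul (AddMonoidHom.mk' (fun u => quadB d u v)
    (fun a b => quadB_add_left hd a b v)) n u
  simpa using h

theorem quadB_zsmul_right (hd : ∀ x y, d (x + y) + d (x - y) = 2 * d x + 2 * d y) (n : ℤ)
    (u v : A) : quadB d u (n • v) = n * quadB d u v := by
  rw [quadB_comm, quadB_zsmul_left hd, quadB_comm]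

theorem quadB_self (hd : ∀ x y, d (x + y) + d (x - y) = 2 * d x + 2 * d y) (u : A) :
    quadB d u u = 2 * d u := by
  have h0 := hd 0 0
  have h1 := hd u u
  rw [add_zero, sub_zero] at h0
  rw [sub_self] at h1
  simp only [quadB]
  omega

theorem quad_eval (hd : ∀ x y, d (x + y) + d (x - y) = 2 * d x + 2 * d y) (P₀ P₁ P₂ : A)
    (x y z : ℤ) :
    d (x • P₂ + y • P₁ + z • P₀) = x ^ 2 * d P₂ + y ^ 2 * d P₁ + z ^ 2 * d P₀ +
      x * y * quadB d P₂ P₁ + x * z * quadB d P₂ P₀ + y * z * quadB d P₁ P₀ := by
  have h := quadB_self hd (x • P₂ + y • P₁ + z • P₀)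
  simp only [quadB_add_left hd, quadB_add_right hd, quadB_zsmul_left hd, quadB_zsmul_right hd,
    quadB_self hd] at h
  rw [quadB_comm P₁ P₂, quadB_comm P₀ P₂, quadB_comm P₀ P₁] at h
  have h2 : (2 : ℤ) * d (x • P₂ + y • P₁ + z • P₀) = 2 * (x ^ 2 * d P₂ + y ^ 2 * d P₁ +
      z ^ 2 * d P₀ + x * y * quadB d P₂ P₁ + x * z * quadB d P₂ P₀ + y * z * quadB d P₁ P₀) := by
    rw [← h]
    ring
  exact mul_left_cancel₀ two_ne_zero h2

end Fermat.Agent.S52
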