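import Fermat.Agent.S52.BGG
import Fermat.Agent.S52.BFrobSub
import Fermat.Agent.S52.BQuad

/-!
# S52, Part B, piece BA: the relation `2 (π² - a π + ℓ) G = 0` for a generic point `G = (τ, y₀)`

Paper proof.  `𝒢 = GG c4 c6 τ y₀`, `d : 𝒢 → ℤ` the degree (`InGG.exists_hasDeg`, `HasDeg.unique`); parallelogram law on `𝒢`
by `parallelogram`.  `P₀ = G`, `P₁ = π G`, `P₂ = π² G ∈ 𝒢` (`InGG.frob`).  `N = #E(𝔽_ℓ)`, `a = ℓ + 1 - N`.
`d P₀ = 1`, `d P₁ = ℓ`, `d P₂ = ℓ²` (`hasDeg_generic`, `HasDeg.frob`); `d (P₁ - P₀) = N` (`hasDeg_frob_sub`, `m = 1`);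
`d (P₁ + P₀) = 2ℓ + 2 - N`; it is `≥ 1`: otherwise `2 (P₁ + P₀) = 0` (`InGG.two_nsmul_eq_zero`), `d (2 P₁) = d (2 P₀)`,
`4 ℓ = 4`.  `d (P₂ + P₁) = ℓ d (P₁ + P₀)`; `P₂ - P₀ = π S - S` with `S = P₁ + P₀`, so `d (P₂ - P₀) = N (2ℓ + 2 - N)`.
So `quadB P₁ P₀ = a`, `quadB P₂ P₁ = ℓ a`, `quadB P₂ P₀ = ℓ² + 1 - N (2ℓ+2-N) = a² - 2ℓ` and by `quad_eval`
`d (P₂ - a P₁ + ℓ P₀) = ℓ² + a² ℓ + ℓ² - a (ℓ a) + ℓ (a² - 2ℓ) - a ℓ a = 0`; conclude by `InGG.two_nsmul_eq_zero`.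
-/

set_option autoImplicit false

namespace Fermat.Agent.S52

open Polynomial WeierstrassCurve WeierstrassCurve.Affine

theorem isElliptic_EC {ℓ : ℕ} [Fact ℓ.Prime] (hℓ : 5 ≤ ℓ) {c4 c6 : ZMod ℓ}
    (hΔ : c4 ^ 3 - c6 ^ 2 ≠ 0) : (EC c4 c6).IsElliptic := by
  constructor
  have e : (EC c4 c6).Δ = 2 ^ 6 * 3 ^ 9 * (c4 ^ 3 - c6 ^ 2) := by
    simp only [EC, WeierstrassCurve.Δ, b₂, b₄, b₆, b₈]
    ring
  rw [e, isUnit_iff_ne_zero]
  have h2 : (2 : ZMod ℓ) ≠ 0 := by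
    intro h
    have : ((2 : ℕ) : ZMod ℓ) = 0 := by exact_mod_cast h
    rw [ZMod.natCast_eq_zero_iff] at this
    have := Nat.le_of_dvd (by norm_num) this
    omega
  have h3 : (3 : ZMod ℓ) ≠ 0 := by
    intro h
    have : ((3 : ℕ) : ZMod ℓ) = 0 := by exact_mod_cast h
    rw [ZMod.natCast_eq_zero_iff] at this
    have := Nat.le_of_dvd (by norm_num) this
    omega
  exact mul_ne_zero (mul_ne_zero (pow_ne_zero _ h2) (pow_ne_zero _ h3)) hΔ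

theorem equation_EC_iff {k K : Type*} [Field k] [Field K] [Algebra k K] (c4 c6 : k) (x y : K) :
    ((EC c4 c6)⁄K).toAffine.Equation x y ↔ y ^ 2 = aeval x (fP c4 c6) := by
  rw [Affine.equation_iff]
  simp only [EC, WeierstrassCurve.baseChange, WeierstrassCurve.map, fP]
  simp

theorem fP_ne_zero {k : Type*} [Field k] (c4 c6 : k) : fP c4 c6 ≠ 0 := by
  intro h
  have := congrArg (fun p => p.coeff 3) h
  simp [fP] at this

theorem aeval_mem_adjoin {k K : Type*} [Field k] [Field K] [Algebra k K] (τ : K) (p : k[X]) :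
    aeval τ p ∈ IntermediateField.adjoin k {τ} :=
  (IntermediateField.mem_adjoin_simple_iff k _).mpr ⟨p, 1, by simp⟩


theorem frob_charpoly_generic (ℓ : ℕ) [Fact ℓ.Prime] (hℓ : 5 ≤ ℓ) (c4 c6 : ZMod ℓ)
    (hΔ : c4 ^ 3 - c6 ^ 2 ≠ 0) (K : Type*) [Field K] [DecidableEq K] [Algebra (ZMod ℓ) K]
    (τ y₀ : K) (hτ : Transcendental (ZMod ℓ) τ) (h : ((EC c4 c6)⁄K).Nonsingular τ y₀) :
    (2 : ℤ) • (Fr ℓ K (EC c4 c6) (Fr ℓ K (EC c4 c6) (Point.some τ y₀ h))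
      - ((ℓ : ℤ) + 1 - (Nat.card (EC c4 c6).toAffine.Point : ℤ)) •
          Fr ℓ K (EC c4 c6) (Point.some τ y₀ h)
      + (ℓ : ℤ) • Point.some τ y₀ h) = 0 := by
  have hell : (EC c4 c6).IsElliptic := isElliptic_EC hℓ hΔ
  have hℓ2 : ℓ ≠ 2 := by omega
  have hy : y₀ ^ 2 = aeval τ (fP c4 c6) := (equation_EC_iff c4 c6 τ y₀).mp h.1
  have hy₀ : y₀ ≠ 0 := by
    rintro rfl
    rw [zero_pow two_ne_zero] at hy
    exact fP_ne_zero c4 c6 (aeval_injective_of_transcendental hτ (by rw [← hy, map_zero]))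
  set N : ℕ := Nat.card (EC c4 c6).toAffine.Point with hN
  set π := Fr ℓ K (EC c4 c6) with hπ
  set G : ((EC c4 c6)⁄K).Point := Point.some τ y₀ h with hG
  set 𝒢 := GG c4 c6 τ y₀ hy₀ hy with h𝒢
  have mG : InGG (ZMod ℓ) τ y₀ G :=
    ⟨IntermediateField.mem_adjoin_simple_self _ _, by
      rw [← sq, hy]; exact aeval_mem_adjoin τ _⟩
  have mπ : ∀ {P : ((EC c4 c6)⁄K).Point}, InGG (ZMod ℓ) τ y₀ P → InGG (ZMod ℓ) τ y₀ (π P) :=
    fun hP => InGG.frob hℓ2 hy₀ hy hP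
  -- the degree function on `𝒢`
  have hex : ∀ P : 𝒢, ∃ n, HasDeg (ZMod ℓ) τ (P : ((EC c4 c6)⁄K).Point) n :=
    fun P => InGG.exists_hasDeg P.2
  choose dn hdn using hex
  set d : 𝒢 → ℤ := fun P => (dn P : ℤ) with hd
  have d_eq : ∀ (P : 𝒢) (n : ℕ), HasDeg (ZMod ℓ) τ (P : ((EC c4 c6)⁄K).Point) n → d P = n :=
    fun P n hP => by
      show (dn P : ℤ) = n
      exact_mod_cast HasDeg.unique (EC c4 c6) hτ (hdn P) hP
  have law : ∀ x y : 𝒢, d (x + y) + d (x - y) = 2 * d x + 2 * d y := by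
    intro x y
    have := parallelogram (EC c4 c6) hτ (hdn x) (hdn y)
      (by rw [← AddSubgroup.coe_add]; exact hdn (x + y))
      (by rw [← AddSubgroup.coe_sub]; exact hdn (x - y))
    show (dn (x + y) : ℤ) + dn (x - y) = 2 * dn x + 2 * dn y
    exact_mod_cast this
  have d_zero : d 0 = 0 := d_eq 0 0 (hasDeg_zero τ)
  have d_neg : ∀ x : 𝒢, d (-x) = d x := fun x =>
    d_eq (-x) _ (by rw [AddSubgroup.coe_neg]; exact (hdn x).neg)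
  have d_two : ∀ x : 𝒢, d (x + x) = 4 * d x := by
    intro x
    have := law x x
    rw [sub_self, d_zero] at this
    linarith
  set P₀ : 𝒢 := ⟨G, mG⟩ with hP₀
  set P₁ : 𝒢 := ⟨π G, mπ mG⟩ with hP₁
  set P₂ : 𝒢 := ⟨π (π G), mπ (mπ mG)⟩ with hP₂
  have D0 : HasDeg (ZMod ℓ) τ G 1 := hasDeg_generic h
  have D1 : HasDeg (ZMod ℓ) τ (π G) (ℓ * 1) := D0.frob (EC c4 c6)
  have D2 : HasDeg (ZMod ℓ) τ (π (π G)) (ℓ * (ℓ * 1)) := D1.frob (EC c4 c6)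
  have d0 : d P₀ = 1 := by simpa using d_eq P₀ 1 D0
  have d1 : d P₁ = ℓ := by simpa using d_eq P₁ _ D1
  have d2 : d P₂ = (ℓ : ℤ) ^ 2 := by
    have := d_eq P₂ _ D2
    rw [this]; push_cast; ring
  have d10m : d (P₁ - P₀) = N := by
    have := d_eq (P₁ - P₀) _ (by
      rw [AddSubgroup.coe_sub]
      exact hasDeg_frob_sub hℓ c4 c6 hΔ hτ le_rfl D0)
    simpa using this
  have d10p : d (P₁ + P₀) = 2 * ℓ + 2 - N := by
    have := law P₁ P₀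
    rw [d10m, d1, d0] at this
    linarith
  -- `S = P₁ + P₀` has positive degree
  have hS := hdn (P₁ + P₀)
  have hSd : (dn (P₁ + P₀) : ℤ) = 2 * ℓ + 2 - N := d10p
  have hS1 : 1 ≤ dn (P₁ + P₀) := by
    by_contra hlt
    have h0 : dn (P₁ + P₀) = 0 := by omega
    rw [h0] at hS
    have h2 := InGG.two_nsmul_eq_zero hτ hy₀ hy (P₁ + P₀).2 hS
    have h3 : (P₁ + P₀) + (P₁ + P₀) = 0 := Subtype.ext (by
      rw [AddSubgroup.coe_add]; exact h2)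
    have h4 : P₁ + P₁ = -(P₀ + P₀) := by
      rw [eq_neg_iff_add_eq_zero, ← h3]; abel
    have h5 := congrArg d h4
    rw [d_neg, d_two, d_two, d1, d0] at h5
    have : (ℓ : ℤ) = 1 := by linarith
    have : ℓ = 1 := by exact_mod_cast this
    omega
  have d21p : d (P₂ + P₁) = ℓ * (2 * ℓ + 2 - N) := by
    have := d_eq (P₂ + P₁) _ (by
      have e : ((P₂ + P₁ : 𝒢) : ((EC c4 c6)⁄K).Point) = π ((P₁ + P₀ : 𝒢) : ((EC c4 c6)⁄K).Point) := by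
        rw [AddSubgroup.coe_add, AddSubgroup.coe_add, map_add]
      rw [e]
      exact hS.frob (EC c4 c6))
    rw [this]; push_cast; rw [hSd]
  have d20m : d (P₂ - P₀) = N * (2 * ℓ + 2 - N) := by
    have := d_eq (P₂ - P₀) _ (by
      have e : ((P₂ - P₀ : 𝒢) : ((EC c4 c6)⁄K).Point) =
          π ((P₁ + P₀ : 𝒢) : ((EC c4 c6)⁄K).Point) - ((P₁ + P₀ : 𝒢) : ((EC c4 c6)⁄K).Point) := by
        rw [AddSubgroup.coe_sub, AddSubgroup.coe_add, map_add]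
        show π (π G) - G = π (π G) + π G - (π G + G)
        abel
      rw [e]
      exact hasDeg_frob_sub hℓ c4 c6 hΔ hτ hS1 hS)
    rw [this]; push_cast; rw [hSd]
  have d20p : d (P₂ + P₀) = 2 * (ℓ : ℤ) ^ 2 + 2 - N * (2 * ℓ + 2 - N) := by
    have := law P₂ P₀
    rw [d20m, d2, d0] at this
    linarith
  -- the relation
  set a : ℤ := (ℓ : ℤ) + 1 - N with ha
  have hq := quad_eval law P₀ P₁ P₂ 1 (-a) ℓ
  simp only [quadB] at hq
  rw [d21p, d20p, d10p, d2, d1, d0] at hq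
  have hq0 : d ((1 : ℤ) • P₂ + (-a) • P₁ + (ℓ : ℤ) • P₀) = 0 := by
    rw [hq, ha]; ring
  set R : 𝒢 := (1 : ℤ) • P₂ + (-a) • P₁ + (ℓ : ℤ) • P₀ with hR
  have hR0 : HasDeg (ZMod ℓ) τ (R : ((EC c4 c6)⁄K).Point) 0 := by
    have h1 := hdn R
    have h2 : dn R = 0 := by
      have h3 : (dn R : ℤ) = 0 := hq0
      exact_mod_cast h3
    rwa [h2] at h1
  have hfin := InGG.two_nsmul_eq_zero hτ hy₀ hy R.2 hR0
  have eR : (R : ((EC c4 c6)⁄K).Point) = π (π G) - a • π G + (ℓ : ℤ) • G := by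
    rw [hR, AddSubgroup.coe_add, AddSubgroup.coe_add, AddSubgroup.coe_zsmul, AddSubgroup.coe_zsmul,
      AddSubgroup.coe_zsmul, one_zsmul, neg_zsmul, ← sub_eq_add_neg]
  rw [two_zsmul, ← eR]
  exact hfin

end Fermat.Agent.S52
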