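import Fermat.Agent.S52.Defs
import Fermat.Agent.S52.PrimTriple

/-!
# S52, Part B, piece BR: degrees of `x`-coordinates and the exact parallelogram law

`k ⊆ K` fields, `τ ∈ K` transcendental over `k`.  `IsRep τ P A B`: `x(P) = A(τ)/B(τ)` in lowest terms
(`(A,B) = (unit, 0)` for `P = 0`); `HasDeg k τ P n`: such a representation exists with `max(deg A, deg B) = n`.
-/

set_option autoImplicit false

namespace Fermat.Agent.S52

open Polynomial WeierstrassCurve WeierstrassCurve.Affine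

variable {k K : Type*} [Field k] [Field K] [Algebra k K]

/-- `(A : B)`, evaluated at `τ`, is the `x`-coordinate of `P` (as a point of `ℙ¹`), in lowest terms. -/
def IsRep {W : Affine K} (τ : K) (P : W.Point) (A B : k[X]) : Prop :=
  IsCoprime A B ∧ P.xRep 0 * aeval τ B = P.xRep 1 * aeval τ A

variable (k) in
/-- the `x`-coordinate of `P` is a rational function of degree `n` in `τ`. -/
def HasDeg {W : Affine K} (τ : K) (P : W.Point) (n : ℕ) : Prop :=
  ∃ A B : k[X], IsRep τ P A B ∧ H2 A B = n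

theorem aeval_injective_of_transcendental {τ : K} (hτ : Transcendental k τ) :
    Function.Injective (aeval τ : k[X] →ₐ[k] K) :=
  transcendental_iff_injective.mp hτ

theorem IsRep.exists_scalar {W : Affine K} {τ : K} (hτ : Transcendental k τ) {P : W.Point}
    {A B : k[X]} (h : IsRep τ P A B) :
    ∃ c : K, c ≠ 0 ∧ aeval τ A = c * P.xRep 0 ∧ aeval τ B = c * P.xRep 1 := by
  have hinj := aeval_injective_of_transcendental hτ
  have hne : ¬ (aeval τ A = 0 ∧ aeval τ B = 0) := by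
    rintro ⟨hA, hB⟩
    apply not_both_zero_of_isCoprime h.1
    exact ⟨hinj (by rw [hA, map_zero]), hinj (by rw [hB, map_zero])⟩
  obtain ⟨-, h2⟩ := h
  rcases P with _ | ⟨x, y, hxy⟩
  · rw [← Point.zero_def, Point.xRep_zero] at h2 ⊢
    simp only [Matrix.cons_val_zero, Matrix.cons_val_one, Matrix.cons_val_fin_one, one_mul,
      zero_mul] at h2 ⊢
    refine ⟨aeval τ A, fun h0 => hne ⟨h0, h2⟩, by simp, by simpa using h2⟩
  · rw [Point.xRep_some] at h2 ⊢
    simp only [Matrix.cons_val_zero, Matrix.cons_val_one, Matrix.cons_val_fin_one, one_mul] at h2 ⊢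
    refine ⟨aeval τ B, fun h0 => hne ⟨by rw [← h2, h0, mul_zero], h0⟩, by rw [← h2, mul_comm],
      by simp⟩

theorem aeval_addSubMap (W₀ : WeierstrassCurve k) (τ : K) (v : Fin 3 → k[X]) :
    (fun i => aeval τ ((addSubMap (W₀.map C) i).eval v)) =
      fun i => (addSubMap (W₀⁄K) i).eval (fun j => aeval τ (v j)) := by
  have e1 := eval_addSubMap (W₀.map C) v
  have e2 := eval_addSubMap (W₀⁄K) (fun j => aeval τ (v j))
  rw [e2]
  funext i
  rw [congrFun e1 i]
  simp only [WeierstrassCurve.baseChange, map_b₂, map_b₄, map_b₆, map_b₈]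
  fin_cases i <;> simp [map_ofNat]

theorem addSubMap_smul {R : Type*} [CommRing R] (W : WeierstrassCurve R) (c : R) (v : Fin 3 → R) :
    (fun i => (addSubMap W i).eval (c • v)) = c ^ 2 • fun i => (addSubMap W i).eval v := by
  rw [eval_addSubMap, eval_addSubMap]
  funext i
  fin_cases i <;> simp <;> ring

theorem aeval_sym2 {W : Affine K} {τ : K} {P Q : W.Point} {A₁ B₁ A₂ B₂ : k[X]} {c₁ c₂ : K}
    (hA₁ : aeval τ A₁ = c₁ * P.xRep 0) (hB₁ : aeval τ B₁ = c₁ * P.xRep 1)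
    (hA₂ : aeval τ A₂ = c₂ * Q.xRep 0) (hB₂ : aeval τ B₂ = c₂ * Q.xRep 1) :
    (fun j => aeval τ (sym2 A₁ B₁ A₂ B₂ j)) = (c₁ * c₂) • P.sym2x Q := by
  funext j
  fin_cases j
  · simp [sym2, Point.sym2x, hA₁, hA₂]; ring
  · simp [sym2, Point.sym2x, hA₁, hA₂, hB₁, hB₂]; ring
  · simp [sym2, Point.sym2x, hB₁, hB₂]; ring

/-- **The exact parallelogram law.** -/
theorem parallelogram (W₀ : WeierstrassCurve k) [W₀.IsElliptic] [DecidableEq K] {τ : K}
    (hτ : Transcendental k τ) {P Q : (W₀⁄K).Point} {n₁ n₂ n₃ n₄ : ℕ}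
    (h₁ : HasDeg k τ P n₁) (h₂ : HasDeg k τ Q n₂) (h₃ : HasDeg k τ (P + Q) n₃)
    (h₄ : HasDeg k τ (P - Q) n₄) : n₃ + n₄ = 2 * n₁ + 2 * n₂ := by
  obtain ⟨A₁, B₁, r₁, rfl⟩ := h₁
  obtain ⟨A₂, B₂, r₂, rfl⟩ := h₂
  obtain ⟨A₃, B₃, r₃, rfl⟩ := h₃
  obtain ⟨A₄, B₄, r₄, rfl⟩ := h₄
  obtain ⟨c₁, hc₁, a₁, b₁⟩ := r₁.exists_scalar hτ
  obtain ⟨c₂, hc₂, a₂, b₂⟩ := r₂.exists_scalar hτ
  obtain ⟨c₃, hc₃, a₃, b₃⟩ := r₃.exists_scalar hτ
  obtain ⟨c₄, hc₄, a₄, b₄⟩ := r₄.exists_scalar hτ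
  have : (W₀⁄K).IsElliptic := inferInstanceAs (W₀.map (algebraMap k K)).IsElliptic
  obtain ⟨c, hc, hadd⟩ := addSubMap_sym2x (W₀⁄K) P Q
  have p12 := prim3_sym2 r₁.1 r₂.1
  have p34 := prim3_sym2 r₃.1 r₄.1
  have pw := prim3_addSubMap (W₀.map C) p12
  have e12 := aeval_sym2 a₁ b₁ a₂ b₂
  have e34 := aeval_sym2 a₃ b₃ a₄ b₄
  have ew := aeval_addSubMap (K := K) W₀ τ (sym2 A₁ B₁ A₂ B₂)
  rw [e12, addSubMap_smul, hadd] at ew
  have key := H3_eq_of_proportional (aeval τ : k[X] →ₐ[k] K).toRingHom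
    (aeval_injective_of_transcendental hτ) pw p34
    (c := (c₁ * c₂) ^ 2 * c / (c₃ * c₄)) (fun i => by
      have h1 := congrFun ew i
      have h2 := congrFun e34 i
      simp only [AlgHom.toRingHom_eq_coe, RingHom.coe_coe]
      rw [h1, h2]
      simp only [Pi.smul_apply, smul_eq_mul]
      field_simp)
  rw [H3_addSubMap W₀ p12.ne_zero, H3_sym2 (not_both_zero_of_isCoprime r₁.1)
    (not_both_zero_of_isCoprime r₂.1), H3_sym2 (not_both_zero_of_isCoprime r₃.1)
    (not_both_zero_of_isCoprime r₄.1)] at key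
  omega


/-! ### further API (piece BR2) -/

theorem hasDeg_zero {W : Affine K} (τ : K) : HasDeg k τ (0 : W.Point) 0 := by
  refine ⟨1, 0, ⟨isCoprime_one_left, ?_⟩, ?_⟩
  · rw [Point.xRep_zero]; simp
  · simp [H2]

theorem HasDeg.neg {W : Affine K} {τ : K} {P : W.Point} {n : ℕ} (h : HasDeg k τ P n) :
    HasDeg k τ (-P) n := by
  obtain ⟨A, B, ⟨h1, h2⟩, h3⟩ := h
  exact ⟨A, B, ⟨h1, by rw [Point.xRep_neg]; exact h2⟩, h3⟩

theorem HasDeg.unique (W₀ : WeierstrassCurve k) [W₀.IsElliptic] [DecidableEq K] {τ : K}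
    (hτ : Transcendental k τ) {P : (W₀⁄K).Point} {n m : ℕ} (h : HasDeg k τ P n)
    (h' : HasDeg k τ P m) : n = m := by
  have := parallelogram W₀ hτ (P := P) (Q := 0) h (hasDeg_zero τ) (by rwa [add_zero])
    (by rwa [sub_zero])
  omega

/-- the generic point has degree `1`. -/
theorem hasDeg_generic {W : Affine K} {τ y : K} (h : W.Nonsingular τ y) :
    HasDeg k τ (Point.some τ y h) 1 := by
  refine ⟨X, 1, ⟨isCoprime_one_right, ?_⟩, ?_⟩
  · rw [Point.xRep_some]; simp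
  · simp [H2]

/-- every point whose `x`-coordinate lies in `k(τ)` has a degree. -/
theorem exists_hasDeg {W : Affine K} {τ x y : K} (h : W.Nonsingular x y)
    (hx : x ∈ IntermediateField.adjoin k {τ}) : ∃ n, HasDeg k τ (Point.some x y h) n := by
  classical
  obtain ⟨r, s, rfl⟩ := (IntermediateField.mem_adjoin_simple_iff k x).mp hx
  by_cases hs : aeval τ s = 0
  · refine ⟨_, 0, 1, ⟨isCoprime_one_right, ?_⟩, rfl⟩
    rw [Point.xRep_some]
    simp [hs]
  · have hs0 : s ≠ 0 := by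
      rintro rfl
      simp at hs
    refine ⟨_, r / gcd r s, s / gcd r s, ⟨isCoprime_div_gcd_div_gcd hs0, ?_⟩, rfl⟩
    rw [Point.xRep_some]
    simp only [Matrix.cons_val_zero, Matrix.cons_val_one, Matrix.cons_val_fin_one, one_mul]
    have e1 : r = gcd r s * (r / gcd r s) :=
      (EuclideanDomain.mul_div_cancel' (gcd_ne_zero_of_right hs0) (gcd_dvd_left r s)).symm
    have e2 : s = gcd r s * (s / gcd r s) :=
      (EuclideanDomain.mul_div_cancel' (gcd_ne_zero_of_right hs0) (gcd_dvd_right r s)).symm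
    generalize r / gcd r s = r' at *
    generalize s / gcd r s = s' at *
    generalize gcd r s = g at *
    subst e1 e2
    rw [map_mul, map_mul] at *
    have hg : aeval τ g ≠ 0 := left_ne_zero_of_mul hs
    have hs' : aeval τ s' ≠ 0 := right_ne_zero_of_mul hs
    field_simp

/-- a point of degree `0` is `0` or has its `x`-coordinate in `k`. -/
theorem HasDeg.eq_zero_or {W : Affine K} {τ : K} {P : W.Point} (h : HasDeg k τ P 0) :
    P = 0 ∨ ∃ (c : k) (y : K) (hxy : W.Nonsingular (algebraMap k K c) y),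
      P = Point.some (algebraMap k K c) y hxy := by
  obtain ⟨A, B, ⟨h1, h2⟩, h3⟩ := h
  have hA : A.natDegree = 0 := by
    have : A.natDegree ≤ H2 A B := le_max_left _ _
    omega
  have hB : B.natDegree = 0 := by
    have : B.natDegree ≤ H2 A B := le_max_right _ _
    omega
  obtain ⟨a, rfl⟩ := natDegree_eq_zero.mp hA
  obtain ⟨b, rfl⟩ := natDegree_eq_zero.mp hB
  rcases P with _ | ⟨x, y, hxy⟩
  · exact Or.inl rfl
  · right
    rw [Point.xRep_some] at h2
    simp only [Matrix.cons_val_zero, Matrix.cons_val_one, Matrix.cons_val_fin_one, one_mul,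
      aeval_C] at h2
    have hb : b ≠ 0 := by
      rintro rfl
      rw [map_zero, mul_zero] at h2
      have ha : a = 0 := (map_eq_zero (algebraMap k K)).mp h2.symm
      subst ha
      exact not_both_zero_of_isCoprime h1 ⟨by simp, by simp⟩
    have hx : x = algebraMap k K (a / b) := by
      rw [map_div₀, eq_div_iff ((_root_.map_ne_zero _).mpr hb), h2]
    subst hx
    exact ⟨a / b, y, hxy, rfl⟩

/-- Frobenius multiplies the degree by `ℓ`. -/
theorem HasDeg.frob {ℓ : ℕ} [Fact ℓ.Prime] {K : Type*} [Field K] [DecidableEq K]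
    [Algebra (ZMod ℓ) K] (W : WeierstrassCurve.Affine (ZMod ℓ)) {τ : K} {P : (W⁄K).Point} {n : ℕ}
    (h : HasDeg (ZMod ℓ) τ P n) : HasDeg (ZMod ℓ) τ (Fr ℓ K W P) (ℓ * n) := by
  obtain ⟨A, B, ⟨h1, h2⟩, rfl⟩ := h
  refine ⟨A ^ ℓ, B ^ ℓ, ⟨h1.pow, ?_⟩, ?_⟩
  · rcases P with _ | ⟨x, y, hxy⟩
    · have : Fr ℓ K W (Point.zero : (W⁄K).Point) = 0 := map_zero _
      rw [this, Point.xRep_zero]
      rw [← Point.zero_def, Point.xRep_zero] at h2
      simp only [Matrix.cons_val_zero, Matrix.cons_val_one, Matrix.cons_val_fin_one, one_mul,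
        zero_mul] at h2 ⊢
      rw [map_pow, h2, zero_pow (Fact.out : ℓ.Prime).ne_zero]
    · rw [Fr, Point.map_some, Point.xRep_some]
      rw [Point.xRep_some] at h2
      simp only [Matrix.cons_val_zero, Matrix.cons_val_one, Matrix.cons_val_fin_one, one_mul,
        frobAlg_apply] at h2 ⊢
      rw [map_pow, map_pow, ← mul_pow, h2]
  · rw [H2, H2, natDegree_pow, natDegree_pow, max_mul_mul_left]

end Fermat.Agent.S52
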