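import Fermat.Agent.S52.BFinal

/-! # S52, Part B: characteristic polynomial of Frobenius (Manin's elementary method). -/

set_option autoImplicit false

namespace Fermat.Agent.S52

open WeierstrassCurve WeierstrassCurve.Affine

/-- **Theorem B.** `2 (π² - a π + ℓ) = 0` on `E(K)`, `a = ℓ + 1 - #E(𝔽_ℓ)`, for `K` algebraically closed
containing an element transcendental over `𝔽_ℓ`. -/
theorem frob_charpoly (ℓ : ℕ) [Fact ℓ.Prime] (hℓ : 5 ≤ ℓ) (c4 c6 : ZMod ℓ) (hΔ : c4 ^ 3 - c6 ^ 2 ≠ 0)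
    (K : Type*) [Field K] [DecidableEq K] [Algebra (ZMod ℓ) K] [IsAlgClosed K]
    (τ : K) (hτ : Transcendental (ZMod ℓ) τ) (Q : ((EC c4 c6)⁄K).Point) :
    (2 : ℤ) • (Fr ℓ K (EC c4 c6) (Fr ℓ K (EC c4 c6) Q)
      - ((ℓ : ℤ) + 1 - (Nat.card (EC c4 c6).toAffine.Point : ℤ)) • Fr ℓ K (EC c4 c6) Q
      + (ℓ : ℤ) • Q) = 0 :=
  frob_charpoly' ℓ hℓ c4 c6 hΔ K τ hτ Q

end Fermat.Agent.S52
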