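import Fermat.Agent.S52.ThmA
import Fermat.Agent.S52.ThmB

/-! # S52: A + B ⟹ the point counts of `E` and `E'` over `𝔽_ℓ` agree mod 5 -/

set_option autoImplicit false

namespace Fermat.Agent.S52

open WeierstrassCurve WeierstrassCurve.Affine

/-- in an abelian group, `2 x = 0` and `5 x = 0` imply `x = 0`. -/
theorem ab_eq_zero {G : Type*} [AddCommGroup G] {x : G} (h2 : (2 : ℤ) • x = 0) (h5 : (5 : ℤ) • x = 0) :
    x = 0 := by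
  have : ((5 : ℤ) - 2 * 2) • x = 0 := by
    rw [sub_smul, mul_smul, h2, h5, smul_zero, sub_zero]
  simpa using this

/-- Theorem B on the 5-torsion, without the factor `2`. -/
theorem ab_frob (ℓ : ℕ) [Fact ℓ.Prime] (hℓ : 5 ≤ ℓ) (c4 c6 : ZMod ℓ) (hΔ : c4 ^ 3 - c6 ^ 2 ≠ 0)
    (K : Type*) [Field K] [DecidableEq K] [Algebra (ZMod ℓ) K] [IsAlgClosed K]
    (τ : K) (hτ : Transcendental (ZMod ℓ) τ) (Q : ((EC c4 c6)⁄K).Point) (hQ : (5 : ℤ) • Q = 0) :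
    Fr ℓ K (EC c4 c6) (Fr ℓ K (EC c4 c6) Q)
      - ((ℓ : ℤ) + 1 - (Nat.card (EC c4 c6).toAffine.Point : ℤ)) • Fr ℓ K (EC c4 c6) Q
      + (ℓ : ℤ) • Q = 0 := by
  apply ab_eq_zero (frob_charpoly ℓ hℓ c4 c6 hΔ K τ hτ Q)
  have h1 : (5 : ℤ) • Fr ℓ K (EC c4 c6) Q = 0 := by
    rw [← map_zsmul, hQ, map_zero]
  have h2 : (5 : ℤ) • Fr ℓ K (EC c4 c6) (Fr ℓ K (EC c4 c6) Q) = 0 := by
    rw [← map_zsmul, h1, map_zero]
  rw [smul_add, smul_sub, h2, smul_comm, h1, smul_zero, smul_comm, hQ, smul_zero]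
  simp

/-- A + B: the point counts of `E` and `E'` over `𝔽_ℓ` agree mod 5. -/
theorem card_congr' (ℓ : ℕ) [Fact ℓ.Prime] (hℓ : 7 ≤ ℓ) (c4 c6 μ : ZMod ℓ) (hΔ : c4 ^ 3 - c6 ^ 2 ≠ 0)
    (hD : bD c4 c6 μ ≠ 0)
    (hdisc : bc4 c4 c6 μ ^ 3 - bc6 c4 c6 μ ^ 2 = (c4 ^ 3 - c6 ^ 2) * bD c4 c6 μ ^ 5) :
    (5 : ℤ) ∣ (Nat.card (EC (bc4 c4 c6 μ) (bc6 c4 c6 μ)).toAffine.Point : ℤ)
      - (Nat.card (EC c4 c6).toAffine.Point : ℤ) := by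
  classical
  let K := AlgebraicClosure (RatFunc (ZMod ℓ))
  let τ : K := algebraMap (RatFunc (ZMod ℓ)) K RatFunc.X
  have hτ : Transcendental (ZMod ℓ) τ := by
    have h1 : Transcendental (ZMod ℓ) (RatFunc.X : RatFunc (ZMod ℓ)) := by
      have h0 : Transcendental (ZMod ℓ) (Polynomial.X : Polynomial (ZMod ℓ)) :=
        Polynomial.transcendental_X (ZMod ℓ)
      have h2 : (RatFunc.X : RatFunc (ZMod ℓ)) =
          algebraMap (Polynomial (ZMod ℓ)) (RatFunc (ZMod ℓ)) Polynomial.X :=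
        RatFunc.algebraMap_X.symm
      rw [h2]
      exact (transcendental_algebraMap_iff
        (RatFunc.algebraMap_injective (ZMod ℓ))).mpr h0
    exact (transcendental_algebraMap_iff (algebraMap (RatFunc (ZMod ℓ)) K).injective).mpr h1
  have hΔ' : bc4 c4 c6 μ ^ 3 - bc6 c4 c6 μ ^ 2 ≠ 0 := by
    rw [hdisc]
    exact mul_ne_zero hΔ (pow_ne_zero 5 hD)
  have h5 : 5 ≤ ℓ := by omega
  have key := five_congr ℓ hℓ c4 c6 μ hΔ hD K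
    ((ℓ : ℤ) + 1 - (Nat.card (EC c4 c6).toAffine.Point : ℤ))
    ((ℓ : ℤ) + 1 - (Nat.card (EC (bc4 c4 c6 μ) (bc6 c4 c6 μ)).toAffine.Point : ℤ))
    (fun Q hQ => ab_frob ℓ h5 c4 c6 hΔ K τ hτ Q hQ)
    (fun Q hQ => ab_frob ℓ h5 _ _ hΔ' K τ hτ Q hQ)
  have e : (Nat.card (EC (bc4 c4 c6 μ) (bc6 c4 c6 μ)).toAffine.Point : ℤ)
      - (Nat.card (EC c4 c6).toAffine.Point : ℤ) =
      ((ℓ : ℤ) + 1 - (Nat.card (EC c4 c6).toAffine.Point : ℤ)) -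
      ((ℓ : ℤ) + 1 - (Nat.card (EC (bc4 c4 c6 μ) (bc6 c4 c6 μ)).toAffine.Point : ℤ)) := by ring
  rw [e]
  exact key

end Fermat.Agent.S52
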