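import Fermat.Agent.S52.DDefs

/-!
# S52, piece D1: abstract `p`-adic Hilbert irreducibility (Sprindzhuk style), Mathlib only

`H(μ,Y) = Y^4 + A2(μ) Y^2 + A1(μ) Y + A0(μ)`, `A_i ∈ ℤ[μ]`.

Paper proof.  `w := max natDegree A_i`, `N := w + 1` (any `N ≥ w`, `N ≥ 1`).
* (APP) `exists_approx`: for every `y₀ ∈ S` there is `P ∈ ℚ[X]`, `natDegree P ≤ N`, `P(0) = y₀`,
  `X^(N+1) ∣ H(X, P)` in `ℚ[X]`.  Induction on `N`: `P₀ = C y₀`; `P_{N+1} = P_N + C c * X^(N+1)`,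
  `H(X,P_N) = X^(N+1) g`, `c = - g(0) / δ`, `δ = quartD .. y₀ ≠ 0` (`quart_add` in the ring `ℚ[X]`;
  `quartD (..) P_N` has constant coefficient `δ`).
* Let `D > 0` clear the denominators of all the `P` and of all the `g` (`H(X,P) = X^(N+1) g`).  Take
  `m = M * D * p^k`, `k` large.  Then `q := P(m) ∈ ℤ`, `p^k ∣ q - y₀`, `m^(N+1) ∣ D * H(m,q)`.
* Suppose `H(m,y) = 0`, `y ∈ ℤ`.  `H(0,y) ≡ H(m,y) = 0 mod m`, so `p^k ∣ H(0,y)`; by `h2` (with
  `n = s + 1`, `p^(s+1) ∤ δ` for all `y₀ ∈ S`) there is `y₀ ∈ S` with `p^(s+1) ∣ y - y₀`.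
  `quart_add`: `H(m,q) = H(m,y) + (q - y) T`, `T = quartD(m,y) + (q-y)(..) ≡ δ mod p^(s+1)`, so `p^(s+1) ∤ T`;
  hence `p^((N+1)k - s) ∣ D (q - y)`.
* size: `|y| ≤ 1 + |A2 m| + |A1 m| + |A0 m| ≤ C |m|^w` (Cauchy bound), `|q| ≤ C' |m|^N`; so
  `|D (q-y)| ≤ C'' (|M| D)^N p^(kN) < p^((N+1)k - s)` for `k` large: `y = q`.
* then `H(X,P)` (a nonzero polynomial by `h3`) vanishes at `m = M D p^k`: impossible for `k` large.
-/

set_option autoImplicit false

namespace Fermat.Agent.S52.HI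

open Polynomial

theorem exists_approx (B2 B1 B0 : ℚ[X]) (y0 : ℚ)
    (h0 : quart (B2.eval 0) (B1.eval 0) (B0.eval 0) y0 = 0)
    (hδ : quartD (B2.eval 0) (B1.eval 0) y0 ≠ 0) (N : ℕ) :
    ∃ P : ℚ[X], P.natDegree ≤ N ∧ P.eval 0 = y0 ∧ X ^ (N + 1) ∣ quart B2 B1 B0 P := by
  induction N with
  | zero =>
    refine ⟨C y0, by simp, by simp, ?_⟩
    rw [zero_add, pow_one, X_dvd_iff, coeff_zero_eq_eval_zero]
    have := map_quart (evalRingHom (0 : ℚ)) B2 B1 B0 (C y0)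
    simp only [coe_evalRingHom, eval_C] at this
    rw [this, h0]
  | succ N ih =>
    obtain ⟨P, hdeg, hP0, g, hg⟩ := ih
    set c : ℚ := - g.eval 0 / quartD (B2.eval 0) (B1.eval 0) y0 with hc
    refine ⟨P + C c * X ^ (N + 1), ?_, ?_, ?_⟩
    · refine natDegree_add_le_of_degree_le (by omega) (natDegree_C_mul_X_pow_le _ _)
    · simp [hP0]
    · have hX : X ∣ g + quartD B2 B1 P * C c := by
        rw [X_dvd_iff, coeff_zero_eq_eval_zero]
        have := map_quartD (evalRingHom (0 : ℚ)) B2 B1 P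
        simp only [coe_evalRingHom] at this
        rw [eval_add, eval_mul, this, hP0, eval_C, hc]
        field_simp
        ring
      obtain ⟨r, hr⟩ := hX
      refine ⟨r + X ^ N * (C c) ^ 2 * (6 * P ^ 2 + 4 * P * (C c * X ^ (N + 1))
        + (C c * X ^ (N + 1)) ^ 2 + B2), ?_⟩
      rw [quart_add, hg]
      linear_combination X ^ (N + 1) * hr

theorem abs_eval_le (F : ℤ[X]) (N : ℕ) (hF : F.natDegree ≤ N) :
    ∃ L : ℤ, 0 ≤ L ∧ ∀ m : ℤ, 1 ≤ |m| → |F.eval m| ≤ L * |m| ^ N := by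
  refine ⟨∑ i ∈ Finset.range (N + 1), |F.coeff i|, Finset.sum_nonneg (fun _ _ => abs_nonneg _), ?_⟩
  intro m hm
  rw [eval_eq_sum_range' (Nat.lt_succ_of_le hF), Finset.sum_mul]
  refine (Finset.abs_sum_le_sum_abs _ _).trans (Finset.sum_le_sum ?_)
  intro i hi
  rw [abs_mul, abs_pow]
  exact mul_le_mul_of_nonneg_left
    (pow_le_pow_right₀ hm (Nat.lt_succ_iff.mp (Finset.mem_range.mp hi))) (abs_nonneg _)

theorem cauchy_bound (a b c y : ℤ) (h : quart a b c y = 0) : |y| ≤ 1 + |a| + |b| + |c| := by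
  by_contra hcon
  rw [not_le] at hcon
  have ha := abs_nonneg a
  have hb := abs_nonneg b
  have hc := abs_nonneg c
  set Y := |y| with hY
  have hY1 : 1 ≤ Y := by linarith
  have e : Y ^ 4 = |a * y ^ 2 + b * y + c| := by
    have : y ^ 4 = -(a * y ^ 2 + b * y + c) := by
      simp only [quart] at h
      linear_combination h
    rw [hY, ← abs_pow, this, abs_neg]
  have e2 : |a * y ^ 2 + b * y + c| ≤ |a| * Y ^ 2 + |b| * Y + |c| := by
    refine (abs_add_le _ _).trans ?_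
    refine add_le_add ((abs_add_le _ _).trans ?_) le_rfl
    rw [abs_mul, abs_mul, abs_pow]
  have hYY : Y ≤ Y ^ 2 := by nlinarith
  have e3 : |a| * Y ^ 2 + |b| * Y + |c| ≤ (|a| + |b| + |c|) * Y ^ 2 := by nlinarith
  have e4 : Y ^ 2 * Y ^ 2 ≤ (|a| + |b| + |c|) * Y ^ 2 := by
    calc Y ^ 2 * Y ^ 2 = Y ^ 4 := by ring
      _ ≤ _ := by rw [e]; exact e2.trans e3
  have hpos : 0 < Y ^ 2 := by positivity
  have := le_of_mul_le_mul_right e4 hpos
  nlinarith

theorem pow_dvd_of_mul (p : ℤ) (hp : Prime p) (s : ℕ) : ∀ (a : ℕ) (x T : ℤ), p ^ a ∣ x * T →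
    ¬ p ^ (s + 1) ∣ T → p ^ (a - s) ∣ x := by
  induction s with
  | zero =>
    intro a x T h hT
    rw [zero_add, pow_one] at hT
    exact hp.pow_dvd_of_dvd_mul_right a hT h
  | succ s ih =>
    intro a x T h hT
    by_cases hpT : p ∣ T
    · obtain ⟨T', rfl⟩ := hpT
      rcases a with _ | a
      · simp
      · have h1 : p ^ a ∣ x * T' := by
          have : p * p ^ a ∣ p * (x * T') := by
            have e : p * (x * T') = x * (p * T') := by ring
            rw [e, ← pow_succ']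
            exact h
          exact (mul_dvd_mul_iff_left hp.ne_zero).mp this
        have h2 : ¬ p ^ (s + 1) ∣ T' := by
          intro hd
          apply hT
          rw [pow_succ']
          exact mul_dvd_mul_left p hd
        have := ih a x T' h1 h2
        rwa [Nat.add_sub_add_right]
    · exact (pow_dvd_pow p (Nat.sub_le _ _)).trans (hp.pow_dvd_of_dvd_mul_right a hpT h)

theorem exists_int_mul (P : ℚ[X]) : ∃ (D : ℤ) (P' : ℤ[X]), D ≠ 0 ∧
    P'.map (Int.castRingHom ℚ) = C (D : ℚ) * P := by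
  obtain ⟨b, hb0, hb⟩ := IsLocalization.integerNormalization_spec (nonZeroDivisors ℤ) P
  refine ⟨b, IsLocalization.integerNormalization (nonZeroDivisors ℤ) P,
    nonZeroDivisors.ne_zero hb0, ?_⟩
  rw [algebraMap_int_eq] at hb
  rw [hb, zsmul_eq_mul, map_intCast (C : ℚ →+* ℚ[X])]

theorem eval_cast_map (A : ℤ[X]) (m : ℤ) :
    (A.map (Int.castRingHom ℚ)).eval (m : ℚ) = ((A.eval m : ℤ) : ℚ) := by
  have := eval_intCast_map (Int.castRingHom ℚ) A m
  simp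

theorem exists_data (A2 A1 A0 : ℤ[X]) (y0 : ℤ)
    (h0 : quart (A2.eval 0) (A1.eval 0) (A0.eval 0) y0 = 0)
    (hδ : quartD (A2.eval 0) (A1.eval 0) y0 ≠ 0)
    (h3 : ∀ P : ℚ[X], quart (A2.map (Int.castRingHom ℚ)) (A1.map (Int.castRingHom ℚ))
      (A0.map (Int.castRingHom ℚ)) P ≠ 0) (N : ℕ) :
    ∃ (D1 D2 : ℤ) (P' g' : ℤ[X]), D1 ≠ 0 ∧ D2 ≠ 0 ∧ g' ≠ 0 ∧ P'.natDegree ≤ N ∧
      ∀ m' : ℤ, ∃ q : ℤ, m' ∣ q - y0 ∧ D1 * q = P'.eval (D1 * m') ∧
        D2 * quart (A2.eval (D1 * m')) (A1.eval (D1 * m')) (A0.eval (D1 * m')) q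
          = (D1 * m') ^ (N + 1) * g'.eval (D1 * m') := by
  have h0' : quart ((A2.map (Int.castRingHom ℚ)).eval 0) ((A1.map (Int.castRingHom ℚ)).eval 0)
      ((A0.map (Int.castRingHom ℚ)).eval 0) (y0 : ℚ) = 0 := by
    have := map_quart (Int.castRingHom ℚ) (A2.eval 0) (A1.eval 0) (A0.eval 0) y0
    rw [h0, map_zero] at this
    rw [eval_zero_map, eval_zero_map, eval_zero_map]
    exact this.symm
  have hδ' : quartD ((A2.map (Int.castRingHom ℚ)).eval 0) ((A1.map (Int.castRingHom ℚ)).eval 0)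
      (y0 : ℚ) ≠ 0 := by
    have := map_quartD (Int.castRingHom ℚ) (A2.eval 0) (A1.eval 0) y0
    rw [eval_zero_map, eval_zero_map]
    intro h
    apply hδ
    have h' : (Int.castRingHom ℚ) (quartD (A2.eval 0) (A1.eval 0) y0) = 0 := by
      rw [this]; exact h
    simpa using h'
  obtain ⟨P, hdeg, hP0, g, hg⟩ := exists_approx _ _ _ _ h0' hδ' N
  obtain ⟨D1, P', hD1, hP'⟩ := exists_int_mul P
  obtain ⟨D2, g', hD2, hg'⟩ := exists_int_mul g
  have hD1' : (D1 : ℚ) ≠ 0 := by exact_mod_cast hD1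
  have hD2' : (D2 : ℚ) ≠ 0 := by exact_mod_cast hD2
  refine ⟨D1, D2, P', g', hD1, hD2, ?_, ?_, ?_⟩
  · rintro rfl
    rw [Polynomial.map_zero] at hg'
    have hg0 : g = 0 := by
      rcases mul_eq_zero.mp hg'.symm with h | h
      · exact absurd (C_eq_zero.mp h) hD2'
      · exact h
    apply h3 P
    rw [hg, hg0, mul_zero]
  · rw [← natDegree_map_eq_of_injective (f := Int.castRingHom ℚ) Int.cast_injective, hP']
    exact (natDegree_C_mul_le _ _).trans hdeg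
  · intro m'
    have hc0 : P'.coeff 0 = D1 * y0 := by
      have : ((P'.coeff 0 : ℤ) : ℚ) = D1 * y0 := by
        have h := congrArg (eval (0 : ℚ)) hP'
        rw [eval_zero_map, eval_mul, eval_C, hP0, ← coeff_zero_eq_eval_zero] at h
        simpa using h
      exact_mod_cast this
    set m : ℤ := D1 * m' with hm
    set q : ℤ := y0 + (divX P').eval m * m' with hq
    have hq1 : D1 * q = P'.eval m := by
      conv_rhs => rw [← divX_mul_X_add P']
      rw [eval_add, eval_mul, eval_X, eval_C, hc0, hq, hm]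
      ring
    refine ⟨q, ⟨(divX P').eval m, by rw [hq]; ring⟩, hq1, ?_⟩
    have hqP : P.eval (m : ℚ) = (q : ℚ) := by
      have h := congrArg (eval (m : ℚ)) hP'
      rw [eval_cast_map, eval_mul, eval_C, ← hq1] at h
      push_cast at h
      exact (mul_left_cancel₀ hD1' h).symm
    have hgg : (D2 : ℚ) * g.eval (m : ℚ) = ((g'.eval m : ℤ) : ℚ) := by
      have h := congrArg (eval (m : ℚ)) hg'
      rw [eval_cast_map, eval_mul, eval_C] at h
      exact h.symm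
    have hev := congrArg (eval (m : ℚ)) hg
    have hmq := map_quart (evalRingHom (m : ℚ)) (A2.map (Int.castRingHom ℚ))
      (A1.map (Int.castRingHom ℚ)) (A0.map (Int.castRingHom ℚ)) P
    simp only [coe_evalRingHom] at hmq
    rw [hmq, eval_cast_map, eval_cast_map, eval_cast_map, hqP, eval_mul, eval_pow, eval_X] at hev
    have hcast := map_quart (Int.castRingHom ℚ) (A2.eval m) (A1.eval m) (A0.eval m) q
    simp only [eq_intCast] at hcast
    have : ((D2 * quart (A2.eval m) (A1.eval m) (A0.eval m) q : ℤ) : ℚ)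
        = ((m ^ (N + 1) * g'.eval m : ℤ) : ℚ) := by
      push_cast
      rw [hcast, hev, ← hgg]
      ring
    exact_mod_cast this

theorem core (A2 A1 A0 : ℤ[X]) (p : ℕ) (hp : p.Prime) (y0 : ℤ)
    (h0 : quart (A2.eval 0) (A1.eval 0) (A0.eval 0) y0 = 0)
    (hδ : quartD (A2.eval 0) (A1.eval 0) y0 ≠ 0)
    (h3 : ∀ P : ℚ[X], quart (A2.map (Int.castRingHom ℚ)) (A1.map (Int.castRingHom ℚ))
      (A0.map (Int.castRingHom ℚ)) P ≠ 0) :
    ∃ D0 : ℤ, D0 ≠ 0 ∧ ∀ D : ℤ, D ≠ 0 → D0 ∣ D → ∃ n : ℕ, ∀ᶠ k : ℕ in Filter.atTop,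
      ∀ y : ℤ, (p : ℤ) ^ n ∣ y - y0 →
        quart (A2.eval (D * (p : ℤ) ^ k)) (A1.eval (D * (p : ℤ) ^ k)) (A0.eval (D * (p : ℤ) ^ k)) y
          ≠ 0 := by
  set N := A2.natDegree + A1.natDegree + A0.natDegree + 1 with hN
  obtain ⟨D1, D2, P', g', hD1, hD2, hg', hdeg, hdata⟩ := exists_data A2 A1 A0 y0 h0 hδ h3 N
  obtain ⟨L2, hL2, hA2⟩ := abs_eval_le A2 N (by omega)
  obtain ⟨L1, hL1, hA1⟩ := abs_eval_le A1 N (by omega)
  obtain ⟨L0, hL0, hA0⟩ := abs_eval_le A0 N (by omega)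
  obtain ⟨LP, hLP, hAP⟩ := abs_eval_le P' N hdeg
  refine ⟨D1, hD1, ?_⟩
  rintro D hD ⟨D', rfl⟩
  set δ := quartD (A2.eval 0) (A1.eval 0) y0 with hδdef
  have hpP : Prime (p : ℤ) := Nat.prime_iff_prime_int.mp hp
  have hp1 : (1 : ℤ) < p := by exact_mod_cast hp.one_lt
  have hp0 : (0 : ℤ) < p := by linarith
  obtain ⟨s, hs⟩ : ∃ s : ℕ, ¬ (p : ℤ) ^ (s + 1) ∣ δ := by
    refine ⟨δ.natAbs, fun h => ?_⟩
    have h1 : (p : ℤ) ^ (δ.natAbs + 1) ≤ |δ| :=
      Int.le_of_dvd (abs_pos.mpr hδ) ((dvd_abs _ _).mpr h)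
    have h2 : δ.natAbs + 1 < p ^ (δ.natAbs + 1) := Nat.lt_pow_self hp.one_lt
    have h3 : ((p ^ (δ.natAbs + 1) : ℕ) : ℤ) ≤ δ.natAbs := by
      push_cast
      exact h1
    have h4 : p ^ (δ.natAbs + 1) ≤ δ.natAbs := by exact_mod_cast h3
    omega
  refine ⟨s + 1, ?_⟩
  set C3 : ℤ := |D2| * (LP + (1 + L2 + L1 + L0)) * |D1 * D'| ^ N * (p : ℤ) ^ s with hC3
  have ev1 := Filter.eventually_ge_atTop (s + 1)
  have ev2 : ∀ᶠ k : ℕ in Filter.atTop, C3 < (p : ℤ) ^ k :=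
    (tendsto_pow_atTop_atTop_of_one_lt hp1).eventually_gt_atTop C3
  have ev3 : ∀ᶠ k : ℕ in Filter.atTop, g'.eval (D1 * D' * (p : ℤ) ^ k) ≠ 0 := by
    have hinj : Function.Injective (fun k : ℕ => D1 * D' * (p : ℤ) ^ k) := by
      intro a b hab
      exact pow_right_injective₀ hp0 hp1.ne' (mul_left_cancel₀ hD hab)
    have hfin : {k : ℕ | g'.eval (D1 * D' * (p : ℤ) ^ k) = 0}.Finite := by
      have : {k : ℕ | g'.eval (D1 * D' * (p : ℤ) ^ k) = 0}
          = (fun k : ℕ => D1 * D' * (p : ℤ) ^ k) ⁻¹' (g'.roots.toFinset : Set ℤ) := by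
        ext k
        simp [hg']
      rw [this]
      exact (Finset.finite_toSet _).preimage hinj.injOn
    have := hfin.eventually_cofinite_notMem
    rw [Nat.cofinite_eq_atTop] at this
    exact this
  filter_upwards [ev1, ev2, ev3] with k hk1 hk2 hk3 y hy hH
  obtain ⟨q, hq0, hq1, hq2⟩ := hdata (D' * (p : ℤ) ^ k)
  rw [← mul_assoc] at hq1 hq2
  set m : ℤ := D1 * D' * (p : ℤ) ^ k with hm
  have hm0 : m ≠ 0 := mul_ne_zero hD (pow_ne_zero _ hp0.ne')
  have hm1 : 1 ≤ |m| := Int.one_le_abs hm0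
  set E : ℤ := q - y with hE
  set T : ℤ := quartD (A2.eval m) (A1.eval m) y
    + E * (6 * y ^ 2 + 4 * y * E + E ^ 2 + A2.eval m) with hT
  have hqE : quart (A2.eval m) (A1.eval m) (A0.eval m) q = E * T := by
    have := quart_add (A2.eval m) (A1.eval m) (A0.eval m) y E
    rw [hH] at this
    have e : y + E = q := by rw [hE]; ring
    rw [e] at this
    rw [this, hT]
    ring
  -- `T ≡ δ`
  have hPk : (p : ℤ) ^ (s + 1) ∣ (p : ℤ) ^ k := pow_dvd_pow _ hk1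
  have hPm : (p : ℤ) ^ (s + 1) ∣ m := hPk.trans (Dvd.intro_left _ rfl)
  have hTnd : ¬ (p : ℤ) ^ (s + 1) ∣ T := by
    intro hdvd
    apply hs
    obtain ⟨u, hu⟩ := hy
    obtain ⟨z, hz⟩ : (p : ℤ) ^ (s + 1) ∣ E := by
      have h1 : (p : ℤ) ^ (s + 1) ∣ q - y0 := (hPk.trans (Dvd.intro_left _ rfl)).trans hq0
      have : E = (q - y0) - (y - y0) := by rw [hE]; ring
      rw [this]
      exact dvd_sub h1 ⟨u, hu⟩
    obtain ⟨v, hv⟩ : (p : ℤ) ^ (s + 1) ∣ A2.eval m - A2.eval 0 := by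
      have := sub_dvd_eval_sub m 0 A2
      rw [sub_zero] at this
      exact hPm.trans this
    obtain ⟨w, hw⟩ : (p : ℤ) ^ (s + 1) ∣ A1.eval m - A1.eval 0 := by
      have := sub_dvd_eval_sub m 0 A1
      rw [sub_zero] at this
      exact hPm.trans this
    have hTδ : T - δ = (p : ℤ) ^ (s + 1) * (4 * u * (y ^ 2 + y * y0 + y0 ^ 2)
        + 2 * (v * y + A2.eval 0 * u) + w + z * (6 * y ^ 2 + 4 * y * E + E ^ 2 + A2.eval m)) := by
      rw [hT, hδdef]
      simp only [quartD]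
      linear_combination 4 * (y ^ 2 + y * y0 + y0 ^ 2) * hu + 2 * y * hv + 2 * A2.eval 0 * hu + hw
        + (6 * y ^ 2 + 4 * y * E + E ^ 2 + A2.eval m) * hz
    have : δ = T - (T - δ) := by ring
    rw [this]
    exact dvd_sub hdvd ⟨_, hTδ⟩
  have hdiv : (p : ℤ) ^ (k * (N + 1)) ∣ D2 * E * T := by
    rw [mul_assoc, ← hqE, hq2, hm, mul_pow, ← pow_mul]
    exact Dvd.intro_left _ rfl |>.mul_right _
  have hdiv2 := pow_dvd_of_mul (p : ℤ) hpP s _ _ _ hdiv hTnd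
  by_cases hE0 : E = 0
  · rw [hqE, hE0, zero_mul, mul_zero] at hq2
    rcases mul_eq_zero.mp hq2.symm with h | h
    · exact hm0 (pow_eq_zero_iff (by omega) |>.mp h)
    · exact hk3 h
  · have hDE : D2 * E ≠ 0 := mul_ne_zero hD2 hE0
    have hle : (p : ℤ) ^ (k * (N + 1) - s) ≤ |D2 * E| :=
      Int.le_of_dvd (abs_pos.mpr hDE) ((dvd_abs _ _).mpr hdiv2)
    have hmN : 1 ≤ |m| ^ N := one_le_pow₀ hm1
    have hy' : |y| ≤ (1 + L2 + L1 + L0) * |m| ^ N := by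
      have := cauchy_bound _ _ _ _ hH
      have a2 := hA2 m hm1
      have a1 := hA1 m hm1
      have a0 := hA0 m hm1
      have e : (1 + L2 + L1 + L0) * |m| ^ N = |m| ^ N + L2 * |m| ^ N + L1 * |m| ^ N + L0 * |m| ^ N := by
        ring
      rw [e]
      linarith
    have hq' : |q| ≤ LP * |m| ^ N := by
      have h1 : |q| ≤ |D1 * q| := by
        rw [abs_mul]
        have : 1 ≤ |D1| := Int.one_le_abs hD1
        exact le_mul_of_one_le_left (abs_nonneg q) this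
      rw [hq1] at h1
      exact h1.trans (hAP m hm1)
    have hE' : |E| ≤ (LP + (1 + L2 + L1 + L0)) * |m| ^ N := by
      have : |E| ≤ |q| + |y| := by rw [hE]; exact abs_sub _ _
      rw [add_mul]
      linarith
    have hmabs : |m| ^ N = |D1 * D'| ^ N * (p : ℤ) ^ (k * N) := by
      rw [hm, abs_mul, mul_pow, abs_pow, abs_of_pos hp0, ← pow_mul]
    have hsk : s ≤ k * (N + 1) := by nlinarith
    have key : (p : ℤ) ^ (k * N) * (p : ℤ) ^ k ≤ (p : ℤ) ^ (k * N) * C3 := by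
      calc (p : ℤ) ^ (k * N) * (p : ℤ) ^ k = (p : ℤ) ^ (k * (N + 1) - s) * (p : ℤ) ^ s := by
            rw [← pow_add, ← pow_add]
            congr 1
            rw [Nat.sub_add_cancel hsk]
            ring
        _ ≤ |D2 * E| * (p : ℤ) ^ s := mul_le_mul_of_nonneg_right hle (by positivity)
        _ ≤ (|D2| * ((LP + (1 + L2 + L1 + L0)) * |m| ^ N)) * (p : ℤ) ^ s := by
            rw [abs_mul]
            exact mul_le_mul_of_nonneg_right
              (mul_le_mul_of_nonneg_left hE' (abs_nonneg _)) (by positivity)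
        _ = (p : ℤ) ^ (k * N) * C3 := by
            rw [hmabs, hC3]
            ring
    have := le_of_mul_le_mul_left key (by positivity)
    linarith

theorem hilbert_padic (A2 A1 A0 : ℤ[X]) (p : ℕ) (hp : p.Prime) (S : Finset ℤ)
    (h1 : ∀ y ∈ S, quart (A2.eval 0) (A1.eval 0) (A0.eval 0) y = 0 ∧
      quartD (A2.eval 0) (A1.eval 0) y ≠ 0)
    (h2 : ∀ n : ℕ, ∃ k : ℕ, ∀ y : ℤ, (p : ℤ) ^ k ∣ quart (A2.eval 0) (A1.eval 0) (A0.eval 0) y →
      ∃ y₀ ∈ S, (p : ℤ) ^ n ∣ y - y₀)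
    (h3 : ∀ P : ℚ[X], quart (A2.map (Int.castRingHom ℚ)) (A1.map (Int.castRingHom ℚ))
      (A0.map (Int.castRingHom ℚ)) P ≠ 0)
    (M : ℤ) (hM : M ≠ 0) :
    ∃ m : ℤ, M ∣ m ∧ ∀ y : ℤ, quart (A2.eval m) (A1.eval m) (A0.eval m) y ≠ 0 := by
  classical
  have hcore := fun y0 (hy0 : y0 ∈ S) => core A2 A1 A0 p hp y0 (h1 y0 hy0).1 (h1 y0 hy0).2 h3
  choose! D0 hD0 hD0' using hcore
  set D : ℤ := M * ∏ y ∈ S, D0 y with hDdef
  have hD : D ≠ 0 := mul_ne_zero hM (Finset.prod_ne_zero_iff.mpr hD0)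
  have hn := fun y0 (hy0 : y0 ∈ S) =>
    hD0' y0 hy0 D hD ((Finset.dvd_prod_of_mem D0 hy0).mul_left M)
  choose! n hn using hn
  obtain ⟨k0, hk0⟩ := h2 (S.sup n)
  have ev := (Filter.eventually_all_finset S).mpr hn
  obtain ⟨k, hk, hkk⟩ := (ev.and (Filter.eventually_ge_atTop k0)).exists
  refine ⟨D * (p : ℤ) ^ k, (Dvd.intro _ rfl).mul_right _, ?_⟩
  intro y hy
  set m : ℤ := D * (p : ℤ) ^ k with hm
  have hpm : (p : ℤ) ^ k0 ∣ m := (pow_dvd_pow _ hkk).trans (Dvd.intro_left _ rfl)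
  have hA : ∀ A : ℤ[X], (p : ℤ) ^ k0 ∣ A.eval m - A.eval 0 := by
    intro A
    have := sub_dvd_eval_sub m 0 A
    rw [sub_zero] at this
    exact hpm.trans this
  have hdvd : (p : ℤ) ^ k0 ∣ quart (A2.eval 0) (A1.eval 0) (A0.eval 0) y := by
    have e : quart (A2.eval 0) (A1.eval 0) (A0.eval 0) y
        = -((A2.eval m - A2.eval 0) * y ^ 2 + (A1.eval m - A1.eval 0) * y
          + (A0.eval m - A0.eval 0)) := by
      simp only [quart] at hy ⊢
      linear_combination hy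
    rw [e]
    exact (dvd_neg).mpr (dvd_add (dvd_add ((hA A2).mul_right _) ((hA A1).mul_right _)) (hA A0))
  obtain ⟨y0, hy0, hd⟩ := hk0 y hdvd
  exact hk y0 hy0 y ((pow_dvd_pow _ (Finset.le_sup hy0)).trans hd) hy

end Fermat.Agent.S52.HI
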