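import Fermat.Agent.S52.Family

/-!
# S52, Part D (elementary Hilbert irreducibility): common definitions

`psi3EC c4 c6 X` = 3-division polynomial of `y^2 = x^3 - 27 c4 x - 54 c6`.
With `a = -27 c4`, `b = -54 c6`, `Y = 3 X`:  `27 * psi3EC c4 c6 X = quart (18 a) (108 b) (-27 a^2) Y`.
-/

set_option autoImplicit false

namespace Fermat.Agent.S52

/-- The 3-division polynomial of `EC c4 c6`. -/
def psi3EC {R : Type*} [CommRing R] (c4 c6 X : R) : R :=
  3 * X ^ 4 + 6 * (-27 * c4) * X ^ 2 + 12 * (-54 * c6) * X - (-27 * c4) ^ 2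

namespace HI

variable {R S : Type*} [CommRing R] [CommRing S]

/-- the depressed monic quartic `Y^4 + A2 Y^2 + A1 Y + A0`. -/
def quart (A2 A1 A0 Y : R) : R := Y ^ 4 + A2 * Y ^ 2 + A1 * Y + A0

/-- its derivative in `Y`. -/
def quartD (A2 A1 Y : R) : R := 4 * Y ^ 3 + 2 * A2 * Y + A1

theorem quart_add (A2 A1 A0 Y E : R) :
    quart A2 A1 A0 (Y + E) = quart A2 A1 A0 Y + quartD A2 A1 Y * E
      + E ^ 2 * (6 * Y ^ 2 + 4 * Y * E + E ^ 2 + A2) := by
  simp only [quart, quartD]; ring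

theorem map_quart (φ : R →+* S) (A2 A1 A0 Y : R) :
    φ (quart A2 A1 A0 Y) = quart (φ A2) (φ A1) (φ A0) (φ Y) := by
  simp only [quart, map_add, map_mul, map_pow]

theorem map_quartD (φ : R →+* S) (A2 A1 Y : R) :
    φ (quartD A2 A1 Y) = quartD (φ A2) (φ A1) (φ Y) := by
  simp only [quartD, map_add, map_mul, map_pow, map_ofNat]

theorem quart_eq_psi3EC (c4 c6 X : R) :
    quart (18 * (-27 * c4)) (108 * (-54 * c6)) (-27 * (-27 * c4) ^ 2) (3 * X)
      = 27 * psi3EC c4 c6 X := by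
  simp only [quart, psi3EC]; ring

theorem map_psi3EC (φ : R →+* S) (c4 c6 X : R) :
    φ (psi3EC c4 c6 X) = psi3EC (φ c4) (φ c6) (φ X) := by
  simp only [psi3EC, map_add, map_sub, map_mul, map_pow, map_neg, map_ofNat]

theorem map_g4' (φ : R →+* S) (a b c : R) : φ (g4 a b c) = g4 (φ a) (φ b) (φ c) := by
  simp only [g4, map_add, map_mul, map_pow, map_neg, map_ofNat]

theorem map_g6' (φ : R →+* S) (a b c : R) : φ (g6 a b c) = g6 (φ a) (φ b) (φ c) := by
  simp only [g6, map_add, map_mul, map_pow, map_neg, map_ofNat]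

theorem map_bc4' (φ : R →+* S) (a b c : R) : φ (bc4 a b c) = bc4 (φ a) (φ b) (φ c) := by
  simp only [bc4, map_add, map_mul, map_g4']

theorem map_bc6' (φ : R →+* S) (a b c : R) : φ (bc6 a b c) = bc6 (φ a) (φ b) (φ c) := by
  simp only [bc6, map_add, map_mul, map_g6']

theorem map_bD' (φ : R →+* S) (a b c : R) : φ (bD a b c) = bD (φ a) (φ b) (φ c) := by
  simp only [bD, map_add, map_mul, map_pow, map_neg, map_ofNat, map_one]

end HI

end Fermat.Agent.S52
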