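import Fermat.Agent.S52.DDefs

/-!
# S52, piece D3c: CASE B of the local conditions (`γ` is a cube, `p = 2`)
See the docstring of `DLocal.lean` for the paper proof.
-/

set_option autoImplicit false

namespace Fermat.Agent.S52.HI

open Polynomial

section identities
variable {R : Type*} [CommRing R]

theorem lcB_I1 (a b Y0 s : R) :
    quart (18 * a) (108 * b) (-27 * a ^ 2) (Y0 + s) = quart (18 * a) (108 * b) (-27 * a ^ 2) Y0
      + s * (s ^ 3 + 4 * Y0 * s ^ 2 + 2 * (3 * Y0 ^ 2 + 9 * a) * s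
        + 4 * (Y0 ^ 3 + 9 * a * Y0 + 27 * b)) := by
  simp only [quart]; ring

theorem lcB_I2 (a b Y0 c s : R) :
    54 * (Y0 ^ 3 + 9 * a * Y0 + 27 * b) ^ 2 * (s ^ 3 + 4 * Y0 * s ^ 2 + 2 * (3 * Y0 ^ 2 + 9 * a) * s
        + 4 * (Y0 ^ 3 + 9 * a * Y0 + 27 * b))
      = (6 * (Y0 ^ 3 + 9 * a * Y0 + 27 * b) + ((3 * Y0 ^ 2 + 9 * a) - c) * s)
        * ((6 * (Y0 ^ 3 + 9 * a * Y0 + 27 * b) + (3 * Y0 ^ 2 + 9 * a) * s) ^ 2
          + (6 * (Y0 ^ 3 + 9 * a * Y0 + 27 * b) + (3 * Y0 ^ 2 + 9 * a) * s) * (c * s) + (c * s) ^ 2)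
        - ((3 * Y0 ^ 2 + 9 * a) ^ 3 - 54 * (Y0 ^ 3 + 9 * a * Y0 + 27 * b) ^ 2 - c ^ 3) * s ^ 3
        + 54 * (Y0 ^ 3 + 9 * a * Y0 + 27 * b) * s ^ 2 * quart (18 * a) (108 * b) (-27 * a ^ 2) Y0 := by
  simp only [quart]; ring

/-- the `s`-derivative of `lcB_I2`. -/
theorem lcB_I2' (a b Y0 c s : R) :
    54 * (Y0 ^ 3 + 9 * a * Y0 + 27 * b) ^ 2 * (3 * s ^ 2 + 8 * Y0 * s + 2 * (3 * Y0 ^ 2 + 9 * a))
      = ((3 * Y0 ^ 2 + 9 * a) - c)
        * ((6 * (Y0 ^ 3 + 9 * a * Y0 + 27 * b) + (3 * Y0 ^ 2 + 9 * a) * s) ^ 2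
          + (6 * (Y0 ^ 3 + 9 * a * Y0 + 27 * b) + (3 * Y0 ^ 2 + 9 * a) * s) * (c * s) + (c * s) ^ 2)
        + (6 * (Y0 ^ 3 + 9 * a * Y0 + 27 * b) + ((3 * Y0 ^ 2 + 9 * a) - c) * s)
          * (2 * (6 * (Y0 ^ 3 + 9 * a * Y0 + 27 * b) + (3 * Y0 ^ 2 + 9 * a) * s) * (3 * Y0 ^ 2 + 9 * a)
            + (3 * Y0 ^ 2 + 9 * a) * (c * s)
            + (6 * (Y0 ^ 3 + 9 * a * Y0 + 27 * b) + (3 * Y0 ^ 2 + 9 * a) * s) * c + 2 * (c * s) * c)
        - 3 * ((3 * Y0 ^ 2 + 9 * a) ^ 3 - 54 * (Y0 ^ 3 + 9 * a * Y0 + 27 * b) ^ 2 - c ^ 3) * s ^ 2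
        + 108 * (Y0 ^ 3 + 9 * a * Y0 + 27 * b) * s * quart (18 * a) (108 * b) (-27 * a ^ 2) Y0 := by
  simp only [quart]; ring

theorem lcB_I3 (a b Y0 : R) :
    ((3 * Y0 ^ 2 + 9 * a) ^ 3 - 54 * (Y0 ^ 3 + 9 * a * Y0 + 27 * b) ^ 2)
      + 1458 * (4 * a ^ 3 + 27 * b ^ 2)
      = -(27 * Y0 ^ 2 + 243 * a) * quart (18 * a) (108 * b) (-27 * a ^ 2) Y0 := by
  simp only [quart]; ring

theorem lcB_I4 (a b Y0 : R) :
    (3 * Y0 ^ 2 + 9 * a) ^ 2 - 12 * Y0 * (Y0 ^ 3 + 9 * a * Y0 + 27 * b)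
      = -3 * quart (18 * a) (108 * b) (-27 * a ^ 2) Y0 := by
  simp only [quart]; ring

/-- `q'(Y0 + s) = h(s) + s h'(s)`. -/
theorem lcB_I5 (a b Y0 s : R) :
    quartD (18 * a) (108 * b) (Y0 + s)
      = (s ^ 3 + 4 * Y0 * s ^ 2 + 2 * (3 * Y0 ^ 2 + 9 * a) * s + 4 * (Y0 ^ 3 + 9 * a * Y0 + 27 * b))
        + s * (3 * s ^ 2 + 8 * Y0 * s + 2 * (3 * Y0 ^ 2 + 9 * a)) := by
  simp only [quartD]; ring

end identities

/-- `¬ 2^i ∣ x`, `2^(i+j) ∣ x y` ⟹ `2^j ∣ y`. -/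
theorem lcB_pow_dvd (i j : ℕ) (x y : ℤ) (hx : ¬ (2 : ℤ) ^ i ∣ x) (h : (2 : ℤ) ^ (i + j) ∣ x * y) :
    (2 : ℤ) ^ j ∣ y := by
  induction i generalizing x with
  | zero => exact absurd (by simp) hx
  | succ i ih =>
    by_cases h2 : (2 : ℤ) ∣ x
    · obtain ⟨x', rfl⟩ := h2
      apply ih x'
      · intro hd
        apply hx
        rw [pow_succ, mul_comm]
        exact mul_dvd_mul_left 2 hd
      · have : (2 : ℤ) * 2 ^ (i + j) ∣ 2 * (x' * y) := by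
          have e : (2 : ℤ) * 2 ^ (i + j) = 2 ^ (i + 1 + j) := by ring
          rw [e, ← mul_assoc]; exact h
        exact (mul_dvd_mul_iff_left (by norm_num)).mp this
    · have hp : Prime (2 : ℤ) := Int.prime_two
      have := hp.pow_dvd_of_dvd_mul_left _ h2 h
      exact (pow_dvd_pow 2 (by omega)).trans this

theorem lcB_even (U W : ℤ) (h : (2 : ℤ) ∣ U ^ 2 + U * W + W ^ 2) : (2 : ℤ) ∣ U ∧ (2 : ℤ) ∣ W := by
  rcases Int.even_or_odd' U with ⟨u, rfl | rfl⟩ <;> rcases Int.even_or_odd' W with ⟨w, rfl | rfl⟩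
  · exact ⟨⟨u, rfl⟩, ⟨w, rfl⟩⟩
  · exfalso; obtain ⟨z, hz⟩ := h; ring_nf at hz; omega
  · exfalso; obtain ⟨z, hz⟩ := h; ring_nf at hz; omega
  · exfalso; obtain ⟨z, hz⟩ := h; ring_nf at hz; omega

theorem lcB_norm (m : ℕ) (U W : ℤ) (h : (2 : ℤ) ^ (2 * m + 1) ∣ U ^ 2 + U * W + W ^ 2) :
    (2 : ℤ) ^ (m + 1) ∣ U ∧ (2 : ℤ) ^ (m + 1) ∣ W := by
  induction m generalizing U W with
  | zero => simpa using lcB_even U W (by simpa using h)
  | succ m ih =>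
    obtain ⟨⟨u, rfl⟩, ⟨w, rfl⟩⟩ := lcB_even U W ((dvd_pow_self 2 (by omega)).trans h)
    have : (2 : ℤ) ^ (2 * m + 1) ∣ u ^ 2 + u * w + w ^ 2 := by
      have e1 : (2 * u) ^ 2 + 2 * u * (2 * w) + (2 * w) ^ 2 = 4 * (u ^ 2 + u * w + w ^ 2) := by ring
      have e2 : (2 : ℤ) ^ (2 * (m + 1) + 1) = 4 * 2 ^ (2 * m + 1) := by ring
      rw [e1, e2] at h
      exact (mul_dvd_mul_iff_left (by norm_num)).mp h
    obtain ⟨hu, hw⟩ := ih u w this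
    constructor
    · rw [pow_succ, mul_comm]; exact mul_dvd_mul_left 2 hu
    · rw [pow_succ, mul_comm]; exact mul_dvd_mul_left 2 hw

theorem lcB_not_dvd (x : ℤ) (hx : x ≠ 0) : ¬ (2 : ℤ) ^ x.natAbs ∣ x := by
  intro h
  have h1 := Int.natAbs_dvd_natAbs.mpr h
  have h2 := Nat.le_of_dvd (Int.natAbs_pos.mpr hx) h1
  rw [Int.natAbs_pow] at h2
  have : x.natAbs < 2 ^ x.natAbs := Nat.lt_two_pow_self
  simp at h2
  omega

/-- a rational root of a monic integral cubic is an integer, in the form needed here. -/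
theorem lcB_int_root (A2 A1 A0 x κ : ℤ) (hκ : κ ≠ 0)
    (h : x ^ 3 + A2 * x ^ 2 * κ + A1 * x * κ ^ 2 + A0 * κ ^ 3 = 0) : κ ∣ x := by
  have hκq : (κ : ℚ) ≠ 0 := by exact_mod_cast hκ
  have hint : IsIntegral ℤ ((x : ℚ) / κ) := by
    refine ⟨X ^ 3 + C A2 * X ^ 2 + C A1 * X + C A0, by monicity!, ?_⟩
    have hq : (x : ℚ) ^ 3 + A2 * x ^ 2 * κ + A1 * x * κ ^ 2 + A0 * κ ^ 3 = 0 := by exact_mod_cast h
    simp only [eval₂_add, eval₂_mul, eval₂_pow, eval₂_X, eval₂_C]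
    simp only [eq_intCast]
    field_simp
    linear_combination hq
  obtain ⟨y, hy⟩ := IsIntegrallyClosed.isIntegral_iff.mp hint
  refine ⟨y, ?_⟩
  have : (x : ℚ) = κ * y := by
    rw [eq_intCast] at hy
    rw [hy]; field_simp
  exact_mod_cast this

/-- CASE B. -/
theorem local_cond_B' (a b Y0 : ℤ) (hΔ : 4 * a ^ 3 + 27 * b ^ 2 ≠ 0)
    (h0 : quart (18 * a) (108 * b) (-27 * a ^ 2) Y0 = 0) (c : ℤ)
    (hγ : (3 * Y0 ^ 2 + 9 * a) ^ 3 - 54 * (Y0 ^ 3 + 9 * a * Y0 + 27 * b) ^ 2 = c ^ 3) :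
    ∃ Y1 : ℤ, quart (18 * a) (108 * b) (-27 * a ^ 2) Y1 = 0 ∧
      quartD (18 * a) (108 * b) Y0 ≠ 0 ∧ quartD (18 * a) (108 * b) Y1 ≠ 0 ∧
      ∀ n : ℕ, ∃ k : ℕ, ∀ y : ℤ, (2 : ℤ) ^ k ∣ quart (18 * a) (108 * b) (-27 * a ^ 2) y →
        (2 : ℤ) ^ n ∣ y - Y0 ∨ (2 : ℤ) ^ n ∣ y - Y1 := by
  have I1 := lcB_I1 a b Y0
  have I2 := lcB_I2 a b Y0 c
  have I2' := lcB_I2' a b Y0 c
  have I3 := lcB_I3 a b Y0
  have I4 := lcB_I4 a b Y0
  have I5 := lcB_I5 a b Y0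
  rw [h0] at I3 I4
  simp only [h0, hγ, sub_self, zero_mul, mul_zero, sub_zero, add_zero, zero_add] at I1 I2 I2'
  rw [hγ] at I3
  generalize hα : 3 * Y0 ^ 2 + 9 * a = α at *
  generalize hβ : Y0 ^ 3 + 9 * a * Y0 + 27 * b = β at *
  have hc : c ≠ 0 := by
    rintro rfl
    apply hΔ
    have : 1458 * (4 * a ^ 3 + 27 * b ^ 2) = 0 := by linear_combination I3
    omega
  have hβ0 : β ≠ 0 := by
    rintro rfl
    have hα0 : α = 0 := by
      have : α ^ 2 = 0 := by linear_combination I4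
      exact pow_eq_zero_iff (n := 2) (by norm_num) |>.mp this
    rw [hα0] at hγ
    apply hc
    have : c ^ 3 = 0 := by linear_combination -hγ
    exact pow_eq_zero_iff (n := 3) (by norm_num) |>.mp this
  have hκ : α - c ≠ 0 := by
    intro h
    have hαc : α = c := by linear_combination h
    rw [hαc] at hγ
    have : 54 * β ^ 2 = 0 := by linear_combination -hγ
    have : β ^ 2 = 0 := by omega
    exact hβ0 (pow_eq_zero_iff (n := 2) (by norm_num) |>.mp this)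
  have h54 : 54 * β ^ 2 ≠ 0 := mul_ne_zero (by norm_num) (pow_ne_zero 2 hβ0)
  -- the second root
  have hdvd : (α - c) ∣ (-6 * β) := by
    apply lcB_int_root (4 * Y0) (2 * α) (4 * β) (-6 * β) (α - c) hκ
    linear_combination 4 * β * hγ - 12 * β * (α - c) * I4
  obtain ⟨s1, hs1⟩ := hdvd
  have hs10 : s1 ≠ 0 := by
    rintro rfl
    apply hβ0
    omega
  have hh1 : s1 ^ 3 + 4 * Y0 * s1 ^ 2 + 2 * α * s1 + 4 * β = 0 := by
    have := I2 s1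
    have e : 6 * β + (α - c) * s1 = 0 := by linear_combination -hs1
    rw [e, zero_mul] at this
    exact (mul_eq_zero.mp this).resolve_left h54
  have hD0 : quartD (18 * a) (108 * b) Y0 = 4 * β := by
    rw [← hβ]; simp only [quartD]; ring
  refine ⟨Y0 + s1, ?_, ?_, ?_, ?_⟩
  · rw [I1 s1, hh1, mul_zero]
  · rw [hD0]; exact mul_ne_zero (by norm_num) hβ0
  · rw [I5 s1, hh1, zero_add]
    refine mul_ne_zero hs10 ?_
    intro hd
    have := I2' s1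
    have e : 6 * β + (α - c) * s1 = 0 := by linear_combination -hs1
    have eU : 6 * β + α * s1 = c * s1 := by linear_combination e
    rw [hd, e, eU, mul_zero, zero_mul, add_zero] at this
    have h3 : (α - c) * (3 * (c * s1) ^ 2) = 0 := by linear_combination -this
    exact mul_ne_zero hκ (mul_ne_zero (by norm_num) (pow_ne_zero 2 (mul_ne_zero hc hs10))) h3
  · intro n
    have hE : 6 * β * c ≠ 0 := mul_ne_zero (mul_ne_zero (by norm_num) hβ0) hc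
    refine ⟨(α - c).natAbs + ((2 * (6 * β * c).natAbs + 1) + (n + n)), fun y hy => ?_⟩
    obtain ⟨s, rfl⟩ : ∃ s, y = Y0 + s := ⟨y - Y0, by ring⟩
    rw [I1 s] at hy
    have hN : ¬ (2 : ℤ) ^ (2 * (6 * β * c).natAbs + 1) ∣
        (6 * β + α * s) ^ 2 + (6 * β + α * s) * (c * s) + (c * s) ^ 2 := by
      intro hd
      obtain ⟨hU, hW⟩ := lcB_norm _ _ _ hd
      apply lcB_not_dvd _ hE
      have h1 : (2 : ℤ) ^ ((6 * β * c).natAbs + 1) ∣ c * (6 * β + α * s) - α * (c * s) :=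
        dvd_sub (Dvd.dvd.mul_left hU _) (Dvd.dvd.mul_left hW _)
      have e : c * (6 * β + α * s) - α * (c * s) = 6 * β * c := by ring
      rw [e] at h1
      exact (pow_dvd_pow 2 (Nat.le_succ _)).trans h1
    have key : (α - c) * (((6 * β + α * s) ^ 2 + (6 * β + α * s) * (c * s) + (c * s) ^ 2)
        * (s * (s - s1))) = 54 * β ^ 2 * (s * (s ^ 3 + 4 * Y0 * s ^ 2 + 2 * α * s + 4 * β)) := by
      have := I2 s
      have e : 6 * β + (α - c) * s = (α - c) * (s - s1) := by linear_combination -hs1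
      rw [e] at this
      linear_combination -s * this
    have h1 := lcB_pow_dvd _ _ _ _ (lcB_not_dvd _ hκ) (key ▸ Dvd.dvd.mul_left hy _)
    have h2 := lcB_pow_dvd _ _ _ _ hN h1
    by_cases hs : (2 : ℤ) ^ n ∣ s
    · left
      simpa using hs
    · right
      have := lcB_pow_dvd _ _ _ _ hs h2
      have e : Y0 + s - (Y0 + s1) = s - s1 := by ring
      rw [e]; exact this

end Fermat.Agent.S52.HI
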