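import Fermat.Agent.S52.DLocalA
import Fermat.Agent.S52.DLocalB

/-!
# S52, piece D3: the local conditions (h1), (h2) of `hilbert_padic` at `μ = 0`, Mathlib only

`q(Y) = quart (18 a) (108 b) (-27 a^2) Y = Y^4 + 18 a Y^2 + 108 b Y - 27 a^2` (`= 27 ψ₃(Y/3)` for
`y^2 = x^3 + a x + b`), `q(Y0) = 0`.  Put `α = 3 Y0^2 + 9 a`, `β = Y0^3 + 9 a Y0 + 27 b`, `γ = α^3 - 54 β^2`.
Identities (all by `ring` / `linear_combination`, checked):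
* (I1) `q(Y0 + s) = q(Y0) + s * h(s)`, `h(s) = s^3 + 4 Y0 s^2 + 2 α s + 4 β`;  `quartD .. Y0 = 4 β`.
* (I2) `α^2 - 12 Y0 β = -3 q(Y0)`,  `54 β^2 h(s) = (6 β + α s)^3 - γ s^3 + 54 β s^2 q(Y0)`.
* (I3) `γ + 1458 (4 a^3 + 27 b^2) = -(27 Y0^2 + 243 a) q(Y0)`.
So `γ ≠ 0`, and `β ≠ 0` (`β = 0 → α^2 = 0 → γ = 0`).

CASE A: some prime `p` has `3 ∤ v_p(γ)`.  `S = {Y0}`.  With `U = 6 β + α s`, `g = v_p γ`, `t = v_p (6 β)`: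
`3 v(U) ≠ g + 3 v(s)`, so `v(U^3 - γ s^3) = min (3 v U) (g + 3 v s)`; `U - α s = 6 β` shows `v U ≤ t` or `v s ≤ t`;
hence `v_p (54 β^2 h(s)) ≤ e := g + 3 t` for ALL `s`; so `p^(n+e) ∣ s h(s)` implies `p^n ∣ s`.  `k = n + e`.

CASE B: otherwise `γ = c^3`, `c ∈ ℤ`, `c ≠ 0` (`-1` is a cube).  `p = 2`.
`54 β^2 h(s) = (6 β + κ s) * N(s)`, `κ = α - c ≠ 0` (`α^3 - c^3 = 54 β^2 ≠ 0`), `N = U^2 + U W + W^2`, `W = c s`.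
`h` is monic with integer coefficients and `h(-6β/κ) = 0`, so `s1 := -6β/κ ∈ ℤ` (rational root theorem;
`N(s) ≠ 0` for rational `s` unless `U = W = 0`, which is impossible because `c U - α W = 6 β c ≠ 0`).
`S = {Y0, Y0 + s1}`.  `v_2 (N) = 2 min (v_2 U) (v_2 W) ≤ 2 v_2 (6 β c)` (`U^2+UW+W^2` is odd if `U`, `W` are not both
even).  So `2^k ∣ s h(s)` gives `2^(k - e) ∣ s * κ (s - s1)`, hence `2^n ∣ s` or `2^n ∣ s - s1` if `k ≥ 2 n + e'`.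
(h1) at `Y0 + s1`: `quartD = s1 h'(s1)`, `54 β^2 h'(s1) = κ N(s1) = κ * 3 c^2 s1^2 ≠ 0`, `s1 ≠ 0`.
-/

set_option autoImplicit false

namespace Fermat.Agent.S52.HI

/-- an integer all of whose `p`-adic valuations are divisible by 3 is a cube. -/
theorem exists_prime_or_cube (n : ℤ) (hn : n ≠ 0) :
    (∃ p : ℕ, p.Prime ∧ ¬ 3 ∣ padicValInt p n) ∨ ∃ c : ℤ, n = c ^ 3 :=
  exists_prime_or_cube' n hn

/-- CASE A. -/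
theorem local_cond_A (a b Y0 : ℤ) (hΔ : 4 * a ^ 3 + 27 * b ^ 2 ≠ 0)
    (h0 : quart (18 * a) (108 * b) (-27 * a ^ 2) Y0 = 0) (p : ℕ) (hp : p.Prime)
    (hγ : ¬ 3 ∣ padicValInt p ((3 * Y0 ^ 2 + 9 * a) ^ 3 - 54 * (Y0 ^ 3 + 9 * a * Y0 + 27 * b) ^ 2)) :
    quartD (18 * a) (108 * b) Y0 ≠ 0 ∧
      ∀ n : ℕ, ∃ k : ℕ, ∀ y : ℤ, (p : ℤ) ^ k ∣ quart (18 * a) (108 * b) (-27 * a ^ 2) y →
        (p : ℤ) ^ n ∣ y - Y0 :=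
  local_cond_A' a b Y0 hΔ h0 p hp hγ

/-- CASE B. -/
theorem local_cond_B (a b Y0 : ℤ) (hΔ : 4 * a ^ 3 + 27 * b ^ 2 ≠ 0)
    (h0 : quart (18 * a) (108 * b) (-27 * a ^ 2) Y0 = 0) (c : ℤ)
    (hγ : (3 * Y0 ^ 2 + 9 * a) ^ 3 - 54 * (Y0 ^ 3 + 9 * a * Y0 + 27 * b) ^ 2 = c ^ 3) :
    ∃ Y1 : ℤ, quart (18 * a) (108 * b) (-27 * a ^ 2) Y1 = 0 ∧
      quartD (18 * a) (108 * b) Y0 ≠ 0 ∧ quartD (18 * a) (108 * b) Y1 ≠ 0 ∧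
      ∀ n : ℕ, ∃ k : ℕ, ∀ y : ℤ, (2 : ℤ) ^ k ∣ quart (18 * a) (108 * b) (-27 * a ^ 2) y →
        (2 : ℤ) ^ n ∣ y - Y0 ∨ (2 : ℤ) ^ n ∣ y - Y1 :=
  local_cond_B' a b Y0 hΔ h0 c hγ

theorem local_cond (a b : ℤ) (hΔ : 4 * a ^ 3 + 27 * b ^ 2 ≠ 0) (Y0 : ℤ)
    (h0 : quart (18 * a) (108 * b) (-27 * a ^ 2) Y0 = 0) :
    ∃ (p : ℕ) (S : Finset ℤ), p.Prime ∧
      (∀ y ∈ S, quart (18 * a) (108 * b) (-27 * a ^ 2) y = 0 ∧ quartD (18 * a) (108 * b) y ≠ 0) ∧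
      ∀ n : ℕ, ∃ k : ℕ, ∀ y : ℤ, (p : ℤ) ^ k ∣ quart (18 * a) (108 * b) (-27 * a ^ 2) y →
        ∃ y₀ ∈ S, (p : ℤ) ^ n ∣ y - y₀ := by
  have hγ0 : (3 * Y0 ^ 2 + 9 * a) ^ 3 - 54 * (Y0 ^ 3 + 9 * a * Y0 + 27 * b) ^ 2 ≠ 0 := by
    intro h
    apply hΔ
    simp only [quart] at h0
    have : 1458 * (4 * a ^ 3 + 27 * b ^ 2) = 0 := by
      linear_combination -h - (27 * Y0 ^ 2 + 243 * a) * h0
    omega
  rcases exists_prime_or_cube _ hγ0 with ⟨p, hp, hγ⟩ | ⟨c, hc⟩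
  · obtain ⟨hd, hn⟩ := local_cond_A a b Y0 hΔ h0 p hp hγ
    refine ⟨p, {Y0}, hp, ?_, ?_⟩
    · intro y hy
      rw [Finset.mem_singleton] at hy
      subst hy
      exact ⟨h0, hd⟩
    · intro n
      obtain ⟨k, hk⟩ := hn n
      exact ⟨k, fun y hy => ⟨Y0, Finset.mem_singleton_self _, hk y hy⟩⟩
  · obtain ⟨Y1, h1, hd0, hd1, hn⟩ := local_cond_B a b Y0 hΔ h0 c hc
    refine ⟨2, {Y0, Y1}, Nat.prime_two, ?_, ?_⟩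
    · intro y hy
      rw [Finset.mem_insert, Finset.mem_singleton] at hy
      rcases hy with rfl | rfl
      · exact ⟨h0, hd0⟩
      · exact ⟨h1, hd1⟩
    · intro n
      obtain ⟨k, hk⟩ := hn n
      refine ⟨k, fun y hy => ?_⟩
      rcases hk y (by exact_mod_cast hy) with h | h
      · exact ⟨Y0, by simp, by exact_mod_cast h⟩
      · exact ⟨Y1, by simp, by exact_mod_cast h⟩

end Fermat.Agent.S52.HI
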