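import Fermat.Agent.S52.DDefs

/-!
# S52, pieces D3a, D3b: `exists_prime_or_cube'`, `local_cond_A'` (see `DLocal.lean` for the paper proof)
-/

set_option autoImplicit false

namespace Fermat.Agent.S52.HI

theorem exists_prime_or_cube' (n : ℤ) (hn : n ≠ 0) :
    (∃ p : ℕ, p.Prime ∧ ¬ 3 ∣ padicValInt p n) ∨ ∃ c : ℤ, n = c ^ 3 := by
  by_cases h : ∃ p : ℕ, p.Prime ∧ ¬ 3 ∣ padicValInt p n
  · exact Or.inl h
  right
  push Not at h
  have hm : n.natAbs ≠ 0 := Int.natAbs_ne_zero.2 hn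
  obtain ⟨c, hc⟩ : ∃ c : ℕ, c ^ 3 = n.natAbs := by
    refine ⟨n.natAbs.factorization.prod fun p e => p ^ (e / 3), ?_⟩
    conv_rhs => rw [← Nat.prod_factorization_pow_eq_self hm]
    rw [Finsupp.prod, Finsupp.prod, ← Finset.prod_pow]
    refine Finset.prod_congr rfl fun p hp => ?_
    have hpp : p.Prime := by
      rw [Nat.support_factorization] at hp
      exact Nat.prime_of_mem_primeFactors hp
    have h3 := h p hpp
    rw [padicValInt, ← Nat.factorization_def _ hpp] at h3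
    rw [← pow_mul, Nat.div_mul_cancel h3]
  rcases Int.natAbs_eq n with h1 | h1
  · refine ⟨(c : ℤ), ?_⟩
    rw [h1, ← hc]
    push_cast
    rfl
  · refine ⟨-(c : ℤ), ?_⟩
    rw [h1, ← hc]
    push_cast
    ring

section
variable {p : ℕ} [hp : Fact p.Prime]

theorem lcA_not_dvd {x : ℤ} (hx : x ≠ 0) {m : ℕ} (hm : padicValInt p x < m) : ¬ (p : ℤ) ^ m ∣ x := by
  rw [padicValInt_dvd_iff]
  push Not
  exact ⟨hx, hm⟩

theorem lcA_dvd {x : ℤ} {m : ℕ} (hm : m ≤ padicValInt p x) : (p : ℤ) ^ m ∣ x := by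
  rw [padicValInt_dvd_iff]
  exact Or.inr hm

theorem lcA_val_pow {x : ℤ} (hx : x ≠ 0) : padicValInt p (x ^ 3) = 3 * padicValInt p x := by
  rw [pow_succ, pow_succ, pow_one, padicValInt.mul (mul_ne_zero hx hx) hx, padicValInt.mul hx hx]
  ring

/-- the key estimate: `v_p (U^3 - γ s^3) ≤ v_p γ + 3 v_p B` when `U - α s = B ≠ 0`, `3 ∤ v_p γ`. -/
theorem lcA_key (α B γ s : ℤ) (hB : B ≠ 0) (hγ : ¬ 3 ∣ padicValInt p γ) :
    ¬ (p : ℤ) ^ (padicValInt p γ + 3 * padicValInt p B + 1) ∣ (B + α * s) ^ 3 - γ * s ^ 3 := by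
  have hγ0 : γ ≠ 0 := by
    rintro rfl
    simp at hγ
  intro hdvd
  obtain ⟨g, hg⟩ : ∃ g, g = padicValInt p γ := ⟨_, rfl⟩
  obtain ⟨t, ht⟩ : ∃ t, t = padicValInt p B := ⟨_, rfl⟩
  rw [← hg, ← ht] at hdvd
  rw [← hg] at hγ
  by_cases hs : s = 0
  · subst hs
    have h1 : (B + α * 0) ^ 3 - γ * 0 ^ 3 = B ^ 3 := by ring
    rw [h1] at hdvd
    exact lcA_not_dvd (pow_ne_zero 3 hB) (by rw [lcA_val_pow hB, ← ht]; omega) hdvd
  by_cases hU : B + α * s = 0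
  · rw [hU] at hdvd
    have h1 : (0 : ℤ) ^ 3 - γ * s ^ 3 = -(γ * s ^ 3) := by ring
    rw [h1, dvd_neg] at hdvd
    have h2 : padicValInt p s ≤ t := by
      by_contra hlt
      push Not at hlt
      have h3 : (p : ℤ) ^ (t + 1) ∣ s := lcA_dvd hlt
      have h4 : (p : ℤ) ^ (t + 1) ∣ B := by
        have : B = -(α * s) := by linarith
        rw [this, dvd_neg]
        exact Dvd.dvd.mul_left h3 α
      exact lcA_not_dvd hB (by omega) h4
    refine lcA_not_dvd (mul_ne_zero hγ0 (pow_ne_zero 3 hs)) ?_ hdvd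
    rw [padicValInt.mul hγ0 (pow_ne_zero 3 hs), lcA_val_pow hs, ← hg]
    omega
  obtain ⟨u, hu⟩ : ∃ u, u = padicValInt p (B + α * s) := ⟨_, rfl⟩
  obtain ⟨w, hw⟩ : ∃ w, w = padicValInt p s := ⟨_, rfl⟩
  have hX : padicValInt p ((B + α * s) ^ 3) = 3 * u := by rw [lcA_val_pow hU, hu]
  have hY : padicValInt p (γ * s ^ 3) = g + 3 * w := by
    rw [padicValInt.mul hγ0 (pow_ne_zero 3 hs), lcA_val_pow hs, hg, hw]
  have hor : u ≤ t ∨ w ≤ t := by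
    by_contra hcon
    push Not at hcon
    have h3 : (p : ℤ) ^ (t + 1) ∣ s := lcA_dvd (by omega)
    have h4 : (p : ℤ) ^ (t + 1) ∣ B + α * s := lcA_dvd (by omega)
    have h5 : (p : ℤ) ^ (t + 1) ∣ B := by
      have : B = (B + α * s) - α * s := by ring
      rw [this]
      exact dvd_sub h4 (Dvd.dvd.mul_left h3 α)
    exact lcA_not_dvd hB (by omega) h5
  rcases lt_trichotomy (3 * u) (g + 3 * w) with hlt | heq | hlt
  · have h1 : (p : ℤ) ^ (3 * u + 1) ∣ γ * s ^ 3 := lcA_dvd (by omega)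
    have h2 : (p : ℤ) ^ (3 * u + 1) ∣ (B + α * s) ^ 3 - γ * s ^ 3 :=
      (pow_dvd_pow _ (by omega)).trans hdvd
    have h3 : (p : ℤ) ^ (3 * u + 1) ∣ (B + α * s) ^ 3 := by
      have := dvd_add h2 h1
      rwa [sub_add_cancel] at this
    exact lcA_not_dvd (pow_ne_zero 3 hU) (by omega) h3
  · omega
  · have h1 : (p : ℤ) ^ (g + 3 * w + 1) ∣ (B + α * s) ^ 3 := lcA_dvd (by omega)
    have h2 : (p : ℤ) ^ (g + 3 * w + 1) ∣ (B + α * s) ^ 3 - γ * s ^ 3 :=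
      (pow_dvd_pow _ (by omega)).trans hdvd
    have h3 : (p : ℤ) ^ (g + 3 * w + 1) ∣ γ * s ^ 3 := by
      have := dvd_sub h1 h2
      rwa [sub_sub_cancel] at this
    exact lcA_not_dvd (mul_ne_zero hγ0 (pow_ne_zero 3 hs)) (by omega) h3

end

theorem local_cond_A' (a b Y0 : ℤ) (hΔ : 4 * a ^ 3 + 27 * b ^ 2 ≠ 0)
    (h0 : quart (18 * a) (108 * b) (-27 * a ^ 2) Y0 = 0) (p : ℕ) (hp : p.Prime)
    (hγ : ¬ 3 ∣ padicValInt p ((3 * Y0 ^ 2 + 9 * a) ^ 3 - 54 * (Y0 ^ 3 + 9 * a * Y0 + 27 * b) ^ 2)) :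
    quartD (18 * a) (108 * b) Y0 ≠ 0 ∧
      ∀ n : ℕ, ∃ k : ℕ, ∀ y : ℤ, (p : ℤ) ^ k ∣ quart (18 * a) (108 * b) (-27 * a ^ 2) y →
        (p : ℤ) ^ n ∣ y - Y0 := by
  have : Fact p.Prime := ⟨hp⟩
  simp only [quart] at h0
  obtain ⟨α, hα⟩ : ∃ α, α = 3 * Y0 ^ 2 + 9 * a := ⟨_, rfl⟩
  obtain ⟨β, hβ⟩ : ∃ β, β = Y0 ^ 3 + 9 * a * Y0 + 27 * b := ⟨_, rfl⟩
  obtain ⟨γ, hγdef⟩ : ∃ γ, γ = α ^ 3 - 54 * β ^ 2 := ⟨_, rfl⟩
  rw [← hα, ← hβ, ← hγdef] at hγ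
  have hβ0 : β ≠ 0 := by
    intro hb0
    have h1 : α ^ 2 = 0 := by
      have : α ^ 2 - 12 * Y0 * β = 0 := by
        rw [hα, hβ]; linear_combination (-3) * h0
      rw [hb0] at this
      linarith
    have h2 : α = 0 := by simpa using h1
    rw [hγdef, h2, hb0] at hγ
    simp at hγ
  refine ⟨?_, ?_⟩
  · have : quartD (18 * a) (108 * b) Y0 = 4 * β := by
      simp only [quartD]; rw [hβ]; ring
    rw [this]
    exact mul_ne_zero (by norm_num) hβ0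
  intro n
  have hB : 6 * β ≠ 0 := mul_ne_zero (by norm_num) hβ0
  refine ⟨n + (padicValInt p γ + 3 * padicValInt p (6 * β)), fun y hy => ?_⟩
  obtain ⟨s, hs⟩ : ∃ s, s = y - Y0 := ⟨_, rfl⟩
  rw [← hs]
  have hkey := lcA_key (p := p) α (6 * β) γ s hB hγ
  by_cases hs0 : s = 0
  · rw [hs0]; exact dvd_zero _
  have hy' : y = Y0 + s := by rw [hs]; ring
  have hfac : 54 * β ^ 2 * quart (18 * a) (108 * b) (-27 * a ^ 2) y =
      s * ((6 * β + α * s) ^ 3 - γ * s ^ 3) := by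
    simp only [quart]
    rw [hy', hγdef, hα, hβ]
    linear_combination (54 * (Y0 ^ 3 + 9 * a * Y0 + 27 * b) ^ 2
      + 54 * (Y0 ^ 3 + 9 * a * Y0 + 27 * b) * s ^ 3) * h0
  have hH0 : (6 * β + α * s) ^ 3 - γ * s ^ 3 ≠ 0 := by
    intro h
    apply hkey
    rw [h]
    exact dvd_zero _
  have h1 : (p : ℤ) ^ (n + (padicValInt p γ + 3 * padicValInt p (6 * β))) ∣
      s * ((6 * β + α * s) ^ 3 - γ * s ^ 3) := by
    rw [← hfac]
    exact Dvd.dvd.mul_left hy _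
  rw [padicValInt_dvd_iff] at h1 hkey ⊢
  rw [padicValInt.mul hs0 hH0] at h1
  push Not at hkey
  rcases h1 with h1 | h1
  · exact absurd h1 (mul_ne_zero hs0 hH0)
  · right
    have := hkey.2
    omega

end Fermat.Agent.S52.HI
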