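import Fermat.Agent.S52.DSqfree
import Fermat.Agent.S52.CardCongr

/-!
# S52, piece D2-R: the 3-division polynomial of the family has no root in `K[μ]`

`K` alg. closed, char 0, `Δ₀ = c4^3 - c6^2 ≠ 0`.  In `K[X]` (`X = μ`): `H = bc4 (C c4) (C c6) X`, `T6 = bc6 ..`, `B = bD ..`;
`disc_family` (in the ring `K[X]`): `H^3 - T6^2 = (C c4^3 - C c6^2) * B^5`.  Suppose `psi3EC H T6 P = 0`, `P ∈ K[X]`.
`T = H P`, `t = T + 3 T6`, `e = T - 9 T6`.
(ID, by `ring`)  `c4^4 * psi3EC c4 c6 X = 3 t^3 e - (c4^3 - c6^2) * 81 * (2 T^2 + 8 c6 T + 9 (c4^3 + c6^2))`.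
So `3 t^3 e = C Δ₀ * B^5 * Σ`, `Σ = 81 (2 T^2 + 8 T6 T + 9 (H^3 + T6^2))`.
1. `B ≠ 0`, `7 ≤ natDegree B` (`natDegree_bD_ge`).  At a root `μ` of `B` (use `eval_bD`, `eval_bc4`, `eval_bc6`): `H(μ) ≠ 0`
   (`bc4_bD_not_both_zero`), `T6(μ)^2 = H(μ)^3 ≠ 0` (`disc_family`), `rootMultiplicity μ B = 1` (`bD_simple_root` and
   `one_lt_rootMultiplicity_iff_isRoot`).
2. `t(μ) ≠ 0` at every root `μ` of `B`: otherwise `T(μ) = -3 T6(μ)`, `e(μ) = -12 T6(μ) ≠ 0`, `Σ(μ) = 81 * 12 T6(μ)^2 ≠ 0`;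
   `rootMultiplicity μ` of both sides of `3 t^3 e = C Δ₀ B^5 Σ`: `3 j = 5`.  Contradiction.
3. So `IsCoprime B t` (alg. closed, no common root), `IsCoprime (B^5) (t^3)`, `B^5 ∣ e`.
4. `natDegree P ≤ 10` (if `d = natDegree P ≥ 11` then `3 P^4` has degree `4 d > max (20 + 2 d) (30 + d) 40`;
   `natDegree_bc4_le`, `natDegree_bc6_le`), so `natDegree e ≤ 30 < 35 ≤ natDegree (B^5)`.  Hence `e = 0`.
5. `T = 9 T6`, `0 = C Δ₀ B^5 * 81 (243 T6^2 + 9 H^3)`, so `H^3 = -27 T6^2`; at a root `μ` of `B` (exists: degree `≥ 7`):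
   `T6(μ)^2 = H(μ)^3 = -27 T6(μ)^2`, `28 T6(μ)^2 = 0`.  Contradiction.
-/

set_option autoImplicit false

namespace Fermat.Agent.S52.HI

open Polynomial

theorem npr_id {R : Type*} [CommRing R] (c4 c6 X : R) :
    c4 ^ 4 * psi3EC c4 c6 X = 3 * (c4 * X + 3 * c6) ^ 3 * (c4 * X - 9 * c6)
      - (c4 ^ 3 - c6 ^ 2) * (81 * (2 * (c4 * X) ^ 2 + 8 * c6 * (c4 * X) + 9 * (c4 ^ 3 + c6 ^ 2))) := by
  simp only [psi3EC]; ring

/-- abstract form -/
theorem npr_abstract {K : Type*} [Field K] [IsAlgClosed K] [CharZero K] (H T6 B P : K[X]) (Δ₀ : K)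
    (hΔ : Δ₀ ≠ 0) (h1 : H ^ 3 - T6 ^ 2 = C Δ₀ * B ^ 5)
    (h2 : ∀ μ, B.eval μ = 0 → H.eval μ ≠ 0) (h3 : ∀ μ, B.eval μ = 0 → (derivative B).eval μ ≠ 0)
    (hB : 7 ≤ B.natDegree) (hH : H.natDegree ≤ 20) (hT : T6.natDegree ≤ 30) :
    psi3EC H T6 P ≠ 0 := by
  intro hP
  have hB0 : B ≠ 0 := by
    rintro rfl
    simp at hB
  set t : K[X] := H * P + 3 * T6 with ht
  set e : K[X] := H * P - 9 * T6 with he
  set Sg : K[X] := 81 * (2 * (H * P) ^ 2 + 8 * T6 * (H * P) + 9 * (H ^ 3 + T6 ^ 2)) with hSg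
  have key : 3 * t ^ 3 * e = C Δ₀ * B ^ 5 * Sg := by
    have := npr_id H T6 P
    rw [hP, mul_zero, h1] at this
    linear_combination -this
  -- values at a root of B
  have hroot : ∀ μ, B.eval μ = 0 → T6.eval μ ^ 2 = H.eval μ ^ 3 := by
    intro μ hμ
    have := congrArg (eval μ) h1
    simp only [eval_sub, eval_pow, eval_mul, eval_C, hμ] at this
    linear_combination -this
  have hT6 : ∀ μ, B.eval μ = 0 → T6.eval μ ≠ 0 := by
    intro μ hμ h0
    have := hroot μ hμ
    rw [h0] at this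
    exact h2 μ hμ (pow_eq_zero_iff (n := 3) (by norm_num) |>.mp (by rw [← this]; ring))
  -- step 2
  have step2 : ∀ μ, B.eval μ = 0 → t.eval μ ≠ 0 := by
    intro μ hμ htμ
    have hHP : (H * P).eval μ = -3 * T6.eval μ := by
      have : t.eval μ = (H * P).eval μ + 3 * T6.eval μ := by
        rw [ht]; simp
      rw [htμ] at this
      linear_combination -this
    have heμ : e.eval μ ≠ 0 := by
      have : e.eval μ = -12 * T6.eval μ := by
        have h' : e.eval μ = (H * P).eval μ - 9 * T6.eval μ := by rw [he]; simp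
        rw [h', hHP]; ring
      rw [this]
      exact mul_ne_zero (by norm_num) (hT6 μ hμ)
    have hSμ : Sg.eval μ ≠ 0 := by
      have : Sg.eval μ = 972 * T6.eval μ ^ 2 := by
        have h' : Sg.eval μ = 81 * (2 * ((H * P).eval μ) ^ 2 + 8 * T6.eval μ * (H * P).eval μ
            + 9 * (H.eval μ ^ 3 + T6.eval μ ^ 2)) := by
          rw [hSg]; simp
        rw [h', hHP, ← hroot μ hμ]; ring
      rw [this]
      exact mul_ne_zero (by norm_num) (pow_ne_zero _ (hT6 μ hμ))
    obtain ⟨B1, hB1⟩ := dvd_iff_isRoot.mpr (show IsRoot B μ from hμ)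
    have hB1μ : B1.eval μ ≠ 0 := by
      have := h3 μ hμ
      rw [hB1] at this
      simpa using this
    obtain ⟨t1, ht1⟩ := dvd_iff_isRoot.mpr (show IsRoot t μ from htμ)
    have hL : (X - C μ : K[X]) ≠ 0 := X_sub_C_ne_zero μ
    have k1 : 3 * t1 ^ 3 * e = C Δ₀ * (X - C μ) ^ 2 * B1 ^ 5 * Sg := by
      apply mul_left_cancel₀ (pow_ne_zero 3 hL)
      rw [ht1, hB1] at key
      linear_combination key
    have ht1μ : t1.eval μ = 0 := by
      have := congrArg (eval μ) k1
      simp only [eval_mul, eval_pow, eval_sub, eval_X, eval_C, sub_self, eval_ofNat] at this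
      have h0 : 3 * t1.eval μ ^ 3 * e.eval μ = 0 := by rw [this]; ring
      have h3' : (3 : K) ≠ 0 := by norm_num
      rcases mul_eq_zero.mp h0 with h | h
      · rcases mul_eq_zero.mp h with h | h
        · exact absurd h h3'
        · exact pow_eq_zero_iff (n := 3) (by norm_num) |>.mp h
      · exact absurd h heμ
    obtain ⟨t2, ht2⟩ := dvd_iff_isRoot.mpr (show IsRoot t1 μ from ht1μ)
    have k2 : 3 * (X - C μ) * t2 ^ 3 * e = C Δ₀ * B1 ^ 5 * Sg := by
      apply mul_left_cancel₀ (pow_ne_zero 2 hL)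
      rw [ht2] at k1
      linear_combination k1
    have := congrArg (eval μ) k2
    simp only [eval_mul, eval_pow, eval_sub, eval_X, eval_C, sub_self, eval_ofNat, mul_zero,
      zero_mul] at this
    exact mul_ne_zero (mul_ne_zero hΔ (pow_ne_zero 5 hB1μ)) hSμ this.symm
  -- step 3
  have hcop : IsCoprime B t := by
    rw [Polynomial.isCoprime_iff_aeval_ne_zero_of_isAlgClosed (k := K) K]
    intro μ
    by_cases hμ : B.eval μ = 0
    · right
      simpa using step2 μ hμ
    · left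
      simpa using hμ
  have hdvd : B ^ 5 ∣ e := by
    have hc : IsCoprime (B ^ 5) (t ^ 3) := hcop.pow
    have h3u : IsUnit (C (3 : K)) := by
      rw [Polynomial.isUnit_iff]
      exact ⟨3, isUnit_iff_ne_zero.mpr (by norm_num), rfl⟩
    have : B ^ 5 ∣ t ^ 3 * (C 3 * e) := ⟨C Δ₀ * Sg, by
      have : (C 3 : K[X]) = 3 := map_ofNat C 3
      rw [this]; linear_combination key⟩
    have h' := hc.dvd_of_dvd_mul_left this
    exact (h3u.dvd_mul_left).mp h'
  -- step 4
  have hPd : P.natDegree ≤ 10 := by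
    by_contra hcon
    rw [not_le] at hcon
    have hP0 : P ≠ 0 := by
      rintro rfl
      simp at hcon
    have e1 : C (3 : K) * P ^ 4 = C 162 * H * P ^ 2 + C 648 * T6 * P + C 729 * H ^ 2 := by
      have : psi3EC H T6 P = 3 * P ^ 4 + 6 * (-27 * H) * P ^ 2 + 12 * (-54 * T6) * P - (-27 * H) ^ 2 := rfl
      rw [this] at hP
      simp only [map_ofNat]
      linear_combination hP
    have d1 : (C (3 : K) * P ^ 4).natDegree = 4 * P.natDegree := by
      rw [natDegree_C_mul (by norm_num), natDegree_pow]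
    have d2 : (C 162 * H * P ^ 2 + C 648 * T6 * P + C 729 * H ^ 2).natDegree < 4 * P.natDegree := by
      have a1 : (C 162 * H * P ^ 2).natDegree ≤ 20 + 2 * P.natDegree := by
        calc _ ≤ (C 162 * H).natDegree + (P ^ 2).natDegree := natDegree_mul_le
          _ ≤ 20 + 2 * P.natDegree := by
            gcongr
            · exact (natDegree_C_mul_le _ _).trans hH
            · exact natDegree_pow_le
      have a2 : (C 648 * T6 * P).natDegree ≤ 30 + P.natDegree := by
        calc _ ≤ (C 648 * T6).natDegree + P.natDegree := natDegree_mul_le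
          _ ≤ 30 + P.natDegree := by
            gcongr
            exact (natDegree_C_mul_le _ _).trans hT
      have a3 : (C 729 * H ^ 2).natDegree ≤ 40 := by
        calc _ ≤ (H ^ 2).natDegree := natDegree_C_mul_le _ _
          _ ≤ 2 * H.natDegree := natDegree_pow_le
          _ ≤ 40 := by omega
      have := natDegree_add_le (C 162 * H * P ^ 2 + C 648 * T6 * P) (C 729 * H ^ 2)
      have := natDegree_add_le (C 162 * H * P ^ 2) (C 648 * T6 * P)
      omega
    rw [← e1, d1] at d2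
    exact lt_irrefl _ d2
  have he0 : e = 0 := by
    by_contra hne
    have := natDegree_le_of_dvd hdvd hne
    rw [natDegree_pow] at this
    have a1 : e.natDegree ≤ 30 := by
      have b1 : (H * P).natDegree ≤ 30 := natDegree_mul_le.trans (by omega)
      have b2 : (9 * T6 : K[X]).natDegree ≤ 30 := by
        have : (9 : K[X]) = C 9 := (map_ofNat C 9).symm
        rw [this]
        exact (natDegree_C_mul_le _ _).trans hT
      exact (natDegree_sub_le _ _).trans (max_le b1 b2)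
    omega
  -- step 5
  obtain ⟨μ, hμ⟩ := IsAlgClosed.exists_root B (by
    intro h
    have := natDegree_eq_of_degree_eq_some (n := 0) h
    omega)
  have hμ' : B.eval μ = 0 := hμ
  have hS0 : Sg = 0 := by
    rw [he0, mul_zero] at key
    rcases mul_eq_zero.mp key.symm with h | h
    · exact absurd h (mul_ne_zero (C_ne_zero.mpr hΔ) (pow_ne_zero 5 hB0))
    · exact h
  have hHP : (H * P).eval μ = 9 * T6.eval μ := by
    have := congrArg (eval μ) he0
    rw [he] at this
    simp only [eval_sub, eval_mul, eval_ofNat, eval_zero] at this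
    rw [eval_mul]
    linear_combination this
  have := congrArg (eval μ) hS0
  have h' : Sg.eval μ = 81 * (2 * ((H * P).eval μ) ^ 2 + 8 * T6.eval μ * (H * P).eval μ
      + 9 * (H.eval μ ^ 3 + T6.eval μ ^ 2)) := by
    rw [hSg]; simp
  rw [h', hHP, ← hroot μ hμ', eval_zero] at this
  have h4 : (20412 : K) * T6.eval μ ^ 2 = 0 := by linear_combination this
  exact hT6 μ hμ' (pow_eq_zero_iff (n := 2) (by norm_num) |>.mp
    ((mul_eq_zero.mp h4).resolve_left (by norm_num)))

theorem no_poly_root {K : Type*} [Field K] [IsAlgClosed K] [CharZero K]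
    (c4 c6 : K) (hΔ : c4 ^ 3 - c6 ^ 2 ≠ 0) (P : K[X]) :
    psi3EC (bc4 (C c4) (C c6) X) (bc6 (C c4) (C c6) X) P ≠ 0 := by
  refine npr_abstract _ _ (bD (C c4) (C c6) X) P (c4 ^ 3 - c6 ^ 2) hΔ ?_ ?_ ?_
    (natDegree_bD_ge c4 c6 hΔ) (natDegree_bc4_le c4 c6) (natDegree_bc6_le c4 c6)
  · rw [disc_family]
    simp
  · intro μ hμ h4
    rw [eval_bD] at hμ
    rw [eval_bc4] at h4
    exact bc4_bD_not_both_zero K (by norm_num) c4 c6 μ hΔ h4 hμ
  · intro μ hμ
    rw [eval_bD] at hμ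
    exact bD_simple_root c4 c6 hΔ μ hμ

end Fermat.Agent.S52.HI
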