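import Fermat.Agent.S52.DDefs
import Fermat.Agent.S52.CardCongr

/-!
# S52, piece D2-S: `bD c4 c6 μ` (as a polynomial in `μ`) has only simple roots, and degree `≥ 7`

Jacobian identity `3 B H' - 5 H B' = -60 T` (`B = bD`, `H = bc4`, `T = bc6`, `' = d/dμ`); a double root of `B` is a zero of `T`, hence
(`disc_family`) of `H`, contradicting `bc4_bD_not_both_zero`.
-/

set_option autoImplicit false

namespace Fermat.Agent.S52.HI

open Polynomial

set_option maxHeartbeats 4000000 in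
theorem jac_id {R : Type*} [CommRing R] (c4 c6 : R) :
    3 * (bD (C c4) (C c6) X : R[X]) * derivative (bc4 (C c4) (C c6) X : R[X])
      - 5 * (bc4 (C c4) (C c6) X : R[X]) * derivative (bD (C c4) (C c6) X : R[X])
      = -60 * (bc6 (C c4) (C c6) X : R[X]) := by
  simp only [bD, bc4, bc6, g4, g6, derivative_add, derivative_mul, derivative_pow, derivative_C,
    derivative_X, derivative_neg, derivative_ofNat, derivative_one, mul_zero, zero_mul, add_zero,
    zero_add, mul_one, neg_zero]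
  simp only [Nat.cast_ofNat, map_ofNat, Nat.reduceSub, pow_one]
  ring

theorem eval_bD (R : Type*) [CommRing R] (c4 c6 μ : R) :
    (bD (C c4) (C c6) X : R[X]).eval μ = bD c4 c6 μ := by
  have := map_bD' (evalRingHom μ) (C c4) (C c6) X
  simpa only [coe_evalRingHom, eval_C, eval_X] using this

theorem eval_bc4 (R : Type*) [CommRing R] (c4 c6 μ : R) :
    (bc4 (C c4) (C c6) X : R[X]).eval μ = bc4 c4 c6 μ := by
  have := map_bc4' (evalRingHom μ) (C c4) (C c6) X
  simpa only [coe_evalRingHom, eval_C, eval_X] using this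

theorem eval_bc6 (R : Type*) [CommRing R] (c4 c6 μ : R) :
    (bc6 (C c4) (C c6) X : R[X]).eval μ = bc6 c4 c6 μ := by
  have := map_bc6' (evalRingHom μ) (C c4) (C c6) X
  simpa only [coe_evalRingHom, eval_C, eval_X] using this

variable {K : Type*} [Field K]

theorem bD_simple_root [IsAlgClosed K] [CharZero K] (c4 c6 : K) (hΔ : c4 ^ 3 - c6 ^ 2 ≠ 0) (μ : K)
    (h : bD c4 c6 μ = 0) : (derivative (bD (C c4) (C c6) X : K[X])).eval μ ≠ 0 := by
  intro hd
  have h1 := congrArg (eval μ) (jac_id c4 c6)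
  simp only [eval_sub, eval_mul, eval_bD, eval_bc4, eval_bc6, hd, h, mul_zero, zero_mul, sub_zero,
    eval_neg, eval_ofNat] at h1
  have h6 : bc6 c4 c6 μ = 0 := by
    have h60 : (-60 : K) ≠ 0 := by norm_num
    exact (mul_eq_zero.mp h1.symm).resolve_left h60
  have h2 := disc_family c4 c6 μ
  rw [h6, h] at h2
  have h4 : bc4 c4 c6 μ = 0 := by
    have : bc4 c4 c6 μ ^ 3 = 0 := by linear_combination h2
    exact pow_eq_zero_iff (by norm_num) |>.mp this
  exact bc4_bD_not_both_zero K (by norm_num) c4 c6 μ hΔ h4 h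

theorem bD_eq_sum (c4 c6 : K) : (bD (C c4) (C c6) X : K[X]) =
    C 1 + C (-66 * c4) * X ^ 2 + C (440 * c6) * X ^ 3 + C (-1485 * c4 ^ 2) * X ^ 4
    + C (3168 * c4 * c6) * X ^ 5 + C (-10560 * c6 ^ 2 + 5940 * c4 ^ 3) * X ^ 6
    + C (4752 * c4 ^ 2 * c6) * X ^ 7 + C (63360 * c4 * c6 ^ 2 + -66825 * c4 ^ 4) * X ^ 8
    + C (-140800 * c6 ^ 3 + 142560 * c4 ^ 3 * c6) * X ^ 9
    + C (133056 * c4 ^ 2 * c6 ^ 2 + -133650 * c4 ^ 5) * X ^ 10
    + C (-61440 * c4 * c6 ^ 3 + 61560 * c4 ^ 4 * c6) * X ^ 11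
    + C (102400 * c6 ^ 4 + -193536 * c4 ^ 3 * c6 ^ 2 + 91125 * c4 ^ 6) * X ^ 12 := by
  simp only [bD, map_add, map_mul, map_pow, map_neg, map_ofNat, map_one]

theorem coeff7_bD (c4 c6 : K) : (bD (C c4) (C c6) X : K[X]).coeff 7 = 4752 * c4 ^ 2 * c6 := by
  rw [bD_eq_sum]
  simp only [coeff_add, coeff_C_mul_X_pow, coeff_C]
  norm_num

theorem coeff8_bD (c4 c6 : K) :
    (bD (C c4) (C c6) X : K[X]).coeff 8 = 63360 * c4 * c6 ^ 2 + -66825 * c4 ^ 4 := by
  rw [bD_eq_sum]
  simp only [coeff_add, coeff_C_mul_X_pow, coeff_C]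
  norm_num

theorem coeff9_bD (c4 c6 : K) :
    (bD (C c4) (C c6) X : K[X]).coeff 9 = -140800 * c6 ^ 3 + 142560 * c4 ^ 3 * c6 := by
  rw [bD_eq_sum]
  simp only [coeff_add, coeff_C_mul_X_pow, coeff_C]
  norm_num

theorem natDegree_bD_ge [CharZero K] (c4 c6 : K) (hΔ : c4 ^ 3 - c6 ^ 2 ≠ 0) :
    7 ≤ (bD (C c4) (C c6) X : K[X]).natDegree := by
  by_cases h4 : c4 = 0
  · have h6 : c6 ≠ 0 := by
      rintro rfl
      apply hΔ
      rw [h4]; ring
    have : 9 ≤ (bD (C c4) (C c6) X : K[X]).natDegree := by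
      apply le_natDegree_of_ne_zero
      rw [coeff9_bD, h4]
      have : (-140800 * c6 ^ 3 + 142560 * 0 ^ 3 * c6 : K) = -140800 * c6 ^ 3 := by ring
      rw [this]
      exact mul_ne_zero (by norm_num) (pow_ne_zero _ h6)
    omega
  · by_cases h6 : c6 = 0
    · have : 8 ≤ (bD (C c4) (C c6) X : K[X]).natDegree := by
        apply le_natDegree_of_ne_zero
        rw [coeff8_bD, h6]
        have : (63360 * c4 * 0 ^ 2 + -66825 * c4 ^ 4 : K) = -66825 * c4 ^ 4 := by ring
        rw [this]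
        exact mul_ne_zero (by norm_num) (pow_ne_zero _ h4)
      omega
    · apply le_natDegree_of_ne_zero
      rw [coeff7_bD]
      exact mul_ne_zero (mul_ne_zero (by norm_num) (pow_ne_zero _ h4)) h6

theorem natDegree_bc4_le (c4 c6 : K) : (bc4 (C c4) (C c6) X : K[X]).natDegree ≤ 20 := by
  simp only [bc4, g4]
  compute_degree

theorem natDegree_bc6_le (c4 c6 : K) : (bc6 (C c4) (C c6) X : K[X]).natDegree ≤ 30 := by
  simp only [bc6, g6]
  compute_degree

end Fermat.Agent.S52.HI
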