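import Fermat.Agent.S52.Family
import Fermat.Prelude.Def_FLTPrelim_Modularity

/-!
# S52 (3-5 switch): common definitions

* `EC c4 c6` : the short Weierstrass curve `y^2 = x^3 - 27 c4 x - 54 c6`.
* `frobAlg ℓ K` : the `ℓ`-power Frobenius of a field `K` of characteristic `ℓ`, as a `ZMod ℓ`-algebra map.
* `Fr ℓ K W` : the Frobenius endomorphism of the group `W(K)` for `W` defined over `ZMod ℓ`.
-/

set_option autoImplicit false

namespace Fermat.Agent.S52

open WeierstrassCurve WeierstrassCurve.Affine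

/-- `y^2 = x^3 - 27 c4 x - 54 c6`. -/
def EC {R : Type*} [CommRing R] (c4 c6 : R) : WeierstrassCurve R := ⟨0, 0, 0, -27 * c4, -54 * c6⟩

/-- Frobenius `x ↦ x ^ ℓ` as a `ZMod ℓ`-algebra endomorphism. -/
noncomputable def frobAlg (ℓ : ℕ) [Fact ℓ.Prime] (K : Type*) [Field K] [Algebra (ZMod ℓ) K] :
    K →ₐ[ZMod ℓ] K :=
  haveI : CharP K ℓ := charP_of_injective_algebraMap (algebraMap (ZMod ℓ) K).injective ℓ
  { frobenius K ℓ with
    commutes' := fun r => by
      show (algebraMap (ZMod ℓ) K r) ^ ℓ = algebraMap (ZMod ℓ) K r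
      rw [← map_pow, ZMod.pow_card] }

theorem frobAlg_apply (ℓ : ℕ) [Fact ℓ.Prime] (K : Type*) [Field K] [Algebra (ZMod ℓ) K] (x : K) :
    frobAlg ℓ K x = x ^ ℓ := rfl

/-- Frobenius on points. -/
noncomputable def Fr (ℓ : ℕ) [Fact ℓ.Prime] (K : Type*) [Field K] [DecidableEq K] [Algebra (ZMod ℓ) K]
    (W : WeierstrassCurve.Affine (ZMod ℓ)) : (W⁄K).Point →+ (W⁄K).Point :=
  Point.map (W' := W) (frobAlg ℓ K)

end Fermat.Agent.S52
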