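import Fermat.Agent.S52.Defs

/-! # S52, Part A: points on curves `y^2 = x^3 - 27 c4 x - 54 c6` given by coordinates. -/

set_option autoImplicit false

namespace Fermat.Agent.S52

open WeierstrassCurve WeierstrassCurve.Affine

variable {K : Type*} [Field K]

/-- `W` is the curve `y^2 = x^3 - 27 c4 x - 54 c6`. -/
structure IsEC (W : WeierstrassCurve.Affine K) (c4 c6 : K) : Prop where
  a₁ : W.a₁ = 0
  a₂ : W.a₂ = 0
  a₃ : W.a₃ = 0
  a₄ : W.a₄ = -27 * c4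
  a₆ : W.a₆ = -54 * c6

open Classical in
/-- The point with coordinates `(x, y)` (junk value `0` if it is not a nonsingular point of `W`). -/
noncomputable def ptOf (W : WeierstrassCurve.Affine K) (x y : K) : W.Point :=
  if e : W.Nonsingular x y then .some x y e else 0

theorem ptOf_eq (W : WeierstrassCurve.Affine K) {x y : K} (e : W.Nonsingular x y) :
    ptOf W x y = .some x y e := dif_pos e

theorem ptOf_ne_zero (W : WeierstrassCurve.Affine K) {x y : K} (e : W.Nonsingular x y) :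
    ptOf W x y ≠ 0 := by
  rw [ptOf_eq W e]; exact fun h => by cases h

theorem ptOf_inj (W : WeierstrassCurve.Affine K) {x y x' y' : K} (e : W.Nonsingular x y)
    (e' : W.Nonsingular x' y') (h : ptOf W x y = ptOf W x' y') : x = x' ∧ y = y' := by
  rw [ptOf_eq W e, ptOf_eq W e'] at h
  simpa using h

namespace IsEC

variable {W : WeierstrassCurve.Affine K} {c4 c6 : K}

theorem equation_iff (h : IsEC W c4 c6) (x y : K) :
    W.Equation x y ↔ y ^ 2 = x ^ 3 - 27 * c4 * x - 54 * c6 := by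
  rw [Affine.equation_iff, h.a₁, h.a₂, h.a₃, h.a₄, h.a₆]
  constructor <;> intro e <;> linear_combination e

theorem Δ_eq (h : IsEC W c4 c6) : W.Δ = 1259712 * (c4 ^ 3 - c6 ^ 2) := by
  simp only [WeierstrassCurve.Δ, WeierstrassCurve.b₂, WeierstrassCurve.b₄, WeierstrassCurve.b₆,
    WeierstrassCurve.b₈, h.a₁, h.a₂, h.a₃, h.a₄, h.a₆]
  ring

theorem Δ_ne_zero (h : IsEC W c4 c6) (h6 : (6 : K) ≠ 0) (hΔ : c4 ^ 3 - c6 ^ 2 ≠ 0) : W.Δ ≠ 0 := by
  rw [h.Δ_eq]
  refine mul_ne_zero ?_ hΔ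
  have : (1259712 : K) = 6 ^ 6 * 3 ^ 3 := by norm_num
  rw [this]
  have h3 : (3 : K) ≠ 0 := fun h3 => h6 (by
    have : (6 : K) = 2 * 3 := by norm_num
    rw [this, h3, mul_zero])
  exact mul_ne_zero (pow_ne_zero _ h6) (pow_ne_zero _ h3)

theorem nonsingular (h : IsEC W c4 c6) (h6 : (6 : K) ≠ 0) (hΔ : c4 ^ 3 - c6 ^ 2 ≠ 0) {x y : K}
    (e : y ^ 2 = x ^ 3 - 27 * c4 * x - 54 * c6) : W.Nonsingular x y :=
  (W.equation_iff_nonsingular_of_Δ_ne_zero (h.Δ_ne_zero h6 hΔ)).mp ((h.equation_iff x y).mpr e)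

theorem eq_of_nonsingular (h : IsEC W c4 c6) {x y : K} (e : W.Nonsingular x y) :
    y ^ 2 = x ^ 3 - 27 * c4 * x - 54 * c6 := (h.equation_iff x y).mp e.1

theorem negY_eq (h : IsEC W c4 c6) (x y : K) : W.negY x y = -y := by
  simp [Affine.negY, h.a₁, h.a₃]

theorem neg_ptOf (h : IsEC W c4 c6) {x y : K} (e : W.Nonsingular x y) :
    -ptOf W x y = ptOf W x (-y) := by
  have e' : W.Nonsingular x (-y) := by
    have := (Affine.nonsingular_neg (W' := W) x y).mpr e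
    rwa [h.negY_eq] at this
  rw [ptOf_eq W e, ptOf_eq W e', Point.neg_some]
  congr 1
  exact h.negY_eq x y

variable [DecidableEq K]

/-- chord formula -/
theorem ptOf_add (h : IsEC W c4 c6) {x₁ y₁ x₂ y₂ x₃ y₃ : K} (n₁ : W.Nonsingular x₁ y₁)
    (n₂ : W.Nonsingular x₂ y₂) (hx : x₁ ≠ x₂)
    (hX : (y₁ - y₂) ^ 2 = (x₁ + x₂ + x₃) * (x₁ - x₂) ^ 2)
    (hY : y₃ * (x₁ - x₂) = (y₁ - y₂) * (x₁ - x₃) - y₁ * (x₁ - x₂)) :
    ptOf W x₁ y₁ + ptOf W x₂ y₂ = ptOf W x₃ y₃ := by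
  have hd : x₁ - x₂ ≠ 0 := sub_ne_zero.mpr hx
  have hn := Affine.nonsingular_add n₁ n₂ (fun hxy => hx hxy.left)
  have e1 : W.addX x₁ x₂ (W.slope x₁ x₂ y₁ y₂) = x₃ := by
    rw [Affine.slope_of_X_ne hx]
    simp only [Affine.addX, h.a₁, h.a₂]
    field_simp
    linear_combination hX
  have e2 : W.addY x₁ x₂ y₁ (W.slope x₁ x₂ y₁ y₂) = y₃ := by
    rw [Affine.addY, e1, h.negY_eq, Affine.negAddY, e1, Affine.slope_of_X_ne hx]
    field_simp
    linear_combination -hY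
  rw [e1, e2] at hn
  rw [ptOf_eq W n₁, ptOf_eq W n₂, ptOf_eq W hn, Point.add_of_X_ne hx]
  congr 1

end IsEC

end Fermat.Agent.S52
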