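import Mathlib

set_option autoImplicit false

namespace Fermat.Agent.S52

variable {R : Type*} [CommRing R]

/-- `bc4 = c4 + μ * g4`. -/
def g4 (c4 c6 μ : R) : R :=
    ((-20)*c6)
    + ((190)*c4^2)*μ
    + ((-1140)*c4*c6)*μ^2
    + ((5700)*c6^2 + (-855)*c4^3)*μ^3
    + ((-15504)*c4^2*c6)*μ^4
    + ((-63840)*c4*c6^2 + (102600)*c4^4)*μ^5
    + ((182400)*c6^3 + (-259920)*c4^3*c6)*μ^6
    + ((1126320)*c4^2*c6^2 + (-1000350)*c4^5)*μ^7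
    + ((-7904000)*c4*c6^3 + (7736040)*c4^4*c6)*μ^8
    + ((15808000)*c6^4 + (-5619744)*c4^3*c6^2 + (-10003500)*c4^6)*μ^9
    + ((-54853760)*c4^2*c6^3 + (54685800)*c4^5*c6)*μ^10
    + ((37939200)*c4*c6^4 + (7202520)*c4^4*c6^2 + (-45015750)*c4^7)*μ^11
    + ((-58368000)*c6^5 + (23201280)*c4^3*c6^3 + (35089200)*c4^6*c6)*μ^12
    + ((287462400)*c4^2*c6^4 + (-495188640)*c4^5*c6^2 + (207765000)*c4^8)*μ^13
    + ((-466944000)*c4*c6^5 + (882458496)*c4^4*c6^3 + (-415530000)*c4^7*c6)*μ^14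
    + ((583680000)*c6^6 + (-1220474880)*c4^3*c6^4 + (714711600)*c4^6*c6^2 + (-77911875)*c4^9)*μ^15
    + ((-361881600)*c4^2*c6^5 + (715080960)*c4^5*c6^3 + (-353200500)*c4^8*c6)*μ^16
    + ((-622592000)*c4*c6^6 + (2026391040)*c4^4*c6^4 + (-2182917600)*c4^7*c6^2 + (779118750)*c4^10)*μ^17
    + ((655360000)*c6^7 + (-2005401600)*c4^3*c6^5 + (2044414080)*c4^6*c6^3 + (-694372500)*c4^9*c6)*μ^18
    + ((-180224000)*c4^2*c6^6 + (544997376)*c4^5*c6^4 + (-549301500)*c4^8*c6^2 + (184528125)*c4^11)*μ^19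

def g6 (c4 c6 μ : R) : R :=
    ((-30)*c4^2)
    + ((435)*c4*c6)*μ
    + ((-2900)*c6^2 + (-1160)*c4^3)*μ^2
    + ((27405)*c4^2*c6)*μ^3
    + ((-46980)*c4*c6^2 + (-95526)*c4^4)*μ^4
    + ((156600)*c6^3 + (437175)*c4^3*c6)*μ^5
    + ((-3915000)*c4^2*c6^2 + (1879200)*c4^5)*μ^6
    + ((14407200)*c4*c6^3 + (-8554275)*c4^4*c6)*μ^7
    + ((-32016000)*c6^4 + (42021000)*c4^3*c6^2 + (-24312150)*c4^6)*μ^8
    + ((-216588240)*c4^2*c6^3 + (246633255)*c4^5*c6)*μ^9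
    + ((1459929600)*c4*c6^4 + (-1352475900)*c4^4*c6^2 + (-162081000)*c4^7)*μ^10
    + ((-2433216000)*c6^5 + (-1612005600)*c4^3*c6^3 + (4131714825)*c4^6*c6)*μ^11
    + ((12044419200)*c4^2*c6^4 + (-5235216300)*c4^5*c6^2 + (-6928962750)*c4^8)*μ^12
    + ((-43045111800)*c4^4*c6^3 + (43190534475)*c4^7*c6)*μ^13
    + ((79420170240)*c4^3*c6^4 + (-79575287760)*c4^6*c6^2)*μ^14
    + ((-297825638400)*c4^2*c6^5 + (474659611200)*c4^5*c6^3 + (-176688550125)*c4^8*c6)*μ^15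
    + ((700766208000)*c4*c6^6 + (-935084908800)*c4^4*c6^4 + (-77604382800)*c4^7*c6^2 + (311803323750)*c4^10)*μ^16
    + ((-778629120000)*c6^7 + (-303665356800)*c4^3*c6^5 + (2776512362400)*c4^6*c6^3 + (-1694131392375)*c4^9*c6)*μ^17
    + ((4290656256000)*c4^2*c6^6 + (-8100765158400)*c4^5*c6^4 + (3481840250100)*c4^8*c6^2 + (328214025000)*c4^11)*μ^18
    + ((-3442360320000)*c4*c6^7 + (3892110842880)*c4^4*c6^5 + (2424887357760)*c4^7*c6^3 + (-2874607835625)*c4^10*c6)*μ^19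
    + ((3278438400000)*c6^8 + (-5125838438400)*c4^3*c6^6 + (2709129888000)*c4^6*c6^4 + (-3077188825500)*c4^9*c6^2 + (2215444668750)*c4^12)*μ^20
    + ((-4573421568000)*c4^2*c6^7 + (7701051801600)*c4^5*c6^5 + (-1724509423800)*c4^8*c6^3 + (-1403114956875)*c4^11*c6)*μ^21
    + ((-6157762560000)*c4*c6^8 + (30337884979200)*c4^4*c6^6 + (-49888700928000)*c4^7*c6^4 + (33414470973000)*c4^10*c6^2 + (-7705894500000)*c4^13)*μ^22
    + ((5131468800000)*c6^9 + (-22779445248000)*c4^3*c6^7 + (35246094796800)*c4^6*c6^5 + (-22687218914400)*c4^9*c6^3 + (5089101159375)*c4^12*c6)*μ^23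
    + ((18216714240000)*c4^2*c6^8 + (-71274600677376)*c4^5*c6^6 + (105528606261120)*c4^8*c6^4 + (-70097953635000)*c4^11*c6^2 + (17627233668750)*c4^14)*μ^24
    + ((-41051750400000)*c4*c6^9 + (163803539865600)*c4^4*c6^7 + (-245438120632320)*c4^7*c6^5 + (163672057566000)*c4^10*c6^3 + (-40985726371875)*c4^13*c6)*μ^25
    + ((30408704000000)*c6^10 + (-111934439424000)*c4^3*c6^8 + (143803576074240)*c4^6*c6^6 + (-63806176396800)*c4^9*c6^4 + (-8104032382500)*c4^12*c6^2 + (9632368125000)*c4^15)*μ^26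
    + ((-21438136320000)*c4^2*c6^9 + (85731449241600)*c4^5*c6^7 + (-128580522647040)*c4^8*c6^5 + (85719228804000)*c4^11*c6^3 + (-21432019078125)*c4^14*c6)*μ^27
    + ((-5033164800000)*c4*c6^10 + (31344427008000)*c4^4*c6^8 + (-75042714746880)*c4^7*c6^6 + (87394892457600)*c4^10*c6^4 + (-49873523512500)*c4^13*c6^2 + (11210083593750)*c4^16)*μ^28
    + ((3355443200000)*c6^11 + (-17532190720000)*c4^3*c6^9 + (36574189977600)*c4^6*c6^7 + (-38083944628224)*c4^9*c6^5 + (19796866155000)*c4^12*c6^3 + (-4110363984375)*c4^15*c6)*μ^29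

def bc4 (c4 c6 μ : R) : R := c4 + μ * g4 c4 c6 μ

def bc6 (c4 c6 μ : R) : R := c6 + μ * g6 c4 c6 μ

def bD (c4 c6 μ : R) : R :=
    ((1))
    + ((-66)*c4)*μ^2
    + ((440)*c6)*μ^3
    + ((-1485)*c4^2)*μ^4
    + ((3168)*c4*c6)*μ^5
    + ((-10560)*c6^2 + (5940)*c4^3)*μ^6
    + ((4752)*c4^2*c6)*μ^7
    + ((63360)*c4*c6^2 + (-66825)*c4^4)*μ^8
    + ((-140800)*c6^3 + (142560)*c4^3*c6)*μ^9
    + ((133056)*c4^2*c6^2 + (-133650)*c4^5)*μ^10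
    + ((-61440)*c4*c6^3 + (61560)*c4^4*c6)*μ^11
    + ((102400)*c6^4 + (-193536)*c4^3*c6^2 + (91125)*c4^6)*μ^12

end Fermat.Agent.S52
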