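import Fermat.Agent.S52.Forms6A

/-! # S52: fam6, coefficients (auto-generated) -/

set_option autoImplicit false
set_option linter.unusedVariables false

namespace Fermat.Agent.S52

variable {R : Type*} [CommRing R]

set_option maxHeartbeats 4000000 in
theorem f6_k12 (p q : R) : f6A12 p q (K1 p q) (K2 p q) = f6H12 (C4 p q) (C6 p q) := by
  simp only [f6A12, f6H12, K1, K2, C4, C6]
  ring

set_option maxHeartbeats 4000000 in
theorem f6_k13 (p q : R) : f6A13 p q (K1 p q) (K2 p q) = f6H13 (C4 p q) (C6 p q) := by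
  simp only [f6A13, f6H13, K1, K2, C4, C6]
  ring

set_option maxHeartbeats 4000000 in
theorem f6_k14 (p q : R) : f6A14 p q (K1 p q) (K2 p q) = f6H14 (C4 p q) (C6 p q) := by
  simp only [f6A14, f6H14, K1, K2, C4, C6]
  ring

set_option maxHeartbeats 4000000 in
theorem f6_k15 (p q : R) : f6A15 p q (K1 p q) (K2 p q) = f6H15 (C4 p q) (C6 p q) := by
  simp only [f6A15, f6H15, K1, K2, C4, C6]
  ring

set_option maxHeartbeats 4000000 in
theorem f6_k16 (p q : R) : f6A16 p q (K1 p q) (K2 p q) = f6H16 (C4 p q) (C6 p q) := by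
  simp only [f6A16, f6H16, K1, K2, C4, C6]
  ring

end Fermat.Agent.S52
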