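import Fermat.Agent.S52.Forms6A

/-! # S52: fam6, coefficients (auto-generated) -/

set_option autoImplicit false
set_option linter.unusedVariables false

namespace Fermat.Agent.S52

variable {R : Type*} [CommRing R]

set_option maxHeartbeats 4000000 in
theorem f6_k17 (p q : R) : f6A17 p q (K1 p q) (K2 p q) = f6H17 (C4 p q) (C6 p q) := by
  simp only [f6A17, f6H17, K1, K2, C4, C6]
  ring

set_option maxHeartbeats 4000000 in
theorem f6_k18 (p q : R) : f6A18 p q (K1 p q) (K2 p q) = f6H18 (C4 p q) (C6 p q) := by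
  simp only [f6A18, f6H18, K1, K2, C4, C6]
  ring

set_option maxHeartbeats 4000000 in
theorem f6_k19 (p q : R) : f6A19 p q (K1 p q) (K2 p q) = f6H19 (C4 p q) (C6 p q) := by
  simp only [f6A19, f6H19, K1, K2, C4, C6]
  ring

set_option maxHeartbeats 4000000 in
theorem f6_k20 (p q : R) : f6A20 p q (K1 p q) (K2 p q) = f6H20 (C4 p q) (C6 p q) := by
  simp only [f6A20, f6H20, K1, K2, C4, C6]
  ring

end Fermat.Agent.S52
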