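import Fermat.Agent.S52.Forms6K0
import Fermat.Agent.S52.Forms6K1
import Fermat.Agent.S52.Forms6K2
import Fermat.Agent.S52.Forms6K3
import Fermat.Agent.S52.Forms6K4
import Fermat.Agent.S52.Forms6K5
import Fermat.Agent.S52.Forms6K6

/-! # S52: fam6 (auto-generated) -/

set_option autoImplicit false
set_option linter.unusedVariables false

namespace Fermat.Agent.S52

variable {R : Type*} [CommRing R]

theorem fam6 (p q μ : R) :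
    C6 (p * (1 + μ * K1 p q)^5) (q * (1 + μ * K2 p q)^5) = bc6 (C4 p q) (C6 p q) μ := by
  rw [f6_aux]
  have e : bc6 (C4 p q) (C6 p q) μ = f6H0 (C4 p q) (C6 p q) + f6H1 (C4 p q) (C6 p q) * μ + f6H2 (C4 p q) (C6 p q) * μ^2 + f6H3 (C4 p q) (C6 p q) * μ^3 + f6H4 (C4 p q) (C6 p q) * μ^4 + f6H5 (C4 p q) (C6 p q) * μ^5 + f6H6 (C4 p q) (C6 p q) * μ^6 + f6H7 (C4 p q) (C6 p q) * μ^7 + f6H8 (C4 p q) (C6 p q) * μ^8 + f6H9 (C4 p q) (C6 p q) * μ^9 + f6H10 (C4 p q) (C6 p q) * μ^10 + f6H11 (C4 p q) (C6 p q) * μ^11 + f6H12 (C4 p q) (C6 p q) * μ^12 + f6H13 (C4 p q) (C6 p q) * μ^13 + f6H14 (C4 p q) (C6 p q) * μ^14 + f6H15 (C4 p q) (C6 p q) * μ^15 + f6H16 (C4 p q) (C6 p q) * μ^16 + f6H17 (C4 p q) (C6 p q) * μ^17 + f6H18 (C4 p q) (C6 p q) * μ^18 + f6H19 (C4 p q) (C6 p q) * μ^19 + f6H20 (C4 p q) (C6 p q) * μ^20 + f6H21 (C4 p q) (C6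 p q) * μ^21 + f6H22 (C4 p q) (C6 p q) * μ^22 + f6H23 (C4 p q) (C6 p q) * μ^23 + f6H24 (C4 p q) (C6 p q) * μ^24 + f6H25 (C4 p q) (C6 p q) * μ^25 + f6H26 (C4 p q) (C6 p q) * μ^26 + f6H27 (C4 p q) (C6 p q) * μ^27 + f6H28 (C4 p q) (C6 p q) * μ^28 + f6H29 (C4 p q) (C6 p q) * μ^29 + f6H30 (C4 p q) (C6 p q) * μ^30 := by
    simp only [bc6, g6, f6H0, f6H1, f6H2, f6H3, f6H4, f6H5, f6H6, f6H7, f6H8, f6H9, f6H10, f6H11, f6H12, f6H13, f6H14, f6H15, f6H16, f6H17, f6H18, f6H19, f6H20, f6H21, f6H22, f6H23, f6H24, f6H25, f6H26, f6H27, f6H28, f6H29, f6H30]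
    ring
  rw [e]
  linear_combination f6_k0 p q + f6_k1 p q * μ + f6_k2 p q * μ^2 + f6_k3 p q * μ^3 + f6_k4 p q * μ^4 + f6_k5 p q * μ^5 + f6_k6 p q * μ^6 + f6_k7 p q * μ^7 + f6_k8 p q * μ^8 + f6_k9 p q * μ^9 + f6_k10 p q * μ^10 + f6_k11 p q * μ^11 + f6_k12 p q * μ^12 + f6_k13 p q * μ^13 + f6_k14 p q * μ^14 + f6_k15 p q * μ^15 + f6_k16 p q * μ^16 + f6_k17 p q * μ^17 + f6_k18 p q * μ^18 + f6_k19 p q * μ^19 + f6_k20 p q * μ^20 + f6_k21 p q * μ^21 + f6_k22 p q * μ^22 + f6_k23 p q * μ^23 + f6_k24 p q * μ^24 + f6_k25 p q * μ^25 + f6_k26 p q * μ^26 + f6_k27 p q * μ^27 + f6_k28 p q * μ^28 + f6_k29 p q * μ^29 + f6_k30 p q * μ^30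

end Fermat.Agent.S52
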