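import Fermat.Agent.S52.FormsDefs

/-! # S52: famD (auto-generated) -/

set_option autoImplicit false
set_option linter.unusedVariables false

namespace Fermat.Agent.S52

variable {R : Type*} [CommRing R]

def fDA0 (p q a b : R) : R :=
  (1)*p^2 + (11)*p*q + (-1)*q^2

def fDH0 (c4 c6 : R) : R :=
  (1)

def fDA1 (p q a b : R) : R :=
  (1)*p^2*b + (11)*p^2*a + (66)*p*q*b + (66)*p*q*a + (-11)*q^2*b + (-1)*q^2*a

def fDH1 (c4 c6 : R) : R :=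
  0

def fDA2 (p q a b : R) : R :=
  (11)*p^2*a*b + (55)*p^2*a^2 + (165)*p*q*b^2 + (396)*p*q*a*b + (165)*p*q*a^2 + (-55)*q^2*b^2 + (-11)*q^2*a*b

def fDH2 (c4 c6 : R) : R :=
  (-66)*c4

def fDA3 (p q a b : R) : R :=
  (55)*p^2*a^2*b + (165)*p^2*a^3 + (220)*p*q*b^3 + (990)*p*q*a*b^2 + (990)*p*q*a^2*b + (220)*p*q*a^3 + (-165)*q^2*b^3 + (-55)*q^2*a*b^2

def fDH3 (c4 c6 : R) : R :=
  (440)*c6

def fDA4 (p q a b : R) : R :=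
  (165)*p^2*a^3*b + (330)*p^2*a^4 + (165)*p*q*b^4 + (1320)*p*q*a*b^3 + (2475)*p*q*a^2*b^2 + (1320)*p*q*a^3*b + (165)*p*q*a^4 + (-330)*q^2*b^4 + (-165)*q^2*a*b^3

def fDH4 (c4 c6 : R) : R :=
  (-1485)*c4^2

def fDA5 (p q a b : R) : R :=
  (330)*p^2*a^4*b + (462)*p^2*a^5 + (66)*p*q*b^5 + (990)*p*q*a*b^4 + (3300)*p*q*a^2*b^3 + (3300)*p*q*a^3*b^2 + (990)*p*q*a^4*b + (66)*p*q*a^5 + (-462)*q^2*b^5 + (-330)*q^2*a*b^4

def fDH5 (c4 c6 : R) : R :=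
  (3168)*c4*c6

def fDA6 (p q a b : R) : R :=
  (462)*p^2*a^5*b + (462)*p^2*a^6 + (11)*p*q*b^6 + (396)*p*q*a*b^5 + (2475)*p*q*a^2*b^4 + (4400)*p*q*a^3*b^3 + (2475)*p*q*a^4*b^2 + (396)*p*q*a^5*b + (11)*p*q*a^6 + (-462)*q^2*b^6 + (-462)*q^2*a*b^5

def fDH6 (c4 c6 : R) : R :=
  (-10560)*c6^2 + (5940)*c4^3

def fDA7 (p q a b : R) : R :=
  (462)*p^2*a^6*b + (330)*p^2*a^7 + (66)*p*q*a*b^6 + (990)*p*q*a^2*b^5 + (3300)*p*q*a^3*b^4 + (3300)*p*q*a^4*b^3 + (990)*p*q*a^5*b^2 + (66)*p*q*a^6*b + (-330)*q^2*b^7 + (-462)*q^2*a*b^6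

def fDH7 (c4 c6 : R) : R :=
  (4752)*c4^2*c6

def fDA8 (p q a b : R) : R :=
  (330)*p^2*a^7*b + (165)*p^2*a^8 + (165)*p*q*a^2*b^6 + (1320)*p*q*a^3*b^5 + (2475)*p*q*a^4*b^4 + (1320)*p*q*a^5*b^3 + (165)*p*q*a^6*b^2 + (-165)*q^2*b^8 + (-330)*q^2*a*b^7

def fDH8 (c4 c6 : R) : R :=
  (63360)*c4*c6^2 + (-66825)*c4^4

def fDA9 (p q a b : R) : R :=
  (165)*p^2*a^8*b + (55)*p^2*a^9 + (220)*p*q*a^3*b^6 + (990)*p*q*a^4*b^5 + (990)*p*q*a^5*b^4 + (220)*p*q*a^6*b^3 + (-55)*q^2*b^9 + (-165)*q^2*a*b^8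

def fDH9 (c4 c6 : R) : R :=
  (-140800)*c6^3 + (142560)*c4^3*c6

def fDA10 (p q a b : R) : R :=
  (55)*p^2*a^9*b + (11)*p^2*a^10 + (165)*p*q*a^4*b^6 + (396)*p*q*a^5*b^5 + (165)*p*q*a^6*b^4 + (-11)*q^2*b^10 + (-55)*q^2*a*b^9

def fDH10 (c4 c6 : R) : R :=
  (133056)*c4^2*c6^2 + (-133650)*c4^5

def fDA11 (p q a b : R) : R :=
  (11)*p^2*a^10*b + (1)*p^2*a^11 + (66)*p*q*a^5*b^6 + (66)*p*q*a^6*b^5 + (-1)*q^2*b^11 + (-11)*q^2*a*b^10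

def fDH11 (c4 c6 : R) : R :=
  (-61440)*c4*c6^3 + (61560)*c4^4*c6

def fDA12 (p q a b : R) : R :=
  (1)*p^2*a^11*b + (11)*p*q*a^6*b^6 + (-1)*q^2*a*b^11

def fDH12 (c4 c6 : R) : R :=
  (102400)*c6^4 + (-193536)*c4^3*c6^2 + (91125)*c4^6

set_option maxHeartbeats 4000000 in
theorem fD_aux (p q μ a b : R) :
    (1 + μ * a) * (1 + μ * b) * D2 (p * (1 + μ * a)^5) (q * (1 + μ * b)^5) = fDA0 p q a b + fDA1 p q a b * μ + fDA2 p q a b * μ^2 + fDA3 p q a b * μ^3 + fDA4 p q a b * μ^4 + fDA5 p q a b * μ^5 + fDA6 p q a b * μ^6 + fDA7 p q a b * μ^7 + fDA8 p q a b * μ^8 + fDA9 p q a b * μ^9 + fDA10 p q a b * μ^10 + fDA11 p q a b * μ^11 + fDA12 p q a b * μ^12 := by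
  simp only [D2, fDA0, fDA1, fDA2, fDA3, fDA4, fDA5, fDA6, fDA7, fDA8, fDA9, fDA10, fDA11, fDA12]
  ring

set_option maxHeartbeats 4000000 in
theorem fD_k0 (p q : R) : fDA0 p q (K1 p q) (K2 p q) = D2 p q * fDH0 (C4 p q) (C6 p q) := by
  simp only [fDA0, fDH0, K1, K2, C4, C6, D2]
  ring

set_option maxHeartbeats 4000000 in
theorem fD_k1 (p q : R) : fDA1 p q (K1 p q) (K2 p q) = D2 p q * fDH1 (C4 p q) (C6 p q) := by
  simp only [fDA1, fDH1, K1, K2, C4, C6, D2]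
  ring

set_option maxHeartbeats 4000000 in
theorem fD_k2 (p q : R) : fDA2 p q (K1 p q) (K2 p q) = D2 p q * fDH2 (C4 p q) (C6 p q) := by
  simp only [fDA2, fDH2, K1, K2, C4, C6, D2]
  ring

set_option maxHeartbeats 4000000 in
theorem fD_k3 (p q : R) : fDA3 p q (K1 p q) (K2 p q) = D2 p q * fDH3 (C4 p q) (C6 p q) := by
  simp only [fDA3, fDH3, K1, K2, C4, C6, D2]
  ring

set_option maxHeartbeats 4000000 in
theorem fD_k4 (p q : R) : fDA4 p q (K1 p q) (K2 p q) = D2 p q * fDH4 (C4 p q) (C6 p q) := by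
  simp only [fDA4, fDH4, K1, K2, C4, C6, D2]
  ring

set_option maxHeartbeats 4000000 in
theorem fD_k5 (p q : R) : fDA5 p q (K1 p q) (K2 p q) = D2 p q * fDH5 (C4 p q) (C6 p q) := by
  simp only [fDA5, fDH5, K1, K2, C4, C6, D2]
  ring

set_option maxHeartbeats 4000000 in
theorem fD_k6 (p q : R) : fDA6 p q (K1 p q) (K2 p q) = D2 p q * fDH6 (C4 p q) (C6 p q) := by
  simp only [fDA6, fDH6, K1, K2, C4, C6, D2]
  ring

set_option maxHeartbeats 4000000 in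
theorem fD_k7 (p q : R) : fDA7 p q (K1 p q) (K2 p q) = D2 p q * fDH7 (C4 p q) (C6 p q) := by
  simp only [fDA7, fDH7, K1, K2, C4, C6, D2]
  ring

set_option maxHeartbeats 4000000 in
theorem fD_k8 (p q : R) : fDA8 p q (K1 p q) (K2 p q) = D2 p q * fDH8 (C4 p q) (C6 p q) := by
  simp only [fDA8, fDH8, K1, K2, C4, C6, D2]
  ring

set_option maxHeartbeats 4000000 in
theorem fD_k9 (p q : R) : fDA9 p q (K1 p q) (K2 p q) = D2 p q * fDH9 (C4 p q) (C6 p q) := by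
  simp only [fDA9, fDH9, K1, K2, C4, C6, D2]
  ring

set_option maxHeartbeats 4000000 in
theorem fD_k10 (p q : R) : fDA10 p q (K1 p q) (K2 p q) = D2 p q * fDH10 (C4 p q) (C6 p q) := by
  simp only [fDA10, fDH10, K1, K2, C4, C6, D2]
  ring

set_option maxHeartbeats 4000000 in
theorem fD_k11 (p q : R) : fDA11 p q (K1 p q) (K2 p q) = D2 p q * fDH11 (C4 p q) (C6 p q) := by
  simp only [fDA11, fDH11, K1, K2, C4, C6, D2]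
  ring

set_option maxHeartbeats 4000000 in
theorem fD_k12 (p q : R) : fDA12 p q (K1 p q) (K2 p q) = D2 p q * fDH12 (C4 p q) (C6 p q) := by
  simp only [fDA12, fDH12, K1, K2, C4, C6, D2]
  ring

theorem famD (p q μ : R) :
    (1 + μ * K1 p q) * (1 + μ * K2 p q) * D2 (p * (1 + μ * K1 p q)^5) (q * (1 + μ * K2 p q)^5)
      = D2 p q * bD (C4 p q) (C6 p q) μ := by
  rw [fD_aux]
  have e : bD (C4 p q) (C6 p q) μ = fDH0 (C4 p q) (C6 p q) + fDH1 (C4 p q) (C6 p q) * μ + fDH2 (C4 p q) (C6 p q) * μ^2 + fDH3 (C4 p q) (C6 p q) * μ^3 + fDH4 (C4 p q) (C6 p q) * μ^4 + fDH5 (C4 p q) (C6 p q) * μ^5 + fDH6 (C4 p q) (C6 p q) * μ^6 + fDH7 (C4 p q) (C6 p q) * μ^7 + fDH8 (C4 p q) (C6 p q) * μ^8 + fDH9 (C4 p q) (C6 p q) * μ^9 + fDH10 (C4 p q) (C6 p q) * μ^10 + fDH11 (C4 p q) (C6 p q) * μ^11 + fDH12 (C4 p q) (C6 p q) * μ^12 := by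
    simp only [bD, fDH0, fDH1, fDH2, fDH3, fDH4, fDH5, fDH6, fDH7, fDH8, fDH9, fDH10, fDH11, fDH12]
    ring
  rw [e]
  linear_combination fD_k0 p q + fD_k1 p q * μ + fD_k2 p q * μ^2 + fD_k3 p q * μ^3 + fD_k4 p q * μ^4 + fD_k5 p q * μ^5 + fD_k6 p q * μ^6 + fD_k7 p q * μ^7 + fD_k8 p q * μ^8 + fD_k9 p q * μ^9 + fD_k10 p q * μ^10 + fD_k11 p q * μ^11 + fD_k12 p q * μ^12

end Fermat.Agent.S52
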