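import Fermat.Agent.S52.Forms4
import Fermat.Agent.S52.Forms6
import Fermat.Agent.S52.FormsD

/-! # S52: the family identities `fam4`, `fam6`, `famD` (see Forms4, Forms6, FormsD). -/
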