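import Fermat.Agent.S52.Forms4A

/-! # S52: fam4, coefficients (auto-generated) -/

set_option autoImplicit false
set_option linter.unusedVariables false

namespace Fermat.Agent.S52

variable {R : Type*} [CommRing R]

set_option maxHeartbeats 4000000 in
theorem f4_k14 (p q : R) : f4A14 p q (K1 p q) (K2 p q) = f4H14 (C4 p q) (C6 p q) := by
  simp only [f4A14, f4H14, K1, K2, C4, C6]
  ring

set_option maxHeartbeats 4000000 in
theorem f4_k15 (p q : R) : f4A15 p q (K1 p q) (K2 p q) = f4H15 (C4 p q) (C6 p q) := by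
  simp only [f4A15, f4H15, K1, K2, C4, C6]
  ring

set_option maxHeartbeats 4000000 in
theorem f4_k16 (p q : R) : f4A16 p q (K1 p q) (K2 p q) = f4H16 (C4 p q) (C6 p q) := by
  simp only [f4A16, f4H16, K1, K2, C4, C6]
  ring

set_option maxHeartbeats 4000000 in
theorem f4_k17 (p q : R) : f4A17 p q (K1 p q) (K2 p q) = f4H17 (C4 p q) (C6 p q) := by
  simp only [f4A17, f4H17, K1, K2, C4, C6]
  ring

set_option maxHeartbeats 4000000 in
theorem f4_k18 (p q : R) : f4A18 p q (K1 p q) (K2 p q) = f4H18 (C4 p q) (C6 p q) := by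
  simp only [f4A18, f4H18, K1, K2, C4, C6]
  ring

set_option maxHeartbeats 4000000 in
theorem f4_k19 (p q : R) : f4A19 p q (K1 p q) (K2 p q) = f4H19 (C4 p q) (C6 p q) := by
  simp only [f4A19, f4H19, K1, K2, C4, C6]
  ring

set_option maxHeartbeats 4000000 in
theorem f4_k20 (p q : R) : f4A20 p q (K1 p q) (K2 p q) = f4H20 (C4 p q) (C6 p q) := by
  simp only [f4A20, f4H20, K1, K2, C4, C6]
  ring

end Fermat.Agent.S52
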