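import Fermat.Agent.S52.Forms4B
import Fermat.Agent.S52.Forms4C

/-! # S52: fam4 (auto-generated) -/

set_option autoImplicit false
set_option linter.unusedVariables false

namespace Fermat.Agent.S52

variable {R : Type*} [CommRing R]

theorem fam4 (p q μ : R) :
    C4 (p * (1 + μ * K1 p q)^5) (q * (1 + μ * K2 p q)^5) = bc4 (C4 p q) (C6 p q) μ := by
  rw [f4_aux]
  have e : bc4 (C4 p q) (C6 p q) μ = f4H0 (C4 p q) (C6 p q) + f4H1 (C4 p q) (C6 p q) * μ + f4H2 (C4 p q) (C6 p q) * μ^2 + f4H3 (C4 p q) (C6 p q) * μ^3 + f4H4 (C4 p q) (C6 p q) * μ^4 + f4H5 (C4 p q) (C6 p q) * μ^5 + f4H6 (C4 p q) (C6 p q) * μ^6 + f4H7 (C4 p q) (C6 p q) * μ^7 + f4H8 (C4 p q) (C6 p q) * μ^8 + f4H9 (C4 p q) (C6 p q) * μ^9 + f4H10 (C4 p q) (C6 p q) * μ^10 + f4H11 (C4 p q) (C6 p q) * μ^11 + f4H12 (C4 p q) (C6 p q) * μ^12 + f4H13 (C4 p q) (C6 p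 q) * μ^13 + f4H14 (C4 p q) (C6 p q) * μ^14 + f4H15 (C4 p q) (C6 p q) * μ^15 + f4H16 (C4 p q) (C6 p q) * μ^16 + f4H17 (C4 p q) (C6 p q) * μ^17 + f4H18 (C4 p q) (C6 p q) * μ^18 + f4H19 (C4 p q) (C6 p q) * μ^19 + f4H20 (C4 p q) (C6 p q) * μ^20 := by
    simp only [bc4, g4, f4H0, f4H1, f4H2, f4H3, f4H4, f4H5, f4H6, f4H7, f4H8, f4H9, f4H10, f4H11, f4H12, f4H13, f4H14, f4H15, f4H16, f4H17, f4H18, f4H19, f4H20]
    ring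
  rw [e]
  linear_combination f4_k0 p q + f4_k1 p q * μ + f4_k2 p q * μ^2 + f4_k3 p q * μ^3 + f4_k4 p q * μ^4 + f4_k5 p q * μ^5 + f4_k6 p q * μ^6 + f4_k7 p q * μ^7 + f4_k8 p q * μ^8 + f4_k9 p q * μ^9 + f4_k10 p q * μ^10 + f4_k11 p q * μ^11 + f4_k12 p q * μ^12 + f4_k13 p q * μ^13 + f4_k14 p q * μ^14 + f4_k15 p q * μ^15 + f4_k16 p q * μ^16 + f4_k17 p q * μ^17 + f4_k18 p q * μ^18 + f4_k19 p q * μ^19 + f4_k20 p q * μ^20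

end Fermat.Agent.S52
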