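import Fermat.Agent.S52.FormsDefs

/-! # S52: fam4, definitions and expansion in μ (auto-generated) -/

set_option autoImplicit false
set_option linter.unusedVariables false

namespace Fermat.Agent.S52

variable {R : Type*} [CommRing R]

def f4A0 (p q a b : R) : R :=
  (1)*p^4 + (-228)*p^3*q + (494)*p^2*q^2 + (228)*p*q^3 + (1)*q^4

def f4H0 (c4 c6 : R) : R :=
  (1)*c4

def f4A1 (p q a b : R) : R :=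
  (20)*p^4*a + (-1140)*p^3*q*b + (-3420)*p^3*q*a + (4940)*p^2*q^2*b + (4940)*p^2*q^2*a + (3420)*p*q^3*b + (1140)*p*q^3*a + (20)*q^4*b

def f4H1 (c4 c6 : R) : R :=
  (-20)*c6

def f4A2 (p q a b : R) : R :=
  (190)*p^4*a^2 + (-2280)*p^3*q*b^2 + (-17100)*p^3*q*a*b + (-23940)*p^3*q*a^2 + (22230)*p^2*q^2*b^2 + (49400)*p^2*q^2*a*b + (22230)*p^2*q^2*a^2 + (23940)*p*q^3*b^2 + (17100)*p*q^3*a*b + (2280)*p*q^3*a^2 + (190)*q^4*b^2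

def f4H2 (c4 c6 : R) : R :=
  (190)*c4^2

def f4A3 (p q a b : R) : R :=
  (1140)*p^4*a^3 + (-2280)*p^3*q*b^3 + (-34200)*p^3*q*a*b^2 + (-119700)*p^3*q*a^2*b + (-103740)*p^3*q*a^3 + (59280)*p^2*q^2*b^3 + (222300)*p^2*q^2*a*b^2 + (222300)*p^2*q^2*a^2*b + (59280)*p^2*q^2*a^3 + (103740)*p*q^3*b^3 + (119700)*p*q^3*a*b^2 + (34200)*p*q^3*a^2*b + (2280)*p*q^3*a^3 + (1140)*q^4*b^3

def f4H3 (c4 c6 : R) : R :=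
  (-1140)*c4*c6

def f4A4 (p q a b : R) : R :=
  (4845)*p^4*a^4 + (-1140)*p^3*q*b^4 + (-34200)*p^3*q*a*b^3 + (-239400)*p^3*q*a^2*b^2 + (-518700)*p^3*q*a^3*b + (-311220)*p^3*q*a^4 + (103740)*p^2*q^2*b^4 + (592800)*p^2*q^2*a*b^3 + (1000350)*p^2*q^2*a^2*b^2 + (592800)*p^2*q^2*a^3*b + (103740)*p^2*q^2*a^4 + (311220)*p*q^3*b^4 + (518700)*p*q^3*a*b^3 + (239400)*p*q^3*a^2*b^2 + (34200)*p*q^3*a^3*b + (1140)*p*q^3*a^4 + (4845)*q^4*b^4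

def f4H4 (c4 c6 : R) : R :=
  (5700)*c6^2 + (-855)*c4^3

def f4A5 (p q a b : R) : R :=
  (15504)*p^4*a^5 + (-228)*p^3*q*b^5 + (-17100)*p^3*q*a*b^4 + (-239400)*p^3*q*a^2*b^3 + (-1037400)*p^3*q*a^3*b^2 + (-1556100)*p^3*q*a^4*b + (-684684)*p^3*q*a^5 + (124488)*p^2*q^2*b^5 + (1037400)*p^2*q^2*a*b^4 + (2667600)*p^2*q^2*a^2*b^3 + (2667600)*p^2*q^2*a^3*b^2 + (1037400)*p^2*q^2*a^4*b + (124488)*p^2*q^2*a^5 + (684684)*p*q^3*b^5 + (1556100)*p*q^3*a*b^4 + (1037400)*p*q^3*a^2*b^3 + (239400)*p*q^3*a^3*b^2 + (17100)*p*q^3*a^4*b + (228)*p*q^3*a^5 + (15504)*q^4*b^5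

def f4H5 (c4 c6 : R) : R :=
  (-15504)*c4^2*c6

def f4A6 (p q a b : R) : R :=
  (38760)*p^4*a^6 + (-3420)*p^3*q*a*b^5 + (-119700)*p^3*q*a^2*b^4 + (-1037400)*p^3*q*a^3*b^3 + (-3112200)*p^3*q*a^4*b^2 + (-3423420)*p^3*q*a^5*b + (-1141140)*p^3*q*a^6 + (103740)*p^2*q^2*b^6 + (1244880)*p^2*q^2*a*b^5 + (4668300)*p^2*q^2*a^2*b^4 + (7113600)*p^2*q^2*a^3*b^3 + (4668300)*p^2*q^2*a^4*b^2 + (1244880)*p^2*q^2*a^5*b + (103740)*p^2*q^2*a^6 + (1141140)*p*q^3*b^6 + (3423420)*p*q^3*a*b^5 + (3112200)*p*q^3*a^2*b^4 + (1037400)*p*q^3*a^3*b^3 + (119700)*p*q^3*a^4*b^2 + (3420)*p*q^3*a^5*b + (38760)*q^4*b^6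

def f4H6 (c4 c6 : R) : R :=
  (-63840)*c4*c6^2 + (102600)*c4^4

def f4A7 (p q a b : R) : R :=
  (77520)*p^4*a^7 + (-23940)*p^3*q*a^2*b^5 + (-518700)*p^3*q*a^3*b^4 + (-3112200)*p^3*q*a^4*b^3 + (-6846840)*p^3*q*a^5*b^2 + (-5705700)*p^3*q*a^6*b + (-1467180)*p^3*q*a^7 + (59280)*p^2*q^2*b^7 + (1037400)*p^2*q^2*a*b^6 + (5601960)*p^2*q^2*a^2*b^5 + (12448800)*p^2*q^2*a^3*b^4 + (12448800)*p^2*q^2*a^4*b^3 + (5601960)*p^2*q^2*a^5*b^2 + (1037400)*p^2*q^2*a^6*b + (59280)*p^2*q^2*a^7 + (1467180)*p*q^3*b^7 + (5705700)*p*q^3*a*b^6 + (6846840)*p*q^3*a^2*b^5 + (3112200)*p*q^3*a^3*b^4 + (518700)*p*q^3*a^4*b^3 + (23940)*p*q^3*a^5*b^2 + (77520)*q^4*b^7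

def f4H7 (c4 c6 : R) : R :=
  (182400)*c6^3 + (-259920)*c4^3*c6

def f4A8 (p q a b : R) : R :=
  (125970)*p^4*a^8 + (-103740)*p^3*q*a^3*b^5 + (-1556100)*p^3*q*a^4*b^4 + (-6846840)*p^3*q*a^5*b^3 + (-11411400)*p^3*q*a^6*b^2 + (-7335900)*p^3*q*a^7*b + (-1467180)*p^3*q*a^8 + (22230)*p^2*q^2*b^8 + (592800)*p^2*q^2*a*b^7 + (4668300)*p^2*q^2*a^2*b^6 + (14938560)*p^2*q^2*a^3*b^5 + (21785400)*p^2*q^2*a^4*b^4 + (14938560)*p^2*q^2*a^5*b^3 + (4668300)*p^2*q^2*a^6*b^2 + (592800)*p^2*q^2*a^7*b + (22230)*p^2*q^2*a^8 + (1467180)*p*q^3*b^8 + (7335900)*p*q^3*a*b^7 + (11411400)*p*q^3*a^2*b^6 + (6846840)*p*q^3*a^3*b^5 + (1556100)*p*q^3*a^4*b^4 + (103740)*p*q^3*a^5*b^3 + (125970)*q^4*b^8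

def f4H8 (c4 c6 : R) : R :=
  (1126320)*c4^2*c6^2 + (-1000350)*c4^5

def f4A9 (p q a b : R) : R :=
  (167960)*p^4*a^9 + (-311220)*p^3*q*a^4*b^5 + (-3423420)*p^3*q*a^5*b^4 + (-11411400)*p^3*q*a^6*b^3 + (-14671800)*p^3*q*a^7*b^2 + (-7335900)*p^3*q*a^8*b + (-1141140)*p^3*q*a^9 + (4940)*p^2*q^2*b^9 + (222300)*p^2*q^2*a*b^8 + (2667600)*p^2*q^2*a^2*b^7 + (12448800)*p^2*q^2*a^3*b^6 + (26142480)*p^2*q^2*a^4*b^5 + (26142480)*p^2*q^2*a^5*b^4 + (12448800)*p^2*q^2*a^6*b^3 + (2667600)*p^2*q^2*a^7*b^2 + (222300)*p^2*q^2*a^8*b + (4940)*p^2*q^2*a^9 + (1141140)*p*q^3*b^9 + (7335900)*p*q^3*a*b^8 + (14671800)*p*q^3*a^2*b^7 + (11411400)*p*q^3*a^3*b^6 + (3423420)*p*q^3*a^4*b^5 + (311220)*p*q^3*a^5*b^4 + (167960)*q^4*b^9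

def f4H9 (c4 c6 : R) : R :=
  (-7904000)*c4*c6^3 + (7736040)*c4^4*c6

def f4A10 (p q a b : R) : R :=
  (184756)*p^4*a^10 + (-684684)*p^3*q*a^5*b^5 + (-5705700)*p^3*q*a^6*b^4 + (-14671800)*p^3*q*a^7*b^3 + (-14671800)*p^3*q*a^8*b^2 + (-5705700)*p^3*q*a^9*b + (-684684)*p^3*q*a^10 + (494)*p^2*q^2*b^10 + (49400)*p^2*q^2*a*b^9 + (1000350)*p^2*q^2*a^2*b^8 + (7113600)*p^2*q^2*a^3*b^7 + (21785400)*p^2*q^2*a^4*b^6 + (31370976)*p^2*q^2*a^5*b^5 + (21785400)*p^2*q^2*a^6*b^4 + (7113600)*p^2*q^2*a^7*b^3 + (1000350)*p^2*q^2*a^8*b^2 + (49400)*p^2*q^2*a^9*b + (494)*p^2*q^2*a^10 + (684684)*p*q^3*b^10 + (5705700)*p*q^3*a*b^9 + (14671800)*p*q^3*a^2*b^8 + (14671800)*p*q^3*a^3*b^7 + (5705700)*p*q^3*a^4*b^6 + (684684)*p*q^3*a^5*b^5 + (184756)*q^4*b^10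

def f4H10 (c4 c6 : R) : R :=
  (15808000)*c6^4 + (-5619744)*c4^3*c6^2 + (-10003500)*c4^6

def f4A11 (p q a b : R) : R :=
  (167960)*p^4*a^11 + (-1141140)*p^3*q*a^6*b^5 + (-7335900)*p^3*q*a^7*b^4 + (-14671800)*p^3*q*a^8*b^3 + (-11411400)*p^3*q*a^9*b^2 + (-3423420)*p^3*q*a^10*b + (-311220)*p^3*q*a^11 + (4940)*p^2*q^2*a*b^10 + (222300)*p^2*q^2*a^2*b^9 + (2667600)*p^2*q^2*a^3*b^8 + (12448800)*p^2*q^2*a^4*b^7 + (26142480)*p^2*q^2*a^5*b^6 + (26142480)*p^2*q^2*a^6*b^5 + (12448800)*p^2*q^2*a^7*b^4 + (2667600)*p^2*q^2*a^8*b^3 + (222300)*p^2*q^2*a^9*b^2 + (4940)*p^2*q^2*a^10*b + (311220)*p*q^3*b^11 + (3423420)*p*q^3*a*b^10 + (11411400)*p*q^3*a^2*b^9 + (14671800)*p*q^3*a^3*b^8 + (7335900)*p*q^3*a^4*b^7 + (1141140)*p*q^3*a^5*b^6 + (167960)*q^4*b^11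

def f4H11 (c4 c6 : R) : R :=
  (-54853760)*c4^2*c6^3 + (54685800)*c4^5*c6

def f4A12 (p q a b : R) : R :=
  (125970)*p^4*a^12 + (-1467180)*p^3*q*a^7*b^5 + (-7335900)*p^3*q*a^8*b^4 + (-11411400)*p^3*q*a^9*b^3 + (-6846840)*p^3*q*a^10*b^2 + (-1556100)*p^3*q*a^11*b + (-103740)*p^3*q*a^12 + (22230)*p^2*q^2*a^2*b^10 + (592800)*p^2*q^2*a^3*b^9 + (4668300)*p^2*q^2*a^4*b^8 + (14938560)*p^2*q^2*a^5*b^7 + (21785400)*p^2*q^2*a^6*b^6 + (14938560)*p^2*q^2*a^7*b^5 + (4668300)*p^2*q^2*a^8*b^4 + (592800)*p^2*q^2*a^9*b^3 + (22230)*p^2*q^2*a^10*b^2 + (103740)*p*q^3*b^12 + (1556100)*p*q^3*a*b^11 + (6846840)*p*q^3*a^2*b^10 + (11411400)*p*q^3*a^3*b^9 + (7335900)*p*q^3*a^4*b^8 + (1467180)*p*q^3*a^5*b^7 + (125970)*q^4*b^12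

def f4H12 (c4 c6 : R) : R :=
  (37939200)*c4*c6^4 + (7202520)*c4^4*c6^2 + (-45015750)*c4^7

def f4A13 (p q a b : R) : R :=
  (77520)*p^4*a^13 + (-1467180)*p^3*q*a^8*b^5 + (-5705700)*p^3*q*a^9*b^4 + (-6846840)*p^3*q*a^10*b^3 + (-3112200)*p^3*q*a^11*b^2 + (-518700)*p^3*q*a^12*b + (-23940)*p^3*q*a^13 + (59280)*p^2*q^2*a^3*b^10 + (1037400)*p^2*q^2*a^4*b^9 + (5601960)*p^2*q^2*a^5*b^8 + (12448800)*p^2*q^2*a^6*b^7 + (12448800)*p^2*q^2*a^7*b^6 + (5601960)*p^2*q^2*a^8*b^5 + (1037400)*p^2*q^2*a^9*b^4 + (59280)*p^2*q^2*a^10*b^3 + (23940)*p*q^3*b^13 + (518700)*p*q^3*a*b^12 + (3112200)*p*q^3*a^2*b^11 + (6846840)*p*q^3*a^3*b^10 + (5705700)*p*q^3*a^4*b^9 + (1467180)*p*q^3*a^5*b^8 + (77520)*q^4*b^13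

def f4H13 (c4 c6 : R) : R :=
  (-58368000)*c6^5 + (23201280)*c4^3*c6^3 + (35089200)*c4^6*c6

def f4A14 (p q a b : R) : R :=
  (38760)*p^4*a^14 + (-1141140)*p^3*q*a^9*b^5 + (-3423420)*p^3*q*a^10*b^4 + (-3112200)*p^3*q*a^11*b^3 + (-1037400)*p^3*q*a^12*b^2 + (-119700)*p^3*q*a^13*b + (-3420)*p^3*q*a^14 + (103740)*p^2*q^2*a^4*b^10 + (1244880)*p^2*q^2*a^5*b^9 + (4668300)*p^2*q^2*a^6*b^8 + (7113600)*p^2*q^2*a^7*b^7 + (4668300)*p^2*q^2*a^8*b^6 + (1244880)*p^2*q^2*a^9*b^5 + (103740)*p^2*q^2*a^10*b^4 + (3420)*p*q^3*b^14 + (119700)*p*q^3*a*b^13 + (1037400)*p*q^3*a^2*b^12 + (3112200)*p*q^3*a^3*b^11 + (3423420)*p*q^3*a^4*b^10 + (1141140)*p*q^3*a^5*b^9 + (38760)*q^4*b^14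

def f4H14 (c4 c6 : R) : R :=
  (287462400)*c4^2*c6^4 + (-495188640)*c4^5*c6^2 + (207765000)*c4^8

def f4A15 (p q a b : R) : R :=
  (15504)*p^4*a^15 + (-684684)*p^3*q*a^10*b^5 + (-1556100)*p^3*q*a^11*b^4 + (-1037400)*p^3*q*a^12*b^3 + (-239400)*p^3*q*a^13*b^2 + (-17100)*p^3*q*a^14*b + (-228)*p^3*q*a^15 + (124488)*p^2*q^2*a^5*b^10 + (1037400)*p^2*q^2*a^6*b^9 + (2667600)*p^2*q^2*a^7*b^8 + (2667600)*p^2*q^2*a^8*b^7 + (1037400)*p^2*q^2*a^9*b^6 + (124488)*p^2*q^2*a^10*b^5 + (228)*p*q^3*b^15 + (17100)*p*q^3*a*b^14 + (239400)*p*q^3*a^2*b^13 + (1037400)*p*q^3*a^3*b^12 + (1556100)*p*q^3*a^4*b^11 + (684684)*p*q^3*a^5*b^10 + (15504)*q^4*b^15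

def f4H15 (c4 c6 : R) : R :=
  (-466944000)*c4*c6^5 + (882458496)*c4^4*c6^3 + (-415530000)*c4^7*c6

def f4A16 (p q a b : R) : R :=
  (4845)*p^4*a^16 + (-311220)*p^3*q*a^11*b^5 + (-518700)*p^3*q*a^12*b^4 + (-239400)*p^3*q*a^13*b^3 + (-34200)*p^3*q*a^14*b^2 + (-1140)*p^3*q*a^15*b + (103740)*p^2*q^2*a^6*b^10 + (592800)*p^2*q^2*a^7*b^9 + (1000350)*p^2*q^2*a^8*b^8 + (592800)*p^2*q^2*a^9*b^7 + (103740)*p^2*q^2*a^10*b^6 + (1140)*p*q^3*a*b^15 + (34200)*p*q^3*a^2*b^14 + (239400)*p*q^3*a^3*b^13 + (518700)*p*q^3*a^4*b^12 + (311220)*p*q^3*a^5*b^11 + (4845)*q^4*b^16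

def f4H16 (c4 c6 : R) : R :=
  (583680000)*c6^6 + (-1220474880)*c4^3*c6^4 + (714711600)*c4^6*c6^2 + (-77911875)*c4^9

def f4A17 (p q a b : R) : R :=
  (1140)*p^4*a^17 + (-103740)*p^3*q*a^12*b^5 + (-119700)*p^3*q*a^13*b^4 + (-34200)*p^3*q*a^14*b^3 + (-2280)*p^3*q*a^15*b^2 + (59280)*p^2*q^2*a^7*b^10 + (222300)*p^2*q^2*a^8*b^9 + (222300)*p^2*q^2*a^9*b^8 + (59280)*p^2*q^2*a^10*b^7 + (2280)*p*q^3*a^2*b^15 + (34200)*p*q^3*a^3*b^14 + (119700)*p*q^3*a^4*b^13 + (103740)*p*q^3*a^5*b^12 + (1140)*q^4*b^17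

def f4H17 (c4 c6 : R) : R :=
  (-361881600)*c4^2*c6^5 + (715080960)*c4^5*c6^3 + (-353200500)*c4^8*c6

def f4A18 (p q a b : R) : R :=
  (190)*p^4*a^18 + (-23940)*p^3*q*a^13*b^5 + (-17100)*p^3*q*a^14*b^4 + (-2280)*p^3*q*a^15*b^3 + (22230)*p^2*q^2*a^8*b^10 + (49400)*p^2*q^2*a^9*b^9 + (22230)*p^2*q^2*a^10*b^8 + (2280)*p*q^3*a^3*b^15 + (17100)*p*q^3*a^4*b^14 + (23940)*p*q^3*a^5*b^13 + (190)*q^4*b^18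

def f4H18 (c4 c6 : R) : R :=
  (-622592000)*c4*c6^6 + (2026391040)*c4^4*c6^4 + (-2182917600)*c4^7*c6^2 + (779118750)*c4^10

def f4A19 (p q a b : R) : R :=
  (20)*p^4*a^19 + (-3420)*p^3*q*a^14*b^5 + (-1140)*p^3*q*a^15*b^4 + (4940)*p^2*q^2*a^9*b^10 + (4940)*p^2*q^2*a^10*b^9 + (1140)*p*q^3*a^4*b^15 + (3420)*p*q^3*a^5*b^14 + (20)*q^4*b^19

def f4H19 (c4 c6 : R) : R :=
  (655360000)*c6^7 + (-2005401600)*c4^3*c6^5 + (2044414080)*c4^6*c6^3 + (-694372500)*c4^9*c6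

def f4A20 (p q a b : R) : R :=
  (1)*p^4*a^20 + (-228)*p^3*q*a^15*b^5 + (494)*p^2*q^2*a^10*b^10 + (228)*p*q^3*a^5*b^15 + (1)*q^4*b^20

def f4H20 (c4 c6 : R) : R :=
  (-180224000)*c4^2*c6^6 + (544997376)*c4^5*c6^4 + (-549301500)*c4^8*c6^2 + (184528125)*c4^11

set_option maxHeartbeats 4000000 in
theorem f4_aux (p q μ a b : R) :
    C4 (p * (1 + μ * a)^5) (q * (1 + μ * b)^5) = f4A0 p q a b + f4A1 p q a b * μ + f4A2 p q a b * μ^2 + f4A3 p q a b * μ^3 + f4A4 p q a b * μ^4 + f4A5 p q a b * μ^5 + f4A6 p q a b * μ^6 + f4A7 p q a b * μ^7 + f4A8 p q a b * μ^8 + f4A9 p q a b * μ^9 + f4A10 p q a b * μ^10 + f4A11 p q a b * μ^11 + f4A12 p q a b * μ^12 + f4A13 p q a b * μ^13 + f4A14 p q a b * μ^14 + f4A15 p q a b * μ^15 + f4A16 p q a b * μ^16 + f4A17 p q a b * μ^17 + f4A18 p q a b * μ^18 + f4A19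 p q a b * μ^19 + f4A20 p q a b * μ^20 := by
  simp only [C4, f4A0, f4A1, f4A2, f4A3, f4A4, f4A5, f4A6, f4A7, f4A8, f4A9, f4A10, f4A11, f4A12, f4A13, f4A14, f4A15, f4A16, f4A17, f4A18, f4A19, f4A20]
  ring

end Fermat.Agent.S52
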