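import Fermat.Agent.S52.Forms4A

/-! # S52: fam4, coefficients (auto-generated) -/

set_option autoImplicit false
set_option linter.unusedVariables false

namespace Fermat.Agent.S52

variable {R : Type*} [CommRing R]

set_option maxHeartbeats 4000000 in
theorem f4_k0 (p q : R) : f4A0 p q (K1 p q) (K2 p q) = f4H0 (C4 p q) (C6 p q) := by
  simp only [f4A0, f4H0, K1, K2, C4, C6]
  ring

set_option maxHeartbeats 4000000 in
theorem f4_k1 (p q : R) : f4A1 p q (K1 p q) (K2 p q) = f4H1 (C4 p q) (C6 p q) := by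
  simp only [f4A1, f4H1, K1, K2, C4, C6]
  ring

set_option maxHeartbeats 4000000 in
theorem f4_k2 (p q : R) : f4A2 p q (K1 p q) (K2 p q) = f4H2 (C4 p q) (C6 p q) := by
  simp only [f4A2, f4H2, K1, K2, C4, C6]
  ring

set_option maxHeartbeats 4000000 in
theorem f4_k3 (p q : R) : f4A3 p q (K1 p q) (K2 p q) = f4H3 (C4 p q) (C6 p q) := by
  simp only [f4A3, f4H3, K1, K2, C4, C6]
  ring

set_option maxHeartbeats 4000000 in
theorem f4_k4 (p q : R) : f4A4 p q (K1 p q) (K2 p q) = f4H4 (C4 p q) (C6 p q) := by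
  simp only [f4A4, f4H4, K1, K2, C4, C6]
  ring

set_option maxHeartbeats 4000000 in
theorem f4_k5 (p q : R) : f4A5 p q (K1 p q) (K2 p q) = f4H5 (C4 p q) (C6 p q) := by
  simp only [f4A5, f4H5, K1, K2, C4, C6]
  ring

set_option maxHeartbeats 4000000 in
theorem f4_k6 (p q : R) : f4A6 p q (K1 p q) (K2 p q) = f4H6 (C4 p q) (C6 p q) := by
  simp only [f4A6, f4H6, K1, K2, C4, C6]
  ring

set_option maxHeartbeats 4000000 in
theorem f4_k7 (p q : R) : f4A7 p q (K1 p q) (K2 p q) = f4H7 (C4 p q) (C6 p q) := by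
  simp only [f4A7, f4H7, K1, K2, C4, C6]
  ring

set_option maxHeartbeats 4000000 in
theorem f4_k8 (p q : R) : f4A8 p q (K1 p q) (K2 p q) = f4H8 (C4 p q) (C6 p q) := by
  simp only [f4A8, f4H8, K1, K2, C4, C6]
  ring

set_option maxHeartbeats 4000000 in
theorem f4_k9 (p q : R) : f4A9 p q (K1 p q) (K2 p q) = f4H9 (C4 p q) (C6 p q) := by
  simp only [f4A9, f4H9, K1, K2, C4, C6]
  ring

set_option maxHeartbeats 4000000 in
theorem f4_k10 (p q : R) : f4A10 p q (K1 p q) (K2 p q) = f4H10 (C4 p q) (C6 p q) := by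
  simp only [f4A10, f4H10, K1, K2, C4, C6]
  ring

set_option maxHeartbeats 4000000 in
theorem f4_k11 (p q : R) : f4A11 p q (K1 p q) (K2 p q) = f4H11 (C4 p q) (C6 p q) := by
  simp only [f4A11, f4H11, K1, K2, C4, C6]
  ring

set_option maxHeartbeats 4000000 in
theorem f4_k12 (p q : R) : f4A12 p q (K1 p q) (K2 p q) = f4H12 (C4 p q) (C6 p q) := by
  simp only [f4A12, f4H12, K1, K2, C4, C6]
  ring

set_option maxHeartbeats 4000000 in
theorem f4_k13 (p q : R) : f4A13 p q (K1 p q) (K2 p q) = f4H13 (C4 p q) (C6 p q) := by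
  simp only [f4A13, f4H13, K1, K2, C4, C6]
  ring

end Fermat.Agent.S52
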