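import Fermat.Agent.S52.FormsDefs

/-! # S52: fam6, definitions and expansion in μ (auto-generated) -/

set_option autoImplicit false
set_option linter.unusedVariables false

namespace Fermat.Agent.S52

variable {R : Type*} [CommRing R]

def f6A0 (p q a b : R) : R :=
  (-1)*p^6 + (-1)*q^6 + (-522)*p^5*q + (522)*p*q^5 + (10005)*p^4*q^2 + (10005)*p^2*q^4

def f6H0 (c4 c6 : R) : R :=
  (1)*c6

def f6A1 (p q a b : R) : R :=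
  (-30)*p^6*a + (-30)*q^6*b + (-2610)*p^5*q*b + (-13050)*p^5*q*a + (13050)*p*q^5*b + (2610)*p*q^5*a + (100050)*p^4*q^2*b + (200100)*p^4*q^2*a + (200100)*p^2*q^4*b + (100050)*p^2*q^4*a

def f6H1 (c4 c6 : R) : R :=
  (-30)*c4^2

def f6A2 (p q a b : R) : R :=
  (-435)*p^6*a^2 + (-435)*q^6*b^2 + (-5220)*p^5*q*b^2 + (-65250)*p^5*q*a*b + (-156600)*p^5*q*a^2 + (156600)*p*q^5*b^2 + (65250)*p*q^5*a*b + (5220)*p*q^5*a^2 + (450225)*p^4*q^2*b^2 + (2001000)*p^4*q^2*a*b + (1900950)*p^4*q^2*a^2 + (1900950)*p^2*q^4*b^2 + (2001000)*p^2*q^4*a*b + (450225)*p^2*q^4*a^2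

def f6H2 (c4 c6 : R) : R :=
  (435)*c4*c6

def f6A3 (p q a b : R) : R :=
  (-4060)*p^6*a^3 + (-4060)*q^6*b^3 + (-5220)*p^5*q*b^3 + (-130500)*p^5*q*a*b^2 + (-783000)*p^5*q*a^2*b + (-1200600)*p^5*q*a^3 + (1200600)*p*q^5*b^3 + (783000)*p*q^5*a*b^2 + (130500)*p*q^5*a^2*b + (5220)*p*q^5*a^3 + (1200600)*p^4*q^2*b^3 + (9004500)*p^4*q^2*a*b^2 + (19009500)*p^4*q^2*a^2*b + (11405700)*p^4*q^2*a^3 + (11405700)*p^2*q^4*b^3 + (19009500)*p^2*q^4*a*b^2 + (9004500)*p^2*q^4*a^2*b + (1200600)*p^2*q^4*a^3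

def f6H3 (c4 c6 : R) : R :=
  (-2900)*c6^2 + (-1160)*c4^3

def f6A4 (p q a b : R) : R :=
  (-27405)*p^6*a^4 + (-27405)*q^6*b^4 + (-2610)*p^5*q*b^4 + (-130500)*p^5*q*a*b^3 + (-1566000)*p^5*q*a^2*b^2 + (-6003000)*p^5*q*a^3*b + (-6603300)*p^5*q*a^4 + (6603300)*p*q^5*b^4 + (6003000)*p*q^5*a*b^3 + (1566000)*p*q^5*a^2*b^2 + (130500)*p*q^5*a^3*b + (2610)*p*q^5*a^4 + (2101050)*p^4*q^2*b^4 + (24012000)*p^4*q^2*a*b^3 + (85542750)*p^4*q^2*a^2*b^2 + (114057000)*p^4*q^2*a^3*b + (48474225)*p^4*q^2*a^4 + (48474225)*p^2*q^4*b^4 + (114057000)*p^2*q^4*a*b^3 + (85542750)*p^2*q^4*a^2*b^2 + (24012000)*p^2*q^4*a^3*b + (2101050)*p^2*q^4*a^4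

def f6H4 (c4 c6 : R) : R :=
  (27405)*c4^2*c6

def f6A5 (p q a b : R) : R :=
  (-142506)*p^6*a^5 + (-142506)*q^6*b^5 + (-522)*p^5*q*b^5 + (-65250)*p^5*q*a*b^4 + (-1566000)*p^5*q*a^2*b^3 + (-12006000)*p^5*q*a^3*b^2 + (-33016500)*p^5*q*a^4*b + (-27733860)*p^5*q*a^5 + (27733860)*p*q^5*b^5 + (33016500)*p*q^5*a*b^4 + (12006000)*p*q^5*a^2*b^3 + (1566000)*p*q^5*a^3*b^2 + (65250)*p*q^5*a^4*b + (522)*p*q^5*a^5 + (2521260)*p^4*q^2*b^5 + (42021000)*p^4*q^2*a*b^4 + (228114000)*p^4*q^2*a^2*b^3 + (513256500)*p^4*q^2*a^3*b^2 + (484742250)*p^4*q^2*a^4*b + (155117520)*p^4*q^2*a^5 + (155117520)*p^2*q^4*b^5 + (484742250)*p^2*q^4*a*b^4 + (513256500)*p^2*q^4*a^2*b^3 + (228114000)*p^2*q^4*a^3*b^2 + (42021000)*p^2*q^4*a^4*b + (2521260)*p^2*q^4*a^5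

def f6H5 (c4 c6 : R) : R :=
  (-46980)*c4*c6^2 + (-95526)*c4^4

def f6A6 (p q a b : R) : R :=
  (-593775)*p^6*a^6 + (-593775)*q^6*b^6 + (-13050)*p^5*q*a*b^5 + (-783000)*p^5*q*a^2*b^4 + (-12006000)*p^5*q*a^3*b^3 + (-66033000)*p^5*q*a^4*b^2 + (-138669300)*p^5*q*a^5*b + (-92446200)*p^5*q*a^6 + (92446200)*p*q^5*b^6 + (138669300)*p*q^5*a*b^5 + (66033000)*p*q^5*a^2*b^4 + (12006000)*p*q^5*a^3*b^3 + (783000)*p*q^5*a^4*b^2 + (13050)*p*q^5*a^5*b + (2101050)*p^4*q^2*b^6 + (50425200)*p^4*q^2*a*b^5 + (399199500)*p^4*q^2*a^2*b^4 + (1368684000)*p^4*q^2*a^3*b^3 + (2181340125)*p^4*q^2*a^4*b^2 + (1551175200)*p^4*q^2*a^5*b + (387793800)*p^4*q^2*a^6 + (387793800)*p^2*q^4*b^6 + (1551175200)*p^2*q^4*a*b^5 + (2181340125)*p^2*q^4*a^2*b^4 + (1368684000)*p^2*q^4*a^3*b^3 + (399199500)*p^2*q^4*a^4*b^2 + (50425200)*p^2*q^4*a^5*b + (2101050)*p^2*q^4*a^6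

def f6H6 (c4 c6 : R) : R :=
  (156600)*c6^3 + (437175)*c4^3*c6

def f6A7 (p q a b : R) : R :=
  (-2035800)*p^6*a^7 + (-2035800)*q^6*b^7 + (-156600)*p^5*q*a^2*b^5 + (-6003000)*p^5*q*a^3*b^4 + (-66033000)*p^5*q*a^4*b^3 + (-277338600)*p^5*q*a^5*b^2 + (-462231000)*p^5*q*a^6*b + (-250925400)*p^5*q*a^7 + (250925400)*p*q^5*b^7 + (462231000)*p*q^5*a*b^6 + (277338600)*p*q^5*a^2*b^5 + (66033000)*p*q^5*a^3*b^4 + (6003000)*p*q^5*a^4*b^3 + (156600)*p*q^5*a^5*b^2 + (1200600)*p^4*q^2*b^7 + (42021000)*p^4*q^2*a*b^6 + (479039400)*p^4*q^2*a^2*b^5 + (2395197000)*p^4*q^2*a^3*b^4 + (5816907000)*p^4*q^2*a^4*b^3 + (6980288400)*p^4*q^2*a^5*b^2 + (3877938000)*p^4*q^2*a^6*b + (775587600)*p^4*q^2*a^7 + (775587600)*p^2*q^4*b^7 + (3877938000)*p^2*q^4*a*b^6 + (6980288400)*p^2*q^4*a^2*b^5 + (5816907000)*p^2*q^4*a^3*b^4 + (2395197000)*p^2*q^4*a^4*b^3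 + (479039400)*p^2*q^4*a^5*b^2 + (42021000)*p^2*q^4*a^6*b + (1200600)*p^2*q^4*a^7

def f6H7 (c4 c6 : R) : R :=
  (-3915000)*c4^2*c6^2 + (1879200)*c4^5

def f6A8 (p q a b : R) : R :=
  (-5852925)*p^6*a^8 + (-5852925)*q^6*b^8 + (-1200600)*p^5*q*a^3*b^5 + (-33016500)*p^5*q*a^4*b^4 + (-277338600)*p^5*q*a^5*b^3 + (-924462000)*p^5*q*a^6*b^2 + (-1254627000)*p^5*q*a^7*b + (-564582150)*p^5*q*a^8 + (564582150)*p*q^5*b^8 + (1254627000)*p*q^5*a*b^7 + (924462000)*p*q^5*a^2*b^6 + (277338600)*p*q^5*a^3*b^5 + (33016500)*p*q^5*a^4*b^4 + (1200600)*p*q^5*a^5*b^3 + (450225)*p^4*q^2*b^8 + (24012000)*p^4*q^2*a*b^7 + (399199500)*p^4*q^2*a^2*b^6 + (2874236400)*p^4*q^2*a^3*b^5 + (10179587250)*p^4*q^2*a^4*b^4 + (18614102400)*p^4*q^2*a^5*b^3 + (17450721000)*p^4*q^2*a^6*b^2 + (7755876000)*p^4*q^2*a^7*b + (1260329850)*p^4*q^2*a^8 + (1260329850)*p^2*q^4*b^8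 + (7755876000)*p^2*q^4*a*b^7 + (17450721000)*p^2*q^4*a^2*b^6 + (18614102400)*p^2*q^4*a^3*b^5 + (10179587250)*p^2*q^4*a^4*b^4 + (2874236400)*p^2*q^4*a^5*b^3 + (399199500)*p^2*q^4*a^6*b^2 + (24012000)*p^2*q^4*a^7*b + (450225)*p^2*q^4*a^8

def f6H8 (c4 c6 : R) : R :=
  (14407200)*c4*c6^3 + (-8554275)*c4^4*c6

def f6A9 (p q a b : R) : R :=
  (-14307150)*p^6*a^9 + (-14307150)*q^6*b^9 + (-6603300)*p^5*q*a^4*b^5 + (-138669300)*p^5*q*a^5*b^4 + (-924462000)*p^5*q*a^6*b^3 + (-2509254000)*p^5*q*a^7*b^2 + (-2822910750)*p^5*q*a^8*b + (-1066432950)*p^5*q*a^9 + (1066432950)*p*q^5*b^9 + (2822910750)*p*q^5*a*b^8 + (2509254000)*p*q^5*a^2*b^7 + (924462000)*p*q^5*a^3*b^6 + (138669300)*p*q^5*a^4*b^5 + (6603300)*p*q^5*a^5*b^4 + (100050)*p^4*q^2*b^9 + (9004500)*p^4*q^2*a*b^8 + (228114000)*p^4*q^2*a^2*b^7 + (2395197000)*p^4*q^2*a^3*b^6 +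 (12215504700)*p^4*q^2*a^4*b^5 + (32574679200)*p^4*q^2*a^5*b^4 + (46535256000)*p^4*q^2*a^6*b^3 + (34901442000)*p^4*q^2*a^7*b^2 + (12603298500)*p^4*q^2*a^8*b + (1680439800)*p^4*q^2*a^9 + (1680439800)*p^2*q^4*b^9 + (12603298500)*p^2*q^4*a*b^8 + (34901442000)*p^2*q^4*a^2*b^7 + (46535256000)*p^2*q^4*a^3*b^6 + (32574679200)*p^2*q^4*a^4*b^5 + (12215504700)*p^2*q^4*a^5*b^4 + (2395197000)*p^2*q^4*a^6*b^3 + (228114000)*p^2*q^4*a^7*b^2 + (9004500)*p^2*q^4*a^8*b + (100050)*p^2*q^4*a^9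

def f6H9 (c4 c6 : R) : R :=
  (-32016000)*c6^4 + (42021000)*c4^3*c6^2 + (-24312150)*c4^6

def f6A10 (p q a b : R) : R :=
  (-30045015)*p^6*a^10 + (-30045015)*q^6*b^10 + (-27733860)*p^5*q*a^5*b^5 + (-462231000)*p^5*q*a^6*b^4 + (-2509254000)*p^5*q*a^7*b^3 + (-5645821500)*p^5*q*a^8*b^2 + (-5332164750)*p^5*q*a^9*b + (-1706292720)*p^5*q*a^10 + (1706292720)*p*q^5*b^10 + (5332164750)*p*q^5*a*b^9 + (5645821500)*p*q^5*a^2*b^8 + (2509254000)*p*q^5*a^3*b^7 + (462231000)*p*q^5*a^4*b^6 + (27733860)*p*q^5*a^5*b^5 + (10005)*p^4*q^2*b^10 + (2001000)*p^4*q^2*a*b^9 + (85542750)*p^4*q^2*a^2*b^8 + (1368684000)*p^4*q^2*a^3*b^7 + (10179587250)*p^4*q^2*a^4*b^6 + (39089615040)*p^4*q^2*a^5*b^5 + (81436698000)*p^4*q^2*a^6*b^4 + (93070512000)*p^4*q^2*a^7*b^3 + (56714843250)*p^4*q^2*a^8*b^2 + (16804398000)*p^4*q^2*a^9*b + (1848483780)*p^4*q^2*a^10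 + (1848483780)*p^2*q^4*b^10 + (16804398000)*p^2*q^4*a*b^9 + (56714843250)*p^2*q^4*a^2*b^8 + (93070512000)*p^2*q^4*a^3*b^7 + (81436698000)*p^2*q^4*a^4*b^6 + (39089615040)*p^2*q^4*a^5*b^5 + (10179587250)*p^2*q^4*a^6*b^4 + (1368684000)*p^2*q^4*a^7*b^3 + (85542750)*p^2*q^4*a^8*b^2 + (2001000)*p^2*q^4*a^9*b + (10005)*p^2*q^4*a^10

def f6H10 (c4 c6 : R) : R :=
  (-216588240)*c4^2*c6^3 + (246633255)*c4^5*c6

def f6A11 (p q a b : R) : R :=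
  (-54627300)*p^6*a^11 + (-54627300)*q^6*b^11 + (-92446200)*p^5*q*a^6*b^5 + (-1254627000)*p^5*q*a^7*b^4 + (-5645821500)*p^5*q*a^8*b^3 + (-10664329500)*p^5*q*a^9*b^2 + (-8531463600)*p^5*q*a^10*b + (-2326762800)*p^5*q*a^11 + (2326762800)*p*q^5*b^11 + (8531463600)*p*q^5*a*b^10 + (10664329500)*p*q^5*a^2*b^9 + (5645821500)*p*q^5*a^3*b^8 + (1254627000)*p*q^5*a^4*b^7 + (92446200)*p*q^5*a^5*b^6 + (200100)*p^4*q^2*a*b^10 + (19009500)*p^4*q^2*a^2*b^9 + (513256500)*p^4*q^2*a^3*b^8 + (5816907000)*p^4*q^2*a^4*b^7 + (32574679200)*p^4*q^2*a^5*b^6 + (97724037600)*p^4*q^2*a^6*b^5 + (162873396000)*p^4*q^2*a^7*b^4 + (151239582000)*p^4*q^2*a^8*b^3 + (75619791000)*p^4*q^2*a^9*b^2 + (18484837800)*p^4*q^2*a^10*b + (1680439800)*p^4*q^2*a^11 + (1680439800)*p^2*q^4*b^11 + (18484837800)*p^2*q^4*a*b^10 + (75619791000)*p^2*q^4*a^2*b^9 + (151239582000)*p^2*q^4*a^3*b^8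 + (162873396000)*p^2*q^4*a^4*b^7 + (97724037600)*p^2*q^4*a^5*b^6 + (32574679200)*p^2*q^4*a^6*b^5 + (5816907000)*p^2*q^4*a^7*b^4 + (513256500)*p^2*q^4*a^8*b^3 + (19009500)*p^2*q^4*a^9*b^2 + (200100)*p^2*q^4*a^10*b

def f6H11 (c4 c6 : R) : R :=
  (1459929600)*c4*c6^4 + (-1352475900)*c4^4*c6^2 + (-162081000)*c4^7

def f6A12 (p q a b : R) : R :=
  (-86493225)*p^6*a^12 + (-86493225)*q^6*b^12 + (-250925400)*p^5*q*a^7*b^5 + (-2822910750)*p^5*q*a^8*b^4 + (-10664329500)*p^5*q*a^9*b^3 + (-17062927200)*p^5*q*a^10*b^2 + (-11633814000)*p^5*q*a^11*b + (-2714556600)*p^5*q*a^12 + (2714556600)*p*q^5*b^12 + (11633814000)*p*q^5*a*b^11 + (17062927200)*p*q^5*a^2*b^10 + (10664329500)*p*q^5*a^3*b^9 + (2822910750)*p*q^5*a^4*b^8 + (250925400)*p*q^5*a^5*b^7 + (1900950)*p^4*q^2*a^2*b^10 + (114057000)*p^4*q^2*a^3*b^9 + (2181340125)*p^4*q^2*a^4*b^8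 + (18614102400)*p^4*q^2*a^5*b^7 + (81436698000)*p^4*q^2*a^6*b^6 + (195448075200)*p^4*q^2*a^7*b^5 + (264669268500)*p^4*q^2*a^8*b^4 + (201652776000)*p^4*q^2*a^9*b^3 + (83181770100)*p^4*q^2*a^10*b^2 + (16804398000)*p^4*q^2*a^11*b + (1260329850)*p^4*q^2*a^12 + (1260329850)*p^2*q^4*b^12 + (16804398000)*p^2*q^4*a*b^11 + (83181770100)*p^2*q^4*a^2*b^10 + (201652776000)*p^2*q^4*a^3*b^9 + (264669268500)*p^2*q^4*a^4*b^8 + (195448075200)*p^2*q^4*a^5*b^7 + (81436698000)*p^2*q^4*a^6*b^6 + (18614102400)*p^2*q^4*a^7*b^5 + (2181340125)*p^2*q^4*a^8*b^4 + (114057000)*p^2*q^4*a^9*b^3 + (1900950)*p^2*q^4*a^10*b^2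

def f6H12 (c4 c6 : R) : R :=
  (-2433216000)*c6^5 + (-1612005600)*c4^3*c6^3 + (4131714825)*c4^6*c6

def f6A13 (p q a b : R) : R :=
  (-119759850)*p^6*a^13 + (-119759850)*q^6*b^13 + (-564582150)*p^5*q*a^8*b^5 + (-5332164750)*p^5*q*a^9*b^4 + (-17062927200)*p^5*q*a^10*b^3 + (-23267628000)*p^5*q*a^11*b^2 + (-13572783000)*p^5*q*a^12*b + (-2714556600)*p^5*q*a^13 + (2714556600)*p*q^5*b^13 + (13572783000)*p*q^5*a*b^12 + (23267628000)*p*q^5*a^2*b^11 + (17062927200)*p*q^5*a^3*b^10 + (5332164750)*p*q^5*a^4*b^9 + (564582150)*p*q^5*a^5*b^8 + (11405700)*p^4*q^2*a^3*b^10 + (484742250)*p^4*q^2*a^4*b^9 + (6980288400)*p^4*q^2*a^5*b^8 + (46535256000)*p^4*q^2*a^6*b^7 + (162873396000)*p^4*q^2*a^7*b^6 + (317603122200)*p^4*q^2*a^8*b^5 + (352892358000)*p^4*q^2*a^9*b^4 + (221818053600)*p^4*q^2*a^10*b^3 + (75619791000)*p^4*q^2*a^11*b^2 +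 (12603298500)*p^4*q^2*a^12*b + (775587600)*p^4*q^2*a^13 + (775587600)*p^2*q^4*b^13 + (12603298500)*p^2*q^4*a*b^12 + (75619791000)*p^2*q^4*a^2*b^11 + (221818053600)*p^2*q^4*a^3*b^10 + (352892358000)*p^2*q^4*a^4*b^9 + (317603122200)*p^2*q^4*a^5*b^8 + (162873396000)*p^2*q^4*a^6*b^7 + (46535256000)*p^2*q^4*a^7*b^6 + (6980288400)*p^2*q^4*a^8*b^5 + (484742250)*p^2*q^4*a^9*b^4 + (11405700)*p^2*q^4*a^10*b^3

def f6H13 (c4 c6 : R) : R :=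
  (12044419200)*c4^2*c6^4 + (-5235216300)*c4^5*c6^2 + (-6928962750)*c4^8

def f6A14 (p q a b : R) : R :=
  (-145422675)*p^6*a^14 + (-145422675)*q^6*b^14 + (-1066432950)*p^5*q*a^9*b^5 + (-8531463600)*p^5*q*a^10*b^4 + (-23267628000)*p^5*q*a^11*b^3 + (-27145566000)*p^5*q*a^12*b^2 + (-13572783000)*p^5*q*a^13*b + (-2326762800)*p^5*q*a^14 + (2326762800)*p*q^5*b^14 + (13572783000)*p*q^5*a*b^13 + (27145566000)*p*q^5*a^2*b^12 + (23267628000)*p*q^5*a^3*b^11 + (8531463600)*p*q^5*a^4*b^10 + (1066432950)*p*q^5*a^5*b^9 + (48474225)*p^4*q^2*a^4*b^10 + (1551175200)*p^4*q^2*a^5*b^9 + (17450721000)*p^4*q^2*a^6*b^8 + (93070512000)*p^4*q^2*a^7*b^7 + (264669268500)*p^4*q^2*a^8*b^6 + (423470829600)*p^4*q^2*a^9*b^5 + (388181593800)*p^4*q^2*a^10*b^4 + (201652776000)*p^4*q^2*a^11*b^3 + (56714843250)*p^4*q^2*a^12*b^2 + (7755876000)*p^4*q^2*a^13*b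 + (387793800)*p^4*q^2*a^14 + (387793800)*p^2*q^4*b^14 + (7755876000)*p^2*q^4*a*b^13 + (56714843250)*p^2*q^4*a^2*b^12 + (201652776000)*p^2*q^4*a^3*b^11 + (388181593800)*p^2*q^4*a^4*b^10 + (423470829600)*p^2*q^4*a^5*b^9 + (264669268500)*p^2*q^4*a^6*b^8 + (93070512000)*p^2*q^4*a^7*b^7 + (17450721000)*p^2*q^4*a^8*b^6 + (1551175200)*p^2*q^4*a^9*b^5 + (48474225)*p^2*q^4*a^10*b^4

def f6H14 (c4 c6 : R) : R :=
  (-43045111800)*c4^4*c6^3 + (43190534475)*c4^7*c6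

def f6A15 (p q a b : R) : R :=
  (-155117520)*p^6*a^15 + (-155117520)*q^6*b^15 + (-1706292720)*p^5*q*a^10*b^5 + (-11633814000)*p^5*q*a^11*b^4 + (-27145566000)*p^5*q*a^12*b^3 + (-27145566000)*p^5*q*a^13*b^2 + (-11633814000)*p^5*q*a^14*b + (-1706292720)*p^5*q*a^15 + (1706292720)*p*q^5*b^15 + (11633814000)*p*q^5*a*b^14 + (27145566000)*p*q^5*a^2*b^13 + (27145566000)*p*q^5*a^3*b^12 + (11633814000)*p*q^5*a^4*b^11 + (1706292720)*p*q^5*a^5*b^10 + (155117520)*p^4*q^2*a^5*b^10 + (3877938000)*p^4*q^2*a^6*b^9 + (34901442000)*p^4*q^2*a^7*b^8 + (151239582000)*p^4*q^2*a^8*b^7 + (352892358000)*p^4*q^2*a^9*b^6 + (465817912560)*p^4*q^2*a^10*b^5 + (352892358000)*p^4*q^2*a^11*b^4 + (151239582000)*p^4*q^2*a^12*b^3 + (34901442000)*p^4*q^2*a^13*b^2 + (3877938000)*p^4*q^2*a^14*b + (155117520)*p^4*q^2*a^15 + (155117520)*p^2*q^4*b^15 + (3877938000)*p^2*q^4*a*b^14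 + (34901442000)*p^2*q^4*a^2*b^13 + (151239582000)*p^2*q^4*a^3*b^12 + (352892358000)*p^2*q^4*a^4*b^11 + (465817912560)*p^2*q^4*a^5*b^10 + (352892358000)*p^2*q^4*a^6*b^9 + (151239582000)*p^2*q^4*a^7*b^8 + (34901442000)*p^2*q^4*a^8*b^7 + (3877938000)*p^2*q^4*a^9*b^6 + (155117520)*p^2*q^4*a^10*b^5

def f6H15 (c4 c6 : R) : R :=
  (79420170240)*c4^3*c6^4 + (-79575287760)*c4^6*c6^2

def f6A16 (p q a b : R) : R :=
  (-145422675)*p^6*a^16 + (-145422675)*q^6*b^16 + (-2326762800)*p^5*q*a^11*b^5 + (-13572783000)*p^5*q*a^12*b^4 + (-27145566000)*p^5*q*a^13*b^3 + (-23267628000)*p^5*q*a^14*b^2 + (-8531463600)*p^5*q*a^15*b + (-1066432950)*p^5*q*a^16 + (1066432950)*p*q^5*b^16 + (8531463600)*p*q^5*a*b^15 + (23267628000)*p*q^5*a^2*b^14 + (27145566000)*p*q^5*a^3*b^13 + (13572783000)*p*q^5*a^4*b^12 + (2326762800)*p*q^5*a^5*b^11 + (387793800)*p^4*q^2*a^6*b^10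 + (7755876000)*p^4*q^2*a^7*b^9 + (56714843250)*p^4*q^2*a^8*b^8 + (201652776000)*p^4*q^2*a^9*b^7 + (388181593800)*p^4*q^2*a^10*b^6 + (423470829600)*p^4*q^2*a^11*b^5 + (264669268500)*p^4*q^2*a^12*b^4 + (93070512000)*p^4*q^2*a^13*b^3 + (17450721000)*p^4*q^2*a^14*b^2 + (1551175200)*p^4*q^2*a^15*b + (48474225)*p^4*q^2*a^16 + (48474225)*p^2*q^4*b^16 + (1551175200)*p^2*q^4*a*b^15 + (17450721000)*p^2*q^4*a^2*b^14 + (93070512000)*p^2*q^4*a^3*b^13 + (264669268500)*p^2*q^4*a^4*b^12 + (423470829600)*p^2*q^4*a^5*b^11 + (388181593800)*p^2*q^4*a^6*b^10 + (201652776000)*p^2*q^4*a^7*b^9 + (56714843250)*p^2*q^4*a^8*b^8 + (7755876000)*p^2*q^4*a^9*b^7 + (387793800)*p^2*q^4*a^10*b^6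

def f6H16 (c4 c6 : R) : R :=
  (-297825638400)*c4^2*c6^5 + (474659611200)*c4^5*c6^3 + (-176688550125)*c4^8*c6

def f6A17 (p q a b : R) : R :=
  (-119759850)*p^6*a^17 + (-119759850)*q^6*b^17 + (-2714556600)*p^5*q*a^12*b^5 + (-13572783000)*p^5*q*a^13*b^4 + (-23267628000)*p^5*q*a^14*b^3 + (-17062927200)*p^5*q*a^15*b^2 + (-5332164750)*p^5*q*a^16*b + (-564582150)*p^5*q*a^17 + (564582150)*p*q^5*b^17 + (5332164750)*p*q^5*a*b^16 + (17062927200)*p*q^5*a^2*b^15 + (23267628000)*p*q^5*a^3*b^14 + (13572783000)*p*q^5*a^4*b^13 + (2714556600)*p*q^5*a^5*b^12 + (775587600)*p^4*q^2*a^7*b^10 + (12603298500)*p^4*q^2*a^8*b^9 + (75619791000)*p^4*q^2*a^9*b^8 + (221818053600)*p^4*q^2*a^10*b^7 + (352892358000)*p^4*q^2*a^11*b^6 + (317603122200)*p^4*q^2*a^12*b^5 + (162873396000)*p^4*q^2*a^13*b^4 + (46535256000)*p^4*q^2*a^14*b^3 + (6980288400)*p^4*q^2*a^15*b^2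 + (484742250)*p^4*q^2*a^16*b + (11405700)*p^4*q^2*a^17 + (11405700)*p^2*q^4*b^17 + (484742250)*p^2*q^4*a*b^16 + (6980288400)*p^2*q^4*a^2*b^15 + (46535256000)*p^2*q^4*a^3*b^14 + (162873396000)*p^2*q^4*a^4*b^13 + (317603122200)*p^2*q^4*a^5*b^12 + (352892358000)*p^2*q^4*a^6*b^11 + (221818053600)*p^2*q^4*a^7*b^10 + (75619791000)*p^2*q^4*a^8*b^9 + (12603298500)*p^2*q^4*a^9*b^8 + (775587600)*p^2*q^4*a^10*b^7

def f6H17 (c4 c6 : R) : R :=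
  (700766208000)*c4*c6^6 + (-935084908800)*c4^4*c6^4 + (-77604382800)*c4^7*c6^2 + (311803323750)*c4^10

def f6A18 (p q a b : R) : R :=
  (-86493225)*p^6*a^18 + (-86493225)*q^6*b^18 + (-2714556600)*p^5*q*a^13*b^5 + (-11633814000)*p^5*q*a^14*b^4 + (-17062927200)*p^5*q*a^15*b^3 + (-10664329500)*p^5*q*a^16*b^2 + (-2822910750)*p^5*q*a^17*b + (-250925400)*p^5*q*a^18 + (250925400)*p*q^5*b^18 + (2822910750)*p*q^5*a*b^17 + (10664329500)*p*q^5*a^2*b^16 + (17062927200)*p*q^5*a^3*b^15 + (11633814000)*p*q^5*a^4*b^14 + (2714556600)*p*q^5*a^5*b^13 + (1260329850)*p^4*q^2*a^8*b^10 + (16804398000)*p^4*q^2*a^9*b^9 + (83181770100)*p^4*q^2*a^10*b^8 + (201652776000)*p^4*q^2*a^11*b^7 + (264669268500)*p^4*q^2*a^12*b^6 + (195448075200)*p^4*q^2*a^13*b^5 + (81436698000)*p^4*q^2*a^14*b^4 + (18614102400)*p^4*q^2*a^15*b^3 + (2181340125)*p^4*q^2*a^16*b^2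 + (114057000)*p^4*q^2*a^17*b + (1900950)*p^4*q^2*a^18 + (1900950)*p^2*q^4*b^18 + (114057000)*p^2*q^4*a*b^17 + (2181340125)*p^2*q^4*a^2*b^16 + (18614102400)*p^2*q^4*a^3*b^15 + (81436698000)*p^2*q^4*a^4*b^14 + (195448075200)*p^2*q^4*a^5*b^13 + (264669268500)*p^2*q^4*a^6*b^12 + (201652776000)*p^2*q^4*a^7*b^11 + (83181770100)*p^2*q^4*a^8*b^10 + (16804398000)*p^2*q^4*a^9*b^9 + (1260329850)*p^2*q^4*a^10*b^8

def f6H18 (c4 c6 : R) : R :=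
  (-778629120000)*c6^7 + (-303665356800)*c4^3*c6^5 + (2776512362400)*c4^6*c6^3 + (-1694131392375)*c4^9*c6

def f6A19 (p q a b : R) : R :=
  (-54627300)*p^6*a^19 + (-54627300)*q^6*b^19 + (-2326762800)*p^5*q*a^14*b^5 + (-8531463600)*p^5*q*a^15*b^4 + (-10664329500)*p^5*q*a^16*b^3 + (-5645821500)*p^5*q*a^17*b^2 + (-1254627000)*p^5*q*a^18*b + (-92446200)*p^5*q*a^19 + (92446200)*p*q^5*b^19 + (1254627000)*p*q^5*a*b^18 + (5645821500)*p*q^5*a^2*b^17 + (10664329500)*p*q^5*a^3*b^16 + (8531463600)*p*q^5*a^4*b^15 + (2326762800)*p*q^5*a^5*b^14 + (1680439800)*p^4*q^2*a^9*b^10 + (18484837800)*p^4*q^2*a^10*b^9 + (75619791000)*p^4*q^2*a^11*b^8 + (151239582000)*p^4*q^2*a^12*b^7 + (162873396000)*p^4*q^2*a^13*b^6 + (97724037600)*p^4*q^2*a^14*b^5 + (32574679200)*p^4*q^2*a^15*b^4 + (5816907000)*p^4*q^2*a^16*b^3 + (513256500)*p^4*q^2*a^17*b^2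 + (19009500)*p^4*q^2*a^18*b + (200100)*p^4*q^2*a^19 + (200100)*p^2*q^4*b^19 + (19009500)*p^2*q^4*a*b^18 + (513256500)*p^2*q^4*a^2*b^17 + (5816907000)*p^2*q^4*a^3*b^16 + (32574679200)*p^2*q^4*a^4*b^15 + (97724037600)*p^2*q^4*a^5*b^14 + (162873396000)*p^2*q^4*a^6*b^13 + (151239582000)*p^2*q^4*a^7*b^12 + (75619791000)*p^2*q^4*a^8*b^11 + (18484837800)*p^2*q^4*a^9*b^10 + (1680439800)*p^2*q^4*a^10*b^9

def f6H19 (c4 c6 : R) : R :=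
  (4290656256000)*c4^2*c6^6 + (-8100765158400)*c4^5*c6^4 + (3481840250100)*c4^8*c6^2 + (328214025000)*c4^11

def f6A20 (p q a b : R) : R :=
  (-30045015)*p^6*a^20 + (-30045015)*q^6*b^20 + (-1706292720)*p^5*q*a^15*b^5 + (-5332164750)*p^5*q*a^16*b^4 + (-5645821500)*p^5*q*a^17*b^3 + (-2509254000)*p^5*q*a^18*b^2 + (-462231000)*p^5*q*a^19*b + (-27733860)*p^5*q*a^20 + (27733860)*p*q^5*b^20 + (462231000)*p*q^5*a*b^19 + (2509254000)*p*q^5*a^2*b^18 + (5645821500)*p*q^5*a^3*b^17 + (5332164750)*p*q^5*a^4*b^16 + (1706292720)*p*q^5*a^5*b^15 + (1848483780)*p^4*q^2*a^10*b^10 + (16804398000)*p^4*q^2*a^11*b^9 + (56714843250)*p^4*q^2*a^12*b^8 + (93070512000)*p^4*q^2*a^13*b^7 + (81436698000)*p^4*q^2*a^14*b^6 + (39089615040)*p^4*q^2*a^15*b^5 + (10179587250)*p^4*q^2*a^16*b^4 + (1368684000)*p^4*q^2*a^17*b^3 + (85542750)*p^4*q^2*a^18*b^2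 + (2001000)*p^4*q^2*a^19*b + (10005)*p^4*q^2*a^20 + (10005)*p^2*q^4*b^20 + (2001000)*p^2*q^4*a*b^19 + (85542750)*p^2*q^4*a^2*b^18 + (1368684000)*p^2*q^4*a^3*b^17 + (10179587250)*p^2*q^4*a^4*b^16 + (39089615040)*p^2*q^4*a^5*b^15 + (81436698000)*p^2*q^4*a^6*b^14 + (93070512000)*p^2*q^4*a^7*b^13 + (56714843250)*p^2*q^4*a^8*b^12 + (16804398000)*p^2*q^4*a^9*b^11 + (1848483780)*p^2*q^4*a^10*b^10

def f6H20 (c4 c6 : R) : R :=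
  (-3442360320000)*c4*c6^7 + (3892110842880)*c4^4*c6^5 + (2424887357760)*c4^7*c6^3 + (-2874607835625)*c4^10*c6

def f6A21 (p q a b : R) : R :=
  (-14307150)*p^6*a^21 + (-14307150)*q^6*b^21 + (-1066432950)*p^5*q*a^16*b^5 + (-2822910750)*p^5*q*a^17*b^4 + (-2509254000)*p^5*q*a^18*b^3 + (-924462000)*p^5*q*a^19*b^2 + (-138669300)*p^5*q*a^20*b + (-6603300)*p^5*q*a^21 + (6603300)*p*q^5*b^21 + (138669300)*p*q^5*a*b^20 + (924462000)*p*q^5*a^2*b^19 + (2509254000)*p*q^5*a^3*b^18 + (2822910750)*p*q^5*a^4*b^17 + (1066432950)*p*q^5*a^5*b^16 + (1680439800)*p^4*q^2*a^11*b^10 + (12603298500)*p^4*q^2*a^12*b^9 + (34901442000)*p^4*q^2*a^13*b^8 + (46535256000)*p^4*q^2*a^14*b^7 + (32574679200)*p^4*q^2*a^15*b^6 + (12215504700)*p^4*q^2*a^16*b^5 + (2395197000)*p^4*q^2*a^17*b^4 + (228114000)*p^4*q^2*a^18*b^3 + (9004500)*p^4*q^2*a^19*b^2 +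 (100050)*p^4*q^2*a^20*b + (100050)*p^2*q^4*a*b^20 + (9004500)*p^2*q^4*a^2*b^19 + (228114000)*p^2*q^4*a^3*b^18 + (2395197000)*p^2*q^4*a^4*b^17 + (12215504700)*p^2*q^4*a^5*b^16 + (32574679200)*p^2*q^4*a^6*b^15 + (46535256000)*p^2*q^4*a^7*b^14 + (34901442000)*p^2*q^4*a^8*b^13 + (12603298500)*p^2*q^4*a^9*b^12 + (1680439800)*p^2*q^4*a^10*b^11

def f6H21 (c4 c6 : R) : R :=
  (3278438400000)*c6^8 + (-5125838438400)*c4^3*c6^6 + (2709129888000)*c4^6*c6^4 + (-3077188825500)*c4^9*c6^2 + (2215444668750)*c4^12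

def f6A22 (p q a b : R) : R :=
  (-5852925)*p^6*a^22 + (-5852925)*q^6*b^22 + (-564582150)*p^5*q*a^17*b^5 + (-1254627000)*p^5*q*a^18*b^4 + (-924462000)*p^5*q*a^19*b^3 + (-277338600)*p^5*q*a^20*b^2 + (-33016500)*p^5*q*a^21*b + (-1200600)*p^5*q*a^22 + (1200600)*p*q^5*b^22 + (33016500)*p*q^5*a*b^21 + (277338600)*p*q^5*a^2*b^20 + (924462000)*p*q^5*a^3*b^19 + (1254627000)*p*q^5*a^4*b^18 + (564582150)*p*q^5*a^5*b^17 + (1260329850)*p^4*q^2*a^12*b^10 + (7755876000)*p^4*q^2*a^13*b^9 + (17450721000)*p^4*q^2*a^14*b^8 + (18614102400)*p^4*q^2*a^15*b^7 + (10179587250)*p^4*q^2*a^16*b^6 + (2874236400)*p^4*q^2*a^17*b^5 + (399199500)*p^4*q^2*a^18*b^4 + (24012000)*p^4*q^2*a^19*b^3 + (450225)*p^4*q^2*a^20*b^2 + (450225)*p^2*q^4*a^2*b^20 + (24012000)*p^2*q^4*a^3*b^19 + (399199500)*p^2*q^4*a^4*b^18 + (2874236400)*p^2*q^4*a^5*b^17 + (10179587250)*p^2*q^4*a^6*b^16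 + (18614102400)*p^2*q^4*a^7*b^15 + (17450721000)*p^2*q^4*a^8*b^14 + (7755876000)*p^2*q^4*a^9*b^13 + (1260329850)*p^2*q^4*a^10*b^12

def f6H22 (c4 c6 : R) : R :=
  (-4573421568000)*c4^2*c6^7 + (7701051801600)*c4^5*c6^5 + (-1724509423800)*c4^8*c6^3 + (-1403114956875)*c4^11*c6

def f6A23 (p q a b : R) : R :=
  (-2035800)*p^6*a^23 + (-2035800)*q^6*b^23 + (-250925400)*p^5*q*a^18*b^5 + (-462231000)*p^5*q*a^19*b^4 + (-277338600)*p^5*q*a^20*b^3 + (-66033000)*p^5*q*a^21*b^2 + (-6003000)*p^5*q*a^22*b + (-156600)*p^5*q*a^23 + (156600)*p*q^5*b^23 + (6003000)*p*q^5*a*b^22 + (66033000)*p*q^5*a^2*b^21 + (277338600)*p*q^5*a^3*b^20 + (462231000)*p*q^5*a^4*b^19 + (250925400)*p*q^5*a^5*b^18 + (775587600)*p^4*q^2*a^13*b^10 + (3877938000)*p^4*q^2*a^14*b^9 + (6980288400)*p^4*q^2*a^15*b^8 + (5816907000)*p^4*q^2*a^16*b^7 + (2395197000)*p^4*q^2*a^17*b^6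 + (479039400)*p^4*q^2*a^18*b^5 + (42021000)*p^4*q^2*a^19*b^4 + (1200600)*p^4*q^2*a^20*b^3 + (1200600)*p^2*q^4*a^3*b^20 + (42021000)*p^2*q^4*a^4*b^19 + (479039400)*p^2*q^4*a^5*b^18 + (2395197000)*p^2*q^4*a^6*b^17 + (5816907000)*p^2*q^4*a^7*b^16 + (6980288400)*p^2*q^4*a^8*b^15 + (3877938000)*p^2*q^4*a^9*b^14 + (775587600)*p^2*q^4*a^10*b^13

def f6H23 (c4 c6 : R) : R :=
  (-6157762560000)*c4*c6^8 + (30337884979200)*c4^4*c6^6 + (-49888700928000)*c4^7*c6^4 + (33414470973000)*c4^10*c6^2 + (-7705894500000)*c4^13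

def f6A24 (p q a b : R) : R :=
  (-593775)*p^6*a^24 + (-593775)*q^6*b^24 + (-92446200)*p^5*q*a^19*b^5 + (-138669300)*p^5*q*a^20*b^4 + (-66033000)*p^5*q*a^21*b^3 + (-12006000)*p^5*q*a^22*b^2 + (-783000)*p^5*q*a^23*b + (-13050)*p^5*q*a^24 + (13050)*p*q^5*b^24 + (783000)*p*q^5*a*b^23 + (12006000)*p*q^5*a^2*b^22 + (66033000)*p*q^5*a^3*b^21 + (138669300)*p*q^5*a^4*b^20 + (92446200)*p*q^5*a^5*b^19 + (387793800)*p^4*q^2*a^14*b^10 + (1551175200)*p^4*q^2*a^15*b^9 + (2181340125)*p^4*q^2*a^16*b^8 + (1368684000)*p^4*q^2*a^17*b^7 + (399199500)*p^4*q^2*a^18*b^6 + (50425200)*p^4*q^2*a^19*b^5 + (2101050)*p^4*q^2*a^20*b^4 + (2101050)*p^2*q^4*a^4*b^20 + (50425200)*p^2*q^4*a^5*b^19 + (399199500)*p^2*q^4*a^6*b^18 + (1368684000)*p^2*q^4*a^7*b^17 + (2181340125)*p^2*q^4*a^8*b^16 + (1551175200)*p^2*q^4*a^9*b^15 + (387793800)*p^2*q^4*a^10*b^14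

def f6H24 (c4 c6 : R) : R :=
  (5131468800000)*c6^9 + (-22779445248000)*c4^3*c6^7 + (35246094796800)*c4^6*c6^5 + (-22687218914400)*c4^9*c6^3 + (5089101159375)*c4^12*c6

def f6A25 (p q a b : R) : R :=
  (-142506)*p^6*a^25 + (-142506)*q^6*b^25 + (-27733860)*p^5*q*a^20*b^5 + (-33016500)*p^5*q*a^21*b^4 + (-12006000)*p^5*q*a^22*b^3 + (-1566000)*p^5*q*a^23*b^2 + (-65250)*p^5*q*a^24*b + (-522)*p^5*q*a^25 + (522)*p*q^5*b^25 + (65250)*p*q^5*a*b^24 + (1566000)*p*q^5*a^2*b^23 + (12006000)*p*q^5*a^3*b^22 + (33016500)*p*q^5*a^4*b^21 + (27733860)*p*q^5*a^5*b^20 + (155117520)*p^4*q^2*a^15*b^10 + (484742250)*p^4*q^2*a^16*b^9 + (513256500)*p^4*q^2*a^17*b^8 + (228114000)*p^4*q^2*a^18*b^7 + (42021000)*p^4*q^2*a^19*b^6 + (2521260)*p^4*q^2*a^20*b^5 + (2521260)*p^2*q^4*a^5*b^20 + (42021000)*p^2*q^4*a^6*b^19 + (228114000)*p^2*q^4*a^7*b^18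 + (513256500)*p^2*q^4*a^8*b^17 + (484742250)*p^2*q^4*a^9*b^16 + (155117520)*p^2*q^4*a^10*b^15

def f6H25 (c4 c6 : R) : R :=
  (18216714240000)*c4^2*c6^8 + (-71274600677376)*c4^5*c6^6 + (105528606261120)*c4^8*c6^4 + (-70097953635000)*c4^11*c6^2 + (17627233668750)*c4^14

def f6A26 (p q a b : R) : R :=
  (-27405)*p^6*a^26 + (-27405)*q^6*b^26 + (-6603300)*p^5*q*a^21*b^5 + (-6003000)*p^5*q*a^22*b^4 + (-1566000)*p^5*q*a^23*b^3 + (-130500)*p^5*q*a^24*b^2 + (-2610)*p^5*q*a^25*b + (2610)*p*q^5*a*b^25 + (130500)*p*q^5*a^2*b^24 + (1566000)*p*q^5*a^3*b^23 + (6003000)*p*q^5*a^4*b^22 + (6603300)*p*q^5*a^5*b^21 + (48474225)*p^4*q^2*a^16*b^10 + (114057000)*p^4*q^2*a^17*b^9 + (85542750)*p^4*q^2*a^18*b^8 + (24012000)*p^4*q^2*a^19*b^7 + (2101050)*p^4*q^2*a^20*b^6 + (2101050)*p^2*q^4*a^6*b^20 + (24012000)*p^2*q^4*a^7*b^19 + (85542750)*p^2*q^4*a^8*b^18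 + (114057000)*p^2*q^4*a^9*b^17 + (48474225)*p^2*q^4*a^10*b^16

def f6H26 (c4 c6 : R) : R :=
  (-41051750400000)*c4*c6^9 + (163803539865600)*c4^4*c6^7 + (-245438120632320)*c4^7*c6^5 + (163672057566000)*c4^10*c6^3 + (-40985726371875)*c4^13*c6

def f6A27 (p q a b : R) : R :=
  (-4060)*p^6*a^27 + (-4060)*q^6*b^27 + (-1200600)*p^5*q*a^22*b^5 + (-783000)*p^5*q*a^23*b^4 + (-130500)*p^5*q*a^24*b^3 + (-5220)*p^5*q*a^25*b^2 + (5220)*p*q^5*a^2*b^25 + (130500)*p*q^5*a^3*b^24 + (783000)*p*q^5*a^4*b^23 + (1200600)*p*q^5*a^5*b^22 + (11405700)*p^4*q^2*a^17*b^10 + (19009500)*p^4*q^2*a^18*b^9 + (9004500)*p^4*q^2*a^19*b^8 + (1200600)*p^4*q^2*a^20*b^7 + (1200600)*p^2*q^4*a^7*b^20 + (9004500)*p^2*q^4*a^8*b^19 + (19009500)*p^2*q^4*a^9*b^18 + (11405700)*p^2*q^4*a^10*b^17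

def f6H27 (c4 c6 : R) : R :=
  (30408704000000)*c6^10 + (-111934439424000)*c4^3*c6^8 + (143803576074240)*c4^6*c6^6 + (-63806176396800)*c4^9*c6^4 + (-8104032382500)*c4^12*c6^2 + (9632368125000)*c4^15

def f6A28 (p q a b : R) : R :=
  (-435)*p^6*a^28 + (-435)*q^6*b^28 + (-156600)*p^5*q*a^23*b^5 + (-65250)*p^5*q*a^24*b^4 + (-5220)*p^5*q*a^25*b^3 + (5220)*p*q^5*a^3*b^25 + (65250)*p*q^5*a^4*b^24 + (156600)*p*q^5*a^5*b^23 + (1900950)*p^4*q^2*a^18*b^10 + (2001000)*p^4*q^2*a^19*b^9 + (450225)*p^4*q^2*a^20*b^8 + (450225)*p^2*q^4*a^8*b^20 + (2001000)*p^2*q^4*a^9*b^19 + (1900950)*p^2*q^4*a^10*b^18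

def f6H28 (c4 c6 : R) : R :=
  (-21438136320000)*c4^2*c6^9 + (85731449241600)*c4^5*c6^7 + (-128580522647040)*c4^8*c6^5 + (85719228804000)*c4^11*c6^3 + (-21432019078125)*c4^14*c6

def f6A29 (p q a b : R) : R :=
  (-30)*p^6*a^29 + (-30)*q^6*b^29 + (-13050)*p^5*q*a^24*b^5 + (-2610)*p^5*q*a^25*b^4 + (2610)*p*q^5*a^4*b^25 + (13050)*p*q^5*a^5*b^24 + (200100)*p^4*q^2*a^19*b^10 + (100050)*p^4*q^2*a^20*b^9 + (100050)*p^2*q^4*a^9*b^20 + (200100)*p^2*q^4*a^10*b^19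

def f6H29 (c4 c6 : R) : R :=
  (-5033164800000)*c4*c6^10 + (31344427008000)*c4^4*c6^8 + (-75042714746880)*c4^7*c6^6 + (87394892457600)*c4^10*c6^4 + (-49873523512500)*c4^13*c6^2 + (11210083593750)*c4^16

def f6A30 (p q a b : R) : R :=
  (-1)*p^6*a^30 + (-1)*q^6*b^30 + (-522)*p^5*q*a^25*b^5 + (522)*p*q^5*a^5*b^25 + (10005)*p^4*q^2*a^20*b^10 + (10005)*p^2*q^4*a^10*b^20

def f6H30 (c4 c6 : R) : R :=
  (3355443200000)*c6^11 + (-17532190720000)*c4^3*c6^9 + (36574189977600)*c4^6*c6^7 + (-38083944628224)*c4^9*c6^5 + (19796866155000)*c4^12*c6^3 + (-4110363984375)*c4^15*c6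

set_option maxHeartbeats 4000000 in
theorem f6_aux (p q μ a b : R) :
    C6 (p * (1 + μ * a)^5) (q * (1 + μ * b)^5) = f6A0 p q a b + f6A1 p q a b * μ + f6A2 p q a b * μ^2 + f6A3 p q a b * μ^3 + f6A4 p q a b * μ^4 + f6A5 p q a b * μ^5 + f6A6 p q a b * μ^6 + f6A7 p q a b * μ^7 + f6A8 p q a b * μ^8 + f6A9 p q a b * μ^9 + f6A10 p q a b * μ^10 + f6A11 p q a b * μ^11 + f6A12 p q a b * μ^12 + f6A13 p q a b * μ^13 + f6A14 p q a b * μ^14 + f6A15 p q a b * μ^15 + f6A16 p q a b * μ^16 + f6A17 p q a b * μ^17 + f6A18 p q a b * μ^18 + f6A19 p q a b * μ^19 + f6A20 p q a b * μ^20 + f6A21 p q a b * μ^21 + f6A22 p q a b * μ^22 + f6A23 p q a b * μ^23 + f6A24 p q a b * μ^24 + f6A25 p q a b * μ^25 + f6A26 p q a b * μ^26 + f6A27 p q a b * μ^27 + f6A28 p q a b * μ^28 + f6A29 p q a b * μ^29 + f6A30 p q a b * μ^30 := by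
  simp only [C6, f6A0, f6A1, f6A2, f6A3, f6A4, f6A5, f6A6, f6A7, f6A8, f6A9, f6A10, f6A11, f6A12, f6A13, f6A14, f6A15, f6A16, f6A17, f6A18, f6A19, f6A20, f6A21, f6A22, f6A23, f6A24, f6A25, f6A26, f6A27, f6A28, f6A29, f6A30]
  ring

end Fermat.Agent.S52
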