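import Fermat.Agent.S52.Forms6A

/-! # S52: fam6, coefficients (auto-generated) -/

set_option autoImplicit false
set_option linter.unusedVariables false

namespace Fermat.Agent.S52

variable {R : Type*} [CommRing R]

set_option maxHeartbeats 4000000 in
theorem f6_k0 (p q : R) : f6A0 p q (K1 p q) (K2 p q) = f6H0 (C4 p q) (C6 p q) := by
  simp only [f6A0, f6H0, K1, K2, C4, C6]
  ring

set_option maxHeartbeats 4000000 in
theorem f6_k1 (p q : R) : f6A1 p q (K1 p q) (K2 p q) = f6H1 (C4 p q) (C6 p q) := by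
  simp only [f6A1, f6H1, K1, K2, C4, C6]
  ring

set_option maxHeartbeats 4000000 in
theorem f6_k2 (p q : R) : f6A2 p q (K1 p q) (K2 p q) = f6H2 (C4 p q) (C6 p q) := by
  simp only [f6A2, f6H2, K1, K2, C4, C6]
  ring

set_option maxHeartbeats 4000000 in
theorem f6_k3 (p q : R) : f6A3 p q (K1 p q) (K2 p q) = f6H3 (C4 p q) (C6 p q) := by
  simp only [f6A3, f6H3, K1, K2, C4, C6]
  ring

set_option maxHeartbeats 4000000 in
theorem f6_k4 (p q : R) : f6A4 p q (K1 p q) (K2 p q) = f6H4 (C4 p q) (C6 p q) := by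
  simp only [f6A4, f6H4, K1, K2, C4, C6]
  ring

set_option maxHeartbeats 4000000 in
theorem f6_k5 (p q : R) : f6A5 p q (K1 p q) (K2 p q) = f6H5 (C4 p q) (C6 p q) := by
  simp only [f6A5, f6H5, K1, K2, C4, C6]
  ring

set_option maxHeartbeats 4000000 in
theorem f6_k6 (p q : R) : f6A6 p q (K1 p q) (K2 p q) = f6H6 (C4 p q) (C6 p q) := by
  simp only [f6A6, f6H6, K1, K2, C4, C6]
  ring

set_option maxHeartbeats 4000000 in
theorem f6_k7 (p q : R) : f6A7 p q (K1 p q) (K2 p q) = f6H7 (C4 p q) (C6 p q) := by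
  simp only [f6A7, f6H7, K1, K2, C4, C6]
  ring

set_option maxHeartbeats 4000000 in
theorem f6_k8 (p q : R) : f6A8 p q (K1 p q) (K2 p q) = f6H8 (C4 p q) (C6 p q) := by
  simp only [f6A8, f6H8, K1, K2, C4, C6]
  ring

set_option maxHeartbeats 4000000 in
theorem f6_k9 (p q : R) : f6A9 p q (K1 p q) (K2 p q) = f6H9 (C4 p q) (C6 p q) := by
  simp only [f6A9, f6H9, K1, K2, C4, C6]
  ring

set_option maxHeartbeats 4000000 in
theorem f6_k10 (p q : R) : f6A10 p q (K1 p q) (K2 p q) = f6H10 (C4 p q) (C6 p q) := by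
  simp only [f6A10, f6H10, K1, K2, C4, C6]
  ring

set_option maxHeartbeats 4000000 in
theorem f6_k11 (p q : R) : f6A11 p q (K1 p q) (K2 p q) = f6H11 (C4 p q) (C6 p q) := by
  simp only [f6A11, f6H11, K1, K2, C4, C6]
  ring

end Fermat.Agent.S52
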