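import Fermat.Agent.S52.Family

/-! # S52: Klein's icosahedral forms in the variables `p = z₁^5`, `q = z₂^5` (definitions). -/

set_option autoImplicit false

namespace Fermat.Agent.S52

variable {R : Type*} [CommRing R]

def C4 (p q : R) : R := p^4 - 228*p^3*q + 494*p^2*q^2 + 228*p*q^3 + q^4
def C6 (p q : R) : R := -(p^6 + q^6 + 522*(p^5*q - p*q^5) - 10005*(p^4*q^2 + p^2*q^4))
def D2 (p q : R) : R := p^2 + 11*p*q - q^2
/-- `c(u) = (z₁ K1, z₂ K2)` is the covariant `(∂f/∂z₂, -∂f/∂z₁)`, `f = z₁ z₂ D2`. -/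
def K1 (p q : R) : R := p^2 + 66*p*q - 11*q^2
def K2 (p q : R) : R := -(11*p^2 + 66*p*q - q^2)

theorem disc_forms (p q : R) : C4 p q ^ 3 - C6 p q ^ 2 = -1728 * (p * q * D2 p q ^ 5) := by
  simp only [C4, C6, D2]; ring

end Fermat.Agent.S52
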