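import Fermat.Agent.S52.FormsDefs

/-! # S52: generated file (see `Forms.lean`): the coefficients `L4_k` of `μ^k` in the left hand side of
`fam4`, with `K1`, `K2` replaced by variables. -/

set_option autoImplicit false
set_option linter.unusedVariables false
set_option linter.unusedSimpArgs false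
set_option Elab.async false

namespace Fermat.Agent.S52

variable {R : Type*} [CommRing R]

def L4_0 (p q k1 k2 : R) : R :=
      (1 : R)*p^(4:ℕ) + (-228 : R)*p^(3:ℕ)*q^(1:ℕ) + (494 : R)*p^(2:ℕ)*q^(2:ℕ) + (228 : R)*p^(1:ℕ)*q^(3:ℕ)
    + (1 : R)*q^(4:ℕ)

def L4_1 (p q k1 k2 : R) : R :=
      (20 : R)*p^(4:ℕ)*k1^(1:ℕ) + (-1140 : R)*p^(3:ℕ)*q^(1:ℕ)*k2^(1:ℕ) + (-3420 : R)*p^(3:ℕ)*q^(1:ℕ)*k1^(1:ℕ) + (4940 : R)*p^(2:ℕ)*q^(2:ℕ)*k2^(1:ℕ)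
    + (4940 : R)*p^(2:ℕ)*q^(2:ℕ)*k1^(1:ℕ) + (3420 : R)*p^(1:ℕ)*q^(3:ℕ)*k2^(1:ℕ) + (1140 : R)*p^(1:ℕ)*q^(3:ℕ)*k1^(1:ℕ) + (20 : R)*q^(4:ℕ)*k2^(1:ℕ)

def L4_2 (p q k1 k2 : R) : R :=
      (190 : R)*p^(4:ℕ)*k1^(2:ℕ) + (-2280 : R)*p^(3:ℕ)*q^(1:ℕ)*k2^(2:ℕ) + (-17100 : R)*p^(3:ℕ)*q^(1:ℕ)*k1^(1:ℕ)*k2^(1:ℕ) + (-23940 : R)*p^(3:ℕ)*q^(1:ℕ)*k1^(2:ℕ)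
    + (22230 : R)*p^(2:ℕ)*q^(2:ℕ)*k2^(2:ℕ) + (49400 : R)*p^(2:ℕ)*q^(2:ℕ)*k1^(1:ℕ)*k2^(1:ℕ) + (22230 : R)*p^(2:ℕ)*q^(2:ℕ)*k1^(2:ℕ) + (23940 : R)*p^(1:ℕ)*q^(3:ℕ)*k2^(2:ℕ)
    + (17100 : R)*p^(1:ℕ)*q^(3:ℕ)*k1^(1:ℕ)*k2^(1:ℕ) + (2280 : R)*p^(1:ℕ)*q^(3:ℕ)*k1^(2:ℕ) + (190 : R)*q^(4:ℕ)*k2^(2:ℕ)

def L4_3 (p q k1 k2 : R) : R :=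
      (1140 : R)*p^(4:ℕ)*k1^(3:ℕ) + (-2280 : R)*p^(3:ℕ)*q^(1:ℕ)*k2^(3:ℕ) + (-34200 : R)*p^(3:ℕ)*q^(1:ℕ)*k1^(1:ℕ)*k2^(2:ℕ) + (-119700 : R)*p^(3:ℕ)*q^(1:ℕ)*k1^(2:ℕ)*k2^(1:ℕ)
    + (-103740 : R)*p^(3:ℕ)*q^(1:ℕ)*k1^(3:ℕ) + (59280 : R)*p^(2:ℕ)*q^(2:ℕ)*k2^(3:ℕ) + (222300 : R)*p^(2:ℕ)*q^(2:ℕ)*k1^(1:ℕ)*k2^(2:ℕ) + (222300 : R)*p^(2:ℕ)*q^(2:ℕ)*k1^(2:ℕ)*k2^(1:ℕ)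
    + (59280 : R)*p^(2:ℕ)*q^(2:ℕ)*k1^(3:ℕ) + (103740 : R)*p^(1:ℕ)*q^(3:ℕ)*k2^(3:ℕ) + (119700 : R)*p^(1:ℕ)*q^(3:ℕ)*k1^(1:ℕ)*k2^(2:ℕ) + (34200 : R)*p^(1:ℕ)*q^(3:ℕ)*k1^(2:ℕ)*k2^(1:ℕ)
    + (2280 : R)*p^(1:ℕ)*q^(3:ℕ)*k1^(3:ℕ) + (1140 : R)*q^(4:ℕ)*k2^(3:ℕ)

def L4_4 (p q k1 k2 : R) : R :=
      (4845 : R)*p^(4:ℕ)*k1^(4:ℕ) + (-1140 : R)*p^(3:ℕ)*q^(1:ℕ)*k2^(4:ℕ) + (-34200 : R)*p^(3:ℕ)*q^(1:ℕ)*k1^(1:ℕ)*k2^(3:ℕ) + (-239400 : R)*p^(3:ℕ)*q^(1:ℕ)*k1^(2:ℕ)*k2^(2:ℕ)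
    + (-518700 : R)*p^(3:ℕ)*q^(1:ℕ)*k1^(3:ℕ)*k2^(1:ℕ) + (-311220 : R)*p^(3:ℕ)*q^(1:ℕ)*k1^(4:ℕ) + (103740 : R)*p^(2:ℕ)*q^(2:ℕ)*k2^(4:ℕ) + (592800 : R)*p^(2:ℕ)*q^(2:ℕ)*k1^(1:ℕ)*k2^(3:ℕ)
    + (1000350 : R)*p^(2:ℕ)*q^(2:ℕ)*k1^(2:ℕ)*k2^(2:ℕ) + (592800 : R)*p^(2:ℕ)*q^(2:ℕ)*k1^(3:ℕ)*k2^(1:ℕ) + (103740 : R)*p^(2:ℕ)*q^(2:ℕ)*k1^(4:ℕ) + (311220 : R)*p^(1:ℕ)*q^(3:ℕ)*k2^(4:ℕ)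
    + (518700 : R)*p^(1:ℕ)*q^(3:ℕ)*k1^(1:ℕ)*k2^(3:ℕ) + (239400 : R)*p^(1:ℕ)*q^(3:ℕ)*k1^(2:ℕ)*k2^(2:ℕ) + (34200 : R)*p^(1:ℕ)*q^(3:ℕ)*k1^(3:ℕ)*k2^(1:ℕ) + (1140 : R)*p^(1:ℕ)*q^(3:ℕ)*k1^(4:ℕ)
    + (4845 : R)*q^(4:ℕ)*k2^(4:ℕ)

def L4_5 (p q k1 k2 : R) : R :=
      (15504 : R)*p^(4:ℕ)*k1^(5:ℕ) + (-228 : R)*p^(3:ℕ)*q^(1:ℕ)*k2^(5:ℕ) + (-17100 : R)*p^(3:ℕ)*q^(1:ℕ)*k1^(1:ℕ)*k2^(4:ℕ) + (-239400 : R)*p^(3:ℕ)*q^(1:ℕ)*k1^(2:ℕ)*k2^(3:ℕ)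
    + (-1037400 : R)*p^(3:ℕ)*q^(1:ℕ)*k1^(3:ℕ)*k2^(2:ℕ) + (-1556100 : R)*p^(3:ℕ)*q^(1:ℕ)*k1^(4:ℕ)*k2^(1:ℕ) + (-684684 : R)*p^(3:ℕ)*q^(1:ℕ)*k1^(5:ℕ) + (124488 : R)*p^(2:ℕ)*q^(2:ℕ)*k2^(5:ℕ)
    + (1037400 : R)*p^(2:ℕ)*q^(2:ℕ)*k1^(1:ℕ)*k2^(4:ℕ) + (2667600 : R)*p^(2:ℕ)*q^(2:ℕ)*k1^(2:ℕ)*k2^(3:ℕ) + (2667600 : R)*p^(2:ℕ)*q^(2:ℕ)*k1^(3:ℕ)*k2^(2:ℕ) + (1037400 : R)*p^(2:ℕ)*q^(2:ℕ)*k1^(4:ℕ)*k2^(1:ℕ)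
    + (124488 : R)*p^(2:ℕ)*q^(2:ℕ)*k1^(5:ℕ) + (684684 : R)*p^(1:ℕ)*q^(3:ℕ)*k2^(5:ℕ) + (1556100 : R)*p^(1:ℕ)*q^(3:ℕ)*k1^(1:ℕ)*k2^(4:ℕ) + (1037400 : R)*p^(1:ℕ)*q^(3:ℕ)*k1^(2:ℕ)*k2^(3:ℕ)
    + (239400 : R)*p^(1:ℕ)*q^(3:ℕ)*k1^(3:ℕ)*k2^(2:ℕ) + (17100 : R)*p^(1:ℕ)*q^(3:ℕ)*k1^(4:ℕ)*k2^(1:ℕ) + (228 : R)*p^(1:ℕ)*q^(3:ℕ)*k1^(5:ℕ) + (15504 : R)*q^(4:ℕ)*k2^(5:ℕ)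

def L4_6 (p q k1 k2 : R) : R :=
      (38760 : R)*p^(4:ℕ)*k1^(6:ℕ) + (-3420 : R)*p^(3:ℕ)*q^(1:ℕ)*k1^(1:ℕ)*k2^(5:ℕ) + (-119700 : R)*p^(3:ℕ)*q^(1:ℕ)*k1^(2:ℕ)*k2^(4:ℕ) + (-1037400 : R)*p^(3:ℕ)*q^(1:ℕ)*k1^(3:ℕ)*k2^(3:ℕ)
    + (-3112200 : R)*p^(3:ℕ)*q^(1:ℕ)*k1^(4:ℕ)*k2^(2:ℕ) + (-3423420 : R)*p^(3:ℕ)*q^(1:ℕ)*k1^(5:ℕ)*k2^(1:ℕ) + (-1141140 : R)*p^(3:ℕ)*q^(1:ℕ)*k1^(6:ℕ) + (103740 : R)*p^(2:ℕ)*q^(2:ℕ)*k2^(6:ℕ)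
    + (1244880 : R)*p^(2:ℕ)*q^(2:ℕ)*k1^(1:ℕ)*k2^(5:ℕ) + (4668300 : R)*p^(2:ℕ)*q^(2:ℕ)*k1^(2:ℕ)*k2^(4:ℕ) + (7113600 : R)*p^(2:ℕ)*q^(2:ℕ)*k1^(3:ℕ)*k2^(3:ℕ) + (4668300 : R)*p^(2:ℕ)*q^(2:ℕ)*k1^(4:ℕ)*k2^(2:ℕ)
    + (1244880 : R)*p^(2:ℕ)*q^(2:ℕ)*k1^(5:ℕ)*k2^(1:ℕ) + (103740 : R)*p^(2:ℕ)*q^(2:ℕ)*k1^(6:ℕ) + (1141140 : R)*p^(1:ℕ)*q^(3:ℕ)*k2^(6:ℕ) + (3423420 : R)*p^(1:ℕ)*q^(3:ℕ)*k1^(1:ℕ)*k2^(5:ℕ)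
    + (3112200 : R)*p^(1:ℕ)*q^(3:ℕ)*k1^(2:ℕ)*k2^(4:ℕ) + (1037400 : R)*p^(1:ℕ)*q^(3:ℕ)*k1^(3:ℕ)*k2^(3:ℕ) + (119700 : R)*p^(1:ℕ)*q^(3:ℕ)*k1^(4:ℕ)*k2^(2:ℕ) + (3420 : R)*p^(1:ℕ)*q^(3:ℕ)*k1^(5:ℕ)*k2^(1:ℕ)
    + (38760 : R)*q^(4:ℕ)*k2^(6:ℕ)

def L4_7 (p q k1 k2 : R) : R :=
      (77520 : R)*p^(4:ℕ)*k1^(7:ℕ) + (-23940 : R)*p^(3:ℕ)*q^(1:ℕ)*k1^(2:ℕ)*k2^(5:ℕ) + (-518700 : R)*p^(3:ℕ)*q^(1:ℕ)*k1^(3:ℕ)*k2^(4:ℕ) + (-3112200 : R)*p^(3:ℕ)*q^(1:ℕ)*k1^(4:ℕ)*k2^(3:ℕ)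
    + (-6846840 : R)*p^(3:ℕ)*q^(1:ℕ)*k1^(5:ℕ)*k2^(2:ℕ) + (-5705700 : R)*p^(3:ℕ)*q^(1:ℕ)*k1^(6:ℕ)*k2^(1:ℕ) + (-1467180 : R)*p^(3:ℕ)*q^(1:ℕ)*k1^(7:ℕ) + (59280 : R)*p^(2:ℕ)*q^(2:ℕ)*k2^(7:ℕ)
    + (1037400 : R)*p^(2:ℕ)*q^(2:ℕ)*k1^(1:ℕ)*k2^(6:ℕ) + (5601960 : R)*p^(2:ℕ)*q^(2:ℕ)*k1^(2:ℕ)*k2^(5:ℕ) + (12448800 : R)*p^(2:ℕ)*q^(2:ℕ)*k1^(3:ℕ)*k2^(4:ℕ) + (12448800 : R)*p^(2:ℕ)*q^(2:ℕ)*k1^(4:ℕ)*k2^(3:ℕ)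
    + (5601960 : R)*p^(2:ℕ)*q^(2:ℕ)*k1^(5:ℕ)*k2^(2:ℕ) + (1037400 : R)*p^(2:ℕ)*q^(2:ℕ)*k1^(6:ℕ)*k2^(1:ℕ) + (59280 : R)*p^(2:ℕ)*q^(2:ℕ)*k1^(7:ℕ) + (1467180 : R)*p^(1:ℕ)*q^(3:ℕ)*k2^(7:ℕ)
    + (5705700 : R)*p^(1:ℕ)*q^(3:ℕ)*k1^(1:ℕ)*k2^(6:ℕ) + (6846840 : R)*p^(1:ℕ)*q^(3:ℕ)*k1^(2:ℕ)*k2^(5:ℕ) + (3112200 : R)*p^(1:ℕ)*q^(3:ℕ)*k1^(3:ℕ)*k2^(4:ℕ) + (518700 : R)*p^(1:ℕ)*q^(3:ℕ)*k1^(4:ℕ)*k2^(3:ℕ)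
    + (23940 : R)*p^(1:ℕ)*q^(3:ℕ)*k1^(5:ℕ)*k2^(2:ℕ) + (77520 : R)*q^(4:ℕ)*k2^(7:ℕ)

def L4_8 (p q k1 k2 : R) : R :=
      (125970 : R)*p^(4:ℕ)*k1^(8:ℕ) + (-103740 : R)*p^(3:ℕ)*q^(1:ℕ)*k1^(3:ℕ)*k2^(5:ℕ) + (-1556100 : R)*p^(3:ℕ)*q^(1:ℕ)*k1^(4:ℕ)*k2^(4:ℕ) + (-6846840 : R)*p^(3:ℕ)*q^(1:ℕ)*k1^(5:ℕ)*k2^(3:ℕ)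
    + (-11411400 : R)*p^(3:ℕ)*q^(1:ℕ)*k1^(6:ℕ)*k2^(2:ℕ) + (-7335900 : R)*p^(3:ℕ)*q^(1:ℕ)*k1^(7:ℕ)*k2^(1:ℕ) + (-1467180 : R)*p^(3:ℕ)*q^(1:ℕ)*k1^(8:ℕ) + (22230 : R)*p^(2:ℕ)*q^(2:ℕ)*k2^(8:ℕ)
    + (592800 : R)*p^(2:ℕ)*q^(2:ℕ)*k1^(1:ℕ)*k2^(7:ℕ) + (4668300 : R)*p^(2:ℕ)*q^(2:ℕ)*k1^(2:ℕ)*k2^(6:ℕ) + (14938560 : R)*p^(2:ℕ)*q^(2:ℕ)*k1^(3:ℕ)*k2^(5:ℕ) + (21785400 : R)*p^(2:ℕ)*q^(2:ℕ)*k1^(4:ℕ)*k2^(4:ℕ)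
    + (14938560 : R)*p^(2:ℕ)*q^(2:ℕ)*k1^(5:ℕ)*k2^(3:ℕ) + (4668300 : R)*p^(2:ℕ)*q^(2:ℕ)*k1^(6:ℕ)*k2^(2:ℕ) + (592800 : R)*p^(2:ℕ)*q^(2:ℕ)*k1^(7:ℕ)*k2^(1:ℕ) + (22230 : R)*p^(2:ℕ)*q^(2:ℕ)*k1^(8:ℕ)
    + (1467180 : R)*p^(1:ℕ)*q^(3:ℕ)*k2^(8:ℕ) + (7335900 : R)*p^(1:ℕ)*q^(3:ℕ)*k1^(1:ℕ)*k2^(7:ℕ) + (11411400 : R)*p^(1:ℕ)*q^(3:ℕ)*k1^(2:ℕ)*k2^(6:ℕ) + (6846840 : R)*p^(1:ℕ)*q^(3:ℕ)*k1^(3:ℕ)*k2^(5:ℕ)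
    + (1556100 : R)*p^(1:ℕ)*q^(3:ℕ)*k1^(4:ℕ)*k2^(4:ℕ) + (103740 : R)*p^(1:ℕ)*q^(3:ℕ)*k1^(5:ℕ)*k2^(3:ℕ) + (125970 : R)*q^(4:ℕ)*k2^(8:ℕ)

def L4_9 (p q k1 k2 : R) : R :=
      (167960 : R)*p^(4:ℕ)*k1^(9:ℕ) + (-311220 : R)*p^(3:ℕ)*q^(1:ℕ)*k1^(4:ℕ)*k2^(5:ℕ) + (-3423420 : R)*p^(3:ℕ)*q^(1:ℕ)*k1^(5:ℕ)*k2^(4:ℕ) + (-11411400 : R)*p^(3:ℕ)*q^(1:ℕ)*k1^(6:ℕ)*k2^(3:ℕ)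
    + (-14671800 : R)*p^(3:ℕ)*q^(1:ℕ)*k1^(7:ℕ)*k2^(2:ℕ) + (-7335900 : R)*p^(3:ℕ)*q^(1:ℕ)*k1^(8:ℕ)*k2^(1:ℕ) + (-1141140 : R)*p^(3:ℕ)*q^(1:ℕ)*k1^(9:ℕ) + (4940 : R)*p^(2:ℕ)*q^(2:ℕ)*k2^(9:ℕ)
    + (222300 : R)*p^(2:ℕ)*q^(2:ℕ)*k1^(1:ℕ)*k2^(8:ℕ) + (2667600 : R)*p^(2:ℕ)*q^(2:ℕ)*k1^(2:ℕ)*k2^(7:ℕ) + (12448800 : R)*p^(2:ℕ)*q^(2:ℕ)*k1^(3:ℕ)*k2^(6:ℕ) + (26142480 : R)*p^(2:ℕ)*q^(2:ℕ)*k1^(4:ℕ)*k2^(5:ℕ)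
    + (26142480 : R)*p^(2:ℕ)*q^(2:ℕ)*k1^(5:ℕ)*k2^(4:ℕ) + (12448800 : R)*p^(2:ℕ)*q^(2:ℕ)*k1^(6:ℕ)*k2^(3:ℕ) + (2667600 : R)*p^(2:ℕ)*q^(2:ℕ)*k1^(7:ℕ)*k2^(2:ℕ) + (222300 : R)*p^(2:ℕ)*q^(2:ℕ)*k1^(8:ℕ)*k2^(1:ℕ)
    + (4940 : R)*p^(2:ℕ)*q^(2:ℕ)*k1^(9:ℕ) + (1141140 : R)*p^(1:ℕ)*q^(3:ℕ)*k2^(9:ℕ) + (7335900 : R)*p^(1:ℕ)*q^(3:ℕ)*k1^(1:ℕ)*k2^(8:ℕ) + (14671800 : R)*p^(1:ℕ)*q^(3:ℕ)*k1^(2:ℕ)*k2^(7:ℕ)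
    + (11411400 : R)*p^(1:ℕ)*q^(3:ℕ)*k1^(3:ℕ)*k2^(6:ℕ) + (3423420 : R)*p^(1:ℕ)*q^(3:ℕ)*k1^(4:ℕ)*k2^(5:ℕ) + (311220 : R)*p^(1:ℕ)*q^(3:ℕ)*k1^(5:ℕ)*k2^(4:ℕ) + (167960 : R)*q^(4:ℕ)*k2^(9:ℕ)

def L4_10 (p q k1 k2 : R) : R :=
      (184756 : R)*p^(4:ℕ)*k1^(10:ℕ) + (-684684 : R)*p^(3:ℕ)*q^(1:ℕ)*k1^(5:ℕ)*k2^(5:ℕ) + (-5705700 : R)*p^(3:ℕ)*q^(1:ℕ)*k1^(6:ℕ)*k2^(4:ℕ) + (-14671800 : R)*p^(3:ℕ)*q^(1:ℕ)*k1^(7:ℕ)*k2^(3:ℕ)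
    + (-14671800 : R)*p^(3:ℕ)*q^(1:ℕ)*k1^(8:ℕ)*k2^(2:ℕ) + (-5705700 : R)*p^(3:ℕ)*q^(1:ℕ)*k1^(9:ℕ)*k2^(1:ℕ) + (-684684 : R)*p^(3:ℕ)*q^(1:ℕ)*k1^(10:ℕ) + (494 : R)*p^(2:ℕ)*q^(2:ℕ)*k2^(10:ℕ)
    + (49400 : R)*p^(2:ℕ)*q^(2:ℕ)*k1^(1:ℕ)*k2^(9:ℕ) + (1000350 : R)*p^(2:ℕ)*q^(2:ℕ)*k1^(2:ℕ)*k2^(8:ℕ) + (7113600 : R)*p^(2:ℕ)*q^(2:ℕ)*k1^(3:ℕ)*k2^(7:ℕ) + (21785400 : R)*p^(2:ℕ)*q^(2:ℕ)*k1^(4:ℕ)*k2^(6:ℕ)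
    + (31370976 : R)*p^(2:ℕ)*q^(2:ℕ)*k1^(5:ℕ)*k2^(5:ℕ) + (21785400 : R)*p^(2:ℕ)*q^(2:ℕ)*k1^(6:ℕ)*k2^(4:ℕ) + (7113600 : R)*p^(2:ℕ)*q^(2:ℕ)*k1^(7:ℕ)*k2^(3:ℕ) + (1000350 : R)*p^(2:ℕ)*q^(2:ℕ)*k1^(8:ℕ)*k2^(2:ℕ)
    + (49400 : R)*p^(2:ℕ)*q^(2:ℕ)*k1^(9:ℕ)*k2^(1:ℕ) + (494 : R)*p^(2:ℕ)*q^(2:ℕ)*k1^(10:ℕ) + (684684 : R)*p^(1:ℕ)*q^(3:ℕ)*k2^(10:ℕ) + (5705700 : R)*p^(1:ℕ)*q^(3:ℕ)*k1^(1:ℕ)*k2^(9:ℕ)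
    + (14671800 : R)*p^(1:ℕ)*q^(3:ℕ)*k1^(2:ℕ)*k2^(8:ℕ) + (14671800 : R)*p^(1:ℕ)*q^(3:ℕ)*k1^(3:ℕ)*k2^(7:ℕ) + (5705700 : R)*p^(1:ℕ)*q^(3:ℕ)*k1^(4:ℕ)*k2^(6:ℕ) + (684684 : R)*p^(1:ℕ)*q^(3:ℕ)*k1^(5:ℕ)*k2^(5:ℕ)
    + (184756 : R)*q^(4:ℕ)*k2^(10:ℕ)

def L4_11 (p q k1 k2 : R) : R :=
      (167960 : R)*p^(4:ℕ)*k1^(11:ℕ) + (-1141140 : R)*p^(3:ℕ)*q^(1:ℕ)*k1^(6:ℕ)*k2^(5:ℕ) + (-7335900 : R)*p^(3:ℕ)*q^(1:ℕ)*k1^(7:ℕ)*k2^(4:ℕ) + (-14671800 : R)*p^(3:ℕ)*q^(1:ℕ)*k1^(8:ℕ)*k2^(3:ℕ)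
    + (-11411400 : R)*p^(3:ℕ)*q^(1:ℕ)*k1^(9:ℕ)*k2^(2:ℕ) + (-3423420 : R)*p^(3:ℕ)*q^(1:ℕ)*k1^(10:ℕ)*k2^(1:ℕ) + (-311220 : R)*p^(3:ℕ)*q^(1:ℕ)*k1^(11:ℕ) + (4940 : R)*p^(2:ℕ)*q^(2:ℕ)*k1^(1:ℕ)*k2^(10:ℕ)
    + (222300 : R)*p^(2:ℕ)*q^(2:ℕ)*k1^(2:ℕ)*k2^(9:ℕ) + (2667600 : R)*p^(2:ℕ)*q^(2:ℕ)*k1^(3:ℕ)*k2^(8:ℕ) + (12448800 : R)*p^(2:ℕ)*q^(2:ℕ)*k1^(4:ℕ)*k2^(7:ℕ) + (26142480 : R)*p^(2:ℕ)*q^(2:ℕ)*k1^(5:ℕ)*k2^(6:ℕ)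
    + (26142480 : R)*p^(2:ℕ)*q^(2:ℕ)*k1^(6:ℕ)*k2^(5:ℕ) + (12448800 : R)*p^(2:ℕ)*q^(2:ℕ)*k1^(7:ℕ)*k2^(4:ℕ) + (2667600 : R)*p^(2:ℕ)*q^(2:ℕ)*k1^(8:ℕ)*k2^(3:ℕ) + (222300 : R)*p^(2:ℕ)*q^(2:ℕ)*k1^(9:ℕ)*k2^(2:ℕ)
    + (4940 : R)*p^(2:ℕ)*q^(2:ℕ)*k1^(10:ℕ)*k2^(1:ℕ) + (311220 : R)*p^(1:ℕ)*q^(3:ℕ)*k2^(11:ℕ) + (3423420 : R)*p^(1:ℕ)*q^(3:ℕ)*k1^(1:ℕ)*k2^(10:ℕ) + (11411400 : R)*p^(1:ℕ)*q^(3:ℕ)*k1^(2:ℕ)*k2^(9:ℕ)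
    + (14671800 : R)*p^(1:ℕ)*q^(3:ℕ)*k1^(3:ℕ)*k2^(8:ℕ) + (7335900 : R)*p^(1:ℕ)*q^(3:ℕ)*k1^(4:ℕ)*k2^(7:ℕ) + (1141140 : R)*p^(1:ℕ)*q^(3:ℕ)*k1^(5:ℕ)*k2^(6:ℕ) + (167960 : R)*q^(4:ℕ)*k2^(11:ℕ)

def L4_12 (p q k1 k2 : R) : R :=
      (125970 : R)*p^(4:ℕ)*k1^(12:ℕ) + (-1467180 : R)*p^(3:ℕ)*q^(1:ℕ)*k1^(7:ℕ)*k2^(5:ℕ) + (-7335900 : R)*p^(3:ℕ)*q^(1:ℕ)*k1^(8:ℕ)*k2^(4:ℕ) + (-11411400 : R)*p^(3:ℕ)*q^(1:ℕ)*k1^(9:ℕ)*k2^(3:ℕ)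
    + (-6846840 : R)*p^(3:ℕ)*q^(1:ℕ)*k1^(10:ℕ)*k2^(2:ℕ) + (-1556100 : R)*p^(3:ℕ)*q^(1:ℕ)*k1^(11:ℕ)*k2^(1:ℕ) + (-103740 : R)*p^(3:ℕ)*q^(1:ℕ)*k1^(12:ℕ) + (22230 : R)*p^(2:ℕ)*q^(2:ℕ)*k1^(2:ℕ)*k2^(10:ℕ)
    + (592800 : R)*p^(2:ℕ)*q^(2:ℕ)*k1^(3:ℕ)*k2^(9:ℕ) + (4668300 : R)*p^(2:ℕ)*q^(2:ℕ)*k1^(4:ℕ)*k2^(8:ℕ) + (14938560 : R)*p^(2:ℕ)*q^(2:ℕ)*k1^(5:ℕ)*k2^(7:ℕ) + (21785400 : R)*p^(2:ℕ)*q^(2:ℕ)*k1^(6:ℕ)*k2^(6:ℕ)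
    + (14938560 : R)*p^(2:ℕ)*q^(2:ℕ)*k1^(7:ℕ)*k2^(5:ℕ) + (4668300 : R)*p^(2:ℕ)*q^(2:ℕ)*k1^(8:ℕ)*k2^(4:ℕ) + (592800 : R)*p^(2:ℕ)*q^(2:ℕ)*k1^(9:ℕ)*k2^(3:ℕ) + (22230 : R)*p^(2:ℕ)*q^(2:ℕ)*k1^(10:ℕ)*k2^(2:ℕ)
    + (103740 : R)*p^(1:ℕ)*q^(3:ℕ)*k2^(12:ℕ) + (1556100 : R)*p^(1:ℕ)*q^(3:ℕ)*k1^(1:ℕ)*k2^(11:ℕ) + (6846840 : R)*p^(1:ℕ)*q^(3:ℕ)*k1^(2:ℕ)*k2^(10:ℕ) + (11411400 : R)*p^(1:ℕ)*q^(3:ℕ)*k1^(3:ℕ)*k2^(9:ℕ)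
    + (7335900 : R)*p^(1:ℕ)*q^(3:ℕ)*k1^(4:ℕ)*k2^(8:ℕ) + (1467180 : R)*p^(1:ℕ)*q^(3:ℕ)*k1^(5:ℕ)*k2^(7:ℕ) + (125970 : R)*q^(4:ℕ)*k2^(12:ℕ)

def L4_13 (p q k1 k2 : R) : R :=
      (77520 : R)*p^(4:ℕ)*k1^(13:ℕ) + (-1467180 : R)*p^(3:ℕ)*q^(1:ℕ)*k1^(8:ℕ)*k2^(5:ℕ) + (-5705700 : R)*p^(3:ℕ)*q^(1:ℕ)*k1^(9:ℕ)*k2^(4:ℕ) + (-6846840 : R)*p^(3:ℕ)*q^(1:ℕ)*k1^(10:ℕ)*k2^(3:ℕ)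
    + (-3112200 : R)*p^(3:ℕ)*q^(1:ℕ)*k1^(11:ℕ)*k2^(2:ℕ) + (-518700 : R)*p^(3:ℕ)*q^(1:ℕ)*k1^(12:ℕ)*k2^(1:ℕ) + (-23940 : R)*p^(3:ℕ)*q^(1:ℕ)*k1^(13:ℕ) + (59280 : R)*p^(2:ℕ)*q^(2:ℕ)*k1^(3:ℕ)*k2^(10:ℕ)
    + (1037400 : R)*p^(2:ℕ)*q^(2:ℕ)*k1^(4:ℕ)*k2^(9:ℕ) + (5601960 : R)*p^(2:ℕ)*q^(2:ℕ)*k1^(5:ℕ)*k2^(8:ℕ) + (12448800 : R)*p^(2:ℕ)*q^(2:ℕ)*k1^(6:ℕ)*k2^(7:ℕ) + (12448800 : R)*p^(2:ℕ)*q^(2:ℕ)*k1^(7:ℕ)*k2^(6:ℕ)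
    + (5601960 : R)*p^(2:ℕ)*q^(2:ℕ)*k1^(8:ℕ)*k2^(5:ℕ) + (1037400 : R)*p^(2:ℕ)*q^(2:ℕ)*k1^(9:ℕ)*k2^(4:ℕ) + (59280 : R)*p^(2:ℕ)*q^(2:ℕ)*k1^(10:ℕ)*k2^(3:ℕ) + (23940 : R)*p^(1:ℕ)*q^(3:ℕ)*k2^(13:ℕ)
    + (518700 : R)*p^(1:ℕ)*q^(3:ℕ)*k1^(1:ℕ)*k2^(12:ℕ) + (3112200 : R)*p^(1:ℕ)*q^(3:ℕ)*k1^(2:ℕ)*k2^(11:ℕ) + (6846840 : R)*p^(1:ℕ)*q^(3:ℕ)*k1^(3:ℕ)*k2^(10:ℕ) + (5705700 : R)*p^(1:ℕ)*q^(3:ℕ)*k1^(4:ℕ)*k2^(9:ℕ)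
    + (1467180 : R)*p^(1:ℕ)*q^(3:ℕ)*k1^(5:ℕ)*k2^(8:ℕ) + (77520 : R)*q^(4:ℕ)*k2^(13:ℕ)

def L4_14 (p q k1 k2 : R) : R :=
      (38760 : R)*p^(4:ℕ)*k1^(14:ℕ) + (-1141140 : R)*p^(3:ℕ)*q^(1:ℕ)*k1^(9:ℕ)*k2^(5:ℕ) + (-3423420 : R)*p^(3:ℕ)*q^(1:ℕ)*k1^(10:ℕ)*k2^(4:ℕ) + (-3112200 : R)*p^(3:ℕ)*q^(1:ℕ)*k1^(11:ℕ)*k2^(3:ℕ)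
    + (-1037400 : R)*p^(3:ℕ)*q^(1:ℕ)*k1^(12:ℕ)*k2^(2:ℕ) + (-119700 : R)*p^(3:ℕ)*q^(1:ℕ)*k1^(13:ℕ)*k2^(1:ℕ) + (-3420 : R)*p^(3:ℕ)*q^(1:ℕ)*k1^(14:ℕ) + (103740 : R)*p^(2:ℕ)*q^(2:ℕ)*k1^(4:ℕ)*k2^(10:ℕ)
    + (1244880 : R)*p^(2:ℕ)*q^(2:ℕ)*k1^(5:ℕ)*k2^(9:ℕ) + (4668300 : R)*p^(2:ℕ)*q^(2:ℕ)*k1^(6:ℕ)*k2^(8:ℕ) + (7113600 : R)*p^(2:ℕ)*q^(2:ℕ)*k1^(7:ℕ)*k2^(7:ℕ) + (4668300 : R)*p^(2:ℕ)*q^(2:ℕ)*k1^(8:ℕ)*k2^(6:ℕ)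
    + (1244880 : R)*p^(2:ℕ)*q^(2:ℕ)*k1^(9:ℕ)*k2^(5:ℕ) + (103740 : R)*p^(2:ℕ)*q^(2:ℕ)*k1^(10:ℕ)*k2^(4:ℕ) + (3420 : R)*p^(1:ℕ)*q^(3:ℕ)*k2^(14:ℕ) + (119700 : R)*p^(1:ℕ)*q^(3:ℕ)*k1^(1:ℕ)*k2^(13:ℕ)
    + (1037400 : R)*p^(1:ℕ)*q^(3:ℕ)*k1^(2:ℕ)*k2^(12:ℕ) + (3112200 : R)*p^(1:ℕ)*q^(3:ℕ)*k1^(3:ℕ)*k2^(11:ℕ) + (3423420 : R)*p^(1:ℕ)*q^(3:ℕ)*k1^(4:ℕ)*k2^(10:ℕ) + (1141140 : R)*p^(1:ℕ)*q^(3:ℕ)*k1^(5:ℕ)*k2^(9:ℕ)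
    + (38760 : R)*q^(4:ℕ)*k2^(14:ℕ)

def L4_15 (p q k1 k2 : R) : R :=
      (15504 : R)*p^(4:ℕ)*k1^(15:ℕ) + (-684684 : R)*p^(3:ℕ)*q^(1:ℕ)*k1^(10:ℕ)*k2^(5:ℕ) + (-1556100 : R)*p^(3:ℕ)*q^(1:ℕ)*k1^(11:ℕ)*k2^(4:ℕ) + (-1037400 : R)*p^(3:ℕ)*q^(1:ℕ)*k1^(12:ℕ)*k2^(3:ℕ)
    + (-239400 : R)*p^(3:ℕ)*q^(1:ℕ)*k1^(13:ℕ)*k2^(2:ℕ) + (-17100 : R)*p^(3:ℕ)*q^(1:ℕ)*k1^(14:ℕ)*k2^(1:ℕ) + (-228 : R)*p^(3:ℕ)*q^(1:ℕ)*k1^(15:ℕ) + (124488 : R)*p^(2:ℕ)*q^(2:ℕ)*k1^(5:ℕ)*k2^(10:ℕ)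
    + (1037400 : R)*p^(2:ℕ)*q^(2:ℕ)*k1^(6:ℕ)*k2^(9:ℕ) + (2667600 : R)*p^(2:ℕ)*q^(2:ℕ)*k1^(7:ℕ)*k2^(8:ℕ) + (2667600 : R)*p^(2:ℕ)*q^(2:ℕ)*k1^(8:ℕ)*k2^(7:ℕ) + (1037400 : R)*p^(2:ℕ)*q^(2:ℕ)*k1^(9:ℕ)*k2^(6:ℕ)
    + (124488 : R)*p^(2:ℕ)*q^(2:ℕ)*k1^(10:ℕ)*k2^(5:ℕ) + (228 : R)*p^(1:ℕ)*q^(3:ℕ)*k2^(15:ℕ) + (17100 : R)*p^(1:ℕ)*q^(3:ℕ)*k1^(1:ℕ)*k2^(14:ℕ) + (239400 : R)*p^(1:ℕ)*q^(3:ℕ)*k1^(2:ℕ)*k2^(13:ℕ)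
    + (1037400 : R)*p^(1:ℕ)*q^(3:ℕ)*k1^(3:ℕ)*k2^(12:ℕ) + (1556100 : R)*p^(1:ℕ)*q^(3:ℕ)*k1^(4:ℕ)*k2^(11:ℕ) + (684684 : R)*p^(1:ℕ)*q^(3:ℕ)*k1^(5:ℕ)*k2^(10:ℕ) + (15504 : R)*q^(4:ℕ)*k2^(15:ℕ)

def L4_16 (p q k1 k2 : R) : R :=
      (4845 : R)*p^(4:ℕ)*k1^(16:ℕ) + (-311220 : R)*p^(3:ℕ)*q^(1:ℕ)*k1^(11:ℕ)*k2^(5:ℕ) + (-518700 : R)*p^(3:ℕ)*q^(1:ℕ)*k1^(12:ℕ)*k2^(4:ℕ) + (-239400 : R)*p^(3:ℕ)*q^(1:ℕ)*k1^(13:ℕ)*k2^(3:ℕ)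
    + (-34200 : R)*p^(3:ℕ)*q^(1:ℕ)*k1^(14:ℕ)*k2^(2:ℕ) + (-1140 : R)*p^(3:ℕ)*q^(1:ℕ)*k1^(15:ℕ)*k2^(1:ℕ) + (103740 : R)*p^(2:ℕ)*q^(2:ℕ)*k1^(6:ℕ)*k2^(10:ℕ) + (592800 : R)*p^(2:ℕ)*q^(2:ℕ)*k1^(7:ℕ)*k2^(9:ℕ)
    + (1000350 : R)*p^(2:ℕ)*q^(2:ℕ)*k1^(8:ℕ)*k2^(8:ℕ) + (592800 : R)*p^(2:ℕ)*q^(2:ℕ)*k1^(9:ℕ)*k2^(7:ℕ) + (103740 : R)*p^(2:ℕ)*q^(2:ℕ)*k1^(10:ℕ)*k2^(6:ℕ) + (1140 : R)*p^(1:ℕ)*q^(3:ℕ)*k1^(1:ℕ)*k2^(15:ℕ)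
    + (34200 : R)*p^(1:ℕ)*q^(3:ℕ)*k1^(2:ℕ)*k2^(14:ℕ) + (239400 : R)*p^(1:ℕ)*q^(3:ℕ)*k1^(3:ℕ)*k2^(13:ℕ) + (518700 : R)*p^(1:ℕ)*q^(3:ℕ)*k1^(4:ℕ)*k2^(12:ℕ) + (311220 : R)*p^(1:ℕ)*q^(3:ℕ)*k1^(5:ℕ)*k2^(11:ℕ)
    + (4845 : R)*q^(4:ℕ)*k2^(16:ℕ)

def L4_17 (p q k1 k2 : R) : R :=
      (1140 : R)*p^(4:ℕ)*k1^(17:ℕ) + (-103740 : R)*p^(3:ℕ)*q^(1:ℕ)*k1^(12:ℕ)*k2^(5:ℕ) + (-119700 : R)*p^(3:ℕ)*q^(1:ℕ)*k1^(13:ℕ)*k2^(4:ℕ) + (-34200 : R)*p^(3:ℕ)*q^(1:ℕ)*k1^(14:ℕ)*k2^(3:ℕ)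
    + (-2280 : R)*p^(3:ℕ)*q^(1:ℕ)*k1^(15:ℕ)*k2^(2:ℕ) + (59280 : R)*p^(2:ℕ)*q^(2:ℕ)*k1^(7:ℕ)*k2^(10:ℕ) + (222300 : R)*p^(2:ℕ)*q^(2:ℕ)*k1^(8:ℕ)*k2^(9:ℕ) + (222300 : R)*p^(2:ℕ)*q^(2:ℕ)*k1^(9:ℕ)*k2^(8:ℕ)
    + (59280 : R)*p^(2:ℕ)*q^(2:ℕ)*k1^(10:ℕ)*k2^(7:ℕ) + (2280 : R)*p^(1:ℕ)*q^(3:ℕ)*k1^(2:ℕ)*k2^(15:ℕ) + (34200 : R)*p^(1:ℕ)*q^(3:ℕ)*k1^(3:ℕ)*k2^(14:ℕ) + (119700 : R)*p^(1:ℕ)*q^(3:ℕ)*k1^(4:ℕ)*k2^(13:ℕ)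
    + (103740 : R)*p^(1:ℕ)*q^(3:ℕ)*k1^(5:ℕ)*k2^(12:ℕ) + (1140 : R)*q^(4:ℕ)*k2^(17:ℕ)

def L4_18 (p q k1 k2 : R) : R :=
      (190 : R)*p^(4:ℕ)*k1^(18:ℕ) + (-23940 : R)*p^(3:ℕ)*q^(1:ℕ)*k1^(13:ℕ)*k2^(5:ℕ) + (-17100 : R)*p^(3:ℕ)*q^(1:ℕ)*k1^(14:ℕ)*k2^(4:ℕ) + (-2280 : R)*p^(3:ℕ)*q^(1:ℕ)*k1^(15:ℕ)*k2^(3:ℕ)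
    + (22230 : R)*p^(2:ℕ)*q^(2:ℕ)*k1^(8:ℕ)*k2^(10:ℕ) + (49400 : R)*p^(2:ℕ)*q^(2:ℕ)*k1^(9:ℕ)*k2^(9:ℕ) + (22230 : R)*p^(2:ℕ)*q^(2:ℕ)*k1^(10:ℕ)*k2^(8:ℕ) + (2280 : R)*p^(1:ℕ)*q^(3:ℕ)*k1^(3:ℕ)*k2^(15:ℕ)
    + (17100 : R)*p^(1:ℕ)*q^(3:ℕ)*k1^(4:ℕ)*k2^(14:ℕ) + (23940 : R)*p^(1:ℕ)*q^(3:ℕ)*k1^(5:ℕ)*k2^(13:ℕ) + (190 : R)*q^(4:ℕ)*k2^(18:ℕ)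

def L4_19 (p q k1 k2 : R) : R :=
      (20 : R)*p^(4:ℕ)*k1^(19:ℕ) + (-3420 : R)*p^(3:ℕ)*q^(1:ℕ)*k1^(14:ℕ)*k2^(5:ℕ) + (-1140 : R)*p^(3:ℕ)*q^(1:ℕ)*k1^(15:ℕ)*k2^(4:ℕ) + (4940 : R)*p^(2:ℕ)*q^(2:ℕ)*k1^(9:ℕ)*k2^(10:ℕ)
    + (4940 : R)*p^(2:ℕ)*q^(2:ℕ)*k1^(10:ℕ)*k2^(9:ℕ) + (1140 : R)*p^(1:ℕ)*q^(3:ℕ)*k1^(4:ℕ)*k2^(15:ℕ) + (3420 : R)*p^(1:ℕ)*q^(3:ℕ)*k1^(5:ℕ)*k2^(14:ℕ) + (20 : R)*q^(4:ℕ)*k2^(19:ℕ)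

def L4_20 (p q k1 k2 : R) : R :=
      (1 : R)*p^(4:ℕ)*k1^(20:ℕ) + (-228 : R)*p^(3:ℕ)*q^(1:ℕ)*k1^(15:ℕ)*k2^(5:ℕ) + (494 : R)*p^(2:ℕ)*q^(2:ℕ)*k1^(10:ℕ)*k2^(10:ℕ) + (228 : R)*p^(1:ℕ)*q^(3:ℕ)*k1^(5:ℕ)*k2^(15:ℕ)
    + (1 : R)*q^(4:ℕ)*k2^(20:ℕ)

set_option maxHeartbeats 4000000 in
theorem L4_sum (p q μ k1 k2 : R) :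
    C4 (p * (1 + μ * k1)^5) (q * (1 + μ * k2)^5) =
      μ^(0:ℕ) * L4_0 p q k1 k2 + μ^(1:ℕ) * L4_1 p q k1 k2 + μ^(2:ℕ) * L4_2 p q k1 k2 + μ^(3:ℕ) * L4_3 p q k1 k2 + μ^(4:ℕ) * L4_4 p q k1 k2 + μ^(5:ℕ) * L4_5 p q k1 k2 + μ^(6:ℕ) * L4_6 p q k1 k2 + μ^(7:ℕ) * L4_7 p q k1 k2 + μ^(8:ℕ) * L4_8 p q k1 k2 + μ^(9:ℕ) * L4_9 p q k1 k2 + μ^(10:ℕ) * L4_10 p q k1 k2 + μ^(11:ℕ) * L4_11 p q k1 k2 + μ^(12:ℕ) * L4_12 p q k1 k2 + μ^(13:ℕ) * L4_13 p q k1 k2 + μ^(14:ℕ) * L4_14 p q k1 k2 + μ^(15:ℕ) * L4_15 p q k1 k2 + μ^(16:ℕ) * L4_16 p q k1 k2 + μ^(17:ℕ) * L4_17 p q k1 k2 + μ^(18:ℕ) * L4_18 p q k1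 k2 + μ^(19:ℕ) * L4_19 p q k1 k2 + μ^(20:ℕ) * L4_20 p q k1 k2 := by
  simp only [C4, C6, D2, L4_0, L4_1, L4_2, L4_3, L4_4, L4_5, L4_6, L4_7, L4_8, L4_9, L4_10, L4_11, L4_12, L4_13, L4_14, L4_15, L4_16, L4_17, L4_18, L4_19, L4_20]
  ring

end Fermat.Agent.S52
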