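import Fermat.Agent.S52.FormsGenDDefs

/-! # S52: generated file (see `Forms.lean`): the identities `LD_k = R_k` for some `k`. -/

set_option autoImplicit false
set_option linter.unusedVariables false
set_option linter.unusedSimpArgs false
set_option Elab.async false

namespace Fermat.Agent.S52

variable {R : Type*} [CommRing R]

set_option maxHeartbeats 8000000 in
theorem LD_0_eq (p q : R) :
    LD_0 p q (K1 p q) (K2 p q) = D2 p q * ((1)) := by
  simp only [LD_0, C4, C6, D2, K1, K2]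
  ring

set_option maxHeartbeats 8000000 in
theorem LD_1_eq (p q : R) :
    LD_1 p q (K1 p q) (K2 p q) = D2 p q * (0) := by
  simp only [LD_1, C4, C6, D2, K1, K2]
  ring

set_option maxHeartbeats 8000000 in
theorem LD_2_eq (p q : R) :
    LD_2 p q (K1 p q) (K2 p q) = D2 p q * ((-66)*(C4 p q)) := by
  simp only [LD_2, C4, C6, D2, K1, K2]
  ring

set_option maxHeartbeats 8000000 in
theorem LD_3_eq (p q : R) :
    LD_3 p q (K1 p q) (K2 p q) = D2 p q * ((440)*(C6 p q)) := by
  simp only [LD_3, C4, C6, D2, K1, K2]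
  ring

set_option maxHeartbeats 8000000 in
theorem LD_4_eq (p q : R) :
    LD_4 p q (K1 p q) (K2 p q) = D2 p q * ((-1485)*(C4 p q)^2) := by
  simp only [LD_4, C4, C6, D2, K1, K2]
  ring

set_option maxHeartbeats 8000000 in
theorem LD_5_eq (p q : R) :
    LD_5 p q (K1 p q) (K2 p q) = D2 p q * ((3168)*(C4 p q)*(C6 p q)) := by
  simp only [LD_5, C4, C6, D2, K1, K2]
  ring

set_option maxHeartbeats 8000000 in
theorem LD_6_eq (p q : R) :
    LD_6 p q (K1 p q) (K2 p q) = D2 p q * ((-10560)*(C6 p q)^2 + (5940)*(C4 p q)^3) := by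
  simp only [LD_6, C4, C6, D2, K1, K2]
  ring

set_option maxHeartbeats 8000000 in
theorem LD_7_eq (p q : R) :
    LD_7 p q (K1 p q) (K2 p q) = D2 p q * ((4752)*(C4 p q)^2*(C6 p q)) := by
  simp only [LD_7, C4, C6, D2, K1, K2]
  ring

set_option maxHeartbeats 8000000 in
theorem LD_8_eq (p q : R) :
    LD_8 p q (K1 p q) (K2 p q) = D2 p q * ((63360)*(C4 p q)*(C6 p q)^2 + (-66825)*(C4 p q)^4) := by
  simp only [LD_8, C4, C6, D2, K1, K2]
  ring

set_option maxHeartbeats 8000000 in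
theorem LD_9_eq (p q : R) :
    LD_9 p q (K1 p q) (K2 p q) = D2 p q * ((-140800)*(C6 p q)^3 + (142560)*(C4 p q)^3*(C6 p q)) := by
  simp only [LD_9, C4, C6, D2, K1, K2]
  ring

set_option maxHeartbeats 8000000 in
theorem LD_10_eq (p q : R) :
    LD_10 p q (K1 p q) (K2 p q) = D2 p q * ((133056)*(C4 p q)^2*(C6 p q)^2 + (-133650)*(C4 p q)^5) := by
  simp only [LD_10, C4, C6, D2, K1, K2]
  ring

set_option maxHeartbeats 8000000 in
theorem LD_11_eq (p q : R) :
    LD_11 p q (K1 p q) (K2 p q) = D2 p q * ((-61440)*(C4 p q)*(C6 p q)^3 + (61560)*(C4 p q)^4*(C6 p q)) := by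
  simp only [LD_11, C4, C6, D2, K1, K2]
  ring

set_option maxHeartbeats 8000000 in
theorem LD_12_eq (p q : R) :
    LD_12 p q (K1 p q) (K2 p q) = D2 p q * ((102400)*(C6 p q)^4 + (-193536)*(C4 p q)^3*(C6 p q)^2 + (91125)*(C4 p q)^6) := by
  simp only [LD_12, C4, C6, D2, K1, K2]
  ring

end Fermat.Agent.S52
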