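import Fermat.Agent.S52.FormsGen4Defs
import Fermat.Agent.S52.FormsGenDa -- only to serialise the memory-hungry builds

/-! # S52: generated file (see `Forms.lean`): the identities `L4_k = R_k` for some `k`. -/

set_option autoImplicit false
set_option linter.unusedVariables false
set_option linter.unusedSimpArgs false
set_option Elab.async false

namespace Fermat.Agent.S52

variable {R : Type*} [CommRing R]

set_option maxHeartbeats 8000000 in
theorem L4_0_eq (p q : R) :
    L4_0 p q (K1 p q) (K2 p q) = ((C4 p q)) := by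
  simp only [L4_0, C4, C6, D2, K1, K2]
  ring

set_option maxHeartbeats 8000000 in
theorem L4_1_eq (p q : R) :
    L4_1 p q (K1 p q) (K2 p q) = ((-20)*(C6 p q)) := by
  simp only [L4_1, C4, C6, D2, K1, K2]
  ring

set_option maxHeartbeats 8000000 in
theorem L4_2_eq (p q : R) :
    L4_2 p q (K1 p q) (K2 p q) = ((190)*(C4 p q)^2) := by
  simp only [L4_2, C4, C6, D2, K1, K2]
  ring

set_option maxHeartbeats 8000000 in
theorem L4_3_eq (p q : R) :
    L4_3 p q (K1 p q) (K2 p q) = ((-1140)*(C4 p q)*(C6 p q)) := by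
  simp only [L4_3, C4, C6, D2, K1, K2]
  ring

set_option maxHeartbeats 8000000 in
theorem L4_4_eq (p q : R) :
    L4_4 p q (K1 p q) (K2 p q) = ((5700)*(C6 p q)^2 + (-855)*(C4 p q)^3) := by
  simp only [L4_4, C4, C6, D2, K1, K2]
  ring

set_option maxHeartbeats 8000000 in
theorem L4_5_eq (p q : R) :
    L4_5 p q (K1 p q) (K2 p q) = ((-15504)*(C4 p q)^2*(C6 p q)) := by
  simp only [L4_5, C4, C6, D2, K1, K2]
  ring

set_option maxHeartbeats 8000000 in
theorem L4_6_eq (p q : R) :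
    L4_6 p q (K1 p q) (K2 p q) = ((-63840)*(C4 p q)*(C6 p q)^2 + (102600)*(C4 p q)^4) := by
  simp only [L4_6, C4, C6, D2, K1, K2]
  ring

set_option maxHeartbeats 8000000 in
theorem L4_7_eq (p q : R) :
    L4_7 p q (K1 p q) (K2 p q) = ((182400)*(C6 p q)^3 + (-259920)*(C4 p q)^3*(C6 p q)) := by
  simp only [L4_7, C4, C6, D2, K1, K2]
  ring

set_option maxHeartbeats 8000000 in
theorem L4_8_eq (p q : R) :
    L4_8 p q (K1 p q) (K2 p q) = ((1126320)*(C4 p q)^2*(C6 p q)^2 + (-1000350)*(C4 p q)^5) := by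
  simp only [L4_8, C4, C6, D2, K1, K2]
  ring

set_option maxHeartbeats 8000000 in
theorem L4_9_eq (p q : R) :
    L4_9 p q (K1 p q) (K2 p q) = ((-7904000)*(C4 p q)*(C6 p q)^3 + (7736040)*(C4 p q)^4*(C6 p q)) := by
  simp only [L4_9, C4, C6, D2, K1, K2]
  ring

set_option maxHeartbeats 8000000 in
theorem L4_10_eq (p q : R) :
    L4_10 p q (K1 p q) (K2 p q) = ((15808000)*(C6 p q)^4 + (-5619744)*(C4 p q)^3*(C6 p q)^2 + (-10003500)*(C4 p q)^6) := by
  simp only [L4_10, C4, C6, D2, K1, K2]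
  ring

set_option maxHeartbeats 8000000 in
theorem L4_11_eq (p q : R) :
    L4_11 p q (K1 p q) (K2 p q) = ((-54853760)*(C4 p q)^2*(C6 p q)^3 + (54685800)*(C4 p q)^5*(C6 p q)) := by
  simp only [L4_11, C4, C6, D2, K1, K2]
  ring

set_option maxHeartbeats 8000000 in
theorem L4_12_eq (p q : R) :
    L4_12 p q (K1 p q) (K2 p q) = ((37939200)*(C4 p q)*(C6 p q)^4 + (7202520)*(C4 p q)^4*(C6 p q)^2 + (-45015750)*(C4 p q)^7) := by
  simp only [L4_12, C4, C6, D2, K1, K2]
  ring

set_option maxHeartbeats 8000000 in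
theorem L4_13_eq (p q : R) :
    L4_13 p q (K1 p q) (K2 p q) = ((-58368000)*(C6 p q)^5 + (23201280)*(C4 p q)^3*(C6 p q)^3 + (35089200)*(C4 p q)^6*(C6 p q)) := by
  simp only [L4_13, C4, C6, D2, K1, K2]
  ring

end Fermat.Agent.S52
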