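import Fermat.Agent.S52.FormsGen4Defs
import Fermat.Agent.S52.FormsGen4a -- only to serialise the memory-hungry builds

/-! # S52: generated file (see `Forms.lean`): the identities `L4_k = R_k` for some `k`. -/

set_option autoImplicit false
set_option linter.unusedVariables false
set_option linter.unusedSimpArgs false
set_option Elab.async false

namespace Fermat.Agent.S52

variable {R : Type*} [CommRing R]

set_option maxHeartbeats 8000000 in
theorem L4_14_eq (p q : R) :
    L4_14 p q (K1 p q) (K2 p q) = ((287462400)*(C4 p q)^2*(C6 p q)^4 + (-495188640)*(C4 p q)^5*(C6 p q)^2 + (207765000)*(C4 p q)^8) := by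
  simp only [L4_14, C4, C6, D2, K1, K2]
  ring

set_option maxHeartbeats 8000000 in
theorem L4_15_eq (p q : R) :
    L4_15 p q (K1 p q) (K2 p q) = ((-466944000)*(C4 p q)*(C6 p q)^5 + (882458496)*(C4 p q)^4*(C6 p q)^3 + (-415530000)*(C4 p q)^7*(C6 p q)) := by
  simp only [L4_15, C4, C6, D2, K1, K2]
  ring

set_option maxHeartbeats 8000000 in
theorem L4_16_eq (p q : R) :
    L4_16 p q (K1 p q) (K2 p q) = ((583680000)*(C6 p q)^6 + (-1220474880)*(C4 p q)^3*(C6 p q)^4 + (714711600)*(C4 p q)^6*(C6 p q)^2 + (-77911875)*(C4 p q)^9) := by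
  simp only [L4_16, C4, C6, D2, K1, K2]
  ring

set_option maxHeartbeats 8000000 in
theorem L4_17_eq (p q : R) :
    L4_17 p q (K1 p q) (K2 p q) = ((-361881600)*(C4 p q)^2*(C6 p q)^5 + (715080960)*(C4 p q)^5*(C6 p q)^3 + (-353200500)*(C4 p q)^8*(C6 p q)) := by
  simp only [L4_17, C4, C6, D2, K1, K2]
  ring

set_option maxHeartbeats 8000000 in
theorem L4_18_eq (p q : R) :
    L4_18 p q (K1 p q) (K2 p q) = ((-622592000)*(C4 p q)*(C6 p q)^6 + (2026391040)*(C4 p q)^4*(C6 p q)^4 + (-2182917600)*(C4 p q)^7*(C6 p q)^2 + (779118750)*(C4 p q)^10) := by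
  simp only [L4_18, C4, C6, D2, K1, K2]
  ring

set_option maxHeartbeats 8000000 in
theorem L4_19_eq (p q : R) :
    L4_19 p q (K1 p q) (K2 p q) = ((655360000)*(C6 p q)^7 + (-2005401600)*(C4 p q)^3*(C6 p q)^5 + (2044414080)*(C4 p q)^6*(C6 p q)^3 + (-694372500)*(C4 p q)^9*(C6 p q)) := by
  simp only [L4_19, C4, C6, D2, K1, K2]
  ring

set_option maxHeartbeats 8000000 in
theorem L4_20_eq (p q : R) :
    L4_20 p q (K1 p q) (K2 p q) = ((-180224000)*(C4 p q)^2*(C6 p q)^6 + (544997376)*(C4 p q)^5*(C6 p q)^4 + (-549301500)*(C4 p q)^8*(C6 p q)^2 + (184528125)*(C4 p q)^11) := by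
  simp only [L4_20, C4, C6, D2, K1, K2]
  ring

end Fermat.Agent.S52
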