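import Fermat.Agent.S52.FormsDefs

/-! # S52: generated file (see `Forms.lean`): the coefficients `L6_k` of `μ^k` in the left hand side of
`fam6`, with `K1`, `K2` replaced by variables. -/

set_option autoImplicit false
set_option linter.unusedVariables false
set_option linter.unusedSimpArgs false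
set_option Elab.async false

namespace Fermat.Agent.S52

variable {R : Type*} [CommRing R]

def L6_0 (p q k1 k2 : R) : R :=
      (-1 : R)*p^(6:ℕ) + (-1 : R)*q^(6:ℕ) + (-522 : R)*p^(5:ℕ)*q^(1:ℕ) + (522 : R)*p^(1:ℕ)*q^(5:ℕ)
    + (10005 : R)*p^(4:ℕ)*q^(2:ℕ) + (10005 : R)*p^(2:ℕ)*q^(4:ℕ)

def L6_1 (p q k1 k2 : R) : R :=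
      (-30 : R)*p^(6:ℕ)*k1^(1:ℕ) + (-30 : R)*q^(6:ℕ)*k2^(1:ℕ) + (-2610 : R)*p^(5:ℕ)*q^(1:ℕ)*k2^(1:ℕ) + (-13050 : R)*p^(5:ℕ)*q^(1:ℕ)*k1^(1:ℕ)
    + (13050 : R)*p^(1:ℕ)*q^(5:ℕ)*k2^(1:ℕ) + (2610 : R)*p^(1:ℕ)*q^(5:ℕ)*k1^(1:ℕ) + (100050 : R)*p^(4:ℕ)*q^(2:ℕ)*k2^(1:ℕ) + (200100 : R)*p^(4:ℕ)*q^(2:ℕ)*k1^(1:ℕ)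
    + (200100 : R)*p^(2:ℕ)*q^(4:ℕ)*k2^(1:ℕ) + (100050 : R)*p^(2:ℕ)*q^(4:ℕ)*k1^(1:ℕ)

def L6_2 (p q k1 k2 : R) : R :=
      (-435 : R)*p^(6:ℕ)*k1^(2:ℕ) + (-435 : R)*q^(6:ℕ)*k2^(2:ℕ) + (-5220 : R)*p^(5:ℕ)*q^(1:ℕ)*k2^(2:ℕ) + (-65250 : R)*p^(5:ℕ)*q^(1:ℕ)*k1^(1:ℕ)*k2^(1:ℕ)
    + (-156600 : R)*p^(5:ℕ)*q^(1:ℕ)*k1^(2:ℕ) + (156600 : R)*p^(1:ℕ)*q^(5:ℕ)*k2^(2:ℕ) + (65250 : R)*p^(1:ℕ)*q^(5:ℕ)*k1^(1:ℕ)*k2^(1:ℕ) + (5220 : R)*p^(1:ℕ)*q^(5:ℕ)*k1^(2:ℕ)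
    + (450225 : R)*p^(4:ℕ)*q^(2:ℕ)*k2^(2:ℕ) + (2001000 : R)*p^(4:ℕ)*q^(2:ℕ)*k1^(1:ℕ)*k2^(1:ℕ) + (1900950 : R)*p^(4:ℕ)*q^(2:ℕ)*k1^(2:ℕ) + (1900950 : R)*p^(2:ℕ)*q^(4:ℕ)*k2^(2:ℕ)
    + (2001000 : R)*p^(2:ℕ)*q^(4:ℕ)*k1^(1:ℕ)*k2^(1:ℕ) + (450225 : R)*p^(2:ℕ)*q^(4:ℕ)*k1^(2:ℕ)

def L6_3 (p q k1 k2 : R) : R :=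
      (-4060 : R)*p^(6:ℕ)*k1^(3:ℕ) + (-4060 : R)*q^(6:ℕ)*k2^(3:ℕ) + (-5220 : R)*p^(5:ℕ)*q^(1:ℕ)*k2^(3:ℕ) + (-130500 : R)*p^(5:ℕ)*q^(1:ℕ)*k1^(1:ℕ)*k2^(2:ℕ)
    + (-783000 : R)*p^(5:ℕ)*q^(1:ℕ)*k1^(2:ℕ)*k2^(1:ℕ) + (-1200600 : R)*p^(5:ℕ)*q^(1:ℕ)*k1^(3:ℕ) + (1200600 : R)*p^(1:ℕ)*q^(5:ℕ)*k2^(3:ℕ) + (783000 : R)*p^(1:ℕ)*q^(5:ℕ)*k1^(1:ℕ)*k2^(2:ℕ)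
    + (130500 : R)*p^(1:ℕ)*q^(5:ℕ)*k1^(2:ℕ)*k2^(1:ℕ) + (5220 : R)*p^(1:ℕ)*q^(5:ℕ)*k1^(3:ℕ) + (1200600 : R)*p^(4:ℕ)*q^(2:ℕ)*k2^(3:ℕ) + (9004500 : R)*p^(4:ℕ)*q^(2:ℕ)*k1^(1:ℕ)*k2^(2:ℕ)
    + (19009500 : R)*p^(4:ℕ)*q^(2:ℕ)*k1^(2:ℕ)*k2^(1:ℕ) + (11405700 : R)*p^(4:ℕ)*q^(2:ℕ)*k1^(3:ℕ) + (11405700 : R)*p^(2:ℕ)*q^(4:ℕ)*k2^(3:ℕ) + (19009500 : R)*p^(2:ℕ)*q^(4:ℕ)*k1^(1:ℕ)*k2^(2:ℕ)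
    + (9004500 : R)*p^(2:ℕ)*q^(4:ℕ)*k1^(2:ℕ)*k2^(1:ℕ) + (1200600 : R)*p^(2:ℕ)*q^(4:ℕ)*k1^(3:ℕ)

def L6_4 (p q k1 k2 : R) : R :=
      (-27405 : R)*p^(6:ℕ)*k1^(4:ℕ) + (-27405 : R)*q^(6:ℕ)*k2^(4:ℕ) + (-2610 : R)*p^(5:ℕ)*q^(1:ℕ)*k2^(4:ℕ) + (-130500 : R)*p^(5:ℕ)*q^(1:ℕ)*k1^(1:ℕ)*k2^(3:ℕ)
    + (-1566000 : R)*p^(5:ℕ)*q^(1:ℕ)*k1^(2:ℕ)*k2^(2:ℕ) + (-6003000 : R)*p^(5:ℕ)*q^(1:ℕ)*k1^(3:ℕ)*k2^(1:ℕ) + (-6603300 : R)*p^(5:ℕ)*q^(1:ℕ)*k1^(4:ℕ) + (6603300 : R)*p^(1:ℕ)*q^(5:ℕ)*k2^(4:ℕ)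
    + (6003000 : R)*p^(1:ℕ)*q^(5:ℕ)*k1^(1:ℕ)*k2^(3:ℕ) + (1566000 : R)*p^(1:ℕ)*q^(5:ℕ)*k1^(2:ℕ)*k2^(2:ℕ) + (130500 : R)*p^(1:ℕ)*q^(5:ℕ)*k1^(3:ℕ)*k2^(1:ℕ) + (2610 : R)*p^(1:ℕ)*q^(5:ℕ)*k1^(4:ℕ)
    + (2101050 : R)*p^(4:ℕ)*q^(2:ℕ)*k2^(4:ℕ) + (24012000 : R)*p^(4:ℕ)*q^(2:ℕ)*k1^(1:ℕ)*k2^(3:ℕ) + (85542750 : R)*p^(4:ℕ)*q^(2:ℕ)*k1^(2:ℕ)*k2^(2:ℕ) + (114057000 : R)*p^(4:ℕ)*q^(2:ℕ)*k1^(3:ℕ)*k2^(1:ℕ)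
    + (48474225 : R)*p^(4:ℕ)*q^(2:ℕ)*k1^(4:ℕ) + (48474225 : R)*p^(2:ℕ)*q^(4:ℕ)*k2^(4:ℕ) + (114057000 : R)*p^(2:ℕ)*q^(4:ℕ)*k1^(1:ℕ)*k2^(3:ℕ) + (85542750 : R)*p^(2:ℕ)*q^(4:ℕ)*k1^(2:ℕ)*k2^(2:ℕ)
    + (24012000 : R)*p^(2:ℕ)*q^(4:ℕ)*k1^(3:ℕ)*k2^(1:ℕ) + (2101050 : R)*p^(2:ℕ)*q^(4:ℕ)*k1^(4:ℕ)

def L6_5 (p q k1 k2 : R) : R :=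
      (-142506 : R)*p^(6:ℕ)*k1^(5:ℕ) + (-142506 : R)*q^(6:ℕ)*k2^(5:ℕ) + (-522 : R)*p^(5:ℕ)*q^(1:ℕ)*k2^(5:ℕ) + (-65250 : R)*p^(5:ℕ)*q^(1:ℕ)*k1^(1:ℕ)*k2^(4:ℕ)
    + (-1566000 : R)*p^(5:ℕ)*q^(1:ℕ)*k1^(2:ℕ)*k2^(3:ℕ) + (-12006000 : R)*p^(5:ℕ)*q^(1:ℕ)*k1^(3:ℕ)*k2^(2:ℕ) + (-33016500 : R)*p^(5:ℕ)*q^(1:ℕ)*k1^(4:ℕ)*k2^(1:ℕ) + (-27733860 : R)*p^(5:ℕ)*q^(1:ℕ)*k1^(5:ℕ)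
    + (27733860 : R)*p^(1:ℕ)*q^(5:ℕ)*k2^(5:ℕ) + (33016500 : R)*p^(1:ℕ)*q^(5:ℕ)*k1^(1:ℕ)*k2^(4:ℕ) + (12006000 : R)*p^(1:ℕ)*q^(5:ℕ)*k1^(2:ℕ)*k2^(3:ℕ) + (1566000 : R)*p^(1:ℕ)*q^(5:ℕ)*k1^(3:ℕ)*k2^(2:ℕ)
    + (65250 : R)*p^(1:ℕ)*q^(5:ℕ)*k1^(4:ℕ)*k2^(1:ℕ) + (522 : R)*p^(1:ℕ)*q^(5:ℕ)*k1^(5:ℕ) + (2521260 : R)*p^(4:ℕ)*q^(2:ℕ)*k2^(5:ℕ) + (42021000 : R)*p^(4:ℕ)*q^(2:ℕ)*k1^(1:ℕ)*k2^(4:ℕ)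
    + (228114000 : R)*p^(4:ℕ)*q^(2:ℕ)*k1^(2:ℕ)*k2^(3:ℕ) + (513256500 : R)*p^(4:ℕ)*q^(2:ℕ)*k1^(3:ℕ)*k2^(2:ℕ) + (484742250 : R)*p^(4:ℕ)*q^(2:ℕ)*k1^(4:ℕ)*k2^(1:ℕ) + (155117520 : R)*p^(4:ℕ)*q^(2:ℕ)*k1^(5:ℕ)
    + (155117520 : R)*p^(2:ℕ)*q^(4:ℕ)*k2^(5:ℕ) + (484742250 : R)*p^(2:ℕ)*q^(4:ℕ)*k1^(1:ℕ)*k2^(4:ℕ) + (513256500 : R)*p^(2:ℕ)*q^(4:ℕ)*k1^(2:ℕ)*k2^(3:ℕ) + (228114000 : R)*p^(2:ℕ)*q^(4:ℕ)*k1^(3:ℕ)*k2^(2:ℕ)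
    + (42021000 : R)*p^(2:ℕ)*q^(4:ℕ)*k1^(4:ℕ)*k2^(1:ℕ) + (2521260 : R)*p^(2:ℕ)*q^(4:ℕ)*k1^(5:ℕ)

def L6_6 (p q k1 k2 : R) : R :=
      (-593775 : R)*p^(6:ℕ)*k1^(6:ℕ) + (-593775 : R)*q^(6:ℕ)*k2^(6:ℕ) + (-13050 : R)*p^(5:ℕ)*q^(1:ℕ)*k1^(1:ℕ)*k2^(5:ℕ) + (-783000 : R)*p^(5:ℕ)*q^(1:ℕ)*k1^(2:ℕ)*k2^(4:ℕ)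
    + (-12006000 : R)*p^(5:ℕ)*q^(1:ℕ)*k1^(3:ℕ)*k2^(3:ℕ) + (-66033000 : R)*p^(5:ℕ)*q^(1:ℕ)*k1^(4:ℕ)*k2^(2:ℕ) + (-138669300 : R)*p^(5:ℕ)*q^(1:ℕ)*k1^(5:ℕ)*k2^(1:ℕ) + (-92446200 : R)*p^(5:ℕ)*q^(1:ℕ)*k1^(6:ℕ)
    + (92446200 : R)*p^(1:ℕ)*q^(5:ℕ)*k2^(6:ℕ) + (138669300 : R)*p^(1:ℕ)*q^(5:ℕ)*k1^(1:ℕ)*k2^(5:ℕ) + (66033000 : R)*p^(1:ℕ)*q^(5:ℕ)*k1^(2:ℕ)*k2^(4:ℕ) + (12006000 : R)*p^(1:ℕ)*q^(5:ℕ)*k1^(3:ℕ)*k2^(3:ℕ)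
    + (783000 : R)*p^(1:ℕ)*q^(5:ℕ)*k1^(4:ℕ)*k2^(2:ℕ) + (13050 : R)*p^(1:ℕ)*q^(5:ℕ)*k1^(5:ℕ)*k2^(1:ℕ) + (2101050 : R)*p^(4:ℕ)*q^(2:ℕ)*k2^(6:ℕ) + (50425200 : R)*p^(4:ℕ)*q^(2:ℕ)*k1^(1:ℕ)*k2^(5:ℕ)
    + (399199500 : R)*p^(4:ℕ)*q^(2:ℕ)*k1^(2:ℕ)*k2^(4:ℕ) + (1368684000 : R)*p^(4:ℕ)*q^(2:ℕ)*k1^(3:ℕ)*k2^(3:ℕ) + (2181340125 : R)*p^(4:ℕ)*q^(2:ℕ)*k1^(4:ℕ)*k2^(2:ℕ) + (1551175200 : R)*p^(4:ℕ)*q^(2:ℕ)*k1^(5:ℕ)*k2^(1:ℕ)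
    + (387793800 : R)*p^(4:ℕ)*q^(2:ℕ)*k1^(6:ℕ) + (387793800 : R)*p^(2:ℕ)*q^(4:ℕ)*k2^(6:ℕ) + (1551175200 : R)*p^(2:ℕ)*q^(4:ℕ)*k1^(1:ℕ)*k2^(5:ℕ) + (2181340125 : R)*p^(2:ℕ)*q^(4:ℕ)*k1^(2:ℕ)*k2^(4:ℕ)
    + (1368684000 : R)*p^(2:ℕ)*q^(4:ℕ)*k1^(3:ℕ)*k2^(3:ℕ) + (399199500 : R)*p^(2:ℕ)*q^(4:ℕ)*k1^(4:ℕ)*k2^(2:ℕ) + (50425200 : R)*p^(2:ℕ)*q^(4:ℕ)*k1^(5:ℕ)*k2^(1:ℕ) + (2101050 : R)*p^(2:ℕ)*q^(4:ℕ)*k1^(6:ℕ)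

def L6_7 (p q k1 k2 : R) : R :=
      (-2035800 : R)*p^(6:ℕ)*k1^(7:ℕ) + (-2035800 : R)*q^(6:ℕ)*k2^(7:ℕ) + (-156600 : R)*p^(5:ℕ)*q^(1:ℕ)*k1^(2:ℕ)*k2^(5:ℕ) + (-6003000 : R)*p^(5:ℕ)*q^(1:ℕ)*k1^(3:ℕ)*k2^(4:ℕ)
    + (-66033000 : R)*p^(5:ℕ)*q^(1:ℕ)*k1^(4:ℕ)*k2^(3:ℕ) + (-277338600 : R)*p^(5:ℕ)*q^(1:ℕ)*k1^(5:ℕ)*k2^(2:ℕ) + (-462231000 : R)*p^(5:ℕ)*q^(1:ℕ)*k1^(6:ℕ)*k2^(1:ℕ) + (-250925400 : R)*p^(5:ℕ)*q^(1:ℕ)*k1^(7:ℕ)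
    + (250925400 : R)*p^(1:ℕ)*q^(5:ℕ)*k2^(7:ℕ) + (462231000 : R)*p^(1:ℕ)*q^(5:ℕ)*k1^(1:ℕ)*k2^(6:ℕ) + (277338600 : R)*p^(1:ℕ)*q^(5:ℕ)*k1^(2:ℕ)*k2^(5:ℕ) + (66033000 : R)*p^(1:ℕ)*q^(5:ℕ)*k1^(3:ℕ)*k2^(4:ℕ)
    + (6003000 : R)*p^(1:ℕ)*q^(5:ℕ)*k1^(4:ℕ)*k2^(3:ℕ) + (156600 : R)*p^(1:ℕ)*q^(5:ℕ)*k1^(5:ℕ)*k2^(2:ℕ) + (1200600 : R)*p^(4:ℕ)*q^(2:ℕ)*k2^(7:ℕ) + (42021000 : R)*p^(4:ℕ)*q^(2:ℕ)*k1^(1:ℕ)*k2^(6:ℕ)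
    + (479039400 : R)*p^(4:ℕ)*q^(2:ℕ)*k1^(2:ℕ)*k2^(5:ℕ) + (2395197000 : R)*p^(4:ℕ)*q^(2:ℕ)*k1^(3:ℕ)*k2^(4:ℕ) + (5816907000 : R)*p^(4:ℕ)*q^(2:ℕ)*k1^(4:ℕ)*k2^(3:ℕ) + (6980288400 : R)*p^(4:ℕ)*q^(2:ℕ)*k1^(5:ℕ)*k2^(2:ℕ)
    + (3877938000 : R)*p^(4:ℕ)*q^(2:ℕ)*k1^(6:ℕ)*k2^(1:ℕ) + (775587600 : R)*p^(4:ℕ)*q^(2:ℕ)*k1^(7:ℕ) + (775587600 : R)*p^(2:ℕ)*q^(4:ℕ)*k2^(7:ℕ) + (3877938000 : R)*p^(2:ℕ)*q^(4:ℕ)*k1^(1:ℕ)*k2^(6:ℕ)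
    + (6980288400 : R)*p^(2:ℕ)*q^(4:ℕ)*k1^(2:ℕ)*k2^(5:ℕ) + (5816907000 : R)*p^(2:ℕ)*q^(4:ℕ)*k1^(3:ℕ)*k2^(4:ℕ) + (2395197000 : R)*p^(2:ℕ)*q^(4:ℕ)*k1^(4:ℕ)*k2^(3:ℕ) + (479039400 : R)*p^(2:ℕ)*q^(4:ℕ)*k1^(5:ℕ)*k2^(2:ℕ)
    + (42021000 : R)*p^(2:ℕ)*q^(4:ℕ)*k1^(6:ℕ)*k2^(1:ℕ) + (1200600 : R)*p^(2:ℕ)*q^(4:ℕ)*k1^(7:ℕ)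

def L6_8 (p q k1 k2 : R) : R :=
      (-5852925 : R)*p^(6:ℕ)*k1^(8:ℕ) + (-5852925 : R)*q^(6:ℕ)*k2^(8:ℕ) + (-1200600 : R)*p^(5:ℕ)*q^(1:ℕ)*k1^(3:ℕ)*k2^(5:ℕ) + (-33016500 : R)*p^(5:ℕ)*q^(1:ℕ)*k1^(4:ℕ)*k2^(4:ℕ)
    + (-277338600 : R)*p^(5:ℕ)*q^(1:ℕ)*k1^(5:ℕ)*k2^(3:ℕ) + (-924462000 : R)*p^(5:ℕ)*q^(1:ℕ)*k1^(6:ℕ)*k2^(2:ℕ) + (-1254627000 : R)*p^(5:ℕ)*q^(1:ℕ)*k1^(7:ℕ)*k2^(1:ℕ) + (-564582150 : R)*p^(5:ℕ)*q^(1:ℕ)*k1^(8:ℕ)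
    + (564582150 : R)*p^(1:ℕ)*q^(5:ℕ)*k2^(8:ℕ) + (1254627000 : R)*p^(1:ℕ)*q^(5:ℕ)*k1^(1:ℕ)*k2^(7:ℕ) + (924462000 : R)*p^(1:ℕ)*q^(5:ℕ)*k1^(2:ℕ)*k2^(6:ℕ) + (277338600 : R)*p^(1:ℕ)*q^(5:ℕ)*k1^(3:ℕ)*k2^(5:ℕ)
    + (33016500 : R)*p^(1:ℕ)*q^(5:ℕ)*k1^(4:ℕ)*k2^(4:ℕ) + (1200600 : R)*p^(1:ℕ)*q^(5:ℕ)*k1^(5:ℕ)*k2^(3:ℕ) + (450225 : R)*p^(4:ℕ)*q^(2:ℕ)*k2^(8:ℕ) + (24012000 : R)*p^(4:ℕ)*q^(2:ℕ)*k1^(1:ℕ)*k2^(7:ℕ)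
    + (399199500 : R)*p^(4:ℕ)*q^(2:ℕ)*k1^(2:ℕ)*k2^(6:ℕ) + (2874236400 : R)*p^(4:ℕ)*q^(2:ℕ)*k1^(3:ℕ)*k2^(5:ℕ) + (10179587250 : R)*p^(4:ℕ)*q^(2:ℕ)*k1^(4:ℕ)*k2^(4:ℕ) + (18614102400 : R)*p^(4:ℕ)*q^(2:ℕ)*k1^(5:ℕ)*k2^(3:ℕ)
    + (17450721000 : R)*p^(4:ℕ)*q^(2:ℕ)*k1^(6:ℕ)*k2^(2:ℕ) + (7755876000 : R)*p^(4:ℕ)*q^(2:ℕ)*k1^(7:ℕ)*k2^(1:ℕ) + (1260329850 : R)*p^(4:ℕ)*q^(2:ℕ)*k1^(8:ℕ) + (1260329850 : R)*p^(2:ℕ)*q^(4:ℕ)*k2^(8:ℕ)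
    + (7755876000 : R)*p^(2:ℕ)*q^(4:ℕ)*k1^(1:ℕ)*k2^(7:ℕ) + (17450721000 : R)*p^(2:ℕ)*q^(4:ℕ)*k1^(2:ℕ)*k2^(6:ℕ) + (18614102400 : R)*p^(2:ℕ)*q^(4:ℕ)*k1^(3:ℕ)*k2^(5:ℕ) + (10179587250 : R)*p^(2:ℕ)*q^(4:ℕ)*k1^(4:ℕ)*k2^(4:ℕ)
    + (2874236400 : R)*p^(2:ℕ)*q^(4:ℕ)*k1^(5:ℕ)*k2^(3:ℕ) + (399199500 : R)*p^(2:ℕ)*q^(4:ℕ)*k1^(6:ℕ)*k2^(2:ℕ) + (24012000 : R)*p^(2:ℕ)*q^(4:ℕ)*k1^(7:ℕ)*k2^(1:ℕ) + (450225 : R)*p^(2:ℕ)*q^(4:ℕ)*k1^(8:ℕ)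

def L6_9 (p q k1 k2 : R) : R :=
      (-14307150 : R)*p^(6:ℕ)*k1^(9:ℕ) + (-14307150 : R)*q^(6:ℕ)*k2^(9:ℕ) + (-6603300 : R)*p^(5:ℕ)*q^(1:ℕ)*k1^(4:ℕ)*k2^(5:ℕ) + (-138669300 : R)*p^(5:ℕ)*q^(1:ℕ)*k1^(5:ℕ)*k2^(4:ℕ)
    + (-924462000 : R)*p^(5:ℕ)*q^(1:ℕ)*k1^(6:ℕ)*k2^(3:ℕ) + (-2509254000 : R)*p^(5:ℕ)*q^(1:ℕ)*k1^(7:ℕ)*k2^(2:ℕ) + (-2822910750 : R)*p^(5:ℕ)*q^(1:ℕ)*k1^(8:ℕ)*k2^(1:ℕ) + (-1066432950 : R)*p^(5:ℕ)*q^(1:ℕ)*k1^(9:ℕ)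
    + (1066432950 : R)*p^(1:ℕ)*q^(5:ℕ)*k2^(9:ℕ) + (2822910750 : R)*p^(1:ℕ)*q^(5:ℕ)*k1^(1:ℕ)*k2^(8:ℕ) + (2509254000 : R)*p^(1:ℕ)*q^(5:ℕ)*k1^(2:ℕ)*k2^(7:ℕ) + (924462000 : R)*p^(1:ℕ)*q^(5:ℕ)*k1^(3:ℕ)*k2^(6:ℕ)
    + (138669300 : R)*p^(1:ℕ)*q^(5:ℕ)*k1^(4:ℕ)*k2^(5:ℕ) + (6603300 : R)*p^(1:ℕ)*q^(5:ℕ)*k1^(5:ℕ)*k2^(4:ℕ) + (100050 : R)*p^(4:ℕ)*q^(2:ℕ)*k2^(9:ℕ) + (9004500 : R)*p^(4:ℕ)*q^(2:ℕ)*k1^(1:ℕ)*k2^(8:ℕ)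
    + (228114000 : R)*p^(4:ℕ)*q^(2:ℕ)*k1^(2:ℕ)*k2^(7:ℕ) + (2395197000 : R)*p^(4:ℕ)*q^(2:ℕ)*k1^(3:ℕ)*k2^(6:ℕ) + (12215504700 : R)*p^(4:ℕ)*q^(2:ℕ)*k1^(4:ℕ)*k2^(5:ℕ) + (32574679200 : R)*p^(4:ℕ)*q^(2:ℕ)*k1^(5:ℕ)*k2^(4:ℕ)
    + (46535256000 : R)*p^(4:ℕ)*q^(2:ℕ)*k1^(6:ℕ)*k2^(3:ℕ) + (34901442000 : R)*p^(4:ℕ)*q^(2:ℕ)*k1^(7:ℕ)*k2^(2:ℕ) + (12603298500 : R)*p^(4:ℕ)*q^(2:ℕ)*k1^(8:ℕ)*k2^(1:ℕ) + (1680439800 : R)*p^(4:ℕ)*q^(2:ℕ)*k1^(9:ℕ)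
    + (1680439800 : R)*p^(2:ℕ)*q^(4:ℕ)*k2^(9:ℕ) + (12603298500 : R)*p^(2:ℕ)*q^(4:ℕ)*k1^(1:ℕ)*k2^(8:ℕ) + (34901442000 : R)*p^(2:ℕ)*q^(4:ℕ)*k1^(2:ℕ)*k2^(7:ℕ) + (46535256000 : R)*p^(2:ℕ)*q^(4:ℕ)*k1^(3:ℕ)*k2^(6:ℕ)
    + (32574679200 : R)*p^(2:ℕ)*q^(4:ℕ)*k1^(4:ℕ)*k2^(5:ℕ) + (12215504700 : R)*p^(2:ℕ)*q^(4:ℕ)*k1^(5:ℕ)*k2^(4:ℕ) + (2395197000 : R)*p^(2:ℕ)*q^(4:ℕ)*k1^(6:ℕ)*k2^(3:ℕ) + (228114000 : R)*p^(2:ℕ)*q^(4:ℕ)*k1^(7:ℕ)*k2^(2:ℕ)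
    + (9004500 : R)*p^(2:ℕ)*q^(4:ℕ)*k1^(8:ℕ)*k2^(1:ℕ) + (100050 : R)*p^(2:ℕ)*q^(4:ℕ)*k1^(9:ℕ)

def L6_10 (p q k1 k2 : R) : R :=
      (-30045015 : R)*p^(6:ℕ)*k1^(10:ℕ) + (-30045015 : R)*q^(6:ℕ)*k2^(10:ℕ) + (-27733860 : R)*p^(5:ℕ)*q^(1:ℕ)*k1^(5:ℕ)*k2^(5:ℕ) + (-462231000 : R)*p^(5:ℕ)*q^(1:ℕ)*k1^(6:ℕ)*k2^(4:ℕ)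
    + (-2509254000 : R)*p^(5:ℕ)*q^(1:ℕ)*k1^(7:ℕ)*k2^(3:ℕ) + (-5645821500 : R)*p^(5:ℕ)*q^(1:ℕ)*k1^(8:ℕ)*k2^(2:ℕ) + (-5332164750 : R)*p^(5:ℕ)*q^(1:ℕ)*k1^(9:ℕ)*k2^(1:ℕ) + (-1706292720 : R)*p^(5:ℕ)*q^(1:ℕ)*k1^(10:ℕ)
    + (1706292720 : R)*p^(1:ℕ)*q^(5:ℕ)*k2^(10:ℕ) + (5332164750 : R)*p^(1:ℕ)*q^(5:ℕ)*k1^(1:ℕ)*k2^(9:ℕ) + (5645821500 : R)*p^(1:ℕ)*q^(5:ℕ)*k1^(2:ℕ)*k2^(8:ℕ) + (2509254000 : R)*p^(1:ℕ)*q^(5:ℕ)*k1^(3:ℕ)*k2^(7:ℕ)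
    + (462231000 : R)*p^(1:ℕ)*q^(5:ℕ)*k1^(4:ℕ)*k2^(6:ℕ) + (27733860 : R)*p^(1:ℕ)*q^(5:ℕ)*k1^(5:ℕ)*k2^(5:ℕ) + (10005 : R)*p^(4:ℕ)*q^(2:ℕ)*k2^(10:ℕ) + (2001000 : R)*p^(4:ℕ)*q^(2:ℕ)*k1^(1:ℕ)*k2^(9:ℕ)
    + (85542750 : R)*p^(4:ℕ)*q^(2:ℕ)*k1^(2:ℕ)*k2^(8:ℕ) + (1368684000 : R)*p^(4:ℕ)*q^(2:ℕ)*k1^(3:ℕ)*k2^(7:ℕ) + (10179587250 : R)*p^(4:ℕ)*q^(2:ℕ)*k1^(4:ℕ)*k2^(6:ℕ) + (39089615040 : R)*p^(4:ℕ)*q^(2:ℕ)*k1^(5:ℕ)*k2^(5:ℕ)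
    + (81436698000 : R)*p^(4:ℕ)*q^(2:ℕ)*k1^(6:ℕ)*k2^(4:ℕ) + (93070512000 : R)*p^(4:ℕ)*q^(2:ℕ)*k1^(7:ℕ)*k2^(3:ℕ) + (56714843250 : R)*p^(4:ℕ)*q^(2:ℕ)*k1^(8:ℕ)*k2^(2:ℕ) + (16804398000 : R)*p^(4:ℕ)*q^(2:ℕ)*k1^(9:ℕ)*k2^(1:ℕ)
    + (1848483780 : R)*p^(4:ℕ)*q^(2:ℕ)*k1^(10:ℕ) + (1848483780 : R)*p^(2:ℕ)*q^(4:ℕ)*k2^(10:ℕ) + (16804398000 : R)*p^(2:ℕ)*q^(4:ℕ)*k1^(1:ℕ)*k2^(9:ℕ) + (56714843250 : R)*p^(2:ℕ)*q^(4:ℕ)*k1^(2:ℕ)*k2^(8:ℕ)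
    + (93070512000 : R)*p^(2:ℕ)*q^(4:ℕ)*k1^(3:ℕ)*k2^(7:ℕ) + (81436698000 : R)*p^(2:ℕ)*q^(4:ℕ)*k1^(4:ℕ)*k2^(6:ℕ) + (39089615040 : R)*p^(2:ℕ)*q^(4:ℕ)*k1^(5:ℕ)*k2^(5:ℕ) + (10179587250 : R)*p^(2:ℕ)*q^(4:ℕ)*k1^(6:ℕ)*k2^(4:ℕ)
    + (1368684000 : R)*p^(2:ℕ)*q^(4:ℕ)*k1^(7:ℕ)*k2^(3:ℕ) + (85542750 : R)*p^(2:ℕ)*q^(4:ℕ)*k1^(8:ℕ)*k2^(2:ℕ) + (2001000 : R)*p^(2:ℕ)*q^(4:ℕ)*k1^(9:ℕ)*k2^(1:ℕ) + (10005 : R)*p^(2:ℕ)*q^(4:ℕ)*k1^(10:ℕ)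

def L6_11 (p q k1 k2 : R) : R :=
      (-54627300 : R)*p^(6:ℕ)*k1^(11:ℕ) + (-54627300 : R)*q^(6:ℕ)*k2^(11:ℕ) + (-92446200 : R)*p^(5:ℕ)*q^(1:ℕ)*k1^(6:ℕ)*k2^(5:ℕ) + (-1254627000 : R)*p^(5:ℕ)*q^(1:ℕ)*k1^(7:ℕ)*k2^(4:ℕ)
    + (-5645821500 : R)*p^(5:ℕ)*q^(1:ℕ)*k1^(8:ℕ)*k2^(3:ℕ) + (-10664329500 : R)*p^(5:ℕ)*q^(1:ℕ)*k1^(9:ℕ)*k2^(2:ℕ) + (-8531463600 : R)*p^(5:ℕ)*q^(1:ℕ)*k1^(10:ℕ)*k2^(1:ℕ) + (-2326762800 : R)*p^(5:ℕ)*q^(1:ℕ)*k1^(11:ℕ)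
    + (2326762800 : R)*p^(1:ℕ)*q^(5:ℕ)*k2^(11:ℕ) + (8531463600 : R)*p^(1:ℕ)*q^(5:ℕ)*k1^(1:ℕ)*k2^(10:ℕ) + (10664329500 : R)*p^(1:ℕ)*q^(5:ℕ)*k1^(2:ℕ)*k2^(9:ℕ) + (5645821500 : R)*p^(1:ℕ)*q^(5:ℕ)*k1^(3:ℕ)*k2^(8:ℕ)
    + (1254627000 : R)*p^(1:ℕ)*q^(5:ℕ)*k1^(4:ℕ)*k2^(7:ℕ) + (92446200 : R)*p^(1:ℕ)*q^(5:ℕ)*k1^(5:ℕ)*k2^(6:ℕ) + (200100 : R)*p^(4:ℕ)*q^(2:ℕ)*k1^(1:ℕ)*k2^(10:ℕ) + (19009500 : R)*p^(4:ℕ)*q^(2:ℕ)*k1^(2:ℕ)*k2^(9:ℕ)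
    + (513256500 : R)*p^(4:ℕ)*q^(2:ℕ)*k1^(3:ℕ)*k2^(8:ℕ) + (5816907000 : R)*p^(4:ℕ)*q^(2:ℕ)*k1^(4:ℕ)*k2^(7:ℕ) + (32574679200 : R)*p^(4:ℕ)*q^(2:ℕ)*k1^(5:ℕ)*k2^(6:ℕ) + (97724037600 : R)*p^(4:ℕ)*q^(2:ℕ)*k1^(6:ℕ)*k2^(5:ℕ)
    + (162873396000 : R)*p^(4:ℕ)*q^(2:ℕ)*k1^(7:ℕ)*k2^(4:ℕ) + (151239582000 : R)*p^(4:ℕ)*q^(2:ℕ)*k1^(8:ℕ)*k2^(3:ℕ) + (75619791000 : R)*p^(4:ℕ)*q^(2:ℕ)*k1^(9:ℕ)*k2^(2:ℕ) + (18484837800 : R)*p^(4:ℕ)*q^(2:ℕ)*k1^(10:ℕ)*k2^(1:ℕ)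
    + (1680439800 : R)*p^(4:ℕ)*q^(2:ℕ)*k1^(11:ℕ) + (1680439800 : R)*p^(2:ℕ)*q^(4:ℕ)*k2^(11:ℕ) + (18484837800 : R)*p^(2:ℕ)*q^(4:ℕ)*k1^(1:ℕ)*k2^(10:ℕ) + (75619791000 : R)*p^(2:ℕ)*q^(4:ℕ)*k1^(2:ℕ)*k2^(9:ℕ)
    + (151239582000 : R)*p^(2:ℕ)*q^(4:ℕ)*k1^(3:ℕ)*k2^(8:ℕ) + (162873396000 : R)*p^(2:ℕ)*q^(4:ℕ)*k1^(4:ℕ)*k2^(7:ℕ) + (97724037600 : R)*p^(2:ℕ)*q^(4:ℕ)*k1^(5:ℕ)*k2^(6:ℕ) + (32574679200 : R)*p^(2:ℕ)*q^(4:ℕ)*k1^(6:ℕ)*k2^(5:ℕ)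
    + (5816907000 : R)*p^(2:ℕ)*q^(4:ℕ)*k1^(7:ℕ)*k2^(4:ℕ) + (513256500 : R)*p^(2:ℕ)*q^(4:ℕ)*k1^(8:ℕ)*k2^(3:ℕ) + (19009500 : R)*p^(2:ℕ)*q^(4:ℕ)*k1^(9:ℕ)*k2^(2:ℕ) + (200100 : R)*p^(2:ℕ)*q^(4:ℕ)*k1^(10:ℕ)*k2^(1:ℕ)

def L6_12 (p q k1 k2 : R) : R :=
      (-86493225 : R)*p^(6:ℕ)*k1^(12:ℕ) + (-86493225 : R)*q^(6:ℕ)*k2^(12:ℕ) + (-250925400 : R)*p^(5:ℕ)*q^(1:ℕ)*k1^(7:ℕ)*k2^(5:ℕ) + (-2822910750 : R)*p^(5:ℕ)*q^(1:ℕ)*k1^(8:ℕ)*k2^(4:ℕ)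
    + (-10664329500 : R)*p^(5:ℕ)*q^(1:ℕ)*k1^(9:ℕ)*k2^(3:ℕ) + (-17062927200 : R)*p^(5:ℕ)*q^(1:ℕ)*k1^(10:ℕ)*k2^(2:ℕ) + (-11633814000 : R)*p^(5:ℕ)*q^(1:ℕ)*k1^(11:ℕ)*k2^(1:ℕ) + (-2714556600 : R)*p^(5:ℕ)*q^(1:ℕ)*k1^(12:ℕ)
    + (2714556600 : R)*p^(1:ℕ)*q^(5:ℕ)*k2^(12:ℕ) + (11633814000 : R)*p^(1:ℕ)*q^(5:ℕ)*k1^(1:ℕ)*k2^(11:ℕ) + (17062927200 : R)*p^(1:ℕ)*q^(5:ℕ)*k1^(2:ℕ)*k2^(10:ℕ) + (10664329500 : R)*p^(1:ℕ)*q^(5:ℕ)*k1^(3:ℕ)*k2^(9:ℕ)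
    + (2822910750 : R)*p^(1:ℕ)*q^(5:ℕ)*k1^(4:ℕ)*k2^(8:ℕ) + (250925400 : R)*p^(1:ℕ)*q^(5:ℕ)*k1^(5:ℕ)*k2^(7:ℕ) + (1900950 : R)*p^(4:ℕ)*q^(2:ℕ)*k1^(2:ℕ)*k2^(10:ℕ) + (114057000 : R)*p^(4:ℕ)*q^(2:ℕ)*k1^(3:ℕ)*k2^(9:ℕ)
    + (2181340125 : R)*p^(4:ℕ)*q^(2:ℕ)*k1^(4:ℕ)*k2^(8:ℕ) + (18614102400 : R)*p^(4:ℕ)*q^(2:ℕ)*k1^(5:ℕ)*k2^(7:ℕ) + (81436698000 : R)*p^(4:ℕ)*q^(2:ℕ)*k1^(6:ℕ)*k2^(6:ℕ) + (195448075200 : R)*p^(4:ℕ)*q^(2:ℕ)*k1^(7:ℕ)*k2^(5:ℕ)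
    + (264669268500 : R)*p^(4:ℕ)*q^(2:ℕ)*k1^(8:ℕ)*k2^(4:ℕ) + (201652776000 : R)*p^(4:ℕ)*q^(2:ℕ)*k1^(9:ℕ)*k2^(3:ℕ) + (83181770100 : R)*p^(4:ℕ)*q^(2:ℕ)*k1^(10:ℕ)*k2^(2:ℕ) + (16804398000 : R)*p^(4:ℕ)*q^(2:ℕ)*k1^(11:ℕ)*k2^(1:ℕ)
    + (1260329850 : R)*p^(4:ℕ)*q^(2:ℕ)*k1^(12:ℕ) + (1260329850 : R)*p^(2:ℕ)*q^(4:ℕ)*k2^(12:ℕ) + (16804398000 : R)*p^(2:ℕ)*q^(4:ℕ)*k1^(1:ℕ)*k2^(11:ℕ) + (83181770100 : R)*p^(2:ℕ)*q^(4:ℕ)*k1^(2:ℕ)*k2^(10:ℕ)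
    + (201652776000 : R)*p^(2:ℕ)*q^(4:ℕ)*k1^(3:ℕ)*k2^(9:ℕ) + (264669268500 : R)*p^(2:ℕ)*q^(4:ℕ)*k1^(4:ℕ)*k2^(8:ℕ) + (195448075200 : R)*p^(2:ℕ)*q^(4:ℕ)*k1^(5:ℕ)*k2^(7:ℕ) + (81436698000 : R)*p^(2:ℕ)*q^(4:ℕ)*k1^(6:ℕ)*k2^(6:ℕ)
    + (18614102400 : R)*p^(2:ℕ)*q^(4:ℕ)*k1^(7:ℕ)*k2^(5:ℕ) + (2181340125 : R)*p^(2:ℕ)*q^(4:ℕ)*k1^(8:ℕ)*k2^(4:ℕ) + (114057000 : R)*p^(2:ℕ)*q^(4:ℕ)*k1^(9:ℕ)*k2^(3:ℕ) + (1900950 : R)*p^(2:ℕ)*q^(4:ℕ)*k1^(10:ℕ)*k2^(2:ℕ)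

def L6_13 (p q k1 k2 : R) : R :=
      (-119759850 : R)*p^(6:ℕ)*k1^(13:ℕ) + (-119759850 : R)*q^(6:ℕ)*k2^(13:ℕ) + (-564582150 : R)*p^(5:ℕ)*q^(1:ℕ)*k1^(8:ℕ)*k2^(5:ℕ) + (-5332164750 : R)*p^(5:ℕ)*q^(1:ℕ)*k1^(9:ℕ)*k2^(4:ℕ)
    + (-17062927200 : R)*p^(5:ℕ)*q^(1:ℕ)*k1^(10:ℕ)*k2^(3:ℕ) + (-23267628000 : R)*p^(5:ℕ)*q^(1:ℕ)*k1^(11:ℕ)*k2^(2:ℕ) + (-13572783000 : R)*p^(5:ℕ)*q^(1:ℕ)*k1^(12:ℕ)*k2^(1:ℕ) + (-2714556600 : R)*p^(5:ℕ)*q^(1:ℕ)*k1^(13:ℕ)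
    + (2714556600 : R)*p^(1:ℕ)*q^(5:ℕ)*k2^(13:ℕ) + (13572783000 : R)*p^(1:ℕ)*q^(5:ℕ)*k1^(1:ℕ)*k2^(12:ℕ) + (23267628000 : R)*p^(1:ℕ)*q^(5:ℕ)*k1^(2:ℕ)*k2^(11:ℕ) + (17062927200 : R)*p^(1:ℕ)*q^(5:ℕ)*k1^(3:ℕ)*k2^(10:ℕ)
    + (5332164750 : R)*p^(1:ℕ)*q^(5:ℕ)*k1^(4:ℕ)*k2^(9:ℕ) + (564582150 : R)*p^(1:ℕ)*q^(5:ℕ)*k1^(5:ℕ)*k2^(8:ℕ) + (11405700 : R)*p^(4:ℕ)*q^(2:ℕ)*k1^(3:ℕ)*k2^(10:ℕ) + (484742250 : R)*p^(4:ℕ)*q^(2:ℕ)*k1^(4:ℕ)*k2^(9:ℕ)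
    + (6980288400 : R)*p^(4:ℕ)*q^(2:ℕ)*k1^(5:ℕ)*k2^(8:ℕ) + (46535256000 : R)*p^(4:ℕ)*q^(2:ℕ)*k1^(6:ℕ)*k2^(7:ℕ) + (162873396000 : R)*p^(4:ℕ)*q^(2:ℕ)*k1^(7:ℕ)*k2^(6:ℕ) + (317603122200 : R)*p^(4:ℕ)*q^(2:ℕ)*k1^(8:ℕ)*k2^(5:ℕ)
    + (352892358000 : R)*p^(4:ℕ)*q^(2:ℕ)*k1^(9:ℕ)*k2^(4:ℕ) + (221818053600 : R)*p^(4:ℕ)*q^(2:ℕ)*k1^(10:ℕ)*k2^(3:ℕ) + (75619791000 : R)*p^(4:ℕ)*q^(2:ℕ)*k1^(11:ℕ)*k2^(2:ℕ) + (12603298500 : R)*p^(4:ℕ)*q^(2:ℕ)*k1^(12:ℕ)*k2^(1:ℕ)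
    + (775587600 : R)*p^(4:ℕ)*q^(2:ℕ)*k1^(13:ℕ) + (775587600 : R)*p^(2:ℕ)*q^(4:ℕ)*k2^(13:ℕ) + (12603298500 : R)*p^(2:ℕ)*q^(4:ℕ)*k1^(1:ℕ)*k2^(12:ℕ) + (75619791000 : R)*p^(2:ℕ)*q^(4:ℕ)*k1^(2:ℕ)*k2^(11:ℕ)
    + (221818053600 : R)*p^(2:ℕ)*q^(4:ℕ)*k1^(3:ℕ)*k2^(10:ℕ) + (352892358000 : R)*p^(2:ℕ)*q^(4:ℕ)*k1^(4:ℕ)*k2^(9:ℕ) + (317603122200 : R)*p^(2:ℕ)*q^(4:ℕ)*k1^(5:ℕ)*k2^(8:ℕ) + (162873396000 : R)*p^(2:ℕ)*q^(4:ℕ)*k1^(6:ℕ)*k2^(7:ℕ)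
    + (46535256000 : R)*p^(2:ℕ)*q^(4:ℕ)*k1^(7:ℕ)*k2^(6:ℕ) + (6980288400 : R)*p^(2:ℕ)*q^(4:ℕ)*k1^(8:ℕ)*k2^(5:ℕ) + (484742250 : R)*p^(2:ℕ)*q^(4:ℕ)*k1^(9:ℕ)*k2^(4:ℕ) + (11405700 : R)*p^(2:ℕ)*q^(4:ℕ)*k1^(10:ℕ)*k2^(3:ℕ)

def L6_14 (p q k1 k2 : R) : R :=
      (-145422675 : R)*p^(6:ℕ)*k1^(14:ℕ) + (-145422675 : R)*q^(6:ℕ)*k2^(14:ℕ) + (-1066432950 : R)*p^(5:ℕ)*q^(1:ℕ)*k1^(9:ℕ)*k2^(5:ℕ) + (-8531463600 : R)*p^(5:ℕ)*q^(1:ℕ)*k1^(10:ℕ)*k2^(4:ℕ)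
    + (-23267628000 : R)*p^(5:ℕ)*q^(1:ℕ)*k1^(11:ℕ)*k2^(3:ℕ) + (-27145566000 : R)*p^(5:ℕ)*q^(1:ℕ)*k1^(12:ℕ)*k2^(2:ℕ) + (-13572783000 : R)*p^(5:ℕ)*q^(1:ℕ)*k1^(13:ℕ)*k2^(1:ℕ) + (-2326762800 : R)*p^(5:ℕ)*q^(1:ℕ)*k1^(14:ℕ)
    + (2326762800 : R)*p^(1:ℕ)*q^(5:ℕ)*k2^(14:ℕ) + (13572783000 : R)*p^(1:ℕ)*q^(5:ℕ)*k1^(1:ℕ)*k2^(13:ℕ) + (27145566000 : R)*p^(1:ℕ)*q^(5:ℕ)*k1^(2:ℕ)*k2^(12:ℕ) + (23267628000 : R)*p^(1:ℕ)*q^(5:ℕ)*k1^(3:ℕ)*k2^(11:ℕ)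
    + (8531463600 : R)*p^(1:ℕ)*q^(5:ℕ)*k1^(4:ℕ)*k2^(10:ℕ) + (1066432950 : R)*p^(1:ℕ)*q^(5:ℕ)*k1^(5:ℕ)*k2^(9:ℕ) + (48474225 : R)*p^(4:ℕ)*q^(2:ℕ)*k1^(4:ℕ)*k2^(10:ℕ) + (1551175200 : R)*p^(4:ℕ)*q^(2:ℕ)*k1^(5:ℕ)*k2^(9:ℕ)
    + (17450721000 : R)*p^(4:ℕ)*q^(2:ℕ)*k1^(6:ℕ)*k2^(8:ℕ) + (93070512000 : R)*p^(4:ℕ)*q^(2:ℕ)*k1^(7:ℕ)*k2^(7:ℕ) + (264669268500 : R)*p^(4:ℕ)*q^(2:ℕ)*k1^(8:ℕ)*k2^(6:ℕ) + (423470829600 : R)*p^(4:ℕ)*q^(2:ℕ)*k1^(9:ℕ)*k2^(5:ℕ)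
    + (388181593800 : R)*p^(4:ℕ)*q^(2:ℕ)*k1^(10:ℕ)*k2^(4:ℕ) + (201652776000 : R)*p^(4:ℕ)*q^(2:ℕ)*k1^(11:ℕ)*k2^(3:ℕ) + (56714843250 : R)*p^(4:ℕ)*q^(2:ℕ)*k1^(12:ℕ)*k2^(2:ℕ) + (7755876000 : R)*p^(4:ℕ)*q^(2:ℕ)*k1^(13:ℕ)*k2^(1:ℕ)
    + (387793800 : R)*p^(4:ℕ)*q^(2:ℕ)*k1^(14:ℕ) + (387793800 : R)*p^(2:ℕ)*q^(4:ℕ)*k2^(14:ℕ) + (7755876000 : R)*p^(2:ℕ)*q^(4:ℕ)*k1^(1:ℕ)*k2^(13:ℕ) + (56714843250 : R)*p^(2:ℕ)*q^(4:ℕ)*k1^(2:ℕ)*k2^(12:ℕ)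
    + (201652776000 : R)*p^(2:ℕ)*q^(4:ℕ)*k1^(3:ℕ)*k2^(11:ℕ) + (388181593800 : R)*p^(2:ℕ)*q^(4:ℕ)*k1^(4:ℕ)*k2^(10:ℕ) + (423470829600 : R)*p^(2:ℕ)*q^(4:ℕ)*k1^(5:ℕ)*k2^(9:ℕ) + (264669268500 : R)*p^(2:ℕ)*q^(4:ℕ)*k1^(6:ℕ)*k2^(8:ℕ)
    + (93070512000 : R)*p^(2:ℕ)*q^(4:ℕ)*k1^(7:ℕ)*k2^(7:ℕ) + (17450721000 : R)*p^(2:ℕ)*q^(4:ℕ)*k1^(8:ℕ)*k2^(6:ℕ) + (1551175200 : R)*p^(2:ℕ)*q^(4:ℕ)*k1^(9:ℕ)*k2^(5:ℕ) + (48474225 : R)*p^(2:ℕ)*q^(4:ℕ)*k1^(10:ℕ)*k2^(4:ℕ)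

def L6_15 (p q k1 k2 : R) : R :=
      (-155117520 : R)*p^(6:ℕ)*k1^(15:ℕ) + (-155117520 : R)*q^(6:ℕ)*k2^(15:ℕ) + (-1706292720 : R)*p^(5:ℕ)*q^(1:ℕ)*k1^(10:ℕ)*k2^(5:ℕ) + (-11633814000 : R)*p^(5:ℕ)*q^(1:ℕ)*k1^(11:ℕ)*k2^(4:ℕ)
    + (-27145566000 : R)*p^(5:ℕ)*q^(1:ℕ)*k1^(12:ℕ)*k2^(3:ℕ) + (-27145566000 : R)*p^(5:ℕ)*q^(1:ℕ)*k1^(13:ℕ)*k2^(2:ℕ) + (-11633814000 : R)*p^(5:ℕ)*q^(1:ℕ)*k1^(14:ℕ)*k2^(1:ℕ) + (-1706292720 : R)*p^(5:ℕ)*q^(1:ℕ)*k1^(15:ℕ)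
    + (1706292720 : R)*p^(1:ℕ)*q^(5:ℕ)*k2^(15:ℕ) + (11633814000 : R)*p^(1:ℕ)*q^(5:ℕ)*k1^(1:ℕ)*k2^(14:ℕ) + (27145566000 : R)*p^(1:ℕ)*q^(5:ℕ)*k1^(2:ℕ)*k2^(13:ℕ) + (27145566000 : R)*p^(1:ℕ)*q^(5:ℕ)*k1^(3:ℕ)*k2^(12:ℕ)
    + (11633814000 : R)*p^(1:ℕ)*q^(5:ℕ)*k1^(4:ℕ)*k2^(11:ℕ) + (1706292720 : R)*p^(1:ℕ)*q^(5:ℕ)*k1^(5:ℕ)*k2^(10:ℕ) + (155117520 : R)*p^(4:ℕ)*q^(2:ℕ)*k1^(5:ℕ)*k2^(10:ℕ) + (3877938000 : R)*p^(4:ℕ)*q^(2:ℕ)*k1^(6:ℕ)*k2^(9:ℕ)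
    + (34901442000 : R)*p^(4:ℕ)*q^(2:ℕ)*k1^(7:ℕ)*k2^(8:ℕ) + (151239582000 : R)*p^(4:ℕ)*q^(2:ℕ)*k1^(8:ℕ)*k2^(7:ℕ) + (352892358000 : R)*p^(4:ℕ)*q^(2:ℕ)*k1^(9:ℕ)*k2^(6:ℕ) + (465817912560 : R)*p^(4:ℕ)*q^(2:ℕ)*k1^(10:ℕ)*k2^(5:ℕ)
    + (352892358000 : R)*p^(4:ℕ)*q^(2:ℕ)*k1^(11:ℕ)*k2^(4:ℕ) + (151239582000 : R)*p^(4:ℕ)*q^(2:ℕ)*k1^(12:ℕ)*k2^(3:ℕ) + (34901442000 : R)*p^(4:ℕ)*q^(2:ℕ)*k1^(13:ℕ)*k2^(2:ℕ) + (3877938000 : R)*p^(4:ℕ)*q^(2:ℕ)*k1^(14:ℕ)*k2^(1:ℕ)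
    + (155117520 : R)*p^(4:ℕ)*q^(2:ℕ)*k1^(15:ℕ) + (155117520 : R)*p^(2:ℕ)*q^(4:ℕ)*k2^(15:ℕ) + (3877938000 : R)*p^(2:ℕ)*q^(4:ℕ)*k1^(1:ℕ)*k2^(14:ℕ) + (34901442000 : R)*p^(2:ℕ)*q^(4:ℕ)*k1^(2:ℕ)*k2^(13:ℕ)
    + (151239582000 : R)*p^(2:ℕ)*q^(4:ℕ)*k1^(3:ℕ)*k2^(12:ℕ) + (352892358000 : R)*p^(2:ℕ)*q^(4:ℕ)*k1^(4:ℕ)*k2^(11:ℕ) + (465817912560 : R)*p^(2:ℕ)*q^(4:ℕ)*k1^(5:ℕ)*k2^(10:ℕ) + (352892358000 : R)*p^(2:ℕ)*q^(4:ℕ)*k1^(6:ℕ)*k2^(9:ℕ)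
    + (151239582000 : R)*p^(2:ℕ)*q^(4:ℕ)*k1^(7:ℕ)*k2^(8:ℕ) + (34901442000 : R)*p^(2:ℕ)*q^(4:ℕ)*k1^(8:ℕ)*k2^(7:ℕ) + (3877938000 : R)*p^(2:ℕ)*q^(4:ℕ)*k1^(9:ℕ)*k2^(6:ℕ) + (155117520 : R)*p^(2:ℕ)*q^(4:ℕ)*k1^(10:ℕ)*k2^(5:ℕ)

def L6_16 (p q k1 k2 : R) : R :=
      (-145422675 : R)*p^(6:ℕ)*k1^(16:ℕ) + (-145422675 : R)*q^(6:ℕ)*k2^(16:ℕ) + (-2326762800 : R)*p^(5:ℕ)*q^(1:ℕ)*k1^(11:ℕ)*k2^(5:ℕ) + (-13572783000 : R)*p^(5:ℕ)*q^(1:ℕ)*k1^(12:ℕ)*k2^(4:ℕ)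
    + (-27145566000 : R)*p^(5:ℕ)*q^(1:ℕ)*k1^(13:ℕ)*k2^(3:ℕ) + (-23267628000 : R)*p^(5:ℕ)*q^(1:ℕ)*k1^(14:ℕ)*k2^(2:ℕ) + (-8531463600 : R)*p^(5:ℕ)*q^(1:ℕ)*k1^(15:ℕ)*k2^(1:ℕ) + (-1066432950 : R)*p^(5:ℕ)*q^(1:ℕ)*k1^(16:ℕ)
    + (1066432950 : R)*p^(1:ℕ)*q^(5:ℕ)*k2^(16:ℕ) + (8531463600 : R)*p^(1:ℕ)*q^(5:ℕ)*k1^(1:ℕ)*k2^(15:ℕ) + (23267628000 : R)*p^(1:ℕ)*q^(5:ℕ)*k1^(2:ℕ)*k2^(14:ℕ) + (27145566000 : R)*p^(1:ℕ)*q^(5:ℕ)*k1^(3:ℕ)*k2^(13:ℕ)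
    + (13572783000 : R)*p^(1:ℕ)*q^(5:ℕ)*k1^(4:ℕ)*k2^(12:ℕ) + (2326762800 : R)*p^(1:ℕ)*q^(5:ℕ)*k1^(5:ℕ)*k2^(11:ℕ) + (387793800 : R)*p^(4:ℕ)*q^(2:ℕ)*k1^(6:ℕ)*k2^(10:ℕ) + (7755876000 : R)*p^(4:ℕ)*q^(2:ℕ)*k1^(7:ℕ)*k2^(9:ℕ)
    + (56714843250 : R)*p^(4:ℕ)*q^(2:ℕ)*k1^(8:ℕ)*k2^(8:ℕ) + (201652776000 : R)*p^(4:ℕ)*q^(2:ℕ)*k1^(9:ℕ)*k2^(7:ℕ) + (388181593800 : R)*p^(4:ℕ)*q^(2:ℕ)*k1^(10:ℕ)*k2^(6:ℕ) + (423470829600 : R)*p^(4:ℕ)*q^(2:ℕ)*k1^(11:ℕ)*k2^(5:ℕ)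
    + (264669268500 : R)*p^(4:ℕ)*q^(2:ℕ)*k1^(12:ℕ)*k2^(4:ℕ) + (93070512000 : R)*p^(4:ℕ)*q^(2:ℕ)*k1^(13:ℕ)*k2^(3:ℕ) + (17450721000 : R)*p^(4:ℕ)*q^(2:ℕ)*k1^(14:ℕ)*k2^(2:ℕ) + (1551175200 : R)*p^(4:ℕ)*q^(2:ℕ)*k1^(15:ℕ)*k2^(1:ℕ)
    + (48474225 : R)*p^(4:ℕ)*q^(2:ℕ)*k1^(16:ℕ) + (48474225 : R)*p^(2:ℕ)*q^(4:ℕ)*k2^(16:ℕ) + (1551175200 : R)*p^(2:ℕ)*q^(4:ℕ)*k1^(1:ℕ)*k2^(15:ℕ) + (17450721000 : R)*p^(2:ℕ)*q^(4:ℕ)*k1^(2:ℕ)*k2^(14:ℕ)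
    + (93070512000 : R)*p^(2:ℕ)*q^(4:ℕ)*k1^(3:ℕ)*k2^(13:ℕ) + (264669268500 : R)*p^(2:ℕ)*q^(4:ℕ)*k1^(4:ℕ)*k2^(12:ℕ) + (423470829600 : R)*p^(2:ℕ)*q^(4:ℕ)*k1^(5:ℕ)*k2^(11:ℕ) + (388181593800 : R)*p^(2:ℕ)*q^(4:ℕ)*k1^(6:ℕ)*k2^(10:ℕ)
    + (201652776000 : R)*p^(2:ℕ)*q^(4:ℕ)*k1^(7:ℕ)*k2^(9:ℕ) + (56714843250 : R)*p^(2:ℕ)*q^(4:ℕ)*k1^(8:ℕ)*k2^(8:ℕ) + (7755876000 : R)*p^(2:ℕ)*q^(4:ℕ)*k1^(9:ℕ)*k2^(7:ℕ) + (387793800 : R)*p^(2:ℕ)*q^(4:ℕ)*k1^(10:ℕ)*k2^(6:ℕ)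

def L6_17 (p q k1 k2 : R) : R :=
      (-119759850 : R)*p^(6:ℕ)*k1^(17:ℕ) + (-119759850 : R)*q^(6:ℕ)*k2^(17:ℕ) + (-2714556600 : R)*p^(5:ℕ)*q^(1:ℕ)*k1^(12:ℕ)*k2^(5:ℕ) + (-13572783000 : R)*p^(5:ℕ)*q^(1:ℕ)*k1^(13:ℕ)*k2^(4:ℕ)
    + (-23267628000 : R)*p^(5:ℕ)*q^(1:ℕ)*k1^(14:ℕ)*k2^(3:ℕ) + (-17062927200 : R)*p^(5:ℕ)*q^(1:ℕ)*k1^(15:ℕ)*k2^(2:ℕ) + (-5332164750 : R)*p^(5:ℕ)*q^(1:ℕ)*k1^(16:ℕ)*k2^(1:ℕ) + (-564582150 : R)*p^(5:ℕ)*q^(1:ℕ)*k1^(17:ℕ)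
    + (564582150 : R)*p^(1:ℕ)*q^(5:ℕ)*k2^(17:ℕ) + (5332164750 : R)*p^(1:ℕ)*q^(5:ℕ)*k1^(1:ℕ)*k2^(16:ℕ) + (17062927200 : R)*p^(1:ℕ)*q^(5:ℕ)*k1^(2:ℕ)*k2^(15:ℕ) + (23267628000 : R)*p^(1:ℕ)*q^(5:ℕ)*k1^(3:ℕ)*k2^(14:ℕ)
    + (13572783000 : R)*p^(1:ℕ)*q^(5:ℕ)*k1^(4:ℕ)*k2^(13:ℕ) + (2714556600 : R)*p^(1:ℕ)*q^(5:ℕ)*k1^(5:ℕ)*k2^(12:ℕ) + (775587600 : R)*p^(4:ℕ)*q^(2:ℕ)*k1^(7:ℕ)*k2^(10:ℕ) + (12603298500 : R)*p^(4:ℕ)*q^(2:ℕ)*k1^(8:ℕ)*k2^(9:ℕ)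
    + (75619791000 : R)*p^(4:ℕ)*q^(2:ℕ)*k1^(9:ℕ)*k2^(8:ℕ) + (221818053600 : R)*p^(4:ℕ)*q^(2:ℕ)*k1^(10:ℕ)*k2^(7:ℕ) + (352892358000 : R)*p^(4:ℕ)*q^(2:ℕ)*k1^(11:ℕ)*k2^(6:ℕ) + (317603122200 : R)*p^(4:ℕ)*q^(2:ℕ)*k1^(12:ℕ)*k2^(5:ℕ)
    + (162873396000 : R)*p^(4:ℕ)*q^(2:ℕ)*k1^(13:ℕ)*k2^(4:ℕ) + (46535256000 : R)*p^(4:ℕ)*q^(2:ℕ)*k1^(14:ℕ)*k2^(3:ℕ) + (6980288400 : R)*p^(4:ℕ)*q^(2:ℕ)*k1^(15:ℕ)*k2^(2:ℕ) + (484742250 : R)*p^(4:ℕ)*q^(2:ℕ)*k1^(16:ℕ)*k2^(1:ℕ)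
    + (11405700 : R)*p^(4:ℕ)*q^(2:ℕ)*k1^(17:ℕ) + (11405700 : R)*p^(2:ℕ)*q^(4:ℕ)*k2^(17:ℕ) + (484742250 : R)*p^(2:ℕ)*q^(4:ℕ)*k1^(1:ℕ)*k2^(16:ℕ) + (6980288400 : R)*p^(2:ℕ)*q^(4:ℕ)*k1^(2:ℕ)*k2^(15:ℕ)
    + (46535256000 : R)*p^(2:ℕ)*q^(4:ℕ)*k1^(3:ℕ)*k2^(14:ℕ) + (162873396000 : R)*p^(2:ℕ)*q^(4:ℕ)*k1^(4:ℕ)*k2^(13:ℕ) + (317603122200 : R)*p^(2:ℕ)*q^(4:ℕ)*k1^(5:ℕ)*k2^(12:ℕ) + (352892358000 : R)*p^(2:ℕ)*q^(4:ℕ)*k1^(6:ℕ)*k2^(11:ℕ)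
    + (221818053600 : R)*p^(2:ℕ)*q^(4:ℕ)*k1^(7:ℕ)*k2^(10:ℕ) + (75619791000 : R)*p^(2:ℕ)*q^(4:ℕ)*k1^(8:ℕ)*k2^(9:ℕ) + (12603298500 : R)*p^(2:ℕ)*q^(4:ℕ)*k1^(9:ℕ)*k2^(8:ℕ) + (775587600 : R)*p^(2:ℕ)*q^(4:ℕ)*k1^(10:ℕ)*k2^(7:ℕ)

def L6_18 (p q k1 k2 : R) : R :=
      (-86493225 : R)*p^(6:ℕ)*k1^(18:ℕ) + (-86493225 : R)*q^(6:ℕ)*k2^(18:ℕ) + (-2714556600 : R)*p^(5:ℕ)*q^(1:ℕ)*k1^(13:ℕ)*k2^(5:ℕ) + (-11633814000 : R)*p^(5:ℕ)*q^(1:ℕ)*k1^(14:ℕ)*k2^(4:ℕ)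
    + (-17062927200 : R)*p^(5:ℕ)*q^(1:ℕ)*k1^(15:ℕ)*k2^(3:ℕ) + (-10664329500 : R)*p^(5:ℕ)*q^(1:ℕ)*k1^(16:ℕ)*k2^(2:ℕ) + (-2822910750 : R)*p^(5:ℕ)*q^(1:ℕ)*k1^(17:ℕ)*k2^(1:ℕ) + (-250925400 : R)*p^(5:ℕ)*q^(1:ℕ)*k1^(18:ℕ)
    + (250925400 : R)*p^(1:ℕ)*q^(5:ℕ)*k2^(18:ℕ) + (2822910750 : R)*p^(1:ℕ)*q^(5:ℕ)*k1^(1:ℕ)*k2^(17:ℕ) + (10664329500 : R)*p^(1:ℕ)*q^(5:ℕ)*k1^(2:ℕ)*k2^(16:ℕ) + (17062927200 : R)*p^(1:ℕ)*q^(5:ℕ)*k1^(3:ℕ)*k2^(15:ℕ)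
    + (11633814000 : R)*p^(1:ℕ)*q^(5:ℕ)*k1^(4:ℕ)*k2^(14:ℕ) + (2714556600 : R)*p^(1:ℕ)*q^(5:ℕ)*k1^(5:ℕ)*k2^(13:ℕ) + (1260329850 : R)*p^(4:ℕ)*q^(2:ℕ)*k1^(8:ℕ)*k2^(10:ℕ) + (16804398000 : R)*p^(4:ℕ)*q^(2:ℕ)*k1^(9:ℕ)*k2^(9:ℕ)
    + (83181770100 : R)*p^(4:ℕ)*q^(2:ℕ)*k1^(10:ℕ)*k2^(8:ℕ) + (201652776000 : R)*p^(4:ℕ)*q^(2:ℕ)*k1^(11:ℕ)*k2^(7:ℕ) + (264669268500 : R)*p^(4:ℕ)*q^(2:ℕ)*k1^(12:ℕ)*k2^(6:ℕ) + (195448075200 : R)*p^(4:ℕ)*q^(2:ℕ)*k1^(13:ℕ)*k2^(5:ℕ)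
    + (81436698000 : R)*p^(4:ℕ)*q^(2:ℕ)*k1^(14:ℕ)*k2^(4:ℕ) + (18614102400 : R)*p^(4:ℕ)*q^(2:ℕ)*k1^(15:ℕ)*k2^(3:ℕ) + (2181340125 : R)*p^(4:ℕ)*q^(2:ℕ)*k1^(16:ℕ)*k2^(2:ℕ) + (114057000 : R)*p^(4:ℕ)*q^(2:ℕ)*k1^(17:ℕ)*k2^(1:ℕ)
    + (1900950 : R)*p^(4:ℕ)*q^(2:ℕ)*k1^(18:ℕ) + (1900950 : R)*p^(2:ℕ)*q^(4:ℕ)*k2^(18:ℕ) + (114057000 : R)*p^(2:ℕ)*q^(4:ℕ)*k1^(1:ℕ)*k2^(17:ℕ) + (2181340125 : R)*p^(2:ℕ)*q^(4:ℕ)*k1^(2:ℕ)*k2^(16:ℕ)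
    + (18614102400 : R)*p^(2:ℕ)*q^(4:ℕ)*k1^(3:ℕ)*k2^(15:ℕ) + (81436698000 : R)*p^(2:ℕ)*q^(4:ℕ)*k1^(4:ℕ)*k2^(14:ℕ) + (195448075200 : R)*p^(2:ℕ)*q^(4:ℕ)*k1^(5:ℕ)*k2^(13:ℕ) + (264669268500 : R)*p^(2:ℕ)*q^(4:ℕ)*k1^(6:ℕ)*k2^(12:ℕ)
    + (201652776000 : R)*p^(2:ℕ)*q^(4:ℕ)*k1^(7:ℕ)*k2^(11:ℕ) + (83181770100 : R)*p^(2:ℕ)*q^(4:ℕ)*k1^(8:ℕ)*k2^(10:ℕ) + (16804398000 : R)*p^(2:ℕ)*q^(4:ℕ)*k1^(9:ℕ)*k2^(9:ℕ) + (1260329850 : R)*p^(2:ℕ)*q^(4:ℕ)*k1^(10:ℕ)*k2^(8:ℕ)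

def L6_19 (p q k1 k2 : R) : R :=
      (-54627300 : R)*p^(6:ℕ)*k1^(19:ℕ) + (-54627300 : R)*q^(6:ℕ)*k2^(19:ℕ) + (-2326762800 : R)*p^(5:ℕ)*q^(1:ℕ)*k1^(14:ℕ)*k2^(5:ℕ) + (-8531463600 : R)*p^(5:ℕ)*q^(1:ℕ)*k1^(15:ℕ)*k2^(4:ℕ)
    + (-10664329500 : R)*p^(5:ℕ)*q^(1:ℕ)*k1^(16:ℕ)*k2^(3:ℕ) + (-5645821500 : R)*p^(5:ℕ)*q^(1:ℕ)*k1^(17:ℕ)*k2^(2:ℕ) + (-1254627000 : R)*p^(5:ℕ)*q^(1:ℕ)*k1^(18:ℕ)*k2^(1:ℕ) + (-92446200 : R)*p^(5:ℕ)*q^(1:ℕ)*k1^(19:ℕ)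
    + (92446200 : R)*p^(1:ℕ)*q^(5:ℕ)*k2^(19:ℕ) + (1254627000 : R)*p^(1:ℕ)*q^(5:ℕ)*k1^(1:ℕ)*k2^(18:ℕ) + (5645821500 : R)*p^(1:ℕ)*q^(5:ℕ)*k1^(2:ℕ)*k2^(17:ℕ) + (10664329500 : R)*p^(1:ℕ)*q^(5:ℕ)*k1^(3:ℕ)*k2^(16:ℕ)
    + (8531463600 : R)*p^(1:ℕ)*q^(5:ℕ)*k1^(4:ℕ)*k2^(15:ℕ) + (2326762800 : R)*p^(1:ℕ)*q^(5:ℕ)*k1^(5:ℕ)*k2^(14:ℕ) + (1680439800 : R)*p^(4:ℕ)*q^(2:ℕ)*k1^(9:ℕ)*k2^(10:ℕ) + (18484837800 : R)*p^(4:ℕ)*q^(2:ℕ)*k1^(10:ℕ)*k2^(9:ℕ)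
    + (75619791000 : R)*p^(4:ℕ)*q^(2:ℕ)*k1^(11:ℕ)*k2^(8:ℕ) + (151239582000 : R)*p^(4:ℕ)*q^(2:ℕ)*k1^(12:ℕ)*k2^(7:ℕ) + (162873396000 : R)*p^(4:ℕ)*q^(2:ℕ)*k1^(13:ℕ)*k2^(6:ℕ) + (97724037600 : R)*p^(4:ℕ)*q^(2:ℕ)*k1^(14:ℕ)*k2^(5:ℕ)
    + (32574679200 : R)*p^(4:ℕ)*q^(2:ℕ)*k1^(15:ℕ)*k2^(4:ℕ) + (5816907000 : R)*p^(4:ℕ)*q^(2:ℕ)*k1^(16:ℕ)*k2^(3:ℕ) + (513256500 : R)*p^(4:ℕ)*q^(2:ℕ)*k1^(17:ℕ)*k2^(2:ℕ) + (19009500 : R)*p^(4:ℕ)*q^(2:ℕ)*k1^(18:ℕ)*k2^(1:ℕ)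
    + (200100 : R)*p^(4:ℕ)*q^(2:ℕ)*k1^(19:ℕ) + (200100 : R)*p^(2:ℕ)*q^(4:ℕ)*k2^(19:ℕ) + (19009500 : R)*p^(2:ℕ)*q^(4:ℕ)*k1^(1:ℕ)*k2^(18:ℕ) + (513256500 : R)*p^(2:ℕ)*q^(4:ℕ)*k1^(2:ℕ)*k2^(17:ℕ)
    + (5816907000 : R)*p^(2:ℕ)*q^(4:ℕ)*k1^(3:ℕ)*k2^(16:ℕ) + (32574679200 : R)*p^(2:ℕ)*q^(4:ℕ)*k1^(4:ℕ)*k2^(15:ℕ) + (97724037600 : R)*p^(2:ℕ)*q^(4:ℕ)*k1^(5:ℕ)*k2^(14:ℕ) + (162873396000 : R)*p^(2:ℕ)*q^(4:ℕ)*k1^(6:ℕ)*k2^(13:ℕ)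
    + (151239582000 : R)*p^(2:ℕ)*q^(4:ℕ)*k1^(7:ℕ)*k2^(12:ℕ) + (75619791000 : R)*p^(2:ℕ)*q^(4:ℕ)*k1^(8:ℕ)*k2^(11:ℕ) + (18484837800 : R)*p^(2:ℕ)*q^(4:ℕ)*k1^(9:ℕ)*k2^(10:ℕ) + (1680439800 : R)*p^(2:ℕ)*q^(4:ℕ)*k1^(10:ℕ)*k2^(9:ℕ)

def L6_20 (p q k1 k2 : R) : R :=
      (-30045015 : R)*p^(6:ℕ)*k1^(20:ℕ) + (-30045015 : R)*q^(6:ℕ)*k2^(20:ℕ) + (-1706292720 : R)*p^(5:ℕ)*q^(1:ℕ)*k1^(15:ℕ)*k2^(5:ℕ) + (-5332164750 : R)*p^(5:ℕ)*q^(1:ℕ)*k1^(16:ℕ)*k2^(4:ℕ)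
    + (-5645821500 : R)*p^(5:ℕ)*q^(1:ℕ)*k1^(17:ℕ)*k2^(3:ℕ) + (-2509254000 : R)*p^(5:ℕ)*q^(1:ℕ)*k1^(18:ℕ)*k2^(2:ℕ) + (-462231000 : R)*p^(5:ℕ)*q^(1:ℕ)*k1^(19:ℕ)*k2^(1:ℕ) + (-27733860 : R)*p^(5:ℕ)*q^(1:ℕ)*k1^(20:ℕ)
    + (27733860 : R)*p^(1:ℕ)*q^(5:ℕ)*k2^(20:ℕ) + (462231000 : R)*p^(1:ℕ)*q^(5:ℕ)*k1^(1:ℕ)*k2^(19:ℕ) + (2509254000 : R)*p^(1:ℕ)*q^(5:ℕ)*k1^(2:ℕ)*k2^(18:ℕ) + (5645821500 : R)*p^(1:ℕ)*q^(5:ℕ)*k1^(3:ℕ)*k2^(17:ℕ)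
    + (5332164750 : R)*p^(1:ℕ)*q^(5:ℕ)*k1^(4:ℕ)*k2^(16:ℕ) + (1706292720 : R)*p^(1:ℕ)*q^(5:ℕ)*k1^(5:ℕ)*k2^(15:ℕ) + (1848483780 : R)*p^(4:ℕ)*q^(2:ℕ)*k1^(10:ℕ)*k2^(10:ℕ) + (16804398000 : R)*p^(4:ℕ)*q^(2:ℕ)*k1^(11:ℕ)*k2^(9:ℕ)
    + (56714843250 : R)*p^(4:ℕ)*q^(2:ℕ)*k1^(12:ℕ)*k2^(8:ℕ) + (93070512000 : R)*p^(4:ℕ)*q^(2:ℕ)*k1^(13:ℕ)*k2^(7:ℕ) + (81436698000 : R)*p^(4:ℕ)*q^(2:ℕ)*k1^(14:ℕ)*k2^(6:ℕ) + (39089615040 : R)*p^(4:ℕ)*q^(2:ℕ)*k1^(15:ℕ)*k2^(5:ℕ)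
    + (10179587250 : R)*p^(4:ℕ)*q^(2:ℕ)*k1^(16:ℕ)*k2^(4:ℕ) + (1368684000 : R)*p^(4:ℕ)*q^(2:ℕ)*k1^(17:ℕ)*k2^(3:ℕ) + (85542750 : R)*p^(4:ℕ)*q^(2:ℕ)*k1^(18:ℕ)*k2^(2:ℕ) + (2001000 : R)*p^(4:ℕ)*q^(2:ℕ)*k1^(19:ℕ)*k2^(1:ℕ)
    + (10005 : R)*p^(4:ℕ)*q^(2:ℕ)*k1^(20:ℕ) + (10005 : R)*p^(2:ℕ)*q^(4:ℕ)*k2^(20:ℕ) + (2001000 : R)*p^(2:ℕ)*q^(4:ℕ)*k1^(1:ℕ)*k2^(19:ℕ) + (85542750 : R)*p^(2:ℕ)*q^(4:ℕ)*k1^(2:ℕ)*k2^(18:ℕ)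
    + (1368684000 : R)*p^(2:ℕ)*q^(4:ℕ)*k1^(3:ℕ)*k2^(17:ℕ) + (10179587250 : R)*p^(2:ℕ)*q^(4:ℕ)*k1^(4:ℕ)*k2^(16:ℕ) + (39089615040 : R)*p^(2:ℕ)*q^(4:ℕ)*k1^(5:ℕ)*k2^(15:ℕ) + (81436698000 : R)*p^(2:ℕ)*q^(4:ℕ)*k1^(6:ℕ)*k2^(14:ℕ)
    + (93070512000 : R)*p^(2:ℕ)*q^(4:ℕ)*k1^(7:ℕ)*k2^(13:ℕ) + (56714843250 : R)*p^(2:ℕ)*q^(4:ℕ)*k1^(8:ℕ)*k2^(12:ℕ) + (16804398000 : R)*p^(2:ℕ)*q^(4:ℕ)*k1^(9:ℕ)*k2^(11:ℕ) + (1848483780 : R)*p^(2:ℕ)*q^(4:ℕ)*k1^(10:ℕ)*k2^(10:ℕ)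

def L6_21 (p q k1 k2 : R) : R :=
      (-14307150 : R)*p^(6:ℕ)*k1^(21:ℕ) + (-14307150 : R)*q^(6:ℕ)*k2^(21:ℕ) + (-1066432950 : R)*p^(5:ℕ)*q^(1:ℕ)*k1^(16:ℕ)*k2^(5:ℕ) + (-2822910750 : R)*p^(5:ℕ)*q^(1:ℕ)*k1^(17:ℕ)*k2^(4:ℕ)
    + (-2509254000 : R)*p^(5:ℕ)*q^(1:ℕ)*k1^(18:ℕ)*k2^(3:ℕ) + (-924462000 : R)*p^(5:ℕ)*q^(1:ℕ)*k1^(19:ℕ)*k2^(2:ℕ) + (-138669300 : R)*p^(5:ℕ)*q^(1:ℕ)*k1^(20:ℕ)*k2^(1:ℕ) + (-6603300 : R)*p^(5:ℕ)*q^(1:ℕ)*k1^(21:ℕ)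
    + (6603300 : R)*p^(1:ℕ)*q^(5:ℕ)*k2^(21:ℕ) + (138669300 : R)*p^(1:ℕ)*q^(5:ℕ)*k1^(1:ℕ)*k2^(20:ℕ) + (924462000 : R)*p^(1:ℕ)*q^(5:ℕ)*k1^(2:ℕ)*k2^(19:ℕ) + (2509254000 : R)*p^(1:ℕ)*q^(5:ℕ)*k1^(3:ℕ)*k2^(18:ℕ)
    + (2822910750 : R)*p^(1:ℕ)*q^(5:ℕ)*k1^(4:ℕ)*k2^(17:ℕ) + (1066432950 : R)*p^(1:ℕ)*q^(5:ℕ)*k1^(5:ℕ)*k2^(16:ℕ) + (1680439800 : R)*p^(4:ℕ)*q^(2:ℕ)*k1^(11:ℕ)*k2^(10:ℕ) + (12603298500 : R)*p^(4:ℕ)*q^(2:ℕ)*k1^(12:ℕ)*k2^(9:ℕ)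
    + (34901442000 : R)*p^(4:ℕ)*q^(2:ℕ)*k1^(13:ℕ)*k2^(8:ℕ) + (46535256000 : R)*p^(4:ℕ)*q^(2:ℕ)*k1^(14:ℕ)*k2^(7:ℕ) + (32574679200 : R)*p^(4:ℕ)*q^(2:ℕ)*k1^(15:ℕ)*k2^(6:ℕ) + (12215504700 : R)*p^(4:ℕ)*q^(2:ℕ)*k1^(16:ℕ)*k2^(5:ℕ)
    + (2395197000 : R)*p^(4:ℕ)*q^(2:ℕ)*k1^(17:ℕ)*k2^(4:ℕ) + (228114000 : R)*p^(4:ℕ)*q^(2:ℕ)*k1^(18:ℕ)*k2^(3:ℕ) + (9004500 : R)*p^(4:ℕ)*q^(2:ℕ)*k1^(19:ℕ)*k2^(2:ℕ) + (100050 : R)*p^(4:ℕ)*q^(2:ℕ)*k1^(20:ℕ)*k2^(1:ℕ)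
    + (100050 : R)*p^(2:ℕ)*q^(4:ℕ)*k1^(1:ℕ)*k2^(20:ℕ) + (9004500 : R)*p^(2:ℕ)*q^(4:ℕ)*k1^(2:ℕ)*k2^(19:ℕ) + (228114000 : R)*p^(2:ℕ)*q^(4:ℕ)*k1^(3:ℕ)*k2^(18:ℕ) + (2395197000 : R)*p^(2:ℕ)*q^(4:ℕ)*k1^(4:ℕ)*k2^(17:ℕ)
    + (12215504700 : R)*p^(2:ℕ)*q^(4:ℕ)*k1^(5:ℕ)*k2^(16:ℕ) + (32574679200 : R)*p^(2:ℕ)*q^(4:ℕ)*k1^(6:ℕ)*k2^(15:ℕ) + (46535256000 : R)*p^(2:ℕ)*q^(4:ℕ)*k1^(7:ℕ)*k2^(14:ℕ) + (34901442000 : R)*p^(2:ℕ)*q^(4:ℕ)*k1^(8:ℕ)*k2^(13:ℕ)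
    + (12603298500 : R)*p^(2:ℕ)*q^(4:ℕ)*k1^(9:ℕ)*k2^(12:ℕ) + (1680439800 : R)*p^(2:ℕ)*q^(4:ℕ)*k1^(10:ℕ)*k2^(11:ℕ)

def L6_22 (p q k1 k2 : R) : R :=
      (-5852925 : R)*p^(6:ℕ)*k1^(22:ℕ) + (-5852925 : R)*q^(6:ℕ)*k2^(22:ℕ) + (-564582150 : R)*p^(5:ℕ)*q^(1:ℕ)*k1^(17:ℕ)*k2^(5:ℕ) + (-1254627000 : R)*p^(5:ℕ)*q^(1:ℕ)*k1^(18:ℕ)*k2^(4:ℕ)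
    + (-924462000 : R)*p^(5:ℕ)*q^(1:ℕ)*k1^(19:ℕ)*k2^(3:ℕ) + (-277338600 : R)*p^(5:ℕ)*q^(1:ℕ)*k1^(20:ℕ)*k2^(2:ℕ) + (-33016500 : R)*p^(5:ℕ)*q^(1:ℕ)*k1^(21:ℕ)*k2^(1:ℕ) + (-1200600 : R)*p^(5:ℕ)*q^(1:ℕ)*k1^(22:ℕ)
    + (1200600 : R)*p^(1:ℕ)*q^(5:ℕ)*k2^(22:ℕ) + (33016500 : R)*p^(1:ℕ)*q^(5:ℕ)*k1^(1:ℕ)*k2^(21:ℕ) + (277338600 : R)*p^(1:ℕ)*q^(5:ℕ)*k1^(2:ℕ)*k2^(20:ℕ) + (924462000 : R)*p^(1:ℕ)*q^(5:ℕ)*k1^(3:ℕ)*k2^(19:ℕ)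
    + (1254627000 : R)*p^(1:ℕ)*q^(5:ℕ)*k1^(4:ℕ)*k2^(18:ℕ) + (564582150 : R)*p^(1:ℕ)*q^(5:ℕ)*k1^(5:ℕ)*k2^(17:ℕ) + (1260329850 : R)*p^(4:ℕ)*q^(2:ℕ)*k1^(12:ℕ)*k2^(10:ℕ) + (7755876000 : R)*p^(4:ℕ)*q^(2:ℕ)*k1^(13:ℕ)*k2^(9:ℕ)
    + (17450721000 : R)*p^(4:ℕ)*q^(2:ℕ)*k1^(14:ℕ)*k2^(8:ℕ) + (18614102400 : R)*p^(4:ℕ)*q^(2:ℕ)*k1^(15:ℕ)*k2^(7:ℕ) + (10179587250 : R)*p^(4:ℕ)*q^(2:ℕ)*k1^(16:ℕ)*k2^(6:ℕ) + (2874236400 : R)*p^(4:ℕ)*q^(2:ℕ)*k1^(17:ℕ)*k2^(5:ℕ)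
    + (399199500 : R)*p^(4:ℕ)*q^(2:ℕ)*k1^(18:ℕ)*k2^(4:ℕ) + (24012000 : R)*p^(4:ℕ)*q^(2:ℕ)*k1^(19:ℕ)*k2^(3:ℕ) + (450225 : R)*p^(4:ℕ)*q^(2:ℕ)*k1^(20:ℕ)*k2^(2:ℕ) + (450225 : R)*p^(2:ℕ)*q^(4:ℕ)*k1^(2:ℕ)*k2^(20:ℕ)
    + (24012000 : R)*p^(2:ℕ)*q^(4:ℕ)*k1^(3:ℕ)*k2^(19:ℕ) + (399199500 : R)*p^(2:ℕ)*q^(4:ℕ)*k1^(4:ℕ)*k2^(18:ℕ) + (2874236400 : R)*p^(2:ℕ)*q^(4:ℕ)*k1^(5:ℕ)*k2^(17:ℕ) + (10179587250 : R)*p^(2:ℕ)*q^(4:ℕ)*k1^(6:ℕ)*k2^(16:ℕ)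
    + (18614102400 : R)*p^(2:ℕ)*q^(4:ℕ)*k1^(7:ℕ)*k2^(15:ℕ) + (17450721000 : R)*p^(2:ℕ)*q^(4:ℕ)*k1^(8:ℕ)*k2^(14:ℕ) + (7755876000 : R)*p^(2:ℕ)*q^(4:ℕ)*k1^(9:ℕ)*k2^(13:ℕ) + (1260329850 : R)*p^(2:ℕ)*q^(4:ℕ)*k1^(10:ℕ)*k2^(12:ℕ)

def L6_23 (p q k1 k2 : R) : R :=
      (-2035800 : R)*p^(6:ℕ)*k1^(23:ℕ) + (-2035800 : R)*q^(6:ℕ)*k2^(23:ℕ) + (-250925400 : R)*p^(5:ℕ)*q^(1:ℕ)*k1^(18:ℕ)*k2^(5:ℕ) + (-462231000 : R)*p^(5:ℕ)*q^(1:ℕ)*k1^(19:ℕ)*k2^(4:ℕ)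
    + (-277338600 : R)*p^(5:ℕ)*q^(1:ℕ)*k1^(20:ℕ)*k2^(3:ℕ) + (-66033000 : R)*p^(5:ℕ)*q^(1:ℕ)*k1^(21:ℕ)*k2^(2:ℕ) + (-6003000 : R)*p^(5:ℕ)*q^(1:ℕ)*k1^(22:ℕ)*k2^(1:ℕ) + (-156600 : R)*p^(5:ℕ)*q^(1:ℕ)*k1^(23:ℕ)
    + (156600 : R)*p^(1:ℕ)*q^(5:ℕ)*k2^(23:ℕ) + (6003000 : R)*p^(1:ℕ)*q^(5:ℕ)*k1^(1:ℕ)*k2^(22:ℕ) + (66033000 : R)*p^(1:ℕ)*q^(5:ℕ)*k1^(2:ℕ)*k2^(21:ℕ) + (277338600 : R)*p^(1:ℕ)*q^(5:ℕ)*k1^(3:ℕ)*k2^(20:ℕ)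
    + (462231000 : R)*p^(1:ℕ)*q^(5:ℕ)*k1^(4:ℕ)*k2^(19:ℕ) + (250925400 : R)*p^(1:ℕ)*q^(5:ℕ)*k1^(5:ℕ)*k2^(18:ℕ) + (775587600 : R)*p^(4:ℕ)*q^(2:ℕ)*k1^(13:ℕ)*k2^(10:ℕ) + (3877938000 : R)*p^(4:ℕ)*q^(2:ℕ)*k1^(14:ℕ)*k2^(9:ℕ)
    + (6980288400 : R)*p^(4:ℕ)*q^(2:ℕ)*k1^(15:ℕ)*k2^(8:ℕ) + (5816907000 : R)*p^(4:ℕ)*q^(2:ℕ)*k1^(16:ℕ)*k2^(7:ℕ) + (2395197000 : R)*p^(4:ℕ)*q^(2:ℕ)*k1^(17:ℕ)*k2^(6:ℕ) + (479039400 : R)*p^(4:ℕ)*q^(2:ℕ)*k1^(18:ℕ)*k2^(5:ℕ)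
    + (42021000 : R)*p^(4:ℕ)*q^(2:ℕ)*k1^(19:ℕ)*k2^(4:ℕ) + (1200600 : R)*p^(4:ℕ)*q^(2:ℕ)*k1^(20:ℕ)*k2^(3:ℕ) + (1200600 : R)*p^(2:ℕ)*q^(4:ℕ)*k1^(3:ℕ)*k2^(20:ℕ) + (42021000 : R)*p^(2:ℕ)*q^(4:ℕ)*k1^(4:ℕ)*k2^(19:ℕ)
    + (479039400 : R)*p^(2:ℕ)*q^(4:ℕ)*k1^(5:ℕ)*k2^(18:ℕ) + (2395197000 : R)*p^(2:ℕ)*q^(4:ℕ)*k1^(6:ℕ)*k2^(17:ℕ) + (5816907000 : R)*p^(2:ℕ)*q^(4:ℕ)*k1^(7:ℕ)*k2^(16:ℕ) + (6980288400 : R)*p^(2:ℕ)*q^(4:ℕ)*k1^(8:ℕ)*k2^(15:ℕ)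
    + (3877938000 : R)*p^(2:ℕ)*q^(4:ℕ)*k1^(9:ℕ)*k2^(14:ℕ) + (775587600 : R)*p^(2:ℕ)*q^(4:ℕ)*k1^(10:ℕ)*k2^(13:ℕ)

def L6_24 (p q k1 k2 : R) : R :=
      (-593775 : R)*p^(6:ℕ)*k1^(24:ℕ) + (-593775 : R)*q^(6:ℕ)*k2^(24:ℕ) + (-92446200 : R)*p^(5:ℕ)*q^(1:ℕ)*k1^(19:ℕ)*k2^(5:ℕ) + (-138669300 : R)*p^(5:ℕ)*q^(1:ℕ)*k1^(20:ℕ)*k2^(4:ℕ)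
    + (-66033000 : R)*p^(5:ℕ)*q^(1:ℕ)*k1^(21:ℕ)*k2^(3:ℕ) + (-12006000 : R)*p^(5:ℕ)*q^(1:ℕ)*k1^(22:ℕ)*k2^(2:ℕ) + (-783000 : R)*p^(5:ℕ)*q^(1:ℕ)*k1^(23:ℕ)*k2^(1:ℕ) + (-13050 : R)*p^(5:ℕ)*q^(1:ℕ)*k1^(24:ℕ)
    + (13050 : R)*p^(1:ℕ)*q^(5:ℕ)*k2^(24:ℕ) + (783000 : R)*p^(1:ℕ)*q^(5:ℕ)*k1^(1:ℕ)*k2^(23:ℕ) + (12006000 : R)*p^(1:ℕ)*q^(5:ℕ)*k1^(2:ℕ)*k2^(22:ℕ) + (66033000 : R)*p^(1:ℕ)*q^(5:ℕ)*k1^(3:ℕ)*k2^(21:ℕ)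
    + (138669300 : R)*p^(1:ℕ)*q^(5:ℕ)*k1^(4:ℕ)*k2^(20:ℕ) + (92446200 : R)*p^(1:ℕ)*q^(5:ℕ)*k1^(5:ℕ)*k2^(19:ℕ) + (387793800 : R)*p^(4:ℕ)*q^(2:ℕ)*k1^(14:ℕ)*k2^(10:ℕ) + (1551175200 : R)*p^(4:ℕ)*q^(2:ℕ)*k1^(15:ℕ)*k2^(9:ℕ)
    + (2181340125 : R)*p^(4:ℕ)*q^(2:ℕ)*k1^(16:ℕ)*k2^(8:ℕ) + (1368684000 : R)*p^(4:ℕ)*q^(2:ℕ)*k1^(17:ℕ)*k2^(7:ℕ) + (399199500 : R)*p^(4:ℕ)*q^(2:ℕ)*k1^(18:ℕ)*k2^(6:ℕ) + (50425200 : R)*p^(4:ℕ)*q^(2:ℕ)*k1^(19:ℕ)*k2^(5:ℕ)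
    + (2101050 : R)*p^(4:ℕ)*q^(2:ℕ)*k1^(20:ℕ)*k2^(4:ℕ) + (2101050 : R)*p^(2:ℕ)*q^(4:ℕ)*k1^(4:ℕ)*k2^(20:ℕ) + (50425200 : R)*p^(2:ℕ)*q^(4:ℕ)*k1^(5:ℕ)*k2^(19:ℕ) + (399199500 : R)*p^(2:ℕ)*q^(4:ℕ)*k1^(6:ℕ)*k2^(18:ℕ)
    + (1368684000 : R)*p^(2:ℕ)*q^(4:ℕ)*k1^(7:ℕ)*k2^(17:ℕ) + (2181340125 : R)*p^(2:ℕ)*q^(4:ℕ)*k1^(8:ℕ)*k2^(16:ℕ) + (1551175200 : R)*p^(2:ℕ)*q^(4:ℕ)*k1^(9:ℕ)*k2^(15:ℕ) + (387793800 : R)*p^(2:ℕ)*q^(4:ℕ)*k1^(10:ℕ)*k2^(14:ℕ)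

def L6_25 (p q k1 k2 : R) : R :=
      (-142506 : R)*p^(6:ℕ)*k1^(25:ℕ) + (-142506 : R)*q^(6:ℕ)*k2^(25:ℕ) + (-27733860 : R)*p^(5:ℕ)*q^(1:ℕ)*k1^(20:ℕ)*k2^(5:ℕ) + (-33016500 : R)*p^(5:ℕ)*q^(1:ℕ)*k1^(21:ℕ)*k2^(4:ℕ)
    + (-12006000 : R)*p^(5:ℕ)*q^(1:ℕ)*k1^(22:ℕ)*k2^(3:ℕ) + (-1566000 : R)*p^(5:ℕ)*q^(1:ℕ)*k1^(23:ℕ)*k2^(2:ℕ) + (-65250 : R)*p^(5:ℕ)*q^(1:ℕ)*k1^(24:ℕ)*k2^(1:ℕ) + (-522 : R)*p^(5:ℕ)*q^(1:ℕ)*k1^(25:ℕ)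
    + (522 : R)*p^(1:ℕ)*q^(5:ℕ)*k2^(25:ℕ) + (65250 : R)*p^(1:ℕ)*q^(5:ℕ)*k1^(1:ℕ)*k2^(24:ℕ) + (1566000 : R)*p^(1:ℕ)*q^(5:ℕ)*k1^(2:ℕ)*k2^(23:ℕ) + (12006000 : R)*p^(1:ℕ)*q^(5:ℕ)*k1^(3:ℕ)*k2^(22:ℕ)
    + (33016500 : R)*p^(1:ℕ)*q^(5:ℕ)*k1^(4:ℕ)*k2^(21:ℕ) + (27733860 : R)*p^(1:ℕ)*q^(5:ℕ)*k1^(5:ℕ)*k2^(20:ℕ) + (155117520 : R)*p^(4:ℕ)*q^(2:ℕ)*k1^(15:ℕ)*k2^(10:ℕ) + (484742250 : R)*p^(4:ℕ)*q^(2:ℕ)*k1^(16:ℕ)*k2^(9:ℕ)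
    + (513256500 : R)*p^(4:ℕ)*q^(2:ℕ)*k1^(17:ℕ)*k2^(8:ℕ) + (228114000 : R)*p^(4:ℕ)*q^(2:ℕ)*k1^(18:ℕ)*k2^(7:ℕ) + (42021000 : R)*p^(4:ℕ)*q^(2:ℕ)*k1^(19:ℕ)*k2^(6:ℕ) + (2521260 : R)*p^(4:ℕ)*q^(2:ℕ)*k1^(20:ℕ)*k2^(5:ℕ)
    + (2521260 : R)*p^(2:ℕ)*q^(4:ℕ)*k1^(5:ℕ)*k2^(20:ℕ) + (42021000 : R)*p^(2:ℕ)*q^(4:ℕ)*k1^(6:ℕ)*k2^(19:ℕ) + (228114000 : R)*p^(2:ℕ)*q^(4:ℕ)*k1^(7:ℕ)*k2^(18:ℕ) + (513256500 : R)*p^(2:ℕ)*q^(4:ℕ)*k1^(8:ℕ)*k2^(17:ℕ)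
    + (484742250 : R)*p^(2:ℕ)*q^(4:ℕ)*k1^(9:ℕ)*k2^(16:ℕ) + (155117520 : R)*p^(2:ℕ)*q^(4:ℕ)*k1^(10:ℕ)*k2^(15:ℕ)

def L6_26 (p q k1 k2 : R) : R :=
      (-27405 : R)*p^(6:ℕ)*k1^(26:ℕ) + (-27405 : R)*q^(6:ℕ)*k2^(26:ℕ) + (-6603300 : R)*p^(5:ℕ)*q^(1:ℕ)*k1^(21:ℕ)*k2^(5:ℕ) + (-6003000 : R)*p^(5:ℕ)*q^(1:ℕ)*k1^(22:ℕ)*k2^(4:ℕ)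
    + (-1566000 : R)*p^(5:ℕ)*q^(1:ℕ)*k1^(23:ℕ)*k2^(3:ℕ) + (-130500 : R)*p^(5:ℕ)*q^(1:ℕ)*k1^(24:ℕ)*k2^(2:ℕ) + (-2610 : R)*p^(5:ℕ)*q^(1:ℕ)*k1^(25:ℕ)*k2^(1:ℕ) + (2610 : R)*p^(1:ℕ)*q^(5:ℕ)*k1^(1:ℕ)*k2^(25:ℕ)
    + (130500 : R)*p^(1:ℕ)*q^(5:ℕ)*k1^(2:ℕ)*k2^(24:ℕ) + (1566000 : R)*p^(1:ℕ)*q^(5:ℕ)*k1^(3:ℕ)*k2^(23:ℕ) + (6003000 : R)*p^(1:ℕ)*q^(5:ℕ)*k1^(4:ℕ)*k2^(22:ℕ) + (6603300 : R)*p^(1:ℕ)*q^(5:ℕ)*k1^(5:ℕ)*k2^(21:ℕ)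
    + (48474225 : R)*p^(4:ℕ)*q^(2:ℕ)*k1^(16:ℕ)*k2^(10:ℕ) + (114057000 : R)*p^(4:ℕ)*q^(2:ℕ)*k1^(17:ℕ)*k2^(9:ℕ) + (85542750 : R)*p^(4:ℕ)*q^(2:ℕ)*k1^(18:ℕ)*k2^(8:ℕ) + (24012000 : R)*p^(4:ℕ)*q^(2:ℕ)*k1^(19:ℕ)*k2^(7:ℕ)
    + (2101050 : R)*p^(4:ℕ)*q^(2:ℕ)*k1^(20:ℕ)*k2^(6:ℕ) + (2101050 : R)*p^(2:ℕ)*q^(4:ℕ)*k1^(6:ℕ)*k2^(20:ℕ) + (24012000 : R)*p^(2:ℕ)*q^(4:ℕ)*k1^(7:ℕ)*k2^(19:ℕ) + (85542750 : R)*p^(2:ℕ)*q^(4:ℕ)*k1^(8:ℕ)*k2^(18:ℕ)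
    + (114057000 : R)*p^(2:ℕ)*q^(4:ℕ)*k1^(9:ℕ)*k2^(17:ℕ) + (48474225 : R)*p^(2:ℕ)*q^(4:ℕ)*k1^(10:ℕ)*k2^(16:ℕ)

def L6_27 (p q k1 k2 : R) : R :=
      (-4060 : R)*p^(6:ℕ)*k1^(27:ℕ) + (-4060 : R)*q^(6:ℕ)*k2^(27:ℕ) + (-1200600 : R)*p^(5:ℕ)*q^(1:ℕ)*k1^(22:ℕ)*k2^(5:ℕ) + (-783000 : R)*p^(5:ℕ)*q^(1:ℕ)*k1^(23:ℕ)*k2^(4:ℕ)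
    + (-130500 : R)*p^(5:ℕ)*q^(1:ℕ)*k1^(24:ℕ)*k2^(3:ℕ) + (-5220 : R)*p^(5:ℕ)*q^(1:ℕ)*k1^(25:ℕ)*k2^(2:ℕ) + (5220 : R)*p^(1:ℕ)*q^(5:ℕ)*k1^(2:ℕ)*k2^(25:ℕ) + (130500 : R)*p^(1:ℕ)*q^(5:ℕ)*k1^(3:ℕ)*k2^(24:ℕ)
    + (783000 : R)*p^(1:ℕ)*q^(5:ℕ)*k1^(4:ℕ)*k2^(23:ℕ) + (1200600 : R)*p^(1:ℕ)*q^(5:ℕ)*k1^(5:ℕ)*k2^(22:ℕ) + (11405700 : R)*p^(4:ℕ)*q^(2:ℕ)*k1^(17:ℕ)*k2^(10:ℕ) + (19009500 : R)*p^(4:ℕ)*q^(2:ℕ)*k1^(18:ℕ)*k2^(9:ℕ)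
    + (9004500 : R)*p^(4:ℕ)*q^(2:ℕ)*k1^(19:ℕ)*k2^(8:ℕ) + (1200600 : R)*p^(4:ℕ)*q^(2:ℕ)*k1^(20:ℕ)*k2^(7:ℕ) + (1200600 : R)*p^(2:ℕ)*q^(4:ℕ)*k1^(7:ℕ)*k2^(20:ℕ) + (9004500 : R)*p^(2:ℕ)*q^(4:ℕ)*k1^(8:ℕ)*k2^(19:ℕ)
    + (19009500 : R)*p^(2:ℕ)*q^(4:ℕ)*k1^(9:ℕ)*k2^(18:ℕ) + (11405700 : R)*p^(2:ℕ)*q^(4:ℕ)*k1^(10:ℕ)*k2^(17:ℕ)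

def L6_28 (p q k1 k2 : R) : R :=
      (-435 : R)*p^(6:ℕ)*k1^(28:ℕ) + (-435 : R)*q^(6:ℕ)*k2^(28:ℕ) + (-156600 : R)*p^(5:ℕ)*q^(1:ℕ)*k1^(23:ℕ)*k2^(5:ℕ) + (-65250 : R)*p^(5:ℕ)*q^(1:ℕ)*k1^(24:ℕ)*k2^(4:ℕ)
    + (-5220 : R)*p^(5:ℕ)*q^(1:ℕ)*k1^(25:ℕ)*k2^(3:ℕ) + (5220 : R)*p^(1:ℕ)*q^(5:ℕ)*k1^(3:ℕ)*k2^(25:ℕ) + (65250 : R)*p^(1:ℕ)*q^(5:ℕ)*k1^(4:ℕ)*k2^(24:ℕ) + (156600 : R)*p^(1:ℕ)*q^(5:ℕ)*k1^(5:ℕ)*k2^(23:ℕ)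
    + (1900950 : R)*p^(4:ℕ)*q^(2:ℕ)*k1^(18:ℕ)*k2^(10:ℕ) + (2001000 : R)*p^(4:ℕ)*q^(2:ℕ)*k1^(19:ℕ)*k2^(9:ℕ) + (450225 : R)*p^(4:ℕ)*q^(2:ℕ)*k1^(20:ℕ)*k2^(8:ℕ) + (450225 : R)*p^(2:ℕ)*q^(4:ℕ)*k1^(8:ℕ)*k2^(20:ℕ)
    + (2001000 : R)*p^(2:ℕ)*q^(4:ℕ)*k1^(9:ℕ)*k2^(19:ℕ) + (1900950 : R)*p^(2:ℕ)*q^(4:ℕ)*k1^(10:ℕ)*k2^(18:ℕ)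

def L6_29 (p q k1 k2 : R) : R :=
      (-30 : R)*p^(6:ℕ)*k1^(29:ℕ) + (-30 : R)*q^(6:ℕ)*k2^(29:ℕ) + (-13050 : R)*p^(5:ℕ)*q^(1:ℕ)*k1^(24:ℕ)*k2^(5:ℕ) + (-2610 : R)*p^(5:ℕ)*q^(1:ℕ)*k1^(25:ℕ)*k2^(4:ℕ)
    + (2610 : R)*p^(1:ℕ)*q^(5:ℕ)*k1^(4:ℕ)*k2^(25:ℕ) + (13050 : R)*p^(1:ℕ)*q^(5:ℕ)*k1^(5:ℕ)*k2^(24:ℕ) + (200100 : R)*p^(4:ℕ)*q^(2:ℕ)*k1^(19:ℕ)*k2^(10:ℕ) + (100050 : R)*p^(4:ℕ)*q^(2:ℕ)*k1^(20:ℕ)*k2^(9:ℕ)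
    + (100050 : R)*p^(2:ℕ)*q^(4:ℕ)*k1^(9:ℕ)*k2^(20:ℕ) + (200100 : R)*p^(2:ℕ)*q^(4:ℕ)*k1^(10:ℕ)*k2^(19:ℕ)

def L6_30 (p q k1 k2 : R) : R :=
      (-1 : R)*p^(6:ℕ)*k1^(30:ℕ) + (-1 : R)*q^(6:ℕ)*k2^(30:ℕ) + (-522 : R)*p^(5:ℕ)*q^(1:ℕ)*k1^(25:ℕ)*k2^(5:ℕ) + (522 : R)*p^(1:ℕ)*q^(5:ℕ)*k1^(5:ℕ)*k2^(25:ℕ)
    + (10005 : R)*p^(4:ℕ)*q^(2:ℕ)*k1^(20:ℕ)*k2^(10:ℕ) + (10005 : R)*p^(2:ℕ)*q^(4:ℕ)*k1^(10:ℕ)*k2^(20:ℕ)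

set_option maxHeartbeats 8000000 in
theorem L6_sum (p q μ k1 k2 : R) :
    C6 (p * (1 + μ * k1)^5) (q * (1 + μ * k2)^5) =
      μ^(0:ℕ) * L6_0 p q k1 k2 + μ^(1:ℕ) * L6_1 p q k1 k2 + μ^(2:ℕ) * L6_2 p q k1 k2 + μ^(3:ℕ) * L6_3 p q k1 k2 + μ^(4:ℕ) * L6_4 p q k1 k2 + μ^(5:ℕ) * L6_5 p q k1 k2 + μ^(6:ℕ) * L6_6 p q k1 k2 + μ^(7:ℕ) * L6_7 p q k1 k2 + μ^(8:ℕ) * L6_8 p q k1 k2 + μ^(9:ℕ) * L6_9 p q k1 k2 + μ^(10:ℕ) * L6_10 p q k1 k2 + μ^(11:ℕ) * L6_11 p q k1 k2 + μ^(12:ℕ) * L6_12 p q k1 k2 + μ^(13:ℕ) * L6_13 p q k1 k2 + μ^(14:ℕ) * L6_14 p q k1 k2 + μ^(15:ℕ) * L6_15 p q k1 k2 + μ^(16:ℕ) * L6_16 p q k1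 k2 + μ^(17:ℕ) * L6_17 p q k1 k2 + μ^(18:ℕ) * L6_18 p q k1 k2 + μ^(19:ℕ) * L6_19 p q k1 k2 + μ^(20:ℕ) * L6_20 p q k1 k2 + μ^(21:ℕ) * L6_21 p q k1 k2 + μ^(22:ℕ) * L6_22 p q k1 k2 + μ^(23:ℕ) * L6_23 p q k1 k2 + μ^(24:ℕ) * L6_24 p q k1 k2 + μ^(25:ℕ) * L6_25 p q k1 k2 + μ^(26:ℕ) * L6_26 p q k1 k2 + μ^(27:ℕ) * L6_27 p q k1 k2 + μ^(28:ℕ) * L6_28 p q k1 k2 + μ^(29:ℕ) * L6_29 p q k1 k2 + μ^(30:ℕ) * L6_30 p q k1 k2 := by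
  simp only [C4, C6, D2, L6_0, L6_1, L6_2, L6_3, L6_4, L6_5, L6_6, L6_7, L6_8, L6_9, L6_10, L6_11, L6_12, L6_13, L6_14, L6_15, L6_16, L6_17, L6_18, L6_19, L6_20, L6_21, L6_22, L6_23, L6_24, L6_25, L6_26, L6_27, L6_28, L6_29, L6_30]
  ring

end Fermat.Agent.S52
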