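import Fermat.Agent.S52.FormsGen6Defs
import Fermat.Agent.S52.FormsGen4b -- only to serialise the memory-hungry builds

/-! # S52: generated file (see `Forms.lean`): the identities `L6_k = R_k` for some `k`. -/

set_option autoImplicit false
set_option linter.unusedVariables false
set_option linter.unusedSimpArgs false
set_option Elab.async false

namespace Fermat.Agent.S52

variable {R : Type*} [CommRing R]

set_option maxHeartbeats 8000000 in
theorem L6_0_eq (p q : R) :
    L6_0 p q (K1 p q) (K2 p q) = ((C6 p q)) := by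
  simp only [L6_0, C4, C6, D2, K1, K2]
  ring

set_option maxHeartbeats 8000000 in
theorem L6_1_eq (p q : R) :
    L6_1 p q (K1 p q) (K2 p q) = ((-30)*(C4 p q)^2) := by
  simp only [L6_1, C4, C6, D2, K1, K2]
  ring

set_option maxHeartbeats 8000000 in
theorem L6_2_eq (p q : R) :
    L6_2 p q (K1 p q) (K2 p q) = ((435)*(C4 p q)*(C6 p q)) := by
  simp only [L6_2, C4, C6, D2, K1, K2]
  ring

set_option maxHeartbeats 8000000 in
theorem L6_3_eq (p q : R) :
    L6_3 p q (K1 p q) (K2 p q) = ((-2900)*(C6 p q)^2 + (-1160)*(C4 p q)^3) := by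
  simp only [L6_3, C4, C6, D2, K1, K2]
  ring

set_option maxHeartbeats 8000000 in
theorem L6_4_eq (p q : R) :
    L6_4 p q (K1 p q) (K2 p q) = ((27405)*(C4 p q)^2*(C6 p q)) := by
  simp only [L6_4, C4, C6, D2, K1, K2]
  ring

set_option maxHeartbeats 8000000 in
theorem L6_5_eq (p q : R) :
    L6_5 p q (K1 p q) (K2 p q) = ((-46980)*(C4 p q)*(C6 p q)^2 + (-95526)*(C4 p q)^4) := by
  simp only [L6_5, C4, C6, D2, K1, K2]
  ring

set_option maxHeartbeats 8000000 in
theorem L6_6_eq (p q : R) :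
    L6_6 p q (K1 p q) (K2 p q) = ((156600)*(C6 p q)^3 + (437175)*(C4 p q)^3*(C6 p q)) := by
  simp only [L6_6, C4, C6, D2, K1, K2]
  ring

set_option maxHeartbeats 8000000 in
theorem L6_7_eq (p q : R) :
    L6_7 p q (K1 p q) (K2 p q) = ((-3915000)*(C4 p q)^2*(C6 p q)^2 + (1879200)*(C4 p q)^5) := by
  simp only [L6_7, C4, C6, D2, K1, K2]
  ring

set_option maxHeartbeats 8000000 in
theorem L6_8_eq (p q : R) :
    L6_8 p q (K1 p q) (K2 p q) = ((14407200)*(C4 p q)*(C6 p q)^3 + (-8554275)*(C4 p q)^4*(C6 p q)) := by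
  simp only [L6_8, C4, C6, D2, K1, K2]
  ring

set_option maxHeartbeats 8000000 in
theorem L6_9_eq (p q : R) :
    L6_9 p q (K1 p q) (K2 p q) = ((-32016000)*(C6 p q)^4 + (42021000)*(C4 p q)^3*(C6 p q)^2 + (-24312150)*(C4 p q)^6) := by
  simp only [L6_9, C4, C6, D2, K1, K2]
  ring

set_option maxHeartbeats 8000000 in
theorem L6_10_eq (p q : R) :
    L6_10 p q (K1 p q) (K2 p q) = ((-216588240)*(C4 p q)^2*(C6 p q)^3 + (246633255)*(C4 p q)^5*(C6 p q)) := by
  simp only [L6_10, C4, C6, D2, K1, K2]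
  ring

set_option maxHeartbeats 8000000 in
theorem L6_11_eq (p q : R) :
    L6_11 p q (K1 p q) (K2 p q) = ((1459929600)*(C4 p q)*(C6 p q)^4 + (-1352475900)*(C4 p q)^4*(C6 p q)^2 + (-162081000)*(C4 p q)^7) := by
  simp only [L6_11, C4, C6, D2, K1, K2]
  ring

set_option maxHeartbeats 8000000 in
theorem L6_12_eq (p q : R) :
    L6_12 p q (K1 p q) (K2 p q) = ((-2433216000)*(C6 p q)^5 + (-1612005600)*(C4 p q)^3*(C6 p q)^3 + (4131714825)*(C4 p q)^6*(C6 p q)) := by
  simp only [L6_12, C4, C6, D2, K1, K2]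
  ring

set_option maxHeartbeats 8000000 in
theorem L6_13_eq (p q : R) :
    L6_13 p q (K1 p q) (K2 p q) = ((12044419200)*(C4 p q)^2*(C6 p q)^4 + (-5235216300)*(C4 p q)^5*(C6 p q)^2 + (-6928962750)*(C4 p q)^8) := by
  simp only [L6_13, C4, C6, D2, K1, K2]
  ring

set_option maxHeartbeats 8000000 in
theorem L6_14_eq (p q : R) :
    L6_14 p q (K1 p q) (K2 p q) = ((-43045111800)*(C4 p q)^4*(C6 p q)^3 + (43190534475)*(C4 p q)^7*(C6 p q)) := by
  simp only [L6_14, C4, C6, D2, K1, K2]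
  ring

end Fermat.Agent.S52
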