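import Fermat.Agent.S52.FormsGen6Defs

/-! # S52: generated file (see `Forms.lean`): the identities `L6_k = R_k` for some `k`. -/

set_option autoImplicit false
set_option linter.unusedVariables false
set_option linter.unusedSimpArgs false
set_option Elab.async false

namespace Fermat.Agent.S52

variable {R : Type*} [CommRing R]

set_option maxHeartbeats 8000000 in
theorem L6_15_eq (p q : R) :
    L6_15 p q (K1 p q) (K2 p q) = ((79420170240)*(C4 p q)^3*(C6 p q)^4 + (-79575287760)*(C4 p q)^6*(C6 p q)^2) := by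
  simp only [L6_15, C4, C6, D2, K1, K2]
  ring

set_option maxHeartbeats 8000000 in
theorem L6_16_eq (p q : R) :
    L6_16 p q (K1 p q) (K2 p q) = ((-297825638400)*(C4 p q)^2*(C6 p q)^5 + (474659611200)*(C4 p q)^5*(C6 p q)^3 + (-176688550125)*(C4 p q)^8*(C6 p q)) := by
  simp only [L6_16, C4, C6, D2, K1, K2]
  ring

set_option maxHeartbeats 8000000 in
theorem L6_17_eq (p q : R) :
    L6_17 p q (K1 p q) (K2 p q) = ((700766208000)*(C4 p q)*(C6 p q)^6 + (-935084908800)*(C4 p q)^4*(C6 p q)^4 + (-77604382800)*(C4 p q)^7*(C6 p q)^2 + (311803323750)*(C4 p q)^10) := by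
  simp only [L6_17, C4, C6, D2, K1, K2]
  ring

set_option maxHeartbeats 8000000 in
theorem L6_18_eq (p q : R) :
    L6_18 p q (K1 p q) (K2 p q) = ((-778629120000)*(C6 p q)^7 + (-303665356800)*(C4 p q)^3*(C6 p q)^5 + (2776512362400)*(C4 p q)^6*(C6 p q)^3 + (-1694131392375)*(C4 p q)^9*(C6 p q)) := by
  simp only [L6_18, C4, C6, D2, K1, K2]
  ring

end Fermat.Agent.S52
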