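import Fermat.Agent.S52.FormsGen6Defs
import Fermat.Agent.S52.FormsGen6a -- only to serialise the memory-hungry builds

/-! # S52: generated file (see `Forms.lean`): the identities `L6_k = R_k` for some `k`. -/

set_option autoImplicit false
set_option linter.unusedVariables false
set_option linter.unusedSimpArgs false
set_option Elab.async false

namespace Fermat.Agent.S52

variable {R : Type*} [CommRing R]

set_option maxHeartbeats 8000000 in
theorem L6_19_eq (p q : R) :
    L6_19 p q (K1 p q) (K2 p q) = ((4290656256000)*(C4 p q)^2*(C6 p q)^6 + (-8100765158400)*(C4 p q)^5*(C6 p q)^4 + (3481840250100)*(C4 p q)^8*(C6 p q)^2 + (328214025000)*(C4 p q)^11) := by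
  simp only [L6_19, C4, C6, D2, K1, K2]
  ring

set_option maxHeartbeats 8000000 in
theorem L6_20_eq (p q : R) :
    L6_20 p q (K1 p q) (K2 p q) = ((-3442360320000)*(C4 p q)*(C6 p q)^7 + (3892110842880)*(C4 p q)^4*(C6 p q)^5 + (2424887357760)*(C4 p q)^7*(C6 p q)^3 + (-2874607835625)*(C4 p q)^10*(C6 p q)) := by
  simp only [L6_20, C4, C6, D2, K1, K2]
  ring

end Fermat.Agent.S52
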