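import Fermat.Agent.S52.FormsGen6Defs
import Fermat.Agent.S52.FormsGen6c -- only to serialise the memory-hungry builds

/-! # S52: generated file (see `Forms.lean`): the identities `L6_k = R_k` for some `k`. -/

set_option autoImplicit false
set_option linter.unusedVariables false
set_option linter.unusedSimpArgs false
set_option Elab.async false

namespace Fermat.Agent.S52

variable {R : Type*} [CommRing R]

set_option maxHeartbeats 8000000 in
theorem L6_23_eq (p q : R) :
    L6_23 p q (K1 p q) (K2 p q) = ((-6157762560000)*(C4 p q)*(C6 p q)^8 + (30337884979200)*(C4 p q)^4*(C6 p q)^6 + (-49888700928000)*(C4 p q)^7*(C6 p q)^4 + (33414470973000)*(C4 p q)^10*(C6 p q)^2 + (-7705894500000)*(C4 p q)^13) := by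
  simp only [L6_23, C4, C6, D2, K1, K2]
  ring

set_option maxHeartbeats 8000000 in
theorem L6_24_eq (p q : R) :
    L6_24 p q (K1 p q) (K2 p q) = ((5131468800000)*(C6 p q)^9 + (-22779445248000)*(C4 p q)^3*(C6 p q)^7 + (35246094796800)*(C4 p q)^6*(C6 p q)^5 + (-22687218914400)*(C4 p q)^9*(C6 p q)^3 + (5089101159375)*(C4 p q)^12*(C6 p q)) := by
  simp only [L6_24, C4, C6, D2, K1, K2]
  ring

end Fermat.Agent.S52
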