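import Fermat.Agent.S52.FormsGen6Defs
import Fermat.Agent.S52.FormsGen6d -- only to serialise the memory-hungry builds

/-! # S52: generated file (see `Forms.lean`): the identities `L6_k = R_k` for some `k`. -/

set_option autoImplicit false
set_option linter.unusedVariables false
set_option linter.unusedSimpArgs false
set_option Elab.async false

namespace Fermat.Agent.S52

variable {R : Type*} [CommRing R]

set_option maxHeartbeats 8000000 in
theorem L6_25_eq (p q : R) :
    L6_25 p q (K1 p q) (K2 p q) = ((18216714240000)*(C4 p q)^2*(C6 p q)^8 + (-71274600677376)*(C4 p q)^5*(C6 p q)^6 + (105528606261120)*(C4 p q)^8*(C6 p q)^4 + (-70097953635000)*(C4 p q)^11*(C6 p q)^2 + (17627233668750)*(C4 p q)^14) := by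
  simp only [L6_25, C4, C6, D2, K1, K2]
  ring

set_option maxHeartbeats 8000000 in
theorem L6_26_eq (p q : R) :
    L6_26 p q (K1 p q) (K2 p q) = ((-41051750400000)*(C4 p q)*(C6 p q)^9 + (163803539865600)*(C4 p q)^4*(C6 p q)^7 + (-245438120632320)*(C4 p q)^7*(C6 p q)^5 + (163672057566000)*(C4 p q)^10*(C6 p q)^3 + (-40985726371875)*(C4 p q)^13*(C6 p q)) := by
  simp only [L6_26, C4, C6, D2, K1, K2]
  ring

end Fermat.Agent.S52
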