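import Fermat.Agent.S52.FormsGen6Defs
import Fermat.Agent.S52.FormsGen6f -- only to serialise the memory-hungry builds

/-! # S52: generated file (see `Forms.lean`): the identities `L6_k = R_k` for some `k`. -/

set_option autoImplicit false
set_option linter.unusedVariables false
set_option linter.unusedSimpArgs false
set_option Elab.async false

namespace Fermat.Agent.S52

variable {R : Type*} [CommRing R]

set_option maxHeartbeats 8000000 in
theorem L6_27_eq (p q : R) :
    L6_27 p q (K1 p q) (K2 p q) = ((30408704000000)*(C6 p q)^10 + (-111934439424000)*(C4 p q)^3*(C6 p q)^8 + (143803576074240)*(C4 p q)^6*(C6 p q)^6 + (-63806176396800)*(C4 p q)^9*(C6 p q)^4 + (-8104032382500)*(C4 p q)^12*(C6 p q)^2 + (9632368125000)*(C4 p q)^15) := by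
  simp only [L6_27, C4, C6, D2, K1, K2]
  ring

set_option maxHeartbeats 8000000 in
theorem L6_28_eq (p q : R) :
    L6_28 p q (K1 p q) (K2 p q) = ((-21438136320000)*(C4 p q)^2*(C6 p q)^9 + (85731449241600)*(C4 p q)^5*(C6 p q)^7 + (-128580522647040)*(C4 p q)^8*(C6 p q)^5 + (85719228804000)*(C4 p q)^11*(C6 p q)^3 + (-21432019078125)*(C4 p q)^14*(C6 p q)) := by
  simp only [L6_28, C4, C6, D2, K1, K2]
  ring

end Fermat.Agent.S52
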