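import Fermat.Agent.S52.FormsGen6Defs
import Fermat.Agent.S52.FormsGen6g -- only to serialise the memory-hungry builds

/-! # S52: generated file (see `Forms.lean`): the identities `L6_k = R_k` for some `k`. -/

set_option autoImplicit false
set_option linter.unusedVariables false
set_option linter.unusedSimpArgs false
set_option Elab.async false

namespace Fermat.Agent.S52

variable {R : Type*} [CommRing R]

set_option maxHeartbeats 8000000 in
theorem L6_29_eq (p q : R) :
    L6_29 p q (K1 p q) (K2 p q) = ((-5033164800000)*(C4 p q)*(C6 p q)^10 + (31344427008000)*(C4 p q)^4*(C6 p q)^8 + (-75042714746880)*(C4 p q)^7*(C6 p q)^6 + (87394892457600)*(C4 p q)^10*(C6 p q)^4 + (-49873523512500)*(C4 p q)^13*(C6 p q)^2 + (11210083593750)*(C4 p q)^16) := by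
  simp only [L6_29, C4, C6, D2, K1, K2]
  ring

set_option maxHeartbeats 8000000 in
theorem L6_30_eq (p q : R) :
    L6_30 p q (K1 p q) (K2 p q) = ((3355443200000)*(C6 p q)^11 + (-17532190720000)*(C4 p q)^3*(C6 p q)^9 + (36574189977600)*(C4 p q)^6*(C6 p q)^7 + (-38083944628224)*(C4 p q)^9*(C6 p q)^5 + (19796866155000)*(C4 p q)^12*(C6 p q)^3 + (-4110363984375)*(C4 p q)^15*(C6 p q)) := by
  simp only [L6_30, C4, C6, D2, K1, K2]
  ring

end Fermat.Agent.S52
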