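import Fermat.Agent.S52.FormsDefs

/-! # S52: generated file (see `Forms.lean`): the coefficients `LD_k` of `μ^k` in the left hand side of
`famD`, with `K1`, `K2` replaced by variables. -/

set_option autoImplicit false
set_option linter.unusedVariables false
set_option linter.unusedSimpArgs false
set_option Elab.async false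

namespace Fermat.Agent.S52

variable {R : Type*} [CommRing R]

def LD_0 (p q k1 k2 : R) : R :=
      (1 : R)*p^(2:ℕ) + (11 : R)*p^(1:ℕ)*q^(1:ℕ) + (-1 : R)*q^(2:ℕ)

def LD_1 (p q k1 k2 : R) : R :=
      (1 : R)*p^(2:ℕ)*k2^(1:ℕ) + (11 : R)*p^(2:ℕ)*k1^(1:ℕ) + (66 : R)*p^(1:ℕ)*q^(1:ℕ)*k2^(1:ℕ) + (66 : R)*p^(1:ℕ)*q^(1:ℕ)*k1^(1:ℕ)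
    + (-11 : R)*q^(2:ℕ)*k2^(1:ℕ) + (-1 : R)*q^(2:ℕ)*k1^(1:ℕ)

def LD_2 (p q k1 k2 : R) : R :=
      (11 : R)*p^(2:ℕ)*k1^(1:ℕ)*k2^(1:ℕ) + (55 : R)*p^(2:ℕ)*k1^(2:ℕ) + (165 : R)*p^(1:ℕ)*q^(1:ℕ)*k2^(2:ℕ) + (396 : R)*p^(1:ℕ)*q^(1:ℕ)*k1^(1:ℕ)*k2^(1:ℕ)
    + (165 : R)*p^(1:ℕ)*q^(1:ℕ)*k1^(2:ℕ) + (-55 : R)*q^(2:ℕ)*k2^(2:ℕ) + (-11 : R)*q^(2:ℕ)*k1^(1:ℕ)*k2^(1:ℕ)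

def LD_3 (p q k1 k2 : R) : R :=
      (55 : R)*p^(2:ℕ)*k1^(2:ℕ)*k2^(1:ℕ) + (165 : R)*p^(2:ℕ)*k1^(3:ℕ) + (220 : R)*p^(1:ℕ)*q^(1:ℕ)*k2^(3:ℕ) + (990 : R)*p^(1:ℕ)*q^(1:ℕ)*k1^(1:ℕ)*k2^(2:ℕ)
    + (990 : R)*p^(1:ℕ)*q^(1:ℕ)*k1^(2:ℕ)*k2^(1:ℕ) + (220 : R)*p^(1:ℕ)*q^(1:ℕ)*k1^(3:ℕ) + (-165 : R)*q^(2:ℕ)*k2^(3:ℕ) + (-55 : R)*q^(2:ℕ)*k1^(1:ℕ)*k2^(2:ℕ)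

def LD_4 (p q k1 k2 : R) : R :=
      (165 : R)*p^(2:ℕ)*k1^(3:ℕ)*k2^(1:ℕ) + (330 : R)*p^(2:ℕ)*k1^(4:ℕ) + (165 : R)*p^(1:ℕ)*q^(1:ℕ)*k2^(4:ℕ) + (1320 : R)*p^(1:ℕ)*q^(1:ℕ)*k1^(1:ℕ)*k2^(3:ℕ)
    + (2475 : R)*p^(1:ℕ)*q^(1:ℕ)*k1^(2:ℕ)*k2^(2:ℕ) + (1320 : R)*p^(1:ℕ)*q^(1:ℕ)*k1^(3:ℕ)*k2^(1:ℕ) + (165 : R)*p^(1:ℕ)*q^(1:ℕ)*k1^(4:ℕ) + (-330 : R)*q^(2:ℕ)*k2^(4:ℕ)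
    + (-165 : R)*q^(2:ℕ)*k1^(1:ℕ)*k2^(3:ℕ)

def LD_5 (p q k1 k2 : R) : R :=
      (330 : R)*p^(2:ℕ)*k1^(4:ℕ)*k2^(1:ℕ) + (462 : R)*p^(2:ℕ)*k1^(5:ℕ) + (66 : R)*p^(1:ℕ)*q^(1:ℕ)*k2^(5:ℕ) + (990 : R)*p^(1:ℕ)*q^(1:ℕ)*k1^(1:ℕ)*k2^(4:ℕ)
    + (3300 : R)*p^(1:ℕ)*q^(1:ℕ)*k1^(2:ℕ)*k2^(3:ℕ) + (3300 : R)*p^(1:ℕ)*q^(1:ℕ)*k1^(3:ℕ)*k2^(2:ℕ) + (990 : R)*p^(1:ℕ)*q^(1:ℕ)*k1^(4:ℕ)*k2^(1:ℕ) + (66 : R)*p^(1:ℕ)*q^(1:ℕ)*k1^(5:ℕ)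
    + (-462 : R)*q^(2:ℕ)*k2^(5:ℕ) + (-330 : R)*q^(2:ℕ)*k1^(1:ℕ)*k2^(4:ℕ)

def LD_6 (p q k1 k2 : R) : R :=
      (462 : R)*p^(2:ℕ)*k1^(5:ℕ)*k2^(1:ℕ) + (462 : R)*p^(2:ℕ)*k1^(6:ℕ) + (11 : R)*p^(1:ℕ)*q^(1:ℕ)*k2^(6:ℕ) + (396 : R)*p^(1:ℕ)*q^(1:ℕ)*k1^(1:ℕ)*k2^(5:ℕ)
    + (2475 : R)*p^(1:ℕ)*q^(1:ℕ)*k1^(2:ℕ)*k2^(4:ℕ) + (4400 : R)*p^(1:ℕ)*q^(1:ℕ)*k1^(3:ℕ)*k2^(3:ℕ) + (2475 : R)*p^(1:ℕ)*q^(1:ℕ)*k1^(4:ℕ)*k2^(2:ℕ) + (396 : R)*p^(1:ℕ)*q^(1:ℕ)*k1^(5:ℕ)*k2^(1:ℕ)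
    + (11 : R)*p^(1:ℕ)*q^(1:ℕ)*k1^(6:ℕ) + (-462 : R)*q^(2:ℕ)*k2^(6:ℕ) + (-462 : R)*q^(2:ℕ)*k1^(1:ℕ)*k2^(5:ℕ)

def LD_7 (p q k1 k2 : R) : R :=
      (462 : R)*p^(2:ℕ)*k1^(6:ℕ)*k2^(1:ℕ) + (330 : R)*p^(2:ℕ)*k1^(7:ℕ) + (66 : R)*p^(1:ℕ)*q^(1:ℕ)*k1^(1:ℕ)*k2^(6:ℕ) + (990 : R)*p^(1:ℕ)*q^(1:ℕ)*k1^(2:ℕ)*k2^(5:ℕ)
    + (3300 : R)*p^(1:ℕ)*q^(1:ℕ)*k1^(3:ℕ)*k2^(4:ℕ) + (3300 : R)*p^(1:ℕ)*q^(1:ℕ)*k1^(4:ℕ)*k2^(3:ℕ) + (990 : R)*p^(1:ℕ)*q^(1:ℕ)*k1^(5:ℕ)*k2^(2:ℕ) + (66 : R)*p^(1:ℕ)*q^(1:ℕ)*k1^(6:ℕ)*k2^(1:ℕ)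
    + (-330 : R)*q^(2:ℕ)*k2^(7:ℕ) + (-462 : R)*q^(2:ℕ)*k1^(1:ℕ)*k2^(6:ℕ)

def LD_8 (p q k1 k2 : R) : R :=
      (330 : R)*p^(2:ℕ)*k1^(7:ℕ)*k2^(1:ℕ) + (165 : R)*p^(2:ℕ)*k1^(8:ℕ) + (165 : R)*p^(1:ℕ)*q^(1:ℕ)*k1^(2:ℕ)*k2^(6:ℕ) + (1320 : R)*p^(1:ℕ)*q^(1:ℕ)*k1^(3:ℕ)*k2^(5:ℕ)
    + (2475 : R)*p^(1:ℕ)*q^(1:ℕ)*k1^(4:ℕ)*k2^(4:ℕ) + (1320 : R)*p^(1:ℕ)*q^(1:ℕ)*k1^(5:ℕ)*k2^(3:ℕ) + (165 : R)*p^(1:ℕ)*q^(1:ℕ)*k1^(6:ℕ)*k2^(2:ℕ) + (-165 : R)*q^(2:ℕ)*k2^(8:ℕ)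
    + (-330 : R)*q^(2:ℕ)*k1^(1:ℕ)*k2^(7:ℕ)

def LD_9 (p q k1 k2 : R) : R :=
      (165 : R)*p^(2:ℕ)*k1^(8:ℕ)*k2^(1:ℕ) + (55 : R)*p^(2:ℕ)*k1^(9:ℕ) + (220 : R)*p^(1:ℕ)*q^(1:ℕ)*k1^(3:ℕ)*k2^(6:ℕ) + (990 : R)*p^(1:ℕ)*q^(1:ℕ)*k1^(4:ℕ)*k2^(5:ℕ)
    + (990 : R)*p^(1:ℕ)*q^(1:ℕ)*k1^(5:ℕ)*k2^(4:ℕ) + (220 : R)*p^(1:ℕ)*q^(1:ℕ)*k1^(6:ℕ)*k2^(3:ℕ) + (-55 : R)*q^(2:ℕ)*k2^(9:ℕ) + (-165 : R)*q^(2:ℕ)*k1^(1:ℕ)*k2^(8:ℕ)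

def LD_10 (p q k1 k2 : R) : R :=
      (55 : R)*p^(2:ℕ)*k1^(9:ℕ)*k2^(1:ℕ) + (11 : R)*p^(2:ℕ)*k1^(10:ℕ) + (165 : R)*p^(1:ℕ)*q^(1:ℕ)*k1^(4:ℕ)*k2^(6:ℕ) + (396 : R)*p^(1:ℕ)*q^(1:ℕ)*k1^(5:ℕ)*k2^(5:ℕ)
    + (165 : R)*p^(1:ℕ)*q^(1:ℕ)*k1^(6:ℕ)*k2^(4:ℕ) + (-11 : R)*q^(2:ℕ)*k2^(10:ℕ) + (-55 : R)*q^(2:ℕ)*k1^(1:ℕ)*k2^(9:ℕ)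

def LD_11 (p q k1 k2 : R) : R :=
      (11 : R)*p^(2:ℕ)*k1^(10:ℕ)*k2^(1:ℕ) + (1 : R)*p^(2:ℕ)*k1^(11:ℕ) + (66 : R)*p^(1:ℕ)*q^(1:ℕ)*k1^(5:ℕ)*k2^(6:ℕ) + (66 : R)*p^(1:ℕ)*q^(1:ℕ)*k1^(6:ℕ)*k2^(5:ℕ)
    + (-1 : R)*q^(2:ℕ)*k2^(11:ℕ) + (-11 : R)*q^(2:ℕ)*k1^(1:ℕ)*k2^(10:ℕ)

def LD_12 (p q k1 k2 : R) : R :=
      (1 : R)*p^(2:ℕ)*k1^(11:ℕ)*k2^(1:ℕ) + (11 : R)*p^(1:ℕ)*q^(1:ℕ)*k1^(6:ℕ)*k2^(6:ℕ) + (-1 : R)*q^(2:ℕ)*k1^(1:ℕ)*k2^(11:ℕ)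

set_option maxHeartbeats 4000000 in
theorem LD_sum (p q μ k1 k2 : R) :
    (1 + μ * k1) * (1 + μ * k2) * D2 (p * (1 + μ * k1)^5) (q * (1 + μ * k2)^5) =
      μ^(0:ℕ) * LD_0 p q k1 k2 + μ^(1:ℕ) * LD_1 p q k1 k2 + μ^(2:ℕ) * LD_2 p q k1 k2 + μ^(3:ℕ) * LD_3 p q k1 k2 + μ^(4:ℕ) * LD_4 p q k1 k2 + μ^(5:ℕ) * LD_5 p q k1 k2 + μ^(6:ℕ) * LD_6 p q k1 k2 + μ^(7:ℕ) * LD_7 p q k1 k2 + μ^(8:ℕ) * LD_8 p q k1 k2 + μ^(9:ℕ) * LD_9 p q k1 k2 + μ^(10:ℕ) * LD_10 p q k1 k2 + μ^(11:ℕ) * LD_11 p q k1 k2 + μ^(12:ℕ) * LD_12 p q k1 k2 := by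
  simp only [C4, C6, D2, LD_0, LD_1, LD_2, LD_3, LD_4, LD_5, LD_6, LD_7, LD_8, LD_9, LD_10, LD_11, LD_12]
  ring

end Fermat.Agent.S52
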