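import Fermat.Agent.S52.FormsDefs

/-! # S52, Part A: explicit icosahedral identities (auto-generated, every proof is a `linear_combination`
with a precomputed cofactor of `g^2+g-1` resp. `ζ^4+ζ^3+ζ^2+ζ+1`). -/

set_option autoImplicit false
set_option maxHeartbeats 1000000

namespace Fermat.Agent.S52

variable {R : Type*} [CommRing R]

def P1 (g z w : R) : R :=
  (5)*g*z^5 + (-15)*g*z^4*w + (20)*g*z^3*w^2 + (-10)*g*z^2*w^3 + (5)*g*z*w^4 + (-3)*z^5 + (10)*z^4*w + (-10)*z^3*w^2 + (10)*z^2*w^3 + w^5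

def P2 (g z w : R) : R :=
  (-5)*g*z^4*w + (-10)*g*z^3*w^2 + (-20)*g*z^2*w^3 + (-15)*g*z*w^4 + (-5)*g*w^5 + z^5 + (10)*z^3*w^2 + (10)*z^2*w^3 + (10)*z*w^4 + (3)*w^5

def xQ (z w : R) : R :=
  (3)*z^10 + (36)*z^8*w^2 + (-36)*z^7*w^3 + (72)*z^6*w^4 + (90)*z^5*w^5 + (180)*z^4*w^6 + (108)*z^3*w^7 + (72)*z^2*w^8 + (36)*z*w^9 + (3)*w^10

def yQ (z w : R) : R :=
  (-108)*z^13*w^2 + (-108)*z^12*w^3 + (-432)*z^11*w^4 + (-540)*z^9*w^6 + (-648)*z^8*w^7 + (-2268)*z^7*w^8 + (-3132)*z^6*w^9 + (-2700)*z^5*w^10 + (-1620)*z^4*w^11 + (-972)*z^3*w^12 + (-432)*z^2*w^13 + (-108)*z*w^14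

def XP5 (g p q : R) : R := -75*(p^2+q^2) - 18*(1+2*g)*D2 p q

def Y5 (ζ p q : R) : R :=
  (-324)*ζ^3*p^3 + (-3456)*ζ^3*p^2*q + (1512)*ζ^3*p*q^2 + (-108)*ζ^3*q^3 + (108)*ζ^2*p^3 + (1512)*ζ^2*p^2*q + (3456)*ζ^2*p*q^2 + (-324)*ζ^2*q^3 + (-216)*ζ*p^3 + (-1944)*ζ*p^2*q + (4968)*ζ*p*q^2 + (-432)*ζ*q^3 + (-108)*p^3 + (-972)*p^2*q + (2484)*p*q^2 + (-216)*q^3

def xQT (ζ z w : R) : R :=
  (36)*ζ^3*z^8*w^2 + (-180)*ζ^3*z^4*w^6 + (108)*ζ^3*z^3*w^7 + (-36)*ζ^2*z^7*w^3 + (-180)*ζ^2*z^4*w^6 + (72)*ζ^2*z^2*w^8 + (72)*ζ*z^6*w^4 + (-180)*ζ*z^4*w^6 + (36)*ζ*z*w^9 + (3)*z^10 + (90)*z^5*w^5 + (-180)*z^4*w^6 + (3)*w^10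

def yQT (ζ z w : R) : R :=
  (-108)*ζ^3*z^13*w^2 + (540)*ζ^3*z^9*w^6 + (-648)*ζ^3*z^8*w^7 + (1620)*ζ^3*z^4*w^11 + (-972)*ζ^3*z^3*w^12 + (-108)*ζ^2*z^12*w^3 + (540)*ζ^2*z^9*w^6 + (-2268)*ζ^2*z^7*w^8 + (1620)*ζ^2*z^4*w^11 + (-432)*ζ^2*z^2*w^13 + (-432)*ζ*z^11*w^4 + (540)*ζ*z^9*w^6 + (-3132)*ζ*z^6*w^9 + (1620)*ζ*z^4*w^11 + (-108)*ζ*z*w^14 + (540)*z^9*w^6 + (-2700)*z^5*w^10 + (1620)*z^4*w^11

def G1 (ζ z w : R) : R :=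
  ζ^3*z^10*w^4 + (-1)*ζ^3*z^9*w^5 + (-3)*ζ^3*z^8*w^6 + (7)*ζ^3*z^7*w^7 + (-7)*ζ^3*z^5*w^9 + (7)*ζ^3*z^4*w^10 + (-4)*ζ^3*z^3*w^11 + ζ^3*z^2*w^12 + ζ^2*z^10*w^4 + (-1)*ζ^2*z^9*w^5 + (-3)*ζ^2*z^8*w^6 + (7)*ζ^2*z^7*w^7 + (-7)*ζ^2*z^5*w^9 + (7)*ζ^2*z^4*w^10 + (-4)*ζ^2*z^3*w^11 + ζ^2*z^2*w^12 + z^12*w^2 + (-2)*z^10*w^4 + (2)*z^9*w^5 + z^8*w^6 + (7)*z^7*w^7 + (-11)*z^5*w^9 + (11)*z^4*w^10 + (-7)*z^3*w^11 + (2)*z^2*w^12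

def L15 (ζ p q : R) : R :=
  (36)*ζ^3*p + (48)*ζ^3*q + (-48)*ζ^2*p + (36)*ζ^2*q + (-12)*ζ*p + (84)*ζ*q + (-6)*p + (42)*q

def L25 (ζ p q : R) : R :=
  (42)*ζ^3*p + (6)*ζ^3*q + (-6)*ζ^2*p + (42)*ζ^2*q + (36)*ζ*p + (48)*ζ*q + (18)*p + (24)*q

theorem id_P1 (g z w : R) (hg : g^2+g-1 = 0) :
    (g*z+w)^5 = P1 g z w := by
  simp only [P1]
  linear_combination (g^3*z^5 + (-1)*g^2*z^5 + (5)*g^2*z^4*w + (2)*g*z^5 + (-5)*g*z^4*w + (10)*g*z^3*w^2 + (-3)*z^5 + (10)*z^4*w + (-10)*z^3*w^2 + (10)*z^2*w^3) * hg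

theorem id_P2 (g z w : R) (hg : g^2+g-1 = 0) :
    (z-g*w)^5 = P2 g z w := by
  simp only [P2]
  linear_combination ((-1)*g^3*w^5 + (5)*g^2*z*w^4 + g^2*w^5 + (-10)*g*z^2*w^3 + (-5)*g*z*w^4 + (-2)*g*w^5 + (10)*z^3*w^2 + (10)*z^2*w^3 + (10)*z*w^4 + (3)*w^5) * hg

theorem id_C4 (g z w : R) (hg : g^2+g-1 = 0) :
    C4 (P1 g z w) (P2 g z w) = ((-171875)*g + (106250)) * C4 (z^5) (w^5) := by
  simp only [C4, P1, P2]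
  linear_combination ((625)*g^2*z^20 + (135000)*g^2*z^19*w + (-645000)*g^2*z^18*w^2 + (2640000)*g^2*z^17*w^3 + (-7005000)*g^2*z^16*w^4 + (11032500)*g^2*z^15*w^5 + (-21135000)*g^2*z^14*w^6 + (25170000)*g^2*z^13*w^7 + (-29565000)*g^2*z^12*w^8 + (11955000)*g^2*z^11*w^9 + (-24891250)*g^2*z^10*w^10 + (-11955000)*g^2*z^9*w^11 + (-29565000)*g^2*z^8*w^12 + (-25170000)*g^2*z^7*w^13 + (-21135000)*g^2*z^6*w^14 + (-11032500)*g^2*z^5*w^15 + (-7005000)*g^2*z^4*w^16 + (-2640000)*g^2*z^3*w^17 + (-645000)*g^2*z^2*w^18 + (-135000)*g^2*z*w^19 + (625)*g^2*w^20 + (-30625)*g*z^20 + (-240000)*g*z^19*w + (1230000)*g*z^18*w^2 + (-4860000)*g*z^17*w^3 + (12870000)*g*z^16*w^4 + (-13717500)*g*z^15*w^5 + (39240000)*g*z^14*w^6 + (-46080000)*g*z^13*w^7 + (54810000)*g*z^12*w^8 + (-22920000)*g*z^11*w^9 + (30921250)*g*z^10*w^10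 + (22920000)*g*z^9*w^11 + (54810000)*g*z^8*w^12 + (46080000)*g*z^7*w^13 + (39240000)*g*z^6*w^14 + (13717500)*g*z^5*w^15 + (12870000)*g*z^4*w^16 + (4860000)*g*z^3*w^17 + (1230000)*g*z^2*w^18 + (240000)*g*z*w^19 + (-30625)*g*w^20 + (96250)*z^20 + (90000)*z^19*w + (-480000)*z^18*w^2 + (1860000)*z^17*w^3 + (-4920000)*z^16*w^4 + (-13995000)*z^15*w^5 + (-15090000)*z^14*w^6 + (17580000)*z^13*w^7 + (-21060000)*z^12*w^8 + (8970000)*z^11*w^9 + (29997500)*z^10*w^10 + (-8970000)*z^9*w^11 + (-21060000)*z^8*w^12 + (-17580000)*z^7*w^13 + (-15090000)*z^6*w^14 + (13995000)*z^5*w^15 + (-4920000)*z^4*w^16 + (-1860000)*z^3*w^17 + (-480000)*z^2*w^18 + (-90000)*z*w^19 + (96250)*w^20) * hg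

theorem id_C6 (g z w : R) (hg : g^2+g-1 = 0) :
    C6 (P1 g z w) (P2 g z w) = ((106562500)*g + (-65859375)) * C6 (z^5) (w^5) := by
  simp only [C6, P1, P2]
  linear_combination ((-15625)*g^4*z^30 + (8437500)*g^4*z^29*w + (47812500)*g^4*z^28*w^2 + (-551250000)*g^4*z^27*w^3 + (2500312500)*g^4*z^26*w^4 + (-6265968750)*g^4*z^25*w^5 + (17029687500)*g^4*z^24*w^6 + (-32287500000)*g^4*z^23*w^7 + (63576562500)*g^4*z^22*w^8 + (-91110937500)*g^4*z^21*w^9 + (133468828125)*g^4*z^20*w^10 + (-134465625000)*g^4*z^19*w^11 + (175809375000)*g^4*z^18*w^12 + (-74812500000)*g^4*z^17*w^13 + (90843750000)*g^4*z^16*w^14 + (90843750000)*g^4*z^14*w^16 + (74812500000)*g^4*z^13*w^17 + (175809375000)*g^4*z^12*w^18 + (134465625000)*g^4*z^11*w^19 + (133468828125)*g^4*z^10*w^20 + (91110937500)*g^4*z^9*w^21 + (63576562500)*g^4*z^8*w^22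 + (32287500000)*g^4*z^7*w^23 + (17029687500)*g^4*z^6*w^24 + (6265968750)*g^4*z^5*w^25 + (2500312500)*g^4*z^4*w^26 + (551250000)*g^4*z^3*w^27 + (47812500)*g^4*z^2*w^28 + (-8437500)*g^4*z*w^29 + (-15625)*g^4*w^30 + (-1559375)*g^3*z^30 + (-72000000)*g^3*z^29*w + (342000000)*g^3*z^28*w^2 + (-1296000000)*g^3*z^27*w^3 + (4914000000)*g^3*z^26*w^4 + (-22413993750)*g^3*z^25*w^5 + (49680000000)*g^3*z^24*w^6 + (-114480000000)*g^3*z^23*w^7 + (188730000000)*g^3*z^22*w^8 + (-295020000000)*g^3*z^21*w^9 + (396751546875)*g^3*z^20*w^10 + (-412560000000)*g^3*z^19*w^11 + (352260000000)*g^3*z^18*w^12 + (-359100000000)*g^3*z^17*w^13 + (436050000000)*g^3*z^16*w^14 + (436050000000)*g^3*z^14*w^16 + (359100000000)*g^3*z^13*w^17 + (352260000000)*g^3*z^12*w^18 + (412560000000)*g^3*z^11*w^19 + (396751546875)*g^3*z^10*w^20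 + (295020000000)*g^3*z^9*w^21 + (188730000000)*g^3*z^8*w^22 + (114480000000)*g^3*z^7*w^23 + (49680000000)*g^3*z^6*w^24 + (22413993750)*g^3*z^5*w^25 + (4914000000)*g^3*z^4*w^26 + (1296000000)*g^3*z^3*w^27 + (342000000)*g^3*z^2*w^28 + (72000000)*g^3*z*w^29 + (-1559375)*g^3*w^30 + (12606250)*g^2*z^30 + (111375000)*g^2*z^29*w + (-718875000)*g^2*z^28*w^2 + (3523500000)*g^2*z^27*w^3 + (-14245875000)*g^2*z^26*w^4 + (58977337500)*g^2*z^25*w^5 + (-126208125000)*g^2*z^24*w^6 + (275805000000)*g^2*z^23*w^7 + (-477039375000)*g^2*z^22*w^8 + (727835625000)*g^2*z^21*w^9 + (-1100150531250)*g^2*z^20*w^10 + (1033053750000)*g^2*z^19*w^11 + (-1013816250000)*g^2*z^18*w^12 + (807975000000)*g^2*z^17*w^13 + (-981112500000)*g^2*z^16*w^14 + (-981112500000)*g^2*z^14*w^16 + (-807975000000)*g^2*z^13*w^17 + (-1013816250000)*g^2*z^12*w^18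 + (-1033053750000)*g^2*z^11*w^19 + (-1100150531250)*g^2*z^10*w^20 + (-727835625000)*g^2*z^9*w^21 + (-477039375000)*g^2*z^8*w^22 + (-275805000000)*g^2*z^7*w^23 + (-126208125000)*g^2*z^6*w^24 + (-58977337500)*g^2*z^5*w^25 + (-14245875000)*g^2*z^4*w^26 + (-3523500000)*g^2*z^3*w^27 + (-718875000)*g^2*z^2*w^28 + (-111375000)*g^2*z*w^29 + (12606250)*g^2*w^30 + (-34978125)*g*z^30 + (-65250000)*g*z^29*w + (470250000)*g*z^28*w^2 + (-2457000000)*g*z^27*w^3 + (10064250000)*g*z^26*w^4 + (-53864831250)*g*z^25*w^5 + (86703750000)*g*z^24*w^6 + (-187110000000)*g*z^23*w^7 + (327341250000)*g*z^22*w^8 + (-496608750000)*g*z^21*w^9 + (1020006140625)*g*z^20*w^10 + (-707332500000)*g*z^19*w^11 + (715207500000)*g*z^18*w^12 + (-538650000000)*g*z^17*w^13 + (654075000000)*g*z^16*w^14 + (654075000000)*g*z^14*w^16 + (538650000000)*g*z^13*w^17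 + (715207500000)*g*z^12*w^18 + (707332500000)*g*z^11*w^19 + (1020006140625)*g*z^10*w^20 + (496608750000)*g*z^9*w^21 + (327341250000)*g*z^8*w^22 + (187110000000)*g*z^7*w^23 + (86703750000)*g*z^6*w^24 + (53864831250)*g*z^5*w^25 + (10064250000)*g*z^4*w^26 + (2457000000)*g*z^3*w^27 + (470250000)*g*z^2*w^28 + (65250000)*g*z*w^29 + (-34978125)*g*w^30 + (64834375)*z^30 + (13500000)*z^29*w + (-103500000)*z^28*w^2 + (558000000)*z^27*w^3 + (-2299500000)*z^26*w^4 + (41831043750)*z^25*w^5 + (-19552500000)*z^24*w^6 + (41940000000)*z^23*w^7 + (-73777500000)*z^22*w^8 + (111622500000)*z^21*w^9 + (-799867921875)*z^20*w^10 + (159255000000)*z^19*w^11 + (-163305000000)*z^18*w^12 + (119700000000)*z^17*w^13 + (-145350000000)*z^16*w^14 + (-145350000000)*z^14*w^16 + (-119700000000)*z^13*w^17 + (-163305000000)*z^12*w^18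 + (-159255000000)*z^11*w^19 + (-799867921875)*z^10*w^20 + (-111622500000)*z^9*w^21 + (-73777500000)*z^8*w^22 + (-41940000000)*z^7*w^23 + (-19552500000)*z^6*w^24 + (-41831043750)*z^5*w^25 + (-2299500000)*z^4*w^26 + (-558000000)*z^3*w^27 + (-103500000)*z^2*w^28 + (-13500000)*z*w^29 + (64834375)*w^30) * hg

theorem id_f (g z w : R) (hg : g^2+g-1 = 0) :
    (g*z+w)*(z-g*w)*D2 (P1 g z w) (P2 g z w) = ((-1000)*g + (625)) * (z*w*D2 (z^5) (w^5)) := by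
  simp only [D2, P1, P2]
  linear_combination ((-25)*g^2*z^11*w + (425)*g^2*z^10*w^2 + (-675)*g^2*z^9*w^3 + (1350)*g^2*z^8*w^4 + (-1275)*g^2*z^7*w^5 + (2475)*g^2*z^6*w^6 + (1275)*g^2*z^5*w^7 + (1350)*g^2*z^4*w^8 + (675)*g^2*z^3*w^9 + (425)*g^2*z^2*w^10 + (25)*g^2*z*w^11 + (25)*g*z^12 + (-425)*g*z^11*w + (25)*g*z^10*w^2 + (-300)*g*z^9*w^3 + (-650)*g*z^8*w^4 + (750)*g*z^7*w^5 + (-5675)*g*z^6*w^6 + (-750)*g*z^5*w^7 + (-650)*g*z^4*w^8 + (300)*g*z^3*w^9 + (25)*g*z^2*w^10 + (425)*g*z*w^11 + (25)*g*w^12 + (650)*z^11*w + (-50)*z^10*w^2 + (300)*z^9*w^3 + (-600)*z^8*w^4 + (150)*z^7*w^5 + (6275)*z^6*w^6 + (-150)*z^5*w^7 + (-600)*z^4*w^8 + (-300)*z^3*w^9 + (-50)*z^2*w^10 + (-650)*z*w^11) * hg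

theorem id_c1 (g z w : R) (hg : g^2+g-1 = 0) :
    (g*z+w)*K1 (P1 g z w) (P2 g z w) = ((275)*g + (-175)) * (g*(z*K1 (z^5) (w^5)) + w*K2 (z^5) (w^5)) := by
  simp only [K1, K2, P1, P2]
  linear_combination ((25)*g*z^11 + (-1800)*g*z^10*w + (1800)*g*z^9*w^2 + (-5100)*g*z^8*w^3 + (2400)*g*z^7*w^4 + (-14850)*g*z^6*w^5 + (-12900)*g*z^5*w^6 + (-11100)*g*z^4*w^7 + (-6300)*g*z^3*w^8 + (-3300)*g*z^2*w^9 + (-275)*g*z*w^10 + (2125)*z^10*w + (-600)*z^9*w^2 + (2700)*z^8*w^3 + (-4800)*z^7*w^4 + (3000)*z^6*w^5 + (7950)*z^5*w^6 + (1200)*z^4*w^7 + (-2400)*z^3*w^8 + (-900)*z^2*w^9 + (-275)*w^11) * hg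

theorem id_c2 (g z w : R) (hg : g^2+g-1 = 0) :
    (z-g*w)*K2 (P1 g z w) (P2 g z w) = ((275)*g + (-175)) * (z*K1 (z^5) (w^5) - g*(w*K2 (z^5) (w^5))) := by
  simp only [K1, K2, P1, P2]
  linear_combination ((275)*g*z^10*w + (-3300)*g*z^9*w^2 + (6300)*g*z^8*w^3 + (-11100)*g*z^7*w^4 + (12900)*g*z^6*w^5 + (-14850)*g*z^5*w^6 + (-2400)*g*z^4*w^7 + (-5100)*g*z^3*w^8 + (-1800)*g*z^2*w^9 + (-1800)*g*z*w^10 + (-25)*g*w^11 + (-275)*z^11 + (-900)*z^9*w^2 + (2400)*z^8*w^3 + (1200)*z^7*w^4 + (-7950)*z^6*w^5 + (3000)*z^5*w^6 + (4800)*z^4*w^7 + (2700)*z^3*w^8 + (600)*z^2*w^9 + (2125)*z*w^10) * hg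

theorem id_xQ (g z w : R) (hg : g^2+g-1 = 0) :
    XP5 g (P1 g z w) (P2 g z w) = ((275)*g + (-175)) * (5 * xQ z w) := by
  simp only [XP5, D2, P1, P2, xQ]
  linear_combination ((-900)*g*z^10 + (15300)*g*z^9*w + (-24300)*g*z^8*w^2 + (48600)*g*z^7*w^3 + (-45900)*g*z^6*w^4 + (89100)*g*z^5*w^5 + (45900)*g*z^4*w^6 + (48600)*g*z^3*w^7 + (24300)*g*z^2*w^8 + (15300)*g*z*w^9 + (900)*g*w^10 + (-2325)*z^10 + (-3600)*z^9*w + (-23400)*z^8*w^2 + (24300)*z^7*w^3 + (-34200)*z^6*w^4 + (-67950)*z^5*w^5 + (-123300)*z^4*w^6 + (-65700)*z^3*w^7 + (-44100)*z^2*w^8 + (-26100)*z*w^9 + (-1425)*w^10) * hg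

theorem id_hg (ζ : R) (hζ : ζ^4+ζ^3+ζ^2+ζ+1 = 0) :
    (ζ^2+ζ^3)^2+(ζ^2+ζ^3)-1 = 0 := by
  linear_combination (ζ^2 + ζ + (-1)) * hζ

theorem id_bet2 (ζ : R) (hζ : ζ^4+ζ^3+ζ^2+ζ+1 = 0) :
    (2+4*ζ+ζ^2+3*ζ^3)^2 = -5*(3+(ζ^2+ζ^3)) := by
  linear_combination ((9)*ζ^2 + (-3)*ζ + (19)) * hζ

theorem id_yQ (ζ z w : R) (hζ : ζ^4+ζ^3+ζ^2+ζ+1 = 0) :
    Y5 ζ (P1 (ζ^2+ζ^3) z w) (P2 (ζ^2+ζ^3) z w) = ((11250)*ζ^3 + (47500)*ζ^2 + (58750)*ζ + (29375)) * yQ z w := by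
  simp only [Y5, P1, P2, yQ]
  linear_combination ((-40500)*ζ^8*z^15 + (796500)*ζ^8*z^14*w + (-3118500)*ζ^8*z^13*w^2 + (8343000)*ζ^8*z^12*w^3 + (-13540500)*ζ^8*z^11*w^4 + (21816000)*ζ^8*z^10*w^5 + (-21681000)*ζ^8*z^9*w^6 + (20776500)*ζ^8*z^8*w^7 + (-1174500)*ζ^8*z^7*w^8 + (13932000)*ζ^8*z^6*w^9 + (7317000)*ζ^8*z^5*w^10 + (7438500)*ζ^8*z^4*w^11 + (2646000)*ζ^8*z^3*w^12 + (1714500)*ζ^8*z^2*w^13 + (310500)*ζ^8*z*w^14 + (13500)*ζ^8*w^15 + (-67500)*ζ^7*z^15 + (1282500)*ζ^7*z^14*w + (-4522500)*ζ^7*z^13*w^2 + (14040000)*ζ^7*z^12*w^3 + (-19642500)*ζ^7*z^11*w^4 + (36315000)*ζ^7*z^10*w^5 + (-29430000)*ζ^7*z^9*w^6 + (42727500)*ζ^7*z^8*w^7 + (18427500)*ζ^7*z^7*w^8 + (49545000)*ζ^7*z^6*w^9 + (36450000)*ζ^7*z^5*w^10 + (28417500)*ζ^7*z^4*w^11 + (13635000)*ζ^7*z^3*w^12 + (6547500)*ζ^7*z^2*w^13 + (1417500)*ζ^7*z*w^14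 + (67500)*ζ^7*w^15 + (-135000)*ζ^6*z^14*w + (2025000)*ζ^6*z^13*w^2 + (405000)*ζ^6*z^12*w^3 + (8775000)*ζ^6*z^11*w^4 + (-135000)*ζ^6*z^10*w^5 + (20115000)*ζ^6*z^9*w^6 + (24300000)*ζ^6*z^8*w^7 + (61155000)*ζ^6*z^7*w^8 + (78975000)*ζ^6*z^6*w^9 + (72765000)*ζ^6*z^5*w^10 + (48060000)*ζ^6*z^4*w^11 + (27675000)*ζ^6*z^3*w^12 + (11070000)*ζ^6*z^2*w^13 + (2700000)*ζ^6*z*w^14 + (135000)*ζ^6*w^15 + (-1134000)*ζ^5*z^14*w + (5535000)*ζ^5*z^13*w^2 + (-9085500)*ζ^5*z^12*w^3 + (21735000)*ζ^5*z^11*w^4 + (-25434000)*ζ^5*z^10*w^5 + (45778500)*ζ^5*z^9*w^6 + (-1417500)*ζ^5*z^8*w^7 + (54027000)*ζ^5*z^7*w^8 + (56227500)*ζ^5*z^6*w^9 + (57051000)*ζ^5*z^5*w^10 + (34141500)*ζ^5*z^4*w^11 + (22882500)*ζ^5*z^3*w^12 + (7600500)*ζ^5*z^2*w^13 + (2092500)*ζ^5*z*w^14 + (121500)*ζ^5*w^15 + (-13500)*ζ^4*z^15 + (-391500)*ζ^4*z^14*w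 + (40500)*ζ^4*z^13*w^2 + (-4698000)*ζ^4*z^12*w^3 + (-958500)*ζ^4*z^11*w^4 + (-9585000)*ζ^4*z^10*w^5 + (2916000)*ζ^4*z^9*w^6 + (-18589500)*ζ^4*z^8*w^7 + (-32845500)*ζ^4*z^7*w^8 + (-48411000)*ζ^4*z^6*w^9 + (-41013000)*ζ^4*z^5*w^10 + (-26878500)*ζ^4*z^4*w^11 + (-14283000)*ζ^4*z^3*w^12 + (-6979500)*ζ^4*z^2*w^13 + (-1606500)*ζ^4*z*w^14 + (-13500)*ζ^4*w^15 + (27000)*ζ^3*z^15 + (243000)*ζ^3*z^14*w + (-4131000)*ζ^3*z^13*w^2 + (-1809000)*ζ^3*z^12*w^3 + (-15633000)*ζ^3*z^11*w^4 + (2430000)*ζ^3*z^10*w^5 + (-29997000)*ζ^3*z^9*w^6 + (-29646000)*ζ^3*z^8*w^7 + (-90639000)*ζ^3*z^7*w^8 + (-122553000)*ζ^3*z^6*w^9 + (-108864000)*ζ^3*z^5*w^10 + (-67878000)*ζ^3*z^4*w^11 + (-40959000)*ζ^3*z^3*w^12 + (-16686000)*ζ^3*z^2*w^13 + (-4212000)*ζ^3*z*w^14 + (-108000)*ζ^3*w^15 + (54000)*ζ^2*z^15 + (-94500)*ζ^2*z^14*w + (-432000)*ζ^2*z^13*w^2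 + (-3159000)*ζ^2*z^12*w^3 + (526500)*ζ^2*z^11*w^4 + (-5440500)*ζ^2*z^10*w^5 + (-4212000)*ζ^2*z^9*w^6 + (-14742000)*ζ^2*z^8*w^7 + (-24219000)*ζ^2*z^7*w^8 + (-40716000)*ζ^2*z^6*w^9 + (-33696000)*ζ^2*z^5*w^10 + (-21235500)*ζ^2*z^4*w^11 + (-13338000)*ζ^2*z^3*w^12 + (-5076000)*ζ^2*z^2*w^13 + (-1336500)*ζ^2*z*w^14 + (-40500)*ζ^2*w^15 + (-13500)*ζ*z^15 + (54000)*ζ*z^14*w + (2875500)*ζ*z^13*w^2 + (3955500)*ζ*z^12*w^3 + (10989000)*ζ*z^11*w^4 + (2200500)*ζ*z^10*w^5 + (14836500)*ζ*z^9*w^6 + (22113000)*ζ*z^8*w^7 + (67270500)*ζ*z^7*w^8 + (95026500)*ζ*z^6*w^9 + (81540000)*ζ*z^5*w^10 + (49423500)*ζ*z^4*w^11 + (29659500)*ζ*z^3*w^12 + (12987000)*ζ*z^2*w^13 + (3253500)*ζ*z*w^14 + (13500)*ζ*w^15 + (-13500)*z^15 + (54000)*z^14*w + (2875500)*z^13*w^2 + (3955500)*z^12*w^3 + (10989000)*z^11*w^4 + (2200500)*z^10*w^5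 + (14836500)*z^9*w^6 + (22113000)*z^8*w^7 + (67270500)*z^7*w^8 + (95026500)*z^6*w^9 + (81540000)*z^5*w^10 + (49423500)*z^4*w^11 + (29659500)*z^3*w^12 + (12987000)*z^2*w^13 + (3253500)*z*w^14 + (13500)*w^15) * hζ

theorem id_curveP (ζ p q : R) (hζ : ζ^4+ζ^3+ζ^2+ζ+1 = 0) :
    5 * Y5 ζ p q ^ 2 = XP5 (ζ^2+ζ^3) p q ^ 3 - 675 * C4 p q * XP5 (ζ^2+ζ^3) p q - 6750 * C6 p q := by
  simp only [Y5, XP5, D2, C4, C6]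
  linear_combination ((46656)*ζ^5*p^6 + (1539648)*ζ^5*p^5*q + (16796160)*ζ^5*p^4*q^2 + (59019840)*ζ^5*p^3*q^3 + (-16796160)*ζ^5*p^2*q^4 + (1539648)*ζ^5*p*q^5 + (-46656)*ζ^5*q^6 + (93312)*ζ^4*p^6 + (3079296)*ζ^4*p^5*q + (33592320)*ζ^4*p^4*q^2 + (118039680)*ζ^4*p^3*q^3 + (-33592320)*ζ^4*p^2*q^4 + (3079296)*ζ^4*p*q^5 + (-93312)*ζ^4*q^6 + (793152)*ζ^2*p^6 + (16842816)*ζ^2*p^5*q + (81414720)*ζ^2*p^4*q^2 + (-81414720)*ζ^2*p^3*q^3 + (58553280)*ζ^2*p^2*q^4 + (-8817984)*ζ^2*p*q^5 + (373248)*ζ^2*q^6 + (-559872)*ζ*p^6 + (-12643776)*ζ*p^5*q + (-73249920)*ζ*p^4*q^2 + (-14230080)*ζ*p^3*q^3 + (73249920)*ζ*p^2*q^4 + (-12643776)*ζ*p*q^5 + (559872)*ζ*q^6 + (793152)*p^6 + (16842816)*p^5*q + (81414720)*p^4*q^2 + (-81414720)*p^3*q^3 + (58553280)*p^2*q^4 + (-8817984)*p*q^5 + (373248)*q^6) * hζ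

theorem id_L1 (ζ p q : R) (hζ : ζ^4+ζ^3+ζ^2+ζ+1 = 0) :
    Y5 ζ p q * L15 ζ p q = 3 * XP5 (ζ^2+ζ^3) p q ^ 2 - 675 * C4 p q := by
  simp only [Y5, L15, XP5, D2, C4]
  linear_combination ((-15552)*ζ^2*p^4 + (-225504)*ζ^2*p^3*q + (-574128)*ζ^2*p^2*q^2 + (154224)*ζ^2*p*q^3 + (-9072)*ζ^2*q^4 + (27216)*ζ*p^4 + (268272)*ζ*p^3*q + (-351216)*ζ*p^2*q^2 + (230688)*ζ*p*q^3 + (-18144)*ζ*q^4 + (-24624)*p^4 + (-263088)*p^3*q + (128304)*p^2*q^2 + (191808)*p*q^3 + (-18144)*q^4) * hζ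

theorem id_L1sq (ζ p q : R) (hζ : ζ^4+ζ^3+ζ^2+ζ+1 = 0) :
    60 * XP5 (ζ^2+ζ^3) p q - L15 ζ p q ^ 2 = -720 * (1 + 2 * (ζ^2+ζ^3)) * D2 p q := by
  simp only [L15, XP5, D2]
  linear_combination ((-1296)*ζ^2*p^2 + (-3456)*ζ^2*p*q + (-2304)*ζ^2*q^2 + (4752)*ζ*p^2 + (5472)*ζ*p*q + (-1152)*ζ*q^2 + (-4896)*p^2 + (-3456)*p*q + (-5904)*q^2) * hζ

theorem id_L2 (ζ p q : R) (hζ : ζ^4+ζ^3+ζ^2+ζ+1 = 0) :
    5 * Y5 ζ p q = -18 * (1 + 2 * (ζ^2+ζ^3)) * D2 p q * L25 ζ p q := by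
  simp only [Y5, L25, D2]
  linear_combination ((1512)*ζ^2*p^3 + (16848)*ζ^2*p^2*q + (864)*ζ^2*p*q^2 + (-216)*ζ^2*q^3 + (-216)*ζ*p^3 + (-864)*ζ*p^2*q + (16848)*ζ*p*q^2 + (-1512)*ζ*q^3 + (-216)*p^3 + (-864)*p^2*q + (16848)*p*q^2 + (-1512)*q^3) * hζ

theorem id_solve_p (ζ p q : R) (hζ : ζ^4+ζ^3+ζ^2+ζ+1 = 0) :
    4500 * p = ((6)*ζ^3 + (42)*ζ^2 + (48)*ζ + (24)) * L15 ζ p q - ((48)*ζ^3 + (36)*ζ^2 + (84)*ζ + (42)) * L25 ζ p q := by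
  simp only [L15, L25]
  linear_combination ((1800)*ζ^2*p + (-1800)*ζ*p + (5400)*p) * hζ

theorem id_solve_q (ζ p q : R) (hζ : ζ^4+ζ^3+ζ^2+ζ+1 = 0) :
    4500 * q = -((42)*ζ^3 + (-6)*ζ^2 + (36)*ζ + (18)) * L15 ζ p q + ((36)*ζ^3 + (-48)*ζ^2 + (-12)*ζ + (-6)) * L25 ζ p q := by
  simp only [L15, L25]
  linear_combination ((1800)*ζ^2*q + (-1800)*ζ*q + (5400)*q) * hζ

theorem id_Y5D (ζ p q : R) (hζ : ζ^4+ζ^3+ζ^2+ζ+1 = 0) :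
    Y5 ζ p q * (p + (8 + 5 * (ζ^2+ζ^3)) * q) = ((-324)*ζ^3 + (108)*ζ^2 + (-216)*ζ + (-108)) * D2 p q ^ 2 := by
  simp only [Y5, D2]
  linear_combination ((-1620)*ζ^2*p^3*q + (-17280)*ζ^2*p^2*q^2 + (7560)*ζ^2*p*q^3 + (-540)*ζ^2*q^4 + (540)*ζ*p^3*q + (7560)*ζ*p^2*q^2 + (17280)*ζ*p*q^3 + (-1620)*ζ*q^4 + (540)*p^3*q + (7560)*p^2*q^2 + (17280)*p*q^3 + (-1620)*q^4) * hζ

theorem id_y3c (ζ : R) (hζ : ζ^4+ζ^3+ζ^2+ζ+1 = 0) :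
    ((-324)*ζ^3 + (108)*ζ^2 + (-216)*ζ + (-108)) * ((-1259712)*ζ^3 + (-8817984)*ζ^2 + (-10077696)*ζ + (-5038848)) = 680244480 := by
  linear_combination ((408146688)*ζ^2 + (2312831232)*ζ + (-136048896)) * hζ

theorem id_sqrt5 (ζ : R) (hζ : ζ^4+ζ^3+ζ^2+ζ+1 = 0) :
    (1 + 2 * (ζ^2+ζ^3))^2 = 5 := by
  linear_combination ((4)*ζ^2 + (4)*ζ + (-4)) * hζ

theorem id_K7 (ζ z w : R) (hζ : ζ^4+ζ^3+ζ^2+ζ+1 = 0) :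
    (5 * xQ z w - XP5 (ζ^2+ζ^3) (z^5) (w^5)) * G1 ζ z w = 36 * (3 + (ζ^2+ζ^3)) * (z * w * D2 (z^5) (w^5)) ^ 2 := by
  simp only [xQ, XP5, D2, G1]
  linear_combination ((36)*ζ^2*z^20*w^4 + (-36)*ζ^2*z^19*w^5 + (-108)*ζ^2*z^18*w^6 + (252)*ζ^2*z^17*w^7 + (144)*ζ^2*z^15*w^9 + (-144)*ζ^2*z^14*w^10 + (-1332)*ζ^2*z^13*w^11 + (2808)*ζ^2*z^12*w^12 + (-2808)*ζ^2*z^10*w^14 + (2808)*ζ^2*z^9*w^15 + (-1476)*ζ^2*z^8*w^16 + (144)*ζ^2*z^7*w^17 + (252)*ζ^2*z^5*w^19 + (-252)*ζ^2*z^4*w^20 + (144)*ζ^2*z^3*w^21 + (-36)*ζ^2*z^2*w^22 + (36)*ζ*z^20*w^4 + (-36)*ζ*z^19*w^5 + (-108)*ζ*z^18*w^6 + (252)*ζ*z^17*w^7 + (144)*ζ*z^15*w^9 + (-144)*ζ*z^14*w^10 + (-1332)*ζ*z^13*w^11 + (2808)*ζ*z^12*w^12 + (-2808)*ζ*z^10*w^14 + (2808)*ζ*z^9*w^15 + (-1476)*ζ*z^8*w^16 + (144)*ζ*z^7*w^17 + (252)*ζ*z^5*w^19 + (-252)*ζ*z^4*w^20 + (144)*ζ*z^3*w^21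 + (-36)*ζ*z^2*w^22 + (-36)*z^20*w^4 + (36)*z^19*w^5 + (108)*z^18*w^6 + (-252)*z^17*w^7 + (-144)*z^15*w^9 + (144)*z^14*w^10 + (1332)*z^13*w^11 + (-2808)*z^12*w^12 + (2808)*z^10*w^14 + (-2808)*z^9*w^15 + (1476)*z^8*w^16 + (-144)*z^7*w^17 + (-252)*z^5*w^19 + (252)*z^4*w^20 + (-144)*z^3*w^21 + (36)*z^2*w^22) * hζ

theorem id_3g (ζ : R) (hζ : ζ^4+ζ^3+ζ^2+ζ+1 = 0) :
    (3 + (ζ^2+ζ^3)) * (2 - (ζ^2+ζ^3)) = 5 := by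
  linear_combination ((-1)*ζ^2 + (-1)*ζ + (1)) * hζ

theorem id_xQT (ζ z w : R) (hζ : ζ^4+ζ^3+ζ^2+ζ+1 = 0) :
    xQ (ζ^3*z) (ζ^2*w) = xQT ζ z w := by
  simp only [xQ, xQT]
  linear_combination ((3)*ζ^26*z^10 + (-3)*ζ^25*z^10 + (36)*ζ^24*z^8*w^2 + (-36)*ζ^23*z^8*w^2 + (-36)*ζ^23*z^7*w^3 + (36)*ζ^22*z^7*w^3 + (72)*ζ^22*z^6*w^4 + (3)*ζ^21*z^10 + (-72)*ζ^21*z^6*w^4 + (90)*ζ^21*z^5*w^5 + (-3)*ζ^20*z^10 + (-90)*ζ^20*z^5*w^5 + (180)*ζ^20*z^4*w^6 + (36)*ζ^19*z^8*w^2 + (-180)*ζ^19*z^4*w^6 + (108)*ζ^19*z^3*w^7 + (-36)*ζ^18*z^8*w^2 + (-36)*ζ^18*z^7*w^3 + (-108)*ζ^18*z^3*w^7 + (72)*ζ^18*z^2*w^8 + (36)*ζ^17*z^7*w^3 + (72)*ζ^17*z^6*w^4 + (-72)*ζ^17*z^2*w^8 + (36)*ζ^17*z*w^9 + (3)*ζ^16*z^10 + (-72)*ζ^16*z^6*w^4 + (90)*ζ^16*z^5*w^5 + (-36)*ζ^16*z*w^9 + (3)*ζ^16*w^10 + (-3)*ζ^15*z^10 + (-90)*ζ^15*z^5*w^5 + (180)*ζ^15*z^4*w^6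 + (-3)*ζ^15*w^10 + (36)*ζ^14*z^8*w^2 + (-180)*ζ^14*z^4*w^6 + (108)*ζ^14*z^3*w^7 + (-36)*ζ^13*z^8*w^2 + (-36)*ζ^13*z^7*w^3 + (-108)*ζ^13*z^3*w^7 + (72)*ζ^13*z^2*w^8 + (36)*ζ^12*z^7*w^3 + (72)*ζ^12*z^6*w^4 + (-72)*ζ^12*z^2*w^8 + (36)*ζ^12*z*w^9 + (3)*ζ^11*z^10 + (-72)*ζ^11*z^6*w^4 + (90)*ζ^11*z^5*w^5 + (-36)*ζ^11*z*w^9 + (3)*ζ^11*w^10 + (-3)*ζ^10*z^10 + (-90)*ζ^10*z^5*w^5 + (180)*ζ^10*z^4*w^6 + (-3)*ζ^10*w^10 + (36)*ζ^9*z^8*w^2 + (-180)*ζ^9*z^4*w^6 + (108)*ζ^9*z^3*w^7 + (-36)*ζ^8*z^8*w^2 + (-36)*ζ^8*z^7*w^3 + (-108)*ζ^8*z^3*w^7 + (72)*ζ^8*z^2*w^8 + (36)*ζ^7*z^7*w^3 + (72)*ζ^7*z^6*w^4 + (-72)*ζ^7*z^2*w^8 + (36)*ζ^7*z*w^9 + (3)*ζ^6*z^10 + (-72)*ζ^6*z^6*w^4 + (90)*ζ^6*z^5*w^5 + (-36)*ζ^6*z*w^9 + (3)*ζ^6*w^10 + (-3)*ζ^5*z^10 + (-90)*ζ^5*z^5*w^5 + (180)*ζ^5*z^4*w^6 + (-3)*ζ^5*w^10 + (36)*ζ^4*z^8*w^2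 + (-180)*ζ^4*z^4*w^6 + (108)*ζ^4*z^3*w^7 + (-36)*ζ^3*z^8*w^2 + (-36)*ζ^3*z^7*w^3 + (-108)*ζ^3*z^3*w^7 + (72)*ζ^3*z^2*w^8 + (36)*ζ^2*z^7*w^3 + (72)*ζ^2*z^6*w^4 + (-72)*ζ^2*z^2*w^8 + (36)*ζ^2*z*w^9 + (3)*ζ*z^10 + (-72)*ζ*z^6*w^4 + (90)*ζ*z^5*w^5 + (-36)*ζ*z*w^9 + (3)*ζ*w^10 + (-3)*z^10 + (-90)*z^5*w^5 + (180)*z^4*w^6 + (-3)*w^10) * hζ

theorem id_yQT (ζ z w : R) (hζ : ζ^4+ζ^3+ζ^2+ζ+1 = 0) :
    yQ (ζ^3*z) (ζ^2*w) = yQT ζ z w := by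
  simp only [yQ, yQT]
  linear_combination ((-108)*ζ^39*z^13*w^2 + (108)*ζ^38*z^13*w^2 + (-108)*ζ^38*z^12*w^3 + (108)*ζ^37*z^12*w^3 + (-432)*ζ^37*z^11*w^4 + (432)*ζ^36*z^11*w^4 + (-540)*ζ^35*z^9*w^6 + (-108)*ζ^34*z^13*w^2 + (540)*ζ^34*z^9*w^6 + (-648)*ζ^34*z^8*w^7 + (108)*ζ^33*z^13*w^2 + (-108)*ζ^33*z^12*w^3 + (648)*ζ^33*z^8*w^7 + (-2268)*ζ^33*z^7*w^8 + (108)*ζ^32*z^12*w^3 + (-432)*ζ^32*z^11*w^4 + (2268)*ζ^32*z^7*w^8 + (-3132)*ζ^32*z^6*w^9 + (432)*ζ^31*z^11*w^4 + (3132)*ζ^31*z^6*w^9 + (-2700)*ζ^31*z^5*w^10 + (-540)*ζ^30*z^9*w^6 + (2700)*ζ^30*z^5*w^10 + (-1620)*ζ^30*z^4*w^11 + (-108)*ζ^29*z^13*w^2 + (540)*ζ^29*z^9*w^6 + (-648)*ζ^29*z^8*w^7 + (1620)*ζ^29*z^4*w^11 + (-972)*ζ^29*z^3*w^12 + (108)*ζ^28*z^13*w^2 + (-108)*ζ^28*z^12*w^3 + (648)*ζ^28*z^8*w^7 + (-2268)*ζ^28*z^7*w^8 + (972)*ζ^28*z^3*w^12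 + (-432)*ζ^28*z^2*w^13 + (108)*ζ^27*z^12*w^3 + (-432)*ζ^27*z^11*w^4 + (2268)*ζ^27*z^7*w^8 + (-3132)*ζ^27*z^6*w^9 + (432)*ζ^27*z^2*w^13 + (-108)*ζ^27*z*w^14 + (432)*ζ^26*z^11*w^4 + (3132)*ζ^26*z^6*w^9 + (-2700)*ζ^26*z^5*w^10 + (108)*ζ^26*z*w^14 + (-540)*ζ^25*z^9*w^6 + (2700)*ζ^25*z^5*w^10 + (-1620)*ζ^25*z^4*w^11 + (-108)*ζ^24*z^13*w^2 + (540)*ζ^24*z^9*w^6 + (-648)*ζ^24*z^8*w^7 + (1620)*ζ^24*z^4*w^11 + (-972)*ζ^24*z^3*w^12 + (108)*ζ^23*z^13*w^2 + (-108)*ζ^23*z^12*w^3 + (648)*ζ^23*z^8*w^7 + (-2268)*ζ^23*z^7*w^8 + (972)*ζ^23*z^3*w^12 + (-432)*ζ^23*z^2*w^13 + (108)*ζ^22*z^12*w^3 + (-432)*ζ^22*z^11*w^4 + (2268)*ζ^22*z^7*w^8 + (-3132)*ζ^22*z^6*w^9 + (432)*ζ^22*z^2*w^13 + (-108)*ζ^22*z*w^14 + (432)*ζ^21*z^11*w^4 + (3132)*ζ^21*z^6*w^9 + (-2700)*ζ^21*z^5*w^10 + (108)*ζ^21*z*w^14 + (-540)*ζ^20*z^9*w^6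 + (2700)*ζ^20*z^5*w^10 + (-1620)*ζ^20*z^4*w^11 + (-108)*ζ^19*z^13*w^2 + (540)*ζ^19*z^9*w^6 + (-648)*ζ^19*z^8*w^7 + (1620)*ζ^19*z^4*w^11 + (-972)*ζ^19*z^3*w^12 + (108)*ζ^18*z^13*w^2 + (-108)*ζ^18*z^12*w^3 + (648)*ζ^18*z^8*w^7 + (-2268)*ζ^18*z^7*w^8 + (972)*ζ^18*z^3*w^12 + (-432)*ζ^18*z^2*w^13 + (108)*ζ^17*z^12*w^3 + (-432)*ζ^17*z^11*w^4 + (2268)*ζ^17*z^7*w^8 + (-3132)*ζ^17*z^6*w^9 + (432)*ζ^17*z^2*w^13 + (-108)*ζ^17*z*w^14 + (432)*ζ^16*z^11*w^4 + (3132)*ζ^16*z^6*w^9 + (-2700)*ζ^16*z^5*w^10 + (108)*ζ^16*z*w^14 + (-540)*ζ^15*z^9*w^6 + (2700)*ζ^15*z^5*w^10 + (-1620)*ζ^15*z^4*w^11 + (-108)*ζ^14*z^13*w^2 + (540)*ζ^14*z^9*w^6 + (-648)*ζ^14*z^8*w^7 + (1620)*ζ^14*z^4*w^11 + (-972)*ζ^14*z^3*w^12 + (108)*ζ^13*z^13*w^2 + (-108)*ζ^13*z^12*w^3 + (648)*ζ^13*z^8*w^7 + (-2268)*ζ^13*z^7*w^8 + (972)*ζ^13*z^3*w^12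 + (-432)*ζ^13*z^2*w^13 + (108)*ζ^12*z^12*w^3 + (-432)*ζ^12*z^11*w^4 + (2268)*ζ^12*z^7*w^8 + (-3132)*ζ^12*z^6*w^9 + (432)*ζ^12*z^2*w^13 + (-108)*ζ^12*z*w^14 + (432)*ζ^11*z^11*w^4 + (3132)*ζ^11*z^6*w^9 + (-2700)*ζ^11*z^5*w^10 + (108)*ζ^11*z*w^14 + (-540)*ζ^10*z^9*w^6 + (2700)*ζ^10*z^5*w^10 + (-1620)*ζ^10*z^4*w^11 + (-108)*ζ^9*z^13*w^2 + (540)*ζ^9*z^9*w^6 + (-648)*ζ^9*z^8*w^7 + (1620)*ζ^9*z^4*w^11 + (-972)*ζ^9*z^3*w^12 + (108)*ζ^8*z^13*w^2 + (-108)*ζ^8*z^12*w^3 + (648)*ζ^8*z^8*w^7 + (-2268)*ζ^8*z^7*w^8 + (972)*ζ^8*z^3*w^12 + (-432)*ζ^8*z^2*w^13 + (108)*ζ^7*z^12*w^3 + (-432)*ζ^7*z^11*w^4 + (2268)*ζ^7*z^7*w^8 + (-3132)*ζ^7*z^6*w^9 + (432)*ζ^7*z^2*w^13 + (-108)*ζ^7*z*w^14 + (432)*ζ^6*z^11*w^4 + (3132)*ζ^6*z^6*w^9 + (-2700)*ζ^6*z^5*w^10 + (108)*ζ^6*z*w^14 + (-540)*ζ^5*z^9*w^6 + (2700)*ζ^5*z^5*w^10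 + (-1620)*ζ^5*z^4*w^11 + (-108)*ζ^4*z^13*w^2 + (540)*ζ^4*z^9*w^6 + (-648)*ζ^4*z^8*w^7 + (1620)*ζ^4*z^4*w^11 + (-972)*ζ^4*z^3*w^12 + (108)*ζ^3*z^13*w^2 + (-108)*ζ^3*z^12*w^3 + (648)*ζ^3*z^8*w^7 + (-2268)*ζ^3*z^7*w^8 + (972)*ζ^3*z^3*w^12 + (-432)*ζ^3*z^2*w^13 + (108)*ζ^2*z^12*w^3 + (-432)*ζ^2*z^11*w^4 + (2268)*ζ^2*z^7*w^8 + (-3132)*ζ^2*z^6*w^9 + (432)*ζ^2*z^2*w^13 + (-108)*ζ^2*z*w^14 + (432)*ζ*z^11*w^4 + (3132)*ζ*z^6*w^9 + (-2700)*ζ*z^5*w^10 + (108)*ζ*z*w^14 + (-540)*z^9*w^6 + (2700)*z^5*w^10 + (-1620)*z^4*w^11) * hζ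

theorem id_K6x (ζ z w : R) (hζ : ζ^4+ζ^3+ζ^2+ζ+1 = 0) :
    (5 * yQ z w + Y5 ζ (z^5) (w^5)) ^ 2 * 5 = (XP5 (ζ^2+ζ^3) (z^5) (w^5) + 5 * xQ z w + 5 * xQT ζ z w) * (5 * xQ z w - XP5 (ζ^2+ζ^3) (z^5) (w^5)) ^ 2 := by
  simp only [yQ, Y5, XP5, D2, xQ, xQT]
  linear_combination ((46656)*ζ^5*z^30 + (-233280)*ζ^5*z^28*w^2 + (1539648)*ζ^5*z^25*w^5 + (1166400)*ζ^5*z^24*w^6 + (-5832000)*ζ^5*z^23*w^7 + (16796160)*ζ^5*z^20*w^10 + (25660800)*ζ^5*z^19*w^11 + (-43156800)*ζ^5*z^18*w^12 + (59019840)*ζ^5*z^15*w^15 + (138801600)*ζ^5*z^14*w^16 + (-78148800)*ζ^5*z^13*w^17 + (-16796160)*ζ^5*z^10*w^20 + (-25660800)*ζ^5*z^9*w^21 + (15163200)*ζ^5*z^8*w^22 + (1539648)*ζ^5*z^5*w^25 + (1166400)*ζ^5*z^4*w^26 + (-699840)*ζ^5*z^3*w^27 + (-46656)*ζ^5*w^30 + (93312)*ζ^4*z^30 + (-233280)*ζ^4*z^28*w^2 + (233280)*ζ^4*z^27*w^3 +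 (3079296)*ζ^4*z^25*w^5 + (2332800)*ζ^4*z^24*w^6 + (-5832000)*ζ^4*z^23*w^7 + (4665600)*ζ^4*z^22*w^8 + (33592320)*ζ^4*z^20*w^10 + (51321600)*ζ^4*z^19*w^11 + (-43156800)*ζ^4*z^18*w^12 + (17496000)*ζ^4*z^17*w^13 + (118039680)*ζ^4*z^15*w^15 + (277603200)*ζ^4*z^14*w^16 + (-78148800)*ζ^4*z^13*w^17 + (-60652800)*ζ^4*z^12*w^18 + (-33592320)*ζ^4*z^10*w^20 + (-51321600)*ζ^4*z^9*w^21 + (15163200)*ζ^4*z^8*w^22 + (10497600)*ζ^4*z^7*w^23 + (3079296)*ζ^4*z^5*w^25 + (2332800)*ζ^4*z^4*w^26 + (-699840)*ζ^4*z^3*w^27 + (-466560)*ζ^4*z^2*w^28 + (-93312)*ζ^4*w^30 + (233280)*ζ^3*z^28*w^2 + (233280)*ζ^3*z^27*w^3 + (-466560)*ζ^3*z^26*w^4 + (1166400)*ζ^3*z^24*w^6 + (5832000)*ζ^3*z^23*w^7 + (4665600)*ζ^3*z^22*w^8 + (-10497600)*ζ^3*z^21*w^9 + (25660800)*ζ^3*z^19*w^11 + (43156800)*ζ^3*z^18*w^12 + (17496000)*ζ^3*z^17*w^13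 + (-60652800)*ζ^3*z^16*w^14 + (138801600)*ζ^3*z^14*w^16 + (78148800)*ζ^3*z^13*w^17 + (-60652800)*ζ^3*z^12*w^18 + (-17496000)*ζ^3*z^11*w^19 + (-25660800)*ζ^3*z^9*w^21 + (-15163200)*ζ^3*z^8*w^22 + (10497600)*ζ^3*z^7*w^23 + (4665600)*ζ^3*z^6*w^24 + (1166400)*ζ^3*z^4*w^26 + (699840)*ζ^3*z^3*w^27 + (-466560)*ζ^3*z^2*w^28 + (-233280)*ζ^3*z*w^29 + (793152)*ζ^2*z^30 + (-933120)*ζ^2*z^28*w^2 + (-466560)*ζ^2*z^27*w^3 + (-2332800)*ζ^2*z^26*w^4 + (19175616)*ζ^2*z^25*w^5 + (3499200)*ζ^2*z^24*w^6 + (-16329600)*ζ^2*z^23*w^7 + (-9331200)*ζ^2*z^22*w^8 + (-51321600)*ζ^2*z^21*w^9 + (132736320)*ζ^2*z^20*w^10 + (76982400)*ζ^2*z^19*w^11 + (-18662400)*ζ^2*z^18*w^12 + (-34992000)*ζ^2*z^17*w^13 + (-277603200)*ζ^2*z^16*w^14 + (196188480)*ζ^2*z^15*w^15 + (416404800)*ζ^2*z^14*w^16 + (520214400)*ζ^2*z^13*w^17 + (121305600)*ζ^2*z^12*w^18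 + (51321600)*ζ^2*z^11*w^19 + (7231680)*ζ^2*z^10*w^20 + (-76982400)*ζ^2*z^9*w^21 + (-93312000)*ζ^2*z^8*w^22 + (-20995200)*ζ^2*z^7*w^23 + (-2332800)*ζ^2*z^6*w^24 + (-6485184)*ζ^2*z^5*w^25 + (3499200)*ζ^2*z^4*w^26 + (4199040)*ζ^2*z^3*w^27 + (933120)*ζ^2*z^2*w^28 + (373248)*ζ^2*w^30 + (-559872)*ζ*z^30 + (233280)*ζ*z^28*w^2 + (933120)*ζ*z^27*w^3 + (933120)*ζ*z^26*w^4 + (-10310976)*ζ*z^25*w^5 + (4665600)*ζ*z^24*w^6 + (10497600)*ζ*z^23*w^7 + (23328000)*ζ*z^22*w^8 + (20995200)*ζ*z^21*w^9 + (-21928320)*ζ*z^20*w^10 + (102643200)*ζ*z^19*w^11 + (145800000)*ζ*z^18*w^12 + (172627200)*ζ*z^17*w^13 + (121305600)*ζ*z^16*w^14 + (263373120)*ζ*z^15*w^15 + (555206400)*ζ*z^14*w^16 + (633355200)*ζ*z^13*w^17 + (312595200)*ζ*z^12*w^18 + (34992000)*ζ*z^11*w^19 + (21928320)*ζ*z^10*w^20 + (-102643200)*ζ*z^9*w^21 + (-117806400)*ζ*z^8*w^22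 + (-60652800)*ζ*z^7*w^23 + (-9331200)*ζ*z^6*w^24 + (-10310976)*ζ*z^5*w^25 + (4665600)*ζ*z^4*w^26 + (5365440)*ζ*z^3*w^27 + (2799360)*ζ*z^2*w^28 + (466560)*ζ*z*w^29 + (559872)*ζ*w^30 + (793152)*z^30 + (933120)*z^28*w^2 + (233280)*z^27*w^3 + (-466560)*z^26*w^4 + (14510016)*z^25*w^5 + (-2332800)*z^24*w^6 + (20995200)*z^23*w^7 + (6998400)*z^22*w^8 + (-9331200)*z^21*w^9 + (30093120)*z^20*w^10 + (-51321600)*z^19*w^11 + (121305600)*z^18*w^12 + (68817600)*z^17*w^13 + (-34992000)*z^16*w^14 + (-359017920)*z^15*w^15 + (-277603200)*z^14*w^16 + (34992000)*z^13*w^17 + (216950400)*z^12*w^18 + (121305600)*z^11*w^19 + (109874880)*z^10*w^20 + (51321600)*z^9*w^21 + (-9331200)*z^8*w^22 + (-40824000)*z^7*w^23 + (-20995200)*z^6*w^24 + (-11150784)*z^5*w^25 + (-2332800)*z^4*w^26 + (466560)*z^3*w^27 + (1866240)*z^2*w^28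 + (933120)*z*w^29 + (373248)*w^30) * hζ

theorem id_K6y (ζ z w : R) (hζ : ζ^4+ζ^3+ζ^2+ζ+1 = 0) :
    5 * yQT ζ z w * (5 * xQ z w - XP5 (ζ^2+ζ^3) (z^5) (w^5)) = (5 * yQ z w + Y5 ζ (z^5) (w^5)) * (xQ z w - xQT ζ z w) * 5 - 5 * yQ z w * (5 * xQ z w - XP5 (ζ^2+ζ^3) (z^5) (w^5)) := by
  simp only [yQ, yQT, Y5, XP5, D2, xQ, xQT]
  linear_combination ((-77760)*ζ^2*z^23*w^2 + (388800)*ζ^2*z^19*w^6 + (-1127520)*ζ^2*z^18*w^7 + (4471200)*ζ^2*z^14*w^11 + (-3032640)*ζ^2*z^13*w^12 + (1749600)*ζ^2*z^9*w^16 + (-1010880)*ζ^2*z^8*w^17 + (-194400)*ζ^2*z^4*w^21 + (116640)*ζ^2*z^3*w^22 + (77760)*ζ*z^23*w^2 + (38880)*ζ*z^22*w^3 + (1127520)*ζ*z^18*w^7 + (-116640)*ζ*z^17*w^8 + (3032640)*ζ*z^13*w^12 + (-6065280)*ζ*z^12*w^13 + (1010880)*ζ*z^8*w^17 + (116640)*ζ*z^7*w^18 + (-116640)*ζ*z^3*w^22 + (38880)*ζ*z^2*w^23 + (-38880)*z^23*w^2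 + (-77760)*z^22*w^3 + (-194400)*z^21*w^4 + (194400)*z^19*w^6 + (-466560)*z^18*w^7 + (-738720)*z^17*w^8 + (-2721600)*z^16*w^9 + (1749600)*z^14*w^11 + (-155520)*z^13*w^12 + (1438560)*z^12*w^13 + (-6220800)*z^11*w^14 + (-4471200)*z^9*w^16 + (2604960)*z^8*w^17 + (738720)*z^7*w^18 + (583200)*z^6*w^19 + (388800)*z^4*w^21 + (-233280)*z^3*w^22 + (-77760)*z^2*w^23) * hζ

theorem id_b20 (ζ : R) (hζ : ζ^4+ζ^3+ζ^2+ζ+1 = 0) :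
    (2+4*ζ+ζ^2+3*ζ^3)^20 * ((-171875)*(ζ^2+ζ^3) + (106250)) = 5^20 := by
  linear_combination ((-599291068921875)*ζ^59 + (-3995273792812500)*ζ^58 + (-28033504446234375)*ζ^57 + (-130141806389268750)*ζ^56 + (-561789169149684375)*ζ^55 + (-2031452113566796875)*ζ^54 + (-6755234712079640625)*ζ^53 + (-20201166489247453125)*ζ^52 + (-55980749132686293750)*ζ^51 + (-143550418349422659375)*ζ^50 + (-344371743159044765625)*ζ^49 + (-775191297059668828125)*ζ^48 + (-1645368477905142421875)*ζ^47 + (-3303158848314487593750)*ζ^46 + (-6289309629076494515625)*ζ^45 + (-11383801034148664453125)*ζ^44 + (-19623398930765235000000)*ζ^43 + (-32266264385530762734375)*ζ^42 + (-50670231562272137765625)*ζ^41 + (-76072773139979796609375)*ζ^40 + (-109275621797456363750000)*ζ^39 + (-150275813414116943125000)*ζ^38 + (-197924447176266526250000)*ζ^37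 + (-249714575515728372359375)*ζ^36 + (-301807965150629457640625)*ζ^35 + (-349368477398754750750000)*ζ^34 + (-387200151919249472500000)*ζ^33 + (-410599253418894675500000)*ζ^32 + (-416242964296038262759375)*ζ^31 + (-402899503030841633240625)*ζ^30 + (-371763648416825840000000)*ζ^29 + (-326306681891888504000000)*ζ^28 + (-271659450146185344000000)*ζ^27 + (-213674444339346249959375)*ζ^26 + (-157900023380466366040625)*ζ^25 + (-108714433409389040000000)*ζ^24 + (-68805334429700480000000)*ζ^23 + (-39069228922786240000000)*ζ^22 + (-18883497462298744359375)*ζ^21 + (-6613466908860935640625)*ζ^20 + (-183384107673600000000)*ζ^19 + (2436635090808960000000)*ζ^18 + (2914479411285760000000)*ζ^17 + (2427150088509959640625)*ζ^16 + (1681274825954040359375)*ζ^15 + (1019580307614720000000)*ζ^14 + (551883626147840000000)*ζ^13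 + (268473407851520000000)*ζ^12 + (117423260414215640625)*ζ^11 + (45995730223864359375)*ζ^10 + (16017151277056000000)*ζ^9 + (4905322014720000000)*ζ^8 + (1302232121344000000)*ζ^7 + (294220481594840625)*ζ^6 + (55082703813159375)*ζ^5 + (8330608640000000)*ζ^4 + (968753152000000)*ζ^3 + (81149952000000)*ζ^2 + (99712468440625)*ζ + (-95256020440625)) * hζ

theorem id_b30 (ζ : R) (hζ : ζ^4+ζ^3+ζ^2+ζ+1 = 0) :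
    (2+4*ζ+ζ^2+3*ζ^3)^30 * ((106562500)*(ζ^2+ζ^3) + (-65859375)) = 5^30 := by
  linear_combination ((21940273763836034062500)*ζ^89 + (219402737638360340625000)*ζ^88 + (1916117242041680308125000)*ζ^87 + (11988582490272508535390625)*ζ^86 + (66161966097244476468515625)*ζ^85 + (313497141024153852996328125)*ζ^84 + (1346600904809544203558203125)*ζ^83 + (5246460193809770939821640625)*ζ^82 + (18906752707314514446829218750)*ζ^81 + (63326065974359026641591093750)*ζ^80 + (198913900110900610733672343750)*ζ^79 + (588608933683072607713638281250)*ζ^78 + (1649153126323845853368937031250)*ζ^77 + (4390357177854836959470065859375)*ζ^76 + (11142189847507071014329853671875)*ζ^75 + (27028753120404250190909194921875)*ζ^74 + (62817677577058714855326123046875)*ζ^73 + (140154772946768057810441738671875)*ζ^72 + (300721128182855059619580567187500)*ζ^71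 + (621462824496953836616027467968750)*ζ^70 + (1238641471313983218950668244531250)*ζ^69 + (2383805635721098365162236378906250)*ζ^68 + (4434514231952828582002480239843750)*ζ^67 + (7981309317790258568572926258984375)*ζ^66 + (13909501871059351884817280670703125)*ζ^65 + (23489484918255404044742640356015625)*ζ^64 + (38462533186484344496728259745703125)*ζ^63 + (61101099131409737382806809605703125)*ζ^62 + (94215065373173303455617766795781250)*ζ^61 + (141070705539329986254177342536250000)*ζ^60 + (205190329464970324811344384016875000)*ζ^59 + (290010634359425232647887600401562500)*ζ^58 + (398398395155828128763089362806562500)*ζ^57 + (532052673062553043799779899580703125)*ζ^56 + (690859267293610143007117210455234375)*ζ^55 + (872298354227317037044390769546250000)*ζ^54 + (1071030286823450289790583110081250000)*ζ^53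 + (1278787210541338437500216190016250000)*ζ^52 + (1484672071999288913378716570898515625)*ζ^51 + (1675910193232013778796688593526484375)*ζ^50 + (1839018357402309337921860308325000000)*ζ^49 + (1961266921773622472410434951875000000)*ζ^48 + (2032232129399346379011923969300000000)*ζ^47 + (2045189657569348053725543751578515625)*ζ^46 + (1998102435712477189684244959421484375)*ζ^45 + (1894011229626431577544219401300000000)*ζ^44 + (1740737297144499364341462644000000000)*ζ^43 + (1549931920272278424346137477200000000)*ζ^42 + (1335629491498672366238734095878515625)*ζ^41 + (1112550594244209943657557496121484375)*ζ^40 + (894438445352493954274107533760000000)*ζ^39 + (692688982172251855855456865600000000)*ζ^38 + (515459915866362464938948351040000000)*ζ^37 + (367337916726286609867423987958515625)*ζ^36 + (249532626932661406182840276041484375)*ζ^35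 + (160476746580400775236541057280000000)*ζ^34 + (96660161055673830533925843200000000)*ζ^33 + (53518361431872186886606513920000000)*ζ^32 + (26225139031056306767038984118515625)*ζ^31 + (10292601669962574903855556681484375)*ζ^30 + (1941061364608754542354140160000000)*ζ^29 + (-1747391248645130777601356800000000)*ζ^28 + (-2843879506648576959847260160000000)*ζ^27 + (-2694470008845100776877268041484375)*ζ^26 + (-2089593630833706887701496758515625)*ζ^25 + (-1435647685758105116106649600000000)*ζ^24 + (-900845986124390501447680000000000)*ζ^23 + (-523649933428540604296806400000000)*ζ^22 + (-283994753361117139942837321484375)*ζ^21 + (-144193250955418596471370678515625)*ζ^20 + (-68623668323159731398246400000000)*ζ^19 + (-30604259309239296827392000000000)*ζ^18 + (-12772265170420512602521600000000)*ζ^17 +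 (-4976514923032180743195721484375)*ζ^16 + (-1804575586624065635300278515625)*ζ^15 + (-606555527696584384184320000000)*ζ^14 + (-188053090006133486387200000000)*ζ^13 + (-53463061787957721825280000000)*ζ^12 + (-13840973457812294519881484375)*ζ^11 + (-3236284704316126344118515625)*ζ^10 + (-676808489614846197760000000)*ζ^9 + (-125136552628348518400000000)*ζ^8 + (-20170161583701360640000000)*ζ^7 + (-2784630804536675401484375)*ζ^6 + (-323325387226166198515625)*ζ^5 + (-30360183054008320000000)*ζ^4 + (-2230587909734400000000)*ζ^3 + (-119749140807680000000)*ζ^2 + (927150332654518515625)*ζ + (-931393290580918515625)) * hζ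

theorem id_b10 (ζ : R) (hζ : ζ^4+ζ^3+ζ^2+ζ+1 = 0) :
    (2+4*ζ+ζ^2+3*ζ^3)^10 * ((275)*(ζ^2+ζ^3) + (-175)) = 5^10 := by
  linear_combination ((16238475)*ζ^29 + (54128250)*ζ^28 + (281466900)*ζ^27 + (765504675)*ζ^26 + (2210182200)*ζ^25 + (4918016250)*ζ^24 + (10311188625)*ζ^23 + (18901127250)*ζ^22 + (31597107750)*ζ^21 + (48048904500)*ζ^20 + (66416144000)*ζ^19 + (84067088000)*ζ^18 + (96868509500)*ζ^17 + (101528194125)*ζ^16 + (96242294375)*ζ^15 + (81539992000)*ζ^14 + (60724228000)*ζ^13 + (38346164000)*ζ^12 + (18816005625)*ζ^11 + (5011930375)*ζ^10 + (-2462064000)*ζ^9 + (-4900272000)*ζ^8 + (-4367200000)*ζ^7 + (-2800282375)*ζ^6 + (-1412741625)*ζ^5 + (-538873600)*ζ^4 + (-152064000)*ζ^3 + (-29286400)*ζ^2 + (6360825)*ζ + (-9944825)) * hζ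

theorem id_b12 (ζ : R) (hζ : ζ^4+ζ^3+ζ^2+ζ+1 = 0) :
    (2+4*ζ+ζ^2+3*ζ^3)^12 * ((-1000)*(ζ^2+ζ^3) + (625)) = 5^12 := by
  linear_combination ((-531441000)*ζ^35 + (-2125764000)*ζ^34 + (-11868849000)*ζ^33 + (-37301745375)*ζ^32 + (-119758753125)*ζ^31 + (-304235210250)*ζ^30 + (-725524674750)*ζ^29 + (-1525284604125)*ζ^28 + (-2953372002750)*ζ^27 + (-5233460945625)*ζ^26 + (-8549268693750)*ζ^25 + (-12935583669375)*ζ^24 + (-18124508935000)*ζ^23 + (-23581274340000)*ζ^22 + (-28467414884375)*ζ^21 + (-31854468695625)*ζ^20 + (-32975918920000)*ζ^19 + (-31444567020000)*ζ^18 + (-27454475830000)*ζ^17 + (-21731015709375)*ζ^16 + (-15329352780625)*ζ^15 + (-9336435360000)*ζ^14 + (-4556732960000)*ζ^13 + (-1347147840000)*ζ^12 + (373404140625)*ζ^11 + (982225555375)*ζ^10 + (948695584000)*ζ^9 + (664750944000)*ζ^8 + (373366016000)*ζ^7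 + (171917740625)*ζ^6 + (63714643375)*ζ^5 + (18718976000)*ζ^4 + (4100096000)*ζ^3 + (625664000)*ζ^2 + (303020625)*ζ + (-241580625)) * hζ

theorem id_b15 (ζ : R) (hζ : ζ^4+ζ^3+ζ^2+ζ+1 = 0) :
    (2+4*ζ+ζ^2+3*ζ^3)^15 * ((11250)*ζ^3 + (47500)*ζ^2 + (58750)*ζ + (29375)) = 5^16 := by
  linear_combination ((161425203750)*ζ^44 + (1327273897500)*ζ^43 + (7873962716250)*ζ^42 + (36257894375625)*ζ^41 + (138126830310000)*ζ^40 + (461975682588750)*ζ^39 + (1363583053788750)*ζ^38 + (3656369487645000)*ζ^37 + (8938224359229375)*ζ^36 + (20181420561363750)*ζ^35 + (42267516926017500)*ζ^34 + (82614320027786250)*ζ^33 + (151255672486211250)*ζ^32 + (260236693559908125)*ζ^31 + (421857977651617500)*ζ^30 + (645564703807496250)*ζ^29 + (934087238015458750)*ζ^28 + (1279410356494140000)*ζ^27 + (1660220333829668125)*ζ^26 + (2042136263753124375)*ζ^25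 + (2381559968940825000)*ζ^24 + (2633150798212200000)*ζ^23 + (2759214955735450000)*ζ^22 + (2738582776195590625)*ζ^21 + (2572216970268809375)*ζ^20 + (2283516851419840000)*ζ^19 + (1913113002669240000)*ζ^18 + (1509651347006640000)*ζ^17 + (1119386156689730625)*ζ^16 + (777670079604749375)*ζ^15 + (504433066730080000)*ζ^14 + (304199846770880000)*ζ^13 + (169674618991680000)*ζ^12 + (86981848377970625)*ζ^11 + (40661972491789375)*ζ^10 + (17165412517120000)*ζ^9 + (6463230360320000)*ζ^8 + (2136398059520000)*ζ^7 + (607461969010625)*ζ^6 + (144396127629375)*ζ^5 + (27815695360000)*ζ^4 + (4126760960000)*ζ^3 + (440002560000)*ζ^2 + (182427250625)*ζ + (-151625330625)) * hζ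

end Fermat.Agent.S52
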