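import Fermat.Agent.S52.IcoId
import Fermat.Agent.S52.ECPoint

/-! # S52, Part A: definitions for the level 5 structure
`u = (z, w) ∈ K²`, `p = z^5`, `q = w^5`.  `Dom c4 c6 u` : `u` parametrises the curve `EC c4 c6`.
`PP W ζ u`, `QQ W u` : the two basic 5-torsion points.  `Sact ζ`, `Tact ζ` : generators of the binary
icosahedral group.  `Phi μ u = u + μ c(u)`. -/

set_option autoImplicit false

namespace Fermat.Agent.S52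

open WeierstrassCurve WeierstrassCurve.Affine

variable {K : Type*} [Field K]

def Dom (c4 c6 : K) (u : K × K) : Prop := C4 (u.1 ^ 5) (u.2 ^ 5) = c4 ∧ C6 (u.1 ^ 5) (u.2 ^ 5) = c6

def Sact (ζ : K) (u : K × K) : K × K :=
  ((2 + 4 * ζ + ζ ^ 2 + 3 * ζ ^ 3) / 5 * ((ζ ^ 2 + ζ ^ 3) * u.1 + u.2),
   (2 + 4 * ζ + ζ ^ 2 + 3 * ζ ^ 3) / 5 * (u.1 - (ζ ^ 2 + ζ ^ 3) * u.2))

def Tact (ζ : K) (u : K × K) : K × K := (ζ ^ 3 * u.1, ζ ^ 2 * u.2)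

/-- `u + μ c(u)`. -/
def Phi (μ : K) (u : K × K) : K × K :=
  (u.1 * (1 + μ * K1 (u.1 ^ 5) (u.2 ^ 5)), u.2 * (1 + μ * K2 (u.1 ^ 5) (u.2 ^ 5)))

noncomputable def PP (W : WeierstrassCurve.Affine K) (ζ : K) (u : K × K) : W.Point :=
  ptOf W (XP5 (ζ ^ 2 + ζ ^ 3) (u.1 ^ 5) (u.2 ^ 5) / 5) (Y5 ζ (u.1 ^ 5) (u.2 ^ 5) / 5)

noncomputable def QQ (W : WeierstrassCurve.Affine K) (u : K × K) : W.Point :=
  ptOf W (xQ u.1 u.2) (yQ u.1 u.2)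

end Fermat.Agent.S52
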