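import Fermat.Agent.S52.L5T

/-! # S52, Part A, piece A-O: `P(u) = P(u')` determines `u` up to `diag(ζ^a, ζ^b)`. -/

set_option autoImplicit false

namespace Fermat.Agent.S52

open WeierstrassCurve WeierstrassCurve.Affine

variable {K : Type*} [Field K] {ζ : K} {W : WeierstrassCurve.Affine K} {c4 c6 : K}

/-- natural numbers whose prime factors are among `2, 3, 5` are nonzero in `K`. -/
theorem lo_ne_zero (h30 : (30 : K) ≠ 0) (a b c : ℕ) : ((2 : K) ^ a * 3 ^ b * 5 ^ c) ≠ 0 := by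
  have h2 : (2 : K) ≠ 0 := fun h => h30 (by
    have : (30 : K) = 2 * 15 := by norm_num
    rw [this, h, zero_mul])
  have h3 : (3 : K) ≠ 0 := fun h => h30 (by
    have : (30 : K) = 3 * 10 := by norm_num
    rw [this, h, zero_mul])
  have h5 : (5 : K) ≠ 0 := fun h => h30 (by
    have : (30 : K) = 5 * 6 := by norm_num
    rw [this, h, zero_mul])
  exact mul_ne_zero (mul_ne_zero (pow_ne_zero _ h2) (pow_ne_zero _ h3)) (pow_ne_zero _ h5)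

theorem lo_key (hζ : ζ ^ 4 + ζ ^ 3 + ζ ^ 2 + ζ + 1 = 0) (h30 : (30 : K) ≠ 0) {p q p' q' : K}
    (hD : D2 p q ≠ 0) (hX : XP5 (ζ ^ 2 + ζ ^ 3) p q = XP5 (ζ ^ 2 + ζ ^ 3) p' q')
    (hY : Y5 ζ p q = Y5 ζ p' q') (hC : C4 p q = C4 p' q') : p' = p ∧ q' = q := by
  have hs : (1 + 2 * (ζ ^ 2 + ζ ^ 3)) ≠ 0 := by
    intro h
    have h1 := id_sqrt5 ζ hζ
    rw [h] at h1
    have h5 : (5 : K) ≠ 0 := by simpa using lo_ne_zero h30 0 0 1
    exact h5 (by rw [← h1]; ring)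
  have hc : ((-324) * ζ ^ 3 + (108) * ζ ^ 2 + (-216) * ζ + (-108) : K) ≠ 0 := by
    intro h
    have h1 := id_y3c ζ hζ
    rw [h, zero_mul] at h1
    have h2 : (680244480 : K) ≠ 0 := by
      have := lo_ne_zero h30 8 12 1
      norm_num at this ⊢
      exact this
    exact h2 h1.symm
  have hY0 : Y5 ζ p q ≠ 0 := by
    intro h
    have h1 := id_Y5D ζ p q hζ
    rw [h, zero_mul] at h1
    exact mul_ne_zero hc (pow_ne_zero 2 hD) h1.symm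
  have hL1 : L15 ζ p q = L15 ζ p' q' := by
    apply mul_left_cancel₀ hY0
    rw [id_L1 ζ p q hζ]
    conv_rhs => rw [hY]
    rw [id_L1 ζ p' q' hζ, hX, hC]
  have h720 : (-720 * (1 + 2 * (ζ ^ 2 + ζ ^ 3)) : K) ≠ 0 := by
    refine mul_ne_zero ?_ hs
    have := lo_ne_zero h30 4 2 1
    norm_num at this ⊢
    exact this
  have hD2 : D2 p q = D2 p' q' := by
    apply mul_left_cancel₀ h720
    rw [← id_L1sq ζ p q hζ, ← id_L1sq ζ p' q' hζ, hX, hL1]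
  have h18 : (-18 * (1 + 2 * (ζ ^ 2 + ζ ^ 3)) * D2 p q : K) ≠ 0 := by
    refine mul_ne_zero (mul_ne_zero ?_ hs) hD
    have := lo_ne_zero h30 1 2 0
    norm_num at this ⊢
    exact this
  have hL2 : L25 ζ p q = L25 ζ p' q' := by
    apply mul_left_cancel₀ h18
    rw [← id_L2 ζ p q hζ]
    conv_rhs => rw [hD2]
    rw [← id_L2 ζ p' q' hζ, hY]
  have h4500 : (4500 : K) ≠ 0 := by
    have := lo_ne_zero h30 2 2 3
    norm_num at this ⊢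
    exact this
  constructor
  · apply mul_left_cancel₀ h4500
    rw [id_solve_p ζ p q hζ, id_solve_p ζ p' q' hζ, hL1, hL2]
  · apply mul_left_cancel₀ h4500
    rw [id_solve_q ζ p q hζ, id_solve_q ζ p' q' hζ, hL1, hL2]

/-- Tate normal form parameters: with `X = XP5`, `Y = Y5` equal at `u, u'` and `C4` equal:
`id_L1` (`Y L15 = 3 X^2 - 675 C4`, `Y ≠ 0` by `id_Y5D id_y3c`, `D2 ≠ 0`) gives `L15` equal; `id_L1sq` (+ `id_sqrt5`) gives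
`D2` equal; `id_L2` gives `L25` equal; `id_solve_p id_solve_q` give `p, q` equal. -/
theorem pow_five_eq_of_PP_eq (hW : IsEC W c4 c6) (hζ : ζ ^ 4 + ζ ^ 3 + ζ ^ 2 + ζ + 1 = 0)
    (h30 : (30 : K) ≠ 0) (hΔ : c4 ^ 3 - c6 ^ 2 ≠ 0) {u u' : K × K} (hu : Dom c4 c6 u)
    (hu' : Dom c4 c6 u') (h : PP W ζ u = PP W ζ u') : u'.1 ^ 5 = u.1 ^ 5 ∧ u'.2 ^ 5 = u.2 ^ 5 := by
  have h5 : (5 : K) ≠ 0 := by simpa using lo_ne_zero h30 0 0 1
  obtain ⟨hX, hY⟩ := ptOf_inj W (nonsingular_PP hW hζ h30 hΔ hu) (nonsingular_PP hW hζ h30 hΔ hu') h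
  have hD : D2 (u.1 ^ 5) (u.2 ^ 5) ≠ 0 := by
    intro h0
    apply hΔ
    rw [← hu.1, ← hu.2, disc_forms, h0]
    ring
  refine lo_key hζ h30 hD ?_ ?_ (hu.1.trans hu'.1.symm)
  · exact (div_left_inj' h5).mp hX
  · exact (div_left_inj' h5).mp hY

/-- `x'^5 = x^5 → x' = ζ^a x`. -/
theorem exists_zeta_pow (hζ : ζ ^ 4 + ζ ^ 3 + ζ ^ 2 + ζ + 1 = 0) {x x' : K} (h : x' ^ 5 = x ^ 5) :
    ∃ a : ℕ, x' = ζ ^ a * x := by
  have key : (x' - x) * (x' - ζ * x) * (x' - ζ ^ 2 * x) * (x' - ζ ^ 3 * x) * (x' - ζ ^ 4 * x) = 0 := by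
    linear_combination h + ((1)*x^5 + (-1)*x^5*ζ^1 + (1)*x^5*ζ^5 + (-1)*x^5*ζ^6 + (1)*x'^1*x^4*ζ^6
      + (-1)*x'^2*x^3*ζ^3 + (-1)*x'^2*x^3*ζ^5 + (1)*x'^3*x^2*ζ^1 + (1)*x'^3*x^2*ζ^3
      + (-1)*x'^4*x^1) * hζ
  rcases mul_eq_zero.mp key with key | key
  · rcases mul_eq_zero.mp key with key | key
    · rcases mul_eq_zero.mp key with key | key
      · rcases mul_eq_zero.mp key with key | key
        · exact ⟨0, by rw [pow_zero, one_mul]; exact sub_eq_zero.mp key⟩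
        · exact ⟨1, by rw [pow_one]; exact sub_eq_zero.mp key⟩
      · exact ⟨2, sub_eq_zero.mp key⟩
    · exact ⟨3, sub_eq_zero.mp key⟩
  · exact ⟨4, sub_eq_zero.mp key⟩

theorem Tact_iterate_eq (u : K × K) (m : ℕ) :
    (Tact ζ)^[m] u = (ζ ^ (3 * m) * u.1, ζ ^ (2 * m) * u.2) := by
  induction m with
  | zero => simp
  | succ m ih =>
    rw [Function.iterate_succ_apply', ih, Tact]
    ext
    · show ζ ^ 3 * (ζ ^ (3 * m) * u.1) = ζ ^ (3 * (m + 1)) * u.1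
      ring
    · show ζ ^ 2 * (ζ ^ (2 * m) * u.2) = ζ ^ (2 * (m + 1)) * u.2
      ring

/-- `diag(ζ^a, ζ^b) = η T^m`. -/
theorem exists_smul_Tact (hW : IsEC W c4 c6) (hζ : ζ ^ 4 + ζ ^ 3 + ζ ^ 2 + ζ + 1 = 0)
    (h30 : (30 : K) ≠ 0) (hΔ : c4 ^ 3 - c6 ^ 2 ≠ 0) {u u' : K × K} (hu : Dom c4 c6 u)
    (hu' : Dom c4 c6 u') (h : PP W ζ u = PP W ζ u') :
    ∃ (η : K) (m : ℕ), η ^ 5 = 1 ∧ u' = (η * ((Tact ζ)^[m] u).1, η * ((Tact ζ)^[m] u).2) := by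
  obtain ⟨h1, h2⟩ := pow_five_eq_of_PP_eq hW hζ h30 hΔ hu hu' h
  obtain ⟨a, ha⟩ := exists_zeta_pow hζ h1
  obtain ⟨b, hb⟩ := exists_zeta_pow hζ h2
  have h5 := zeta_pow_five hζ
  refine ⟨ζ ^ (3 * a + 8 * b), a + 4 * b, ?_, ?_⟩
  · rw [← pow_mul, mul_comm, pow_mul, h5, one_pow]
  · rw [Tact_iterate_eq]
    ext
    · show u'.1 = ζ ^ (3 * a + 8 * b) * (ζ ^ (3 * (a + 4 * b)) * u.1)
      rw [ha, ← mul_assoc, ← pow_add]
      have : 3 * a + 8 * b + 3 * (a + 4 * b) = a + 5 * (a + 4 * b) := by ring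
      rw [this, pow_add, pow_mul, h5, one_pow, mul_one]
    · show u'.2 = ζ ^ (3 * a + 8 * b) * (ζ ^ (2 * (a + 4 * b)) * u.2)
      rw [hb, ← mul_assoc, ← pow_add]
      have : 3 * a + 8 * b + 2 * (a + 4 * b) = b + 5 * (a + 3 * b) := by ring
      rw [this, pow_add, pow_mul, h5, one_pow, mul_one]

end Fermat.Agent.S52
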