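import Fermat.Agent.S51.Polys

/-!
# S52, Part A, piece A5: two independent points of order `5` span `E[5]`
-/

set_option autoImplicit false

namespace Fermat.Agent.S52

open WeierstrassCurve WeierstrassCurve.Affine Polynomial Fermat.Agent.S51

variable {F : Type*} [Field F] [DecidableEq F]

/-- the `5`-torsion subgroup. -/
def tors5 (W : WeierstrassCurve.Affine F) : AddSubgroup W.Point :=
  (zsmulAddGroupHom (5 : ℤ) : W.Point →+ W.Point).ker

theorem mem_tors5 {W : WeierstrassCurve.Affine F} {P : W.Point} :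
    P ∈ tors5 W ↔ (5 : ℤ) • P = 0 := by
  rw [tors5, AddMonoidHom.mem_ker, zsmulAddGroupHom_apply]

theorem tors5_finite (W : WeierstrassCurve.Affine F) (h30 : (30 : F) ≠ 0) :
    (tors5 W : Set W.Point).Finite ∧ (tors5 W : Set W.Point).ncard ≤ 34 := by
  have hG : g5Poly W ≠ 0 := by
    intro h
    have := coeff_g5Poly W
    rw [h, coeff_zero] at this
    apply h30
    linear_combination (2 : F) * this
  obtain ⟨hfin, hcard⟩ := finite_of_roots (g5Poly W) hG (tors5 W : Set W.Point) (by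
      intro P hP hP0
      have h5 : 5 • P = 0 := by
        have := mem_tors5.mp hP
        exact_mod_cast this
      obtain ⟨-, -, R1, R2⟩ := five_torsion_relations hP0 h5
      simp only [g5Poly, eval_sub, eval_add, eval_mul, eval_pow, eval_C, eval_X, eval_phi2Poly,
        eval_psi2sqPoly]
      rw [← R1]
      simp only [psi2sq, phi2] at R2
      set x2 := xOf W (2 • P)
      set x1 := xOf W P
      set Ps := psi2sq W x1
      linear_combination (-Ps ^ 4) * R2)
  refine ⟨hfin, ?_⟩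
  have h1 := natDegree_g5Poly_le W
  omega

theorem torsion5_span (W : WeierstrassCurve.Affine F) (hΔ : W.Δ ≠ 0) (h30 : (30 : F) ≠ 0)
    (P Q : W.Point) (h5P : (5 : ℤ) • P = 0) (h5Q : (5 : ℤ) • Q = 0)
    (hind : ∀ i j : ℤ, i • P + j • Q = 0 → (5 : ℤ) ∣ i ∧ (5 : ℤ) ∣ j)
    (R : W.Point) (h5R : (5 : ℤ) • R = 0) : ∃ i j : ℤ, R = i • P + j • Q := by
  classical
  obtain ⟨hfin, hcard⟩ := tors5_finite W h30
  have : Finite (tors5 W) := hfin.to_subtype
  have : Fintype (tors5 W) := Fintype.ofFinite _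
  have hc : Nat.card (tors5 W) ≤ 34 := hcard
  -- the order is a power of `5`
  have hp : IsPGroup 5 (Multiplicative (tors5 W)) := by
    intro g
    refine ⟨1, ?_⟩
    have h1 : (5 : ℤ) • (Multiplicative.toAdd g : tors5 W) = 0 :=
      Subtype.ext (by rw [AddSubgroup.coe_zsmul]; exact mem_tors5.mp (Multiplicative.toAdd g).2)
    rw [pow_one]
    apply Multiplicative.toAdd.injective
    rw [toAdd_pow, toAdd_one]
    exact_mod_cast h1
  have : Fact (Nat.Prime 5) := ⟨by norm_num⟩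
  obtain ⟨n, hn⟩ := IsPGroup.iff_card.mp hp
  have hn' : Nat.card (tors5 W) = 5 ^ n := hn
  -- the map `(i, j) ↦ i P + j Q`
  let φ : Fin 5 × Fin 5 → tors5 W := fun ij =>
    ⟨((ij.1 : ℕ) : ℤ) • P + ((ij.2 : ℕ) : ℤ) • Q, by
      rw [mem_tors5, smul_add, smul_comm, h5P, smul_comm (5 : ℤ), h5Q]; simp⟩
  have hφ : Function.Injective φ := by
    rintro ⟨i, j⟩ ⟨i', j'⟩ h
    have h1 : ((i : ℕ) : ℤ) • P + ((j : ℕ) : ℤ) • Q = ((i' : ℕ) : ℤ) • P + ((j' : ℕ) : ℤ) • Q :=
      congrArg Subtype.val h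
    have h2 : (((i : ℕ) : ℤ) - ((i' : ℕ) : ℤ)) • P + (((j : ℕ) : ℤ) - ((j' : ℕ) : ℤ)) • Q = 0 := by
      rw [sub_smul, sub_smul]
      have : ((i : ℕ) : ℤ) • P - ((i' : ℕ) : ℤ) • P + (((j : ℕ) : ℤ) • Q - ((j' : ℕ) : ℤ) • Q) =
        (((i : ℕ) : ℤ) • P + ((j : ℕ) : ℤ) • Q) - (((i' : ℕ) : ℤ) • P + ((j' : ℕ) : ℤ) • Q) := by
        abel
      rw [this, h1, sub_self]
    obtain ⟨d1, d2⟩ := hind _ _ h2
    have hi := i.2
    have hi' := i'.2
    have hj := j.2
    have hj' := j'.2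
    ext
    · show (i : ℕ) = i'
      omega
    · show (j : ℕ) = j'
      omega
  have h25 : 25 ≤ Nat.card (tors5 W) := by
    have := Nat.card_le_card_of_injective φ hφ
    simpa using this
  have hn2 : n = 2 := by
    rw [hn'] at h25 hc
    have h1 : n < 3 := by
      by_contra h
      have : 5 ^ 3 ≤ 5 ^ n := Nat.pow_le_pow_right (by norm_num) (by omega)
      omega
    have h2 : 1 < n := by
      by_contra h
      have : 5 ^ n ≤ 5 ^ 1 := Nat.pow_le_pow_right (by norm_num) (by omega)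
      omega
    omega
  have hbij : Function.Bijective φ := by
    rw [Fintype.bijective_iff_injective_and_card]
    refine ⟨hφ, ?_⟩
    rw [← Nat.card_eq_fintype_card, ← Nat.card_eq_fintype_card, hn', hn2]
    simp
  obtain ⟨⟨i, j⟩, hij⟩ := hbij.2 ⟨R, mem_tors5.mpr h5R⟩
  exact ⟨_, _, (congrArg Subtype.val hij).symm⟩

end Fermat.Agent.S52
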