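import Mathlib

/-!
# S52, Part A, piece A4: words in `S`, `T` and their action on a pair `(P, Q)`
-/

set_option autoImplicit false

namespace Fermat.Agent.S52

/-- the action of a word in `S` (`true`) and `T` (`false`). -/
def wact {X : Type*} (S T : X → X) : List Bool → X → X
  | [] => id
  | true :: l => fun x => S (wact S T l x)
  | false :: l => fun x => T (wact S T l x)

/-- the matrix of a word. -/
def wmat : List Bool → (ℤ × ℤ) × (ℤ × ℤ)
  | [] => ((1,0),(0,1))
  | true :: l => ((wmat l).2, (-(wmat l).1.1, -(wmat l).1.2))
  | false :: l => ((wmat l).1, ((wmat l).2.1 - (wmat l).1.1, (wmat l).2.2 - (wmat l).1.2))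

theorem wact_mem {X : Type*} (S T : X → X) (D : X → Prop) (hS : ∀ x, D x → D (S x))
    (hT : ∀ x, D x → D (T x)) (l : List Bool) (x : X) (hx : D x) : D (wact S T l x) := by
  induction l with
  | nil => exact hx
  | cons b l ih =>
    cases b
    · exact hT _ ih
    · exact hS _ ih

theorem wact_spec {X G : Type*} [AddCommGroup G] (S T : X → X) (D : X → Prop)
    (hS : ∀ x, D x → D (S x)) (hT : ∀ x, D x → D (T x)) (P Q : X → G)
    (hPT : ∀ x, D x → P (T x) = P x) (hQT : ∀ x, D x → Q (T x) = Q x - P x)
    (hPS : ∀ x, D x → P (S x) = Q x) (hQS : ∀ x, D x → Q (S x) = - P x)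
    (l : List Bool) (x : X) (hx : D x) :
    P (wact S T l x) = (wmat l).1.1 • P x + (wmat l).1.2 • Q x ∧
      Q (wact S T l x) = (wmat l).2.1 • P x + (wmat l).2.2 • Q x := by
  induction l with
  | nil => simp [wact, wmat]
  | cons b l ih =>
    have hD := wact_mem S T D hS hT l x hx
    obtain ⟨ih1, ih2⟩ := ih
    cases b
    · refine ⟨?_, ?_⟩
      · show P (T (wact S T l x)) = _
        rw [hPT _ hD, ih1]
        rfl
      · show Q (T (wact S T l x)) = _
        rw [hQT _ hD, ih1, ih2]
        show _ = ((wmat l).2.1 - (wmat l).1.1) • P x + ((wmat l).2.2 - (wmat l).1.2) • Q x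
        rw [sub_smul, sub_smul]
        abel
    · refine ⟨?_, ?_⟩
      · show P (S (wact S T l x)) = _
        rw [hPS _ hD, ih2]
        rfl
      · show Q (S (wact S T l x)) = _
        rw [hQS _ hD, ih1]
        show _ = (-(wmat l).1.1) • P x + (-(wmat l).1.2) • Q x
        rw [neg_smul, neg_smul]
        abel


theorem exists_word (i j : ℤ) (hij : ¬ ((5 : ℤ) ∣ i ∧ (5 : ℤ) ∣ j)) :
    ∃ l : List Bool, (5 : ℤ) ∣ (wmat l).1.1 - i ∧ (5 : ℤ) ∣ (wmat l).1.2 - j := by
  have hi : i % 5 = 0 ∨ i % 5 = 1 ∨ i % 5 = 2 ∨ i % 5 = 3 ∨ i % 5 = 4 := by omega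
  have hj : j % 5 = 0 ∨ j % 5 = 1 ∨ j % 5 = 2 ∨ j % 5 = 3 ∨ j % 5 = 4 := by omega
  rcases hi with hi | hi | hi | hi | hi <;> rcases hj with hj | hj | hj | hj | hj
  · exact absurd ⟨by omega, by omega⟩ hij
  · exact ⟨[true], by simp only [wmat]; omega, by simp only [wmat]; omega⟩
  · exact ⟨[true, false, false, false, true, false, false], by simp only [wmat]; omega, by simp only [wmat]; omega⟩
  · exact ⟨[true, false, false, true, false, false, false], by simp only [wmat]; omega, by simp only [wmat]; omega⟩
  · exact ⟨[true, true, true], by simp only [wmat]; omega, by simp only [wmat]; omega⟩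
  · exact ⟨[], by simp only [wmat]; omega, by simp only [wmat]; omega⟩
  · exact ⟨[true, false, true, true, true], by simp only [wmat]; omega, by simp only [wmat]; omega⟩
  · exact ⟨[true, false, false, true, true, true], by simp only [wmat]; omega, by simp only [wmat]; omega⟩
  · exact ⟨[true, false, false, true, false], by simp only [wmat]; omega, by simp only [wmat]; omega⟩
  · exact ⟨[true, false, true, true], by simp only [wmat]; omega, by simp only [wmat]; omega⟩
  · exact ⟨[true, false, false, true, false, false, false, true], by simp only [wmat]; omega, by simp only [wmat]; omega⟩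
  · exact ⟨[true, false, false, false], by simp only [wmat]; omega, by simp only [wmat]; omega⟩
  · exact ⟨[true, false, false, false, true, false], by simp only [wmat]; omega, by simp only [wmat]; omega⟩
  · exact ⟨[true, false, false, true, false, false, true], by simp only [wmat]; omega, by simp only [wmat]; omega⟩
  · exact ⟨[true, false, false, true, true], by simp only [wmat]; omega, by simp only [wmat]; omega⟩
  · exact ⟨[true, false, false, false, true, false, false, true], by simp only [wmat]; omega, by simp only [wmat]; omega⟩
  · exact ⟨[true, false, false], by simp only [wmat]; omega, by simp only [wmat]; omega⟩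
  · exact ⟨[true, false, false, false, true, false, true], by simp only [wmat]; omega, by simp only [wmat]; omega⟩
  · exact ⟨[true, false, false, true, false, false], by simp only [wmat]; omega, by simp only [wmat]; omega⟩
  · exact ⟨[true, false, false, false, true, true], by simp only [wmat]; omega, by simp only [wmat]; omega⟩
  · exact ⟨[true, true], by simp only [wmat]; omega, by simp only [wmat]; omega⟩
  · exact ⟨[true, false], by simp only [wmat]; omega, by simp only [wmat]; omega⟩
  · exact ⟨[true, false, false, false, true], by simp only [wmat]; omega, by simp only [wmat]; omega⟩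
  · exact ⟨[true, false, false, true], by simp only [wmat]; omega, by simp only [wmat]; omega⟩
  · exact ⟨[true, false, true], by simp only [wmat]; omega, by simp only [wmat]; omega⟩

end Fermat.Agent.S52
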