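import Fermat.Agent.S52.L5T3
import Fermat.Agent.S52.L5O
import Fermat.Agent.S52.Words
import Fermat.Agent.S52.Tors5

/-! # S52, Part A, final piece: Frobenius has the same matrix mod 5 on `E[5]` and `E'[5]`. -/

set_option autoImplicit false

namespace Fermat.Agent.S52

open WeierstrassCurve WeierstrassCurve.Affine

section abstract

/-- linear algebra: the first column of `M² - a M + l`. -/
theorem dvd_of_matrix {G : Type*} [AddCommGroup G] (F : G →+ G) (P Q : G)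
    (hind : ∀ i j : ℤ, i • P + j • Q = 0 → (5 : ℤ) ∣ i ∧ (5 : ℤ) ∣ j)
    (m11 m12 m21 m22 a l : ℤ) (hP : F P = m11 • P + m12 • Q) (hQ : F Q = m21 • P + m22 • Q)
    (h : F (F P) - a • F P + l • P = 0) :
    (5 : ℤ) ∣ m11 * m11 + m12 * m21 - a * m11 + l ∧ (5 : ℤ) ∣ m11 * m12 + m12 * m22 - a * m12 := by
  apply hind
  rw [← h, hP, map_add, map_zsmul, map_zsmul, hP, hQ]
  module

theorem wact_replicate_false {X : Type*} (S T : X → X) (m : ℕ) (l : List Bool) (x : X) :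
    wact S T (List.replicate m false ++ l) x = T^[m] (wact S T l x) := by
  induction m with
  | zero => rfl
  | succ m ih =>
    rw [List.replicate_succ, List.cons_append, Function.iterate_succ_apply']
    show T (wact S T _ x) = _
    rw [ih]

theorem wact_comm {X : Type*} (S T Φ : X → X) (hS : ∀ x, Φ (S x) = S (Φ x))
    (hT : ∀ x, Φ (T x) = T (Φ x)) (l : List Bool) (x : X) :
    Φ (wact S T l x) = wact S T l (Φ x) := by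
  induction l with
  | nil => rfl
  | cons b l ih =>
    cases b
    · show Φ (T (wact S T l x)) = T (wact S T l (Φ x))
      rw [hT, ih]
    · show Φ (S (wact S T l x)) = S (wact S T l (Φ x))
      rw [hS, ih]

theorem zsmul_congr_five {G : Type*} [AddCommGroup G] {P : G} (h5 : (5 : ℤ) • P = 0) {i j : ℤ}
    (h : (5 : ℤ) ∣ i - j) : i • P = j • P := by
  obtain ⟨k, hk⟩ := h
  have : i = j + k * 5 := by linarith
  rw [this, add_smul, mul_smul, h5, smul_zero, add_zero]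

end abstract

section maps

variable {R S : Type*} [CommRing R] [CommRing S] (f : R →+* S)

theorem map_C4 (p q : R) : f (C4 p q) = C4 (f p) (f q) := by simp [C4, map_ofNat f]
theorem map_C6 (p q : R) : f (C6 p q) = C6 (f p) (f q) := by simp [C6, map_ofNat f]
theorem map_K1 (p q : R) : f (K1 p q) = K1 (f p) (f q) := by simp [K1, map_ofNat f]
theorem map_K2 (p q : R) : f (K2 p q) = K2 (f p) (f q) := by simp [K2, map_ofNat f]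
theorem map_xQ (p q : R) : f (xQ p q) = xQ (f p) (f q) := by simp [xQ, map_ofNat f]
theorem map_yQ (p q : R) : f (yQ p q) = yQ (f p) (f q) := by simp [yQ, map_ofNat f]

end maps

variable {K : Type*} [Field K]

/-- Frobenius on `K²`. -/
def Pi (ℓ : ℕ) (u : K × K) : K × K := (u.1 ^ ℓ, u.2 ^ ℓ)

theorem Tact_iterate (ζ : K) (n : ℕ) (u : K × K) :
    (Tact ζ)^[n] u = (ζ ^ (3 * n) * u.1, ζ ^ (2 * n) * u.2) := by
  induction n with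
  | zero => simp
  | succ n ih =>
    rw [Function.iterate_succ_apply', ih]
    simp only [Tact]
    ext <;> simp only <;> ring

theorem Pi_Tact (ℓ : ℕ) (ζ : K) (u : K × K) : Pi ℓ (Tact ζ u) = (Tact ζ)^[ℓ] (Pi ℓ u) := by
  rw [Tact_iterate]
  simp only [Pi, Tact]
  ext <;> simp only <;> ring

section frob

variable (ℓ : ℕ) [Fact ℓ.Prime] [Algebra (ZMod ℓ) K]

theorem Dom_Pi {c4 c6 : ZMod ℓ} {u : K × K}
    (hu : Dom (algebraMap (ZMod ℓ) K c4) (algebraMap (ZMod ℓ) K c6) u) :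
    Dom (algebraMap (ZMod ℓ) K c4) (algebraMap (ZMod ℓ) K c6) (Pi ℓ u) := by
  obtain ⟨h4, h6⟩ := hu
  have e1 : (u.1 ^ ℓ) ^ 5 = frobAlg ℓ K (u.1 ^ 5) := by rw [frobAlg_apply]; ring
  have e2 : (u.2 ^ ℓ) ^ 5 = frobAlg ℓ K (u.2 ^ 5) := by rw [frobAlg_apply]; ring
  constructor
  · show C4 ((u.1 ^ ℓ) ^ 5) ((u.2 ^ ℓ) ^ 5) = _
    rw [e1, e2, ← AlgHom.coe_toRingHom, ← map_C4, h4, AlgHom.coe_toRingHom, AlgHom.commutes]
  · show C6 ((u.1 ^ ℓ) ^ 5) ((u.2 ^ ℓ) ^ 5) = _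
    rw [e1, e2, ← AlgHom.coe_toRingHom, ← map_C6, h6, AlgHom.coe_toRingHom, AlgHom.commutes]

theorem Pi_Phi (μ : ZMod ℓ) (u : K × K) :
    Pi ℓ (Phi (algebraMap (ZMod ℓ) K μ) u) = Phi (algebraMap (ZMod ℓ) K μ) (Pi ℓ u) := by
  have e1 : (u.1 ^ ℓ) ^ 5 = frobAlg ℓ K (u.1 ^ 5) := by rw [frobAlg_apply]; ring
  have e2 : (u.2 ^ ℓ) ^ 5 = frobAlg ℓ K (u.2 ^ 5) := by rw [frobAlg_apply]; ring
  have hμ : algebraMap (ZMod ℓ) K μ = frobAlg ℓ K (algebraMap (ZMod ℓ) K μ) :=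
    (AlgHom.commutes _ _).symm
  simp only [Pi, Phi]
  rw [e1, e2]
  ext
  · show (u.1 * (1 + algebraMap (ZMod ℓ) K μ * K1 (u.1 ^ 5) (u.2 ^ 5))) ^ ℓ = _
    rw [← frobAlg_apply, map_mul, map_add, map_mul, map_one, ← hμ, frobAlg_apply ℓ K u.1,
      ← AlgHom.coe_toRingHom, map_K1]
  · show (u.2 * (1 + algebraMap (ZMod ℓ) K μ * K2 (u.1 ^ 5) (u.2 ^ 5))) ^ ℓ = _
    rw [← frobAlg_apply, map_mul, map_add, map_mul, map_one, ← hμ, frobAlg_apply ℓ K u.2,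
      ← AlgHom.coe_toRingHom, map_K2]

variable [DecidableEq K]

theorem Fr_ptOf (W : WeierstrassCurve.Affine (ZMod ℓ)) {x y : K} (e : (W⁄K).Nonsingular x y) :
    Fr ℓ K W (ptOf (W⁄K) x y) = ptOf (W⁄K) (x ^ ℓ) (y ^ ℓ) := by
  rw [ptOf_eq _ e, Fr, Point.map_some]
  exact (ptOf_eq _ _).symm

omit [DecidableEq K] in
theorem isEC_EC (c4 c6 : ZMod ℓ) :
    IsEC ((EC c4 c6)⁄K) (algebraMap (ZMod ℓ) K c4) (algebraMap (ZMod ℓ) K c6) where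
  a₁ := by simp [EC]
  a₂ := by simp [EC]
  a₃ := by simp [EC]
  a₄ := by simp [EC, map_ofNat (algebraMap (ZMod ℓ) K)]
  a₆ := by simp [EC, map_ofNat (algebraMap (ZMod ℓ) K)]

local notation "φ" => algebraMap (ZMod ℓ) K

theorem Fr_QQ (c4 c6 : ZMod ℓ) (h30 : (30 : K) ≠ 0) (hΔ : (φ c4) ^ 3 - (φ c6) ^ 2 ≠ 0)
    {ζ : K} (hζ : ζ ^ 4 + ζ ^ 3 + ζ ^ 2 + ζ + 1 = 0) {v : K × K} (hv : Dom (φ c4) (φ c6) v) :
    Fr ℓ K (EC c4 c6) (QQ ((EC c4 c6)⁄K) v) = QQ ((EC c4 c6)⁄K) (Pi ℓ v) := by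
  unfold QQ
  rw [Fr_ptOf ℓ _ (nonsingular_QQ (isEC_EC ℓ c4 c6) hζ h30 hΔ hv)]
  congr 1
  · rw [← frobAlg_apply, ← AlgHom.coe_toRingHom, map_xQ]; rfl
  · rw [← frobAlg_apply, ← AlgHom.coe_toRingHom, map_yQ]; rfl

theorem frob_matrix (c4 c6 : ZMod ℓ) (h30 : (30 : K) ≠ 0) (hΔ : (φ c4) ^ 3 - (φ c6) ^ 2 ≠ 0)
    {ζ : K} (hζ : ζ ^ 4 + ζ ^ 3 + ζ ^ 2 + ζ + 1 = 0) {u : K × K} (hu : Dom (φ c4) (φ c6) u)
    {η : K} (hη : η ^ 5 = 1) (l : List Bool)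
    (hπ : Pi ℓ u = (η * (wact (Sact ζ) (Tact ζ) l u).1, η * (wact (Sact ζ) (Tact ζ) l u).2)) :
    Fr ℓ K (EC c4 c6) (PP ((EC c4 c6)⁄K) ζ u)
        = ((ℓ : ℤ) * (wmat l).1.1) • PP ((EC c4 c6)⁄K) ζ u
          + ((ℓ : ℤ) * (wmat l).1.2) • QQ ((EC c4 c6)⁄K) u ∧
      Fr ℓ K (EC c4 c6) (QQ ((EC c4 c6)⁄K) u)
        = (wmat l).2.1 • PP ((EC c4 c6)⁄K) ζ u + (wmat l).2.2 • QQ ((EC c4 c6)⁄K) u := by
  have hW := isEC_EC (K := K) ℓ c4 c6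
  have h5 : (5 : K) ≠ 0 := fun h => h30 (by
    have : (30 : K) = 6 * 5 := by norm_num
    rw [this, h, mul_zero])
  set W := (EC c4 c6)⁄K with hWdef
  obtain ⟨s1, s2⟩ := wact_spec (Sact ζ) (Tact ζ) (Dom (φ c4) (φ c6)) (fun x hx => Dom_Sact hζ h5 hx)
    (fun x hx => Dom_Tact hζ hx) (PP W ζ) (QQ W) (fun x _ => PP_Tact hζ W x)
    (fun x hx => QQ_Tact hW hζ h30 hΔ hx) (fun x _ => PP_Sact hζ h5 W x)
    (fun x hx => QQ_Sact hW hζ h30 hΔ hx) l u hu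
  have hQπ : QQ W (Pi ℓ u) = QQ W (wact (Sact ζ) (Tact ζ) l u) := by rw [hπ, QQ_smul hη]
  have hPπ : PP W ζ (Pi ℓ u) = PP W ζ (wact (Sact ζ) (Tact ζ) l u) := by rw [hπ, PP_smul hη]
  have hFQ : Fr ℓ K (EC c4 c6) (QQ W u) = QQ W (Pi ℓ u) := Fr_QQ ℓ c4 c6 h30 hΔ hζ hu
  refine ⟨?_, by rw [hFQ, hQπ, s2]⟩
  have hP : PP W ζ u = QQ W u - QQ W (Tact ζ u) := by
    rw [QQ_Tact hW hζ h30 hΔ hu]; abel
  have hFQT : Fr ℓ K (EC c4 c6) (QQ W (Tact ζ u)) = QQ W (Pi ℓ u) - (ℓ : ℤ) • PP W ζ (Pi ℓ u) := by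
    have e := Fr_QQ ℓ c4 c6 h30 hΔ hζ (Dom_Tact hζ hu)
    rw [Pi_Tact, QQ_Tact_iterate hW hζ h30 hΔ (Dom_Pi ℓ hu)] at e
    exact e
  conv_lhs => rw [hP]
  rw [map_sub, hFQ, hFQT, hPπ, s1]
  module

/-- `π u = η · w(u)` for a word `w` in `S, T` and `η ∈ μ₅`. -/
theorem exists_word_Pi (c4 c6 : ZMod ℓ) (h30 : (30 : K) ≠ 0) (hΔ : (φ c4) ^ 3 - (φ c6) ^ 2 ≠ 0)
    {ζ : K} (hζ : ζ ^ 4 + ζ ^ 3 + ζ ^ 2 + ζ + 1 = 0) {u : K × K} (hu : Dom (φ c4) (φ c6) u) :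
    ∃ (η : K) (l : List Bool), η ^ 5 = 1 ∧
      Pi ℓ u = (η * (wact (Sact ζ) (Tact ζ) l u).1, η * (wact (Sact ζ) (Tact ζ) l u).2) := by
  have hW := isEC_EC (K := K) ℓ c4 c6
  have h5 : (5 : K) ≠ 0 := fun h => h30 (by
    have : (30 : K) = 6 * 5 := by norm_num
    rw [this, h, mul_zero])
  have h6 : (6 : K) ≠ 0 := fun h => h30 (by
    have : (30 : K) = 6 * 5 := by norm_num
    rw [this, h, zero_mul])
  set W := (EC c4 c6)⁄K with hWdef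
  have hS : ∀ x, Dom (φ c4) (φ c6) x → Dom (φ c4) (φ c6) (Sact ζ x) := fun x hx => Dom_Sact hζ h5 hx
  have hT : ∀ x, Dom (φ c4) (φ c6) x → Dom (φ c4) (φ c6) (Tact ζ x) := fun x hx => Dom_Tact hζ hx
  have hπu := Dom_Pi ℓ hu
  have h5P := five_PP hW hζ h30 hΔ hu
  have h5Q := five_QQ hW hζ h30 hΔ hu
  obtain ⟨i, j, hij⟩ := torsion5_span W (hW.Δ_ne_zero h6 hΔ) h30 (PP W ζ u) (QQ W u) h5P h5Q
    (PP_QQ_independent hW hζ h30 hΔ hu) (PP W ζ (Pi ℓ u)) (five_PP hW hζ h30 hΔ hπu)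
  have hne : PP W ζ (Pi ℓ u) ≠ 0 := ptOf_ne_zero W (nonsingular_PP hW hζ h30 hΔ hπu)
  have hnd : ¬ ((5 : ℤ) ∣ i ∧ (5 : ℤ) ∣ j) := by
    rintro ⟨⟨i', rfl⟩, ⟨j', rfl⟩⟩
    apply hne
    rw [hij, mul_comm, mul_smul, h5P, mul_comm, mul_smul, h5Q, smul_zero, smul_zero, add_zero]
  obtain ⟨l, hl1, hl2⟩ := exists_word i j hnd
  obtain ⟨s1, -⟩ := wact_spec (Sact ζ) (Tact ζ) (Dom (φ c4) (φ c6)) hS hT (PP W ζ) (QQ W)
    (fun x _ => PP_Tact hζ W x) (fun x hx => QQ_Tact hW hζ h30 hΔ hx)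
    (fun x _ => PP_Sact hζ h5 W x) (fun x hx => QQ_Sact hW hζ h30 hΔ hx) l u hu
  rw [zsmul_congr_five h5P hl1, zsmul_congr_five h5Q hl2, ← hij] at s1
  obtain ⟨η, m, hη, hm⟩ := exists_smul_Tact hW hζ h30 hΔ (wact_mem _ _ _ hS hT l u hu) hπu s1
  refine ⟨η, List.replicate m false ++ l, hη, ?_⟩
  rw [wact_replicate_false]
  exact hm

omit [DecidableEq K] [Fact ℓ.Prime] [Algebra (ZMod ℓ) K] in
theorem exists_zeta [IsAlgClosed K] : ∃ ζ : K, ζ ^ 4 + ζ ^ 3 + ζ ^ 2 + ζ + 1 = 0 := by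
  have hdeg : (Polynomial.X ^ 4 + Polynomial.X ^ 3 + Polynomial.X ^ 2 + Polynomial.X + 1 :
      Polynomial K).degree ≠ 0 := by
    have : (Polynomial.X ^ 4 + Polynomial.X ^ 3 + Polynomial.X ^ 2 + Polynomial.X + 1 :
      Polynomial K).degree = 4 := by compute_degree!
    rw [this]; norm_num
  obtain ⟨ζ, hζ⟩ := IsAlgClosed.exists_root _ hdeg
  exact ⟨ζ, by simpa [Polynomial.IsRoot] using hζ⟩

theorem five_congr_core [IsAlgClosed K] (h30 : (30 : K) ≠ 0) (c4 c6 c4' c6' μ : ZMod ℓ)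
    (hΔ : c4 ^ 3 - c6 ^ 2 ≠ 0) (hΔ' : c4' ^ 3 - c6' ^ 2 ≠ 0)
    (hparam : ∃ u : K × K, Dom (φ c4) (φ c6) u)
    (hPhi : ∀ u : K × K, Dom (φ c4) (φ c6) u → Dom (φ c4') (φ c6') (Phi (φ μ) u)) (a a' : ℤ)
    (h : ∀ Q : ((EC c4 c6)⁄K).Point, (5 : ℤ) • Q = 0 →
      Fr ℓ K (EC c4 c6) (Fr ℓ K (EC c4 c6) Q) - a • Fr ℓ K (EC c4 c6) Q + (ℓ : ℤ) • Q = 0)
    (h' : ∀ Q : ((EC c4' c6')⁄K).Point, (5 : ℤ) • Q = 0 →
      Fr ℓ K (EC c4' c6') (Fr ℓ K (EC c4' c6') Q) - a' • Fr ℓ K (EC c4' c6') Q + (ℓ : ℤ) • Q = 0) :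
    (5 : ℤ) ∣ a - a' := by
  have h5 : (5 : K) ≠ 0 := fun h => h30 (by
    have : (30 : K) = 6 * 5 := by norm_num
    rw [this, h, mul_zero])
  have hΔK : (φ c4) ^ 3 - (φ c6) ^ 2 ≠ 0 := by
    rw [← map_pow, ← map_pow, ← map_sub]
    exact (map_ne_zero_iff _ (algebraMap (ZMod ℓ) K).injective).mpr hΔ
  have hΔK' : (φ c4') ^ 3 - (φ c6') ^ 2 ≠ 0 := by
    rw [← map_pow, ← map_pow, ← map_sub]
    exact (map_ne_zero_iff _ (algebraMap (ZMod ℓ) K).injective).mpr hΔ'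
  obtain ⟨ζ, hζ⟩ := exists_zeta (K := K)
  obtain ⟨u, hu⟩ := hparam
  have hu' := hPhi u hu
  obtain ⟨η, l, hη, hπ⟩ := exists_word_Pi ℓ c4 c6 h30 hΔK hζ hu
  have hπ' : Pi ℓ (Phi (φ μ) u) = (η * (wact (Sact ζ) (Tact ζ) l (Phi (φ μ) u)).1,
      η * (wact (Sact ζ) (Tact ζ) l (Phi (φ μ) u)).2) := by
    rw [Pi_Phi, hπ, Phi_smul hη,
      wact_comm (Sact ζ) (Tact ζ) (Phi (φ μ)) (Phi_Sact hζ h5 _) (Phi_Tact hζ _)]
  obtain ⟨m1, m2⟩ := frob_matrix ℓ c4 c6 h30 hΔK hζ hu hη l hπ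
  obtain ⟨m1', m2'⟩ := frob_matrix ℓ c4' c6' h30 hΔK' hζ hu' hη l hπ'
  have hW := isEC_EC (K := K) ℓ c4 c6
  have hW' := isEC_EC (K := K) ℓ c4' c6'
  obtain ⟨d1, d2⟩ := dvd_of_matrix _ _ _ (PP_QQ_independent hW hζ h30 hΔK hu) _ _ _ _ a ℓ m1 m2
    (h _ (five_PP hW hζ h30 hΔK hu))
  obtain ⟨d1', d2'⟩ := dvd_of_matrix _ _ _ (PP_QQ_independent hW' hζ h30 hΔK' hu') _ _ _ _ a' ℓ
    m1' m2' (h' _ (five_PP hW' hζ h30 hΔK' hu'))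
  set m11 := (ℓ : ℤ) * (wmat l).1.1
  set m12 := (ℓ : ℤ) * (wmat l).1.2
  have e1 : (5 : ℤ) ∣ (a - a') * m11 := by
    have := dvd_sub d1' d1
    have e : (a - a') * m11 = (m11 * m11 + m12 * (wmat l).2.1 - a' * m11 + ℓ)
        - (m11 * m11 + m12 * (wmat l).2.1 - a * m11 + ℓ) := by ring
    rw [e]; exact this
  have e2 : (5 : ℤ) ∣ (a - a') * m12 := by
    have := dvd_sub d2' d2
    have e : (a - a') * m12 = (m11 * m12 + m12 * (wmat l).2.2 - a' * m12)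
        - (m11 * m12 + m12 * (wmat l).2.2 - a * m12) := by ring
    rw [e]; exact this
  have p5 : Prime (5 : ℤ) := by norm_num
  rcases p5.dvd_or_dvd e1 with e | e1
  · exact e
  rcases p5.dvd_or_dvd e2 with e | e2
  · exact e
  exfalso
  have hz : Fr ℓ K (EC c4 c6) (PP ((EC c4 c6)⁄K) ζ u) = 0 := by
    rw [m1]
    obtain ⟨k1, hk1⟩ := e1
    obtain ⟨k2, hk2⟩ := e2
    rw [hk1, hk2, mul_comm, mul_smul, five_PP hW hζ h30 hΔK hu, mul_comm, mul_smul,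
      five_QQ hW hζ h30 hΔK hu, smul_zero, smul_zero, add_zero]
  have hne : PP ((EC c4 c6)⁄K) ζ u ≠ 0 := ptOf_ne_zero _ (nonsingular_PP hW hζ h30 hΔK hu)
  apply hne
  apply Point.map_injective (W' := EC c4 c6) (f := frobAlg ℓ K)
  rw [map_zero]
  exact hz

end frob

end Fermat.Agent.S52
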