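import Fermat.Agent.S52.L5Defs

/-! # S52, Part A, piece A-S: the generator `Sact`. All proofs: homogeneity of the forms + `IcoId` identities
(`id_P1 id_P2 id_C4 id_C6 id_c1 id_c2 id_xQ id_yQ id_b10 id_b15 id_b20 id_b30 id_hg id_bet2 id_3g`). -/

set_option autoImplicit false

namespace Fermat.Agent.S52

open WeierstrassCurve WeierstrassCurve.Affine

variable {K : Type*} [Field K] {ζ : K}

theorem l5s_C4_smul {R : Type*} [CommRing R] (t p q : R) : C4 (t * p) (t * q) = t ^ 4 * C4 p q := by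
  simp only [C4]; ring

theorem l5s_C6_smul {R : Type*} [CommRing R] (t p q : R) : C6 (t * p) (t * q) = t ^ 6 * C6 p q := by
  simp only [C6]; ring

theorem l5s_K1_smul {R : Type*} [CommRing R] (t p q : R) : K1 (t * p) (t * q) = t ^ 2 * K1 p q := by
  simp only [K1]; ring

theorem l5s_K2_smul {R : Type*} [CommRing R] (t p q : R) : K2 (t * p) (t * q) = t ^ 2 * K2 p q := by
  simp only [K2]; ring

theorem l5s_XP5_smul {R : Type*} [CommRing R] (g t p q : R) :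
    XP5 g (t * p) (t * q) = t ^ 2 * XP5 g p q := by
  simp only [XP5, D2]; ring

theorem l5s_Y5_smul {R : Type*} [CommRing R] (z t p q : R) :
    Y5 z (t * p) (t * q) = t ^ 3 * Y5 z p q := by
  simp only [Y5]; ring

/-- the fifth powers of the coordinates of `Sact ζ u`. -/
theorem l5s_fst_pow (hζ : ζ ^ 4 + ζ ^ 3 + ζ ^ 2 + ζ + 1 = 0) (u : K × K) :
    (Sact ζ u).1 ^ 5 = ((2 + 4 * ζ + ζ ^ 2 + 3 * ζ ^ 3) / 5) ^ 5 * P1 (ζ ^ 2 + ζ ^ 3) u.1 u.2 := by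
  rw [← id_P1 _ _ _ (id_hg ζ hζ)]
  simp only [Sact, mul_pow]

theorem l5s_snd_pow (hζ : ζ ^ 4 + ζ ^ 3 + ζ ^ 2 + ζ + 1 = 0) (u : K × K) :
    (Sact ζ u).2 ^ 5 = ((2 + 4 * ζ + ζ ^ 2 + 3 * ζ ^ 3) / 5) ^ 5 * P2 (ζ ^ 2 + ζ ^ 3) u.1 u.2 := by
  rw [← id_P2 _ _ _ (id_hg ζ hζ)]
  simp only [Sact, mul_pow]

theorem l5s_b (n : ℕ) (h5 : (5 : K) ≠ 0) {b c : K} (h : b ^ n * c = 5 ^ n) : (b / 5) ^ n * c = 1 := by
  rw [div_pow, div_mul_eq_mul_div, h, div_self (pow_ne_zero _ h5)]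

theorem Dom_Sact (hζ : ζ ^ 4 + ζ ^ 3 + ζ ^ 2 + ζ + 1 = 0) (h5 : (5 : K) ≠ 0) {c4 c6 : K} {u : K × K}
    (hu : Dom c4 c6 u) : Dom c4 c6 (Sact ζ u) := by
  obtain ⟨h4, h6⟩ := hu
  have hg := id_hg ζ hζ
  refine ⟨?_, ?_⟩
  · rw [l5s_fst_pow hζ, l5s_snd_pow hζ, l5s_C4_smul, id_C4 _ _ _ hg, h4, ← pow_mul, ← mul_assoc,
      l5s_b 20 h5 (id_b20 ζ hζ), one_mul]
  · rw [l5s_fst_pow hζ, l5s_snd_pow hζ, l5s_C6_smul, id_C6 _ _ _ hg, h6, ← pow_mul, ← mul_assoc,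
      l5s_b 30 h5 (id_b30 ζ hζ), one_mul]

theorem Sact_Sact (hζ : ζ ^ 4 + ζ ^ 3 + ζ ^ 2 + ζ + 1 = 0) (h5 : (5 : K) ≠ 0) (u : K × K) :
    Sact ζ (Sact ζ u) = (-u.1, -u.2) := by
  have hg := id_hg ζ hζ
  have hb := id_bet2 ζ hζ
  have h3 := id_3g ζ hζ
  have key : ((2 + 4 * ζ + ζ ^ 2 + 3 * ζ ^ 3) / 5) ^ 2 * ((ζ ^ 2 + ζ ^ 3) ^ 2 + 1) = -1 := by
    have h : (3 + (ζ ^ 2 + ζ ^ 3)) * ((ζ ^ 2 + ζ ^ 3) ^ 2 + 1) = 5 := by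
      linear_combination h3 + (3 + (ζ ^ 2 + ζ ^ 3)) * hg
    rw [div_pow, hb, div_mul_eq_mul_div, mul_assoc, h, div_eq_iff (pow_ne_zero _ h5)]
    ring
  simp only [Sact]
  generalize (2 + 4 * ζ + ζ ^ 2 + 3 * ζ ^ 3) / 5 = b at *
  generalize ζ ^ 2 + ζ ^ 3 = g at *
  ext
  · simp only
    linear_combination u.1 * key
  · simp only
    linear_combination u.2 * key

/-- `P ∘ S = Q` (equality of coordinates, no hypothesis on `u`). -/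
theorem PP_Sact (hζ : ζ ^ 4 + ζ ^ 3 + ζ ^ 2 + ζ + 1 = 0) (h5 : (5 : K) ≠ 0)
    (W : WeierstrassCurve.Affine K) (u : K × K) : PP W ζ (Sact ζ u) = QQ W u := by
  have hg := id_hg ζ hζ
  have e1 : XP5 (ζ ^ 2 + ζ ^ 3) ((Sact ζ u).1 ^ 5) ((Sact ζ u).2 ^ 5) / 5 = xQ u.1 u.2 := by
    rw [l5s_fst_pow hζ, l5s_snd_pow hζ, l5s_XP5_smul, id_xQ _ _ _ hg, ← pow_mul, ← mul_assoc,
      l5s_b 10 h5 (id_b10 ζ hζ), one_mul, mul_div_cancel_left₀ _ h5]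
  have e2 : Y5 ζ ((Sact ζ u).1 ^ 5) ((Sact ζ u).2 ^ 5) / 5 = yQ u.1 u.2 := by
    have hb : ((2 + 4 * ζ + ζ ^ 2 + 3 * ζ ^ 3) / 5) ^ 15 *
        ((11250)*ζ^3 + (47500)*ζ^2 + (58750)*ζ + (29375)) = 5 := by
      rw [div_pow, div_mul_eq_mul_div, id_b15 ζ hζ, pow_succ, mul_div_cancel_left₀ _ (pow_ne_zero _ h5)]
    rw [l5s_fst_pow hζ, l5s_snd_pow hζ, l5s_Y5_smul, id_yQ _ _ _ hζ, ← pow_mul, ← mul_assoc,
      hb, mul_div_cancel_left₀ _ h5]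
  rw [PP, QQ, e1, e2]

/-- covariance of `c`, in the form `Phi μ ∘ S = S ∘ Phi μ`. -/
theorem Phi_Sact (hζ : ζ ^ 4 + ζ ^ 3 + ζ ^ 2 + ζ + 1 = 0) (h5 : (5 : K) ≠ 0) (μ : K) (u : K × K) :
    Phi μ (Sact ζ u) = Sact ζ (Phi μ u) := by
  have hg := id_hg ζ hζ
  have hb := l5s_b 10 h5 (id_b10 ζ hζ)
  have c1 := id_c1 _ u.1 u.2 hg
  have c2 := id_c2 _ u.1 u.2 hg
  have f1 := l5s_fst_pow hζ u
  have f2 := l5s_snd_pow hζ u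
  ext
  · simp only [Phi]
    rw [f1, f2, l5s_K1_smul, ← pow_mul]
    simp only [Sact]
    generalize K1 (P1 (ζ ^ 2 + ζ ^ 3) u.1 u.2) (P2 (ζ ^ 2 + ζ ^ 3) u.1 u.2) = k at *
    generalize K1 (u.1 ^ 5) (u.2 ^ 5) = k1 at *
    generalize K2 (u.1 ^ 5) (u.2 ^ 5) = k2 at *
    generalize (2 + 4 * ζ + ζ ^ 2 + 3 * ζ ^ 3) / 5 = b at *
    generalize ζ ^ 2 + ζ ^ 3 = g at *
    linear_combination b * μ * b ^ 10 * c1 + b * μ * (g * (u.1 * k1) + u.2 * k2) * hb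
  · simp only [Phi]
    rw [f1, f2, l5s_K2_smul, ← pow_mul]
    simp only [Sact]
    generalize K2 (P1 (ζ ^ 2 + ζ ^ 3) u.1 u.2) (P2 (ζ ^ 2 + ζ ^ 3) u.1 u.2) = k at *
    generalize K1 (u.1 ^ 5) (u.2 ^ 5) = k1 at *
    generalize K2 (u.1 ^ 5) (u.2 ^ 5) = k2 at *
    generalize (2 + 4 * ζ + ζ ^ 2 + 3 * ζ ^ 3) / 5 = b at *
    generalize ζ ^ 2 + ζ ^ 3 = g at *
    linear_combination b * μ * b ^ 10 * c2 + b * μ * (u.1 * k1 - g * (u.2 * k2)) * hb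

end Fermat.Agent.S52
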