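import Fermat.Agent.S52.L5S

/-! # S52, Part A, piece A-T: the points `PP`, `QQ`, the generator `Tact`, 5-torsion and independence. -/

set_option autoImplicit false

namespace Fermat.Agent.S52

open WeierstrassCurve WeierstrassCurve.Affine

variable {K : Type*} [Field K] {ζ : K}

theorem zeta_pow_five (hζ : ζ ^ 4 + ζ ^ 3 + ζ ^ 2 + ζ + 1 = 0) : ζ ^ 5 = 1 := by
  linear_combination (ζ - 1) * hζ

theorem Tact_fst_pow (hζ : ζ ^ 4 + ζ ^ 3 + ζ ^ 2 + ζ + 1 = 0) (u : K × K) :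
    (Tact ζ u).1 ^ 5 = u.1 ^ 5 := by
  have h5 := zeta_pow_five hζ
  simp only [Tact]
  linear_combination (ζ ^ 10 + ζ ^ 5 + 1) * u.1 ^ 5 * h5

theorem Tact_snd_pow (hζ : ζ ^ 4 + ζ ^ 3 + ζ ^ 2 + ζ + 1 = 0) (u : K × K) :
    (Tact ζ u).2 ^ 5 = u.2 ^ 5 := by
  have h5 := zeta_pow_five hζ
  simp only [Tact]
  linear_combination (ζ ^ 5 + 1) * u.2 ^ 5 * h5

theorem Dom_Tact (hζ : ζ ^ 4 + ζ ^ 3 + ζ ^ 2 + ζ + 1 = 0) {c4 c6 : K} {u : K × K}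
    (hu : Dom c4 c6 u) : Dom c4 c6 (Tact ζ u) := by
  rw [Dom, Tact_fst_pow hζ, Tact_snd_pow hζ]
  exact hu

theorem Phi_Tact (hζ : ζ ^ 4 + ζ ^ 3 + ζ ^ 2 + ζ + 1 = 0) (μ : K) (u : K × K) :
    Phi μ (Tact ζ u) = Tact ζ (Phi μ u) := by
  rw [Phi, Tact_fst_pow hζ, Tact_snd_pow hζ]
  simp only [Tact, Phi, mul_assoc]

theorem smul_pow_five {η : K} (hη : η ^ 5 = 1) (x : K) : (η * x) ^ 5 = x ^ 5 := by
  rw [mul_pow, hη, one_mul]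

/-- scalars `η ∈ μ₅`. -/
theorem Dom_smul {η : K} (hη : η ^ 5 = 1) {c4 c6 : K} {u : K × K} (hu : Dom c4 c6 u) :
    Dom c4 c6 (η * u.1, η * u.2) := by
  rw [Dom]
  simp only [smul_pow_five hη]
  exact hu

theorem Phi_smul {η : K} (hη : η ^ 5 = 1) (μ : K) (u : K × K) :
    Phi μ (η * u.1, η * u.2) = (η * (Phi μ u).1, η * (Phi μ u).2) := by
  simp only [Phi, smul_pow_five hη, mul_assoc]

theorem PP_smul {η : K} (hη : η ^ 5 = 1) (W : WeierstrassCurve.Affine K) (u : K × K) :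
    PP W ζ (η * u.1, η * u.2) = PP W ζ u := by
  simp only [PP, smul_pow_five hη]

theorem xQ_smul {η : K} (hη : η ^ 5 = 1) (z w : K) : xQ (η * z) (η * w) = xQ z w := by
  have h : xQ (η * z) (η * w) = η ^ 10 * xQ z w := by
    simp only [xQ]; ring
  rw [h]
  linear_combination (η ^ 5 + 1) * xQ z w * hη

theorem yQ_smul {η : K} (hη : η ^ 5 = 1) (z w : K) : yQ (η * z) (η * w) = yQ z w := by
  have h : yQ (η * z) (η * w) = η ^ 15 * yQ z w := by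
    simp only [yQ]; ring
  rw [h]
  linear_combination (η ^ 10 + η ^ 5 + 1) * yQ z w * hη

theorem QQ_smul {η : K} (hη : η ^ 5 = 1) (W : WeierstrassCurve.Affine K) (u : K × K) :
    QQ W (η * u.1, η * u.2) = QQ W u := by
  simp only [QQ, xQ_smul hη, yQ_smul hη]

theorem PP_Tact (hζ : ζ ^ 4 + ζ ^ 3 + ζ ^ 2 + ζ + 1 = 0) (W : WeierstrassCurve.Affine K) (u : K × K) :
    PP W ζ (Tact ζ u) = PP W ζ u := by
  rw [PP, Tact_fst_pow hζ, Tact_snd_pow hζ, PP]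

theorem ne_zero_of_thirty (h30 : (30 : K) ≠ 0) : (2 : K) ≠ 0 ∧ (3 : K) ≠ 0 ∧ (5 : K) ≠ 0 ∧ (6 : K) ≠ 0 := by
  refine ⟨fun h => h30 ?_, fun h => h30 ?_, fun h => h30 ?_, fun h => h30 ?_⟩
  · linear_combination 15 * h
  · linear_combination 10 * h
  · linear_combination 6 * h
  · linear_combination 5 * h

section
variable {W : WeierstrassCurve.Affine K} {c4 c6 : K}

/-- `id_curveP`. -/
theorem nonsingular_PP (hW : IsEC W c4 c6) (hζ : ζ ^ 4 + ζ ^ 3 + ζ ^ 2 + ζ + 1 = 0) (h30 : (30 : K) ≠ 0)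
    (hΔ : c4 ^ 3 - c6 ^ 2 ≠ 0) {u : K × K} (hu : Dom c4 c6 u) :
    W.Nonsingular (XP5 (ζ ^ 2 + ζ ^ 3) (u.1 ^ 5) (u.2 ^ 5) / 5) (Y5 ζ (u.1 ^ 5) (u.2 ^ 5) / 5) := by
  obtain ⟨-, -, h5, h6⟩ := ne_zero_of_thirty h30
  refine hW.nonsingular h6 hΔ ?_
  have h := id_curveP ζ (u.1 ^ 5) (u.2 ^ 5) hζ
  rw [hu.1, hu.2] at h
  generalize XP5 (ζ ^ 2 + ζ ^ 3) (u.1 ^ 5) (u.2 ^ 5) = X at h ⊢
  generalize Y5 ζ (u.1 ^ 5) (u.2 ^ 5) = Y at h ⊢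
  field_simp
  linear_combination h

/-- from `nonsingular_PP` at `Sact ζ u` and the coordinate identities behind `PP_Sact`. -/
theorem nonsingular_QQ (hW : IsEC W c4 c6) (hζ : ζ ^ 4 + ζ ^ 3 + ζ ^ 2 + ζ + 1 = 0) (h30 : (30 : K) ≠ 0)
    (hΔ : c4 ^ 3 - c6 ^ 2 ≠ 0) {u : K × K} (hu : Dom c4 c6 u) :
    W.Nonsingular (xQ u.1 u.2) (yQ u.1 u.2) := by
  obtain ⟨-, -, h5, -⟩ := ne_zero_of_thirty h30
  have h1 := nonsingular_PP hW hζ h30 hΔ (Dom_Sact hζ h5 hu)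
  have h2 : PP W ζ (Sact ζ u) ≠ 0 := ptOf_ne_zero W h1
  rw [PP_Sact hζ h5 W u] at h2
  by_contra hn
  exact h2 (dif_neg hn)

/-- `Q ∘ S = -P`  (`Sact_Sact`, `PP_Sact`, `XP5` even, `Y5` odd, `IsEC.neg_ptOf`). -/
theorem QQ_Sact (hW : IsEC W c4 c6) (hζ : ζ ^ 4 + ζ ^ 3 + ζ ^ 2 + ζ + 1 = 0) (h30 : (30 : K) ≠ 0)
    (hΔ : c4 ^ 3 - c6 ^ 2 ≠ 0) {u : K × K} (hu : Dom c4 c6 u) :
    QQ W (Sact ζ u) = - PP W ζ u := by
  obtain ⟨-, -, h5, -⟩ := ne_zero_of_thirty h30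
  rw [← PP_Sact hζ h5 W (Sact ζ u), Sact_Sact hζ h5 u, PP, PP,
    hW.neg_ptOf (nonsingular_PP hW hζ h30 hΔ hu)]
  have e1 : XP5 (ζ ^ 2 + ζ ^ 3) ((-u.1) ^ 5) ((-u.2) ^ 5) = XP5 (ζ ^ 2 + ζ ^ 3) (u.1 ^ 5) (u.2 ^ 5) := by
    simp only [XP5, D2]; ring
  have e2 : Y5 ζ ((-u.1) ^ 5) ((-u.2) ^ 5) = - Y5 ζ (u.1 ^ 5) (u.2 ^ 5) := by
    simp only [Y5]; ring
  rw [e1, e2, neg_div]

end

end Fermat.Agent.S52
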