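import Fermat.Agent.S52.L5T

/-! # S52, Part A, piece A-T2: `Q ∘ T = Q - P` (chord formula). -/

set_option autoImplicit false

namespace Fermat.Agent.S52

open WeierstrassCurve WeierstrassCurve.Affine

variable {K : Type*} [Field K] {ζ : K} {W : WeierstrassCurve.Affine K} {c4 c6 : K}

/-- `z w D2 ≠ 0` on the domain. -/
theorem Dom.zwD_ne_zero (hΔ : c4 ^ 3 - c6 ^ 2 ≠ 0) {u : K × K} (hu : Dom c4 c6 u) :
    u.1 * u.2 * D2 (u.1 ^ 5) (u.2 ^ 5) ≠ 0 := by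
  intro h
  apply hΔ
  rw [← hu.1, ← hu.2, disc_forms]
  have : u.1 ^ 5 * u.2 ^ 5 * D2 (u.1 ^ 5) (u.2 ^ 5) ^ 5 = (u.1 * u.2 * D2 (u.1 ^ 5) (u.2 ^ 5)) ^ 5 := by
    ring
  rw [this, h]
  ring

theorem xQ_ne_xP (hζ : ζ ^ 4 + ζ ^ 3 + ζ ^ 2 + ζ + 1 = 0) (h30 : (30 : K) ≠ 0)
    (hΔ : c4 ^ 3 - c6 ^ 2 ≠ 0) {u : K × K} (hu : Dom c4 c6 u) :
    5 * xQ u.1 u.2 - XP5 (ζ ^ 2 + ζ ^ 3) (u.1 ^ 5) (u.2 ^ 5) ≠ 0 := by
  obtain ⟨h2, h3, h5, h6⟩ := ne_zero_of_thirty h30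
  intro h
  have h7 := id_K7 ζ u.1 u.2 hζ
  rw [h, zero_mul] at h7
  have h3g : (3 + (ζ ^ 2 + ζ ^ 3)) ≠ 0 := by
    intro h0
    have := id_3g ζ hζ
    rw [h0, zero_mul] at this
    exact h5 this.symm
  have h36 : (36 : K) ≠ 0 := by
    have : (36 : K) = 6 ^ 2 := by norm_num
    rw [this]
    exact pow_ne_zero _ h6
  exact mul_ne_zero (mul_ne_zero h36 h3g) (pow_ne_zero 2 (hu.zwD_ne_zero hΔ)) h7.symm

variable [DecidableEq K]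

/-- `Q ∘ T = Q - P`: chord formula `IsEC.ptOf_add` with `id_K6x id_K6y id_xQT id_yQT`; `x_Q ≠ x_P` by `id_K7`
(`z w D2 ≠ 0` because `c4^3 - c6^2 = -1728 z^5 w^5 D2^5`, `disc_forms`; `3 + g ≠ 0` by `id_3g`). -/
theorem QQ_Tact (hW : IsEC W c4 c6) (hζ : ζ ^ 4 + ζ ^ 3 + ζ ^ 2 + ζ + 1 = 0) (h30 : (30 : K) ≠ 0)
    (hΔ : c4 ^ 3 - c6 ^ 2 ≠ 0) {u : K × K} (hu : Dom c4 c6 u) :
    QQ W (Tact ζ u) = QQ W u - PP W ζ u := by
  obtain ⟨h2, h3, h5, h6⟩ := ne_zero_of_thirty h30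
  have nP := nonsingular_PP hW hζ h30 hΔ hu
  have nQ := nonsingular_QQ hW hζ h30 hΔ hu
  have nP' : W.Nonsingular (XP5 (ζ ^ 2 + ζ ^ 3) (u.1 ^ 5) (u.2 ^ 5) / 5)
      (-(Y5 ζ (u.1 ^ 5) (u.2 ^ 5) / 5)) := by
    have := (Affine.nonsingular_neg (W' := W) _ _).mpr nP
    rwa [hW.negY_eq] at this
  have hne := xQ_ne_xP hζ h30 hΔ hu
  have hKx := id_K6x ζ u.1 u.2 hζ
  have hKy := id_K6y ζ u.1 u.2 hζ
  rw [sub_eq_add_neg, PP, hW.neg_ptOf nP, QQ, QQ]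
  simp only [Tact]
  rw [id_xQT ζ u.1 u.2 hζ, id_yQT ζ u.1 u.2 hζ]
  generalize XP5 (ζ ^ 2 + ζ ^ 3) (u.1 ^ 5) (u.2 ^ 5) = X at *
  generalize Y5 ζ (u.1 ^ 5) (u.2 ^ 5) = Y at *
  generalize xQ u.1 u.2 = x at *
  generalize yQ u.1 u.2 = y at *
  generalize xQT ζ u.1 u.2 = x' at *
  generalize yQT ζ u.1 u.2 = y' at *
  symm
  refine hW.ptOf_add nQ nP' ?_ ?_ ?_
  · intro h
    apply hne
    rw [h]
    field_simp
    ring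
  · field_simp
    linear_combination hKx
  · have h25 : (25 : K) ≠ 0 := by
      have : (25 : K) = 5 ^ 2 := by norm_num
      rw [this]
      exact pow_ne_zero _ h5
    apply mul_left_cancel₀ h25
    have e1 : (25 : K) * (y' * (x - X / 5)) = 5 * y' * (5 * x - X) := by
      field_simp
      ring
    have e2 : (25 : K) * ((y - -(Y / 5)) * (x - x') - y * (x - X / 5))
        = (5 * y + Y) * (x - x') * 5 - 5 * y * (5 * x - X) := by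
      field_simp
      ring
    rw [e1, e2, hKy]

end Fermat.Agent.S52
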