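import Fermat.Agent.S52.L5T2

/-! # S52, Part A, piece A-T3: 5-torsion and independence of `PP`, `QQ` (formal consequences of L5T, L5T2). -/

set_option autoImplicit false

namespace Fermat.Agent.S52

open WeierstrassCurve WeierstrassCurve.Affine

variable {K : Type*} [Field K] {ζ : K} {W : WeierstrassCurve.Affine K} {c4 c6 : K} [DecidableEq K]

omit [DecidableEq K] in
theorem Dom_Tact_iterate (hζ : ζ ^ 4 + ζ ^ 3 + ζ ^ 2 + ζ + 1 = 0) {u : K × K} (hu : Dom c4 c6 u)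
    (n : ℕ) : Dom c4 c6 ((Tact ζ)^[n] u) := by
  induction n with
  | zero => exact hu
  | succ n ih => rw [Function.iterate_succ_apply']; exact Dom_Tact hζ ih

omit [DecidableEq K] in
theorem PP_Tact_iterate (hζ : ζ ^ 4 + ζ ^ 3 + ζ ^ 2 + ζ + 1 = 0) (W : WeierstrassCurve.Affine K)
    (u : K × K) (n : ℕ) : PP W ζ ((Tact ζ)^[n] u) = PP W ζ u := by
  induction n with
  | zero => rfl
  | succ n ih => rw [Function.iterate_succ_apply', PP_Tact hζ, ih]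

omit [DecidableEq K] in
theorem Tact_iterate_five (hζ : ζ ^ 4 + ζ ^ 3 + ζ ^ 2 + ζ + 1 = 0) (u : K × K) :
    (Tact ζ)^[5] u = u := by
  have h5 := zeta_pow_five hζ
  simp only [Function.iterate_succ, Function.iterate_zero, Function.comp, id, Tact]
  ext
  · show ζ ^ 3 * (ζ ^ 3 * (ζ ^ 3 * (ζ ^ 3 * (ζ ^ 3 * u.1)))) = u.1
    linear_combination (ζ ^ 10 + ζ ^ 5 + 1) * u.1 * h5
  · show ζ ^ 2 * (ζ ^ 2 * (ζ ^ 2 * (ζ ^ 2 * (ζ ^ 2 * u.2)))) = u.2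
    linear_combination (ζ ^ 5 + 1) * u.2 * h5

theorem QQ_Tact_iterate (hW : IsEC W c4 c6) (hζ : ζ ^ 4 + ζ ^ 3 + ζ ^ 2 + ζ + 1 = 0) (h30 : (30 : K) ≠ 0)
    (hΔ : c4 ^ 3 - c6 ^ 2 ≠ 0) {u : K × K} (hu : Dom c4 c6 u) (n : ℕ) :
    QQ W ((Tact ζ)^[n] u) = QQ W u - (n : ℤ) • PP W ζ u := by
  induction n with
  | zero => simp
  | succ n ih =>
    rw [Function.iterate_succ_apply', QQ_Tact hW hζ h30 hΔ (Dom_Tact_iterate hζ hu n), ih,
      PP_Tact_iterate hζ]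
    push_cast
    rw [add_smul, one_smul]
    abel

/-- `T^5 = id`. -/
theorem five_PP (hW : IsEC W c4 c6) (hζ : ζ ^ 4 + ζ ^ 3 + ζ ^ 2 + ζ + 1 = 0) (h30 : (30 : K) ≠ 0)
    (hΔ : c4 ^ 3 - c6 ^ 2 ≠ 0) {u : K × K} (hu : Dom c4 c6 u) : (5 : ℤ) • PP W ζ u = 0 := by
  have h := QQ_Tact_iterate hW hζ h30 hΔ hu 5
  rw [Tact_iterate_five hζ] at h
  have h2 : ((5 : ℕ) : ℤ) • PP W ζ u = 0 := by
    have := sub_eq_self.mp h.symm
    exact this
  exact_mod_cast h2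

theorem five_QQ (hW : IsEC W c4 c6) (hζ : ζ ^ 4 + ζ ^ 3 + ζ ^ 2 + ζ + 1 = 0) (h30 : (30 : K) ≠ 0)
    (hΔ : c4 ^ 3 - c6 ^ 2 ≠ 0) {u : K × K} (hu : Dom c4 c6 u) : (5 : ℤ) • QQ W u = 0 := by
  have h5 : (5 : K) ≠ 0 := fun h => h30 (by
    have : (30 : K) = 6 * 5 := by norm_num
    rw [this, h, mul_zero])
  rw [← PP_Sact hζ h5 W u]
  exact five_PP hW hζ h30 hΔ (Dom_Sact hζ h5 hu)

/-- in a group, `5 x = 0`, `i x = 0`, `5 ∤ i` imply `x = 0`. -/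
theorem eq_zero_of_five_smul {G : Type*} [AddCommGroup G] {x : G} (h5 : (5 : ℤ) • x = 0) {i : ℤ}
    (hi : i • x = 0) (h : ¬ (5 : ℤ) ∣ i) : x = 0 := by
  have hcop : IsCoprime (5 : ℤ) i := by
    have hp : Prime (5 : ℤ) := by norm_num
    exact (Prime.coprime_iff_not_dvd hp).mpr h
  obtain ⟨a, b, hab⟩ := hcop
  have : (a * 5 + b * i) • x = 0 := by
    rw [add_smul, mul_smul, mul_smul, h5, hi, smul_zero, smul_zero, add_zero]
  rwa [hab, one_smul] at this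

/-- If `5 ∤ j` then `Q = k P` for some `0 ≤ k < 5`, so `Q(T^k u) = 0`, but it is an affine point. If `5 ∣ j`,
`i P = 0` with `P ≠ 0` of order 5. -/
theorem PP_QQ_independent (hW : IsEC W c4 c6) (hζ : ζ ^ 4 + ζ ^ 3 + ζ ^ 2 + ζ + 1 = 0)
    (h30 : (30 : K) ≠ 0) (hΔ : c4 ^ 3 - c6 ^ 2 ≠ 0) {u : K × K} (hu : Dom c4 c6 u) (i j : ℤ)
    (h : i • PP W ζ u + j • QQ W u = 0) : (5 : ℤ) ∣ i ∧ (5 : ℤ) ∣ j := by
  have hP5 := five_PP hW hζ h30 hΔ hu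
  have hQ5 := five_QQ hW hζ h30 hΔ hu
  have hP0 : PP W ζ u ≠ 0 := ptOf_ne_zero W (nonsingular_PP hW hζ h30 hΔ hu)
  have hj : (5 : ℤ) ∣ j := by
    by_contra hj
    have hcop : IsCoprime (5 : ℤ) j := by
      have hp : Prime (5 : ℤ) := by norm_num
      exact (Prime.coprime_iff_not_dvd hp).mpr hj
    obtain ⟨a, b, hab⟩ := hcop
    -- `Q = (a * 5 + b * j) Q = b (j Q) = - b i P`
    have hjQ : j • QQ W u = -(i • PP W ζ u) := eq_neg_of_add_eq_zero_right h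
    have hQ : QQ W u = (-(b * i)) • PP W ζ u := by
      have : (a * 5 + b * j) • QQ W u = (-(b * i)) • PP W ζ u := by
        rw [add_smul, mul_smul, mul_smul, hQ5, hjQ, smul_zero, zero_add, neg_smul, mul_smul,
          smul_neg]
      rwa [hab, one_smul] at this
    -- reduce `-(b i)` mod 5
    set m : ℤ := -(b * i) with hm
    have hm5 : m = 5 * (m / 5) + m % 5 := (Int.mul_ediv_add_emod m 5).symm
    have hnn : 0 ≤ m % 5 := Int.emod_nonneg m (by norm_num)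
    obtain ⟨n, hn⟩ := Int.eq_ofNat_of_zero_le hnn
    have hQ' : QQ W u = (n : ℤ) • PP W ζ u := by
      rw [hQ, hm5, add_smul, mul_comm, mul_smul, hP5, smul_zero, zero_add, hn]
    have h0 : QQ W ((Tact ζ)^[n] u) = 0 := by
      rw [QQ_Tact_iterate hW hζ h30 hΔ hu n, hQ', sub_self]
    exact ptOf_ne_zero W (nonsingular_QQ hW hζ h30 hΔ (Dom_Tact_iterate hζ hu n)) h0
  refine ⟨?_, hj⟩
  by_contra hi
  obtain ⟨c, rfl⟩ := hj
  have hiP : i • PP W ζ u = 0 := by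
    rw [mul_comm, mul_smul, hQ5, smul_zero, add_zero] at h
    exact h
  exact hP0 (eq_zero_of_five_smul hP5 hiP hi)

end Fermat.Agent.S52
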