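import Fermat.Agent.S52.FormsDefs

/-! # S52: `bc4` and `bD` do not vanish simultaneously (abstract form, `fam4`/`famD` as hypotheses). -/

set_option autoImplicit false

namespace Fermat.Agent.S52

theorem C4_eq_D2_aux {R : Type*} [CommRing R] (p q : R) :
    C4 p q = D2 p q ^ 2 - 250 * (p * q * D2 p q) + 3125 * (p ^ 2 * q ^ 2) := by
  simp only [C4, D2]; ring

theorem K1_sub_K2_aux {R : Type*} [CommRing R] (p q : R) :
    K1 p q - K2 p q = 12 * D2 p q := by
  simp only [K1, K2, D2]; ring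

/-- If `C4 P Q = 0` and `P * Q * D2 P Q = 0` then `P = Q = 0` (when `5 ≠ 0`). -/
theorem C4_D2_zero_aux {K : Type*} [Field K] (h5 : (5 : K) ≠ 0) (P Q : K)
    (h4 : C4 P Q = 0) (hD : P * Q * D2 P Q = 0) : P = 0 ∧ Q = 0 := by
  have key : ∀ P Q : K, C4 P Q = 0 → P = 0 → Q = 0 := by
    intro P Q h4 hP
    subst hP
    have : Q ^ 4 = 0 := by
      have := h4
      simp only [C4] at this
      linear_combination this
    exact pow_eq_zero_iff (by norm_num) |>.1 this
  have key' : ∀ P Q : K, C4 P Q = 0 → Q = 0 → P = 0 := by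
    intro P Q h4 hQ
    subst hQ
    have : P ^ 4 = 0 := by
      have := h4
      simp only [C4] at this
      linear_combination this
    exact pow_eq_zero_iff (by norm_num) |>.1 this
  rcases mul_eq_zero.1 hD with h | h
  · rcases mul_eq_zero.1 h with h | h
    · exact ⟨h, key P Q h4 h⟩
    · exact ⟨key' P Q h4 h, h⟩
  · have h1 : (3125 : K) * (P ^ 2 * Q ^ 2) = 0 := by
      have := C4_eq_D2_aux P Q
      rw [h4, h] at this
      linear_combination -this
    have h3125 : (3125 : K) ≠ 0 := by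
      have : (3125 : K) = 5 ^ 5 := by norm_num
      rw [this]; exact pow_ne_zero _ h5
    have h2 : P ^ 2 * Q ^ 2 = 0 := (mul_eq_zero.1 h1).resolve_left h3125
    rcases mul_eq_zero.1 h2 with h | h
    · have hP : P = 0 := pow_eq_zero_iff (by norm_num) |>.1 h
      exact ⟨hP, key P Q h4 hP⟩
    · have hQ : Q = 0 := pow_eq_zero_iff (by norm_num) |>.1 h
      exact ⟨key' P Q h4 hQ, hQ⟩

theorem not_both_zero_aux {K : Type*} [Field K] (h30 : (30 : K) ≠ 0) (p q μ : K)
    (hΔ : C4 p q ^ 3 - C6 p q ^ 2 ≠ 0)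
    (hfam4 : C4 (p * (1 + μ * K1 p q)^5) (q * (1 + μ * K2 p q)^5) = bc4 (C4 p q) (C6 p q) μ)
    (hfamD : (1 + μ * K1 p q) * (1 + μ * K2 p q) *
        D2 (p * (1 + μ * K1 p q)^5) (q * (1 + μ * K2 p q)^5) = D2 p q * bD (C4 p q) (C6 p q) μ)
    (h4 : bc4 (C4 p q) (C6 p q) μ = 0) (hD : bD (C4 p q) (C6 p q) μ = 0) : False := by
  have h5 : (5 : K) ≠ 0 := by
    intro h; apply h30
    have : (30 : K) = 5 * 6 := by norm_num
    rw [this, h, zero_mul]
  have h12 : (12 : K) ≠ 0 := by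
    intro h; apply h30
    have h2 : (30 : K) ^ 2 = 12 * 75 := by norm_num
    have : (30 : K) ^ 2 = 0 := by rw [h2, h, zero_mul]
    exact pow_eq_zero_iff (by norm_num) |>.1 this
  rw [disc_forms] at hΔ
  have hp : p ≠ 0 := by rintro rfl; apply hΔ; ring
  have hq : q ≠ 0 := by rintro rfl; apply hΔ; ring
  have hD2 : D2 p q ≠ 0 := by intro h; apply hΔ; rw [h]; ring
  set a := 1 + μ * K1 p q with ha
  set b := 1 + μ * K2 p q with hb
  rw [h4] at hfam4
  rw [hD, mul_zero] at hfamD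
  have hPQ : (p * a ^ 5) * (q * b ^ 5) * D2 (p * a ^ 5) (q * b ^ 5) = 0 := by
    linear_combination (p * q * a ^ 4 * b ^ 4) * hfamD
  obtain ⟨hP, hQ⟩ := C4_D2_zero_aux h5 _ _ hfam4 hPQ
  have ha0 : a = 0 := by
    have := (mul_eq_zero.1 hP).resolve_left hp
    exact pow_eq_zero_iff (by norm_num) |>.1 this
  have hb0 : b = 0 := by
    have := (mul_eq_zero.1 hQ).resolve_left hq
    exact pow_eq_zero_iff (by norm_num) |>.1 this
  have hμ : μ ≠ 0 := by
    intro h
    rw [ha, h] at ha0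
    simp at ha0
  have h1 : μ * (12 * D2 p q) = 0 := by
    rw [← K1_sub_K2_aux]
    have e1 : 1 + μ * K1 p q = 0 := by rw [← ha]; exact ha0
    have e2 : 1 + μ * K2 p q = 0 := by rw [← hb]; exact hb0
    linear_combination e1 - e2
  exact (mul_ne_zero hμ (mul_ne_zero h12 hD2)) h1

end Fermat.Agent.S52
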