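import Fermat.Agent.S52.FormsDefs

/-! # S52, piece P1: every `(c4, c6)` with nonzero discriminant is `(C4 p q, C6 p q)`. -/

set_option autoImplicit false

namespace Fermat.Agent.S52

open Polynomial

theorem ppq_C4_eq {R : Type*} [CommRing R] (p q : R) :
    C4 p q = D2 p q ^ 2 - 250 * p * q * D2 p q + 3125 * p ^ 2 * q ^ 2 := by
  simp only [C4, D2]; ring

theorem ppq_C4_smul {R : Type*} [CommRing R] (l t : R) : C4 (l * t) l = l ^ 4 * C4 t 1 := by
  simp only [C4]; ring

theorem ppq_C6_smul {R : Type*} [CommRing R] (l t : R) : C6 (l * t) l = l ^ 6 * C6 t 1 := by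
  simp only [C6]; ring

/-- a root of the degree 12 polynomial. -/
theorem ppq_exists_root (K : Type*) [Field K] [IsAlgClosed K] (a b : K) (ha : a ≠ 0) :
    ∃ t : K, a * C4 t 1 ^ 3 + b * t * D2 t 1 ^ 5 = 0 := by
  let P : K[X] := C a * (X ^ 4 - 228 * X ^ 3 + 494 * X ^ 2 + 228 * X + 1) ^ 3 +
    C b * X * (X ^ 2 + 11 * X - 1) ^ 5
  have hdeg : P.natDegree = 12 := by
    show (C a * (X ^ 4 - 228 * X ^ 3 + 494 * X ^ 2 + 228 * X + 1) ^ 3 +
      C b * X * (X ^ 2 + 11 * X - 1) ^ 5 : K[X]).natDegree = 12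
    compute_degree!
  have hd : P.degree ≠ 0 := by
    have hP0 : P ≠ 0 := by
      intro h0
      rw [h0, natDegree_zero] at hdeg
      omega
    rw [degree_eq_natDegree hP0, hdeg]
    norm_num
  obtain ⟨t, ht⟩ := IsAlgClosed.exists_root P hd
  refine ⟨t, ?_⟩
  have := ht
  simp only [P, IsRoot.def, eval_add, eval_mul, eval_C, eval_pow, eval_sub, eval_X, eval_one,
    eval_ofNat] at this
  simp only [C4, D2]
  linear_combination this

theorem exists_pq (K : Type*) [Field K] [IsAlgClosed K] (h30 : (30 : K) ≠ 0) (c4 c6 : K)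
    (hΔ : c4 ^ 3 - c6 ^ 2 ≠ 0) : ∃ p q : K, C4 p q = c4 ∧ C6 p q = c6 := by
  have h5 : (5 : K) ≠ 0 := fun h => h30 (by
    have : (30 : K) = 6 * 5 := by norm_num
    rw [this, h, mul_zero])
  obtain ⟨t, ht⟩ := ppq_exists_root K (c4 ^ 3 - c6 ^ 2) (1728 * c4 ^ 3) hΔ
  have hdisc := disc_forms t (1 : K)
  set A := C4 t 1 with hA
  set B := C6 t 1 with hB
  have hrel : c6 ^ 2 * A ^ 3 = c4 ^ 3 * B ^ 2 := by
    linear_combination -ht + c4 ^ 3 * hdisc
  have hAB : ¬ (A = 0 ∧ B = 0) := by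
    rintro ⟨hA0, hB0⟩
    rw [hA0, hB0] at hdisc
    have h1728 : (1728 : K) ≠ 0 := by
      have h6 : (6 : K) ≠ 0 := fun h => h30 (by
        have : (30 : K) = 6 * 5 := by norm_num
        rw [this, h, zero_mul])
      have : (1728 : K) = 6 ^ 3 * 2 ^ 3 := by norm_num
      rw [this]
      have h2 : (2 : K) ≠ 0 := fun h => h6 (by
        have : (6 : K) = 2 * 3 := by norm_num
        rw [this, h, zero_mul])
      exact mul_ne_zero (pow_ne_zero _ h6) (pow_ne_zero _ h2)
    have h0 : t * 1 * D2 t 1 ^ 5 = 0 := by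
      have : -1728 * (t * 1 * D2 t 1 ^ 5) = 0 := by linear_combination -hdisc
      rcases mul_eq_zero.mp this with h | h
      · exact absurd (neg_eq_zero.mp h) h1728
      · exact h
    have hC := ppq_C4_eq t (1 : K)
    rw [← hA, hA0] at hC
    have ht0 : t = 0 := by
      rcases mul_eq_zero.mp h0 with h | h
      · simpa using h
      · have hD := pow_eq_zero_iff (by norm_num) |>.mp h
        rw [hD] at hC
        have : (5 : K) ^ 5 * t ^ 2 = 0 := by linear_combination -hC
        rcases mul_eq_zero.mp this with h' | h'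
        · exact absurd h' (pow_ne_zero _ h5)
        · exact pow_eq_zero_iff (by norm_num) |>.mp h'
    have : A = 1 := by rw [hA, ht0]; simp [C4]
    rw [hA0] at this
    exact zero_ne_one this
  -- find `l`
  have key : ∃ l : K, l ^ 4 * A = c4 ∧ l ^ 6 * B = c6 := by
    by_cases hA0 : A = 0
    · have hB0 : B ≠ 0 := fun h => hAB ⟨hA0, h⟩
      have hc4 : c4 = 0 := by
        rw [hA0] at hrel
        have : c4 ^ 3 * B ^ 2 = 0 := by linear_combination -hrel
        rcases mul_eq_zero.mp this with h | h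
        · exact pow_eq_zero_iff (by norm_num) |>.mp h
        · exact absurd (pow_eq_zero_iff (by norm_num) |>.mp h) hB0
      obtain ⟨l, hl⟩ := IsAlgClosed.exists_pow_nat_eq (c6 / B) (n := 6) (by norm_num)
      exact ⟨l, by rw [hA0, hc4, mul_zero], by rw [hl, div_mul_cancel₀ _ hB0]⟩
    · by_cases hB0 : B = 0
      · have hc6 : c6 = 0 := by
          rw [hB0] at hrel
          have : c6 ^ 2 * A ^ 3 = 0 := by linear_combination hrel
          rcases mul_eq_zero.mp this with h | h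
          · exact pow_eq_zero_iff (by norm_num) |>.mp h
          · exact absurd (pow_eq_zero_iff (by norm_num) |>.mp h) hA0
        obtain ⟨l, hl⟩ := IsAlgClosed.exists_pow_nat_eq (c4 / A) (n := 4) (by norm_num)
        exact ⟨l, by rw [hl, div_mul_cancel₀ _ hA0], by rw [hB0, hc6, mul_zero]⟩
      · have hc4 : c4 ≠ 0 := by
          intro h
          rw [h] at hrel
          have h1 : c6 ^ 2 * A ^ 3 = 0 := by linear_combination hrel
          rcases mul_eq_zero.mp h1 with h' | h'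
          · have : c6 = 0 := pow_eq_zero_iff (by norm_num) |>.mp h'
            exact hΔ (by rw [h, this]; ring)
          · exact hA0 (pow_eq_zero_iff (by norm_num) |>.mp h')
        obtain ⟨l, hl⟩ := IsAlgClosed.exists_pow_nat_eq (c6 * A / (c4 * B)) (n := 2) (by norm_num)
        have hcB : c4 * B ≠ 0 := mul_ne_zero hc4 hB0
        have hl' : l ^ 2 * (c4 * B) = c6 * A := by rw [hl, div_mul_cancel₀ _ hcB]
        refine ⟨l, ?_, ?_⟩
        · -- l^4 A (c4 B)^2 = c6^2 A^3 = c4^3 B^2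
          have : (l ^ 4 * A - c4) * (c4 * B) ^ 2 = 0 := by
            linear_combination (l ^ 2 * (c4 * B) + c6 * A) * A * hl' + hrel
          rcases mul_eq_zero.mp this with h | h
          · exact sub_eq_zero.mp h
          · exact absurd (pow_eq_zero_iff (by norm_num) |>.mp h) hcB
        · have : (l ^ 6 * B - c6) * ((c4 * B) ^ 2 * c4) = 0 := by
            linear_combination
              ((l ^ 2 * (c4 * B)) ^ 2 + l ^ 2 * (c4 * B) * (c6 * A) + (c6 * A) ^ 2) * hl' + c6 * hrel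
          rcases mul_eq_zero.mp this with h | h
          · exact sub_eq_zero.mp h
          · exact absurd h (mul_ne_zero (pow_ne_zero _ hcB) hc4)
  obtain ⟨l, h4, h6⟩ := key
  exact ⟨l * t, l, by rw [ppq_C4_smul, ← hA, h4], by rw [ppq_C6_smul, ← hB, h6]⟩

theorem exists_zw (K : Type*) [Field K] [IsAlgClosed K] (h30 : (30 : K) ≠ 0) (c4 c6 : K)
    (hΔ : c4 ^ 3 - c6 ^ 2 ≠ 0) : ∃ z w : K, C4 (z ^ 5) (w ^ 5) = c4 ∧ C6 (z ^ 5) (w ^ 5) = c6 := by
  obtain ⟨p, q, h4, h6⟩ := exists_pq K h30 c4 c6 hΔ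
  obtain ⟨z, hz⟩ := IsAlgClosed.exists_pow_nat_eq p (n := 5) (by norm_num)
  obtain ⟨w, hw⟩ := IsAlgClosed.exists_pow_nat_eq q (n := 5) (by norm_num)
  exact ⟨z, w, by rw [hz, hw, h4], by rw [hz, hw, h6]⟩

end Fermat.Agent.S52
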