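import Fermat.Agent.S52.L5F
import Fermat.Agent.S52.ParamPQ
import Fermat.Agent.S52.NotBoth
import Fermat.Agent.S52.Forms
import Fermat.Agent.S52.DiscFamily

/-! # S52, Part A: the icosahedral family has constant mod-5 Frobenius module. -/

set_option autoImplicit false

namespace Fermat.Agent.S52

open WeierstrassCurve WeierstrassCurve.Affine

theorem fam_map_bc4 {R S : Type*} [CommRing R] [CommRing S] (f : R →+* S) (c4 c6 μ : R) :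
    f (bc4 c4 c6 μ) = bc4 (f c4) (f c6) (f μ) := by
  simp only [bc4, g4, map_add, map_mul, map_pow, map_neg, map_ofNat]

theorem fam_map_bc6 {R S : Type*} [CommRing R] [CommRing S] (f : R →+* S) (c4 c6 μ : R) :
    f (bc6 c4 c6 μ) = bc6 (f c4) (f c6) (f μ) := by
  simp only [bc6, g6, map_add, map_mul, map_pow, map_neg, map_ofNat]

/-- `u ↦ u + μ c(u)` maps the parametrisation of `E` to that of `E'`. -/
theorem Dom_Phi {K : Type*} [Field K] {c4 c6 : K} (μ : K) {u : K × K} (hu : Dom c4 c6 u) :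
    Dom (bc4 c4 c6 μ) (bc6 c4 c6 μ) (Phi μ u) := by
  obtain ⟨h4, h6⟩ := hu
  constructor
  · show C4 ((u.1 * (1 + μ * K1 (u.1 ^ 5) (u.2 ^ 5))) ^ 5)
      ((u.2 * (1 + μ * K2 (u.1 ^ 5) (u.2 ^ 5))) ^ 5) = _
    rw [mul_pow, mul_pow, fam4, h4, h6]
  · show C6 ((u.1 * (1 + μ * K1 (u.1 ^ 5) (u.2 ^ 5))) ^ 5)
      ((u.2 * (1 + μ * K2 (u.1 ^ 5) (u.2 ^ 5))) ^ 5) = _
    rw [mul_pow, mul_pow, fam6, h4, h6]

theorem thirty_ne_zero (ℓ : ℕ) [Fact ℓ.Prime] (hℓ : 7 ≤ ℓ) (K : Type*) [Field K] [Algebra (ZMod ℓ) K] :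
    (30 : K) ≠ 0 := by
  haveI : CharP K ℓ := charP_of_injective_algebraMap (algebraMap (ZMod ℓ) K).injective ℓ
  intro h
  have h1 : ((30 : ℕ) : K) = 0 := by exact_mod_cast h
  have h2 : ℓ ∣ 30 := (CharP.cast_eq_zero_iff K ℓ 30).mp h1
  have h3 : ℓ ≤ 30 := Nat.le_of_dvd (by norm_num) h2
  have hp : ℓ.Prime := Fact.out
  interval_cases ℓ <;> revert h2 <;> revert hp <;> decide

/-- **Theorem A.** If `π² - a π + ℓ` kills `E[5]` and `π² - a' π + ℓ` kills `E'[5]`, where `E'` is the member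
of the icosahedral family of `E` with parameter `μ ∈ 𝔽_ℓ`, then `a ≡ a' (mod 5)`. -/
theorem five_congr (ℓ : ℕ) [Fact ℓ.Prime] (hℓ : 7 ≤ ℓ) (c4 c6 μ : ZMod ℓ) (hΔ : c4 ^ 3 - c6 ^ 2 ≠ 0)
    (hD : bD c4 c6 μ ≠ 0)
    (K : Type*) [Field K] [DecidableEq K] [Algebra (ZMod ℓ) K] [IsAlgClosed K] (a a' : ℤ)
    (h : ∀ Q : ((EC c4 c6)⁄K).Point, (5 : ℤ) • Q = 0 →
      Fr ℓ K (EC c4 c6) (Fr ℓ K (EC c4 c6) Q) - a • Fr ℓ K (EC c4 c6) Q + (ℓ : ℤ) • Q = 0)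
    (h' : ∀ Q : ((EC (bc4 c4 c6 μ) (bc6 c4 c6 μ))⁄K).Point, (5 : ℤ) • Q = 0 →
      Fr ℓ K (EC (bc4 c4 c6 μ) (bc6 c4 c6 μ)) (Fr ℓ K (EC (bc4 c4 c6 μ) (bc6 c4 c6 μ)) Q)
        - a' • Fr ℓ K (EC (bc4 c4 c6 μ) (bc6 c4 c6 μ)) Q + (ℓ : ℤ) • Q = 0) :
    (5 : ℤ) ∣ a - a' := by
  have h30 := thirty_ne_zero ℓ hℓ K
  refine five_congr_core ℓ h30 c4 c6 (bc4 c4 c6 μ) (bc6 c4 c6 μ) μ hΔ ?_ ?_ ?_ a a' h h'
  · rw [disc_family]
    exact mul_ne_zero hΔ (pow_ne_zero _ hD)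
  · have hΔK : (algebraMap (ZMod ℓ) K c4) ^ 3 - (algebraMap (ZMod ℓ) K c6) ^ 2 ≠ 0 := by
      rw [← map_pow, ← map_pow, ← map_sub]
      exact (map_ne_zero_iff _ (algebraMap (ZMod ℓ) K).injective).mpr hΔ
    obtain ⟨z, w, h4, h6⟩ := exists_zw K h30 _ _ hΔK
    exact ⟨(z, w), h4, h6⟩
  · intro u hu
    rw [fam_map_bc4, fam_map_bc6]
    exact Dom_Phi _ hu

/-- Used for semistability at the new primes (proved with the same parametrisation `u ↦ (c4 u, c6 u)`). -/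
theorem bc4_bD_not_both_zero (K : Type*) [Field K] [IsAlgClosed K] (h30 : (30 : K) ≠ 0)
    (c4 c6 μ : K) (hΔ : c4 ^ 3 - c6 ^ 2 ≠ 0) (h4 : bc4 c4 c6 μ = 0) (hD : bD c4 c6 μ = 0) : False := by
  obtain ⟨p, q, rfl, rfl⟩ := exists_pq K h30 c4 c6 hΔ
  exact not_both_zero_aux h30 p q μ hΔ (fam4 p q μ) (famD p q μ) h4 hD

end Fermat.Agent.S52
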