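import Fermat.Agent.S52.DAbstract
import Fermat.Agent.S52.DLocal
import Fermat.Agent.S52.DNoRoot

/-! # S52, Part D: a member of the family without rational 3-isogeny (elementary Hilbert irreducibility).

`psi3EC` is defined in `DDefs.lean`.  Assembly of `HI.hilbert_padic` (DAbstract), `HI.local_cond` (DLocal), `HI.no_poly_root` (DNoRoot). -/

set_option autoImplicit false

namespace Fermat.Agent.S52

open Polynomial

namespace HI

/-- a rational root of the 3-division polynomial gives an integral root of the monic quartic. -/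
theorem int_root (c4 c6 : ℤ) (ξ : ℚ) (h : psi3EC (c4 : ℚ) (c6 : ℚ) ξ = 0) :
    ∃ Y : ℤ, quart (18 * (-27 * c4)) (108 * (-54 * c6)) (-27 * (-27 * c4) ^ 2) Y = 0 := by
  set f : ℤ[X] := X ^ 4 + C (18 * (-27 * c4)) * X ^ 2 + C (108 * (-54 * c6)) * X
    + C (-27 * (-27 * c4) ^ 2) with hf
  have hmon : f.Monic := by
    rw [hf]
    monicity!
  have hroot : aeval (3 * ξ) f = 0 := by
    have := quart_eq_psi3EC (c4 : ℚ) (c6 : ℚ) ξ
    rw [h, mul_zero] at this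
    rw [hf]
    simp only [map_add, map_mul, map_pow, aeval_X, aeval_C, quart] at this ⊢
    rw [← this]
    simp
  obtain ⟨Y, hY⟩ := isInteger_of_is_root_of_monic hmon hroot
  refine ⟨Y, ?_⟩
  have h2 := quart_eq_psi3EC (c4 : ℚ) (c6 : ℚ) ξ
  rw [h, mul_zero, ← hY] at h2
  have h3 := map_quart (Int.castRingHom ℚ) (18 * (-27 * c4)) (108 * (-54 * c6))
    (-27 * (-27 * c4) ^ 2) Y
  have h4 : ((quart (18 * (-27 * c4)) (108 * (-54 * c6)) (-27 * (-27 * c4) ^ 2) Y : ℤ) : ℚ) = 0 := by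
    have : (Int.castRingHom ℚ) (quart (18 * (-27 * c4)) (108 * (-54 * c6))
      (-27 * (-27 * c4) ^ 2) Y) = 0 := by
      rw [h3, ← h2]
      simp
    simpa using this
  exact_mod_cast h4

end HI

open HI in
/-- **Theorem D.** -/
theorem exists_nu (c4 c6 : ℤ) (hΔ : c4 ^ 3 - c6 ^ 2 ≠ 0) (ξ₀ : ℚ) (h0 : psi3EC (c4 : ℚ) (c6 : ℚ) ξ₀ = 0)
    (M : ℤ) (hM : M ≠ 0) :
    ∃ ν : ℤ, M ∣ ν ∧ ∀ X : ℚ,
      psi3EC ((bc4 c4 c6 (1728 * ν) : ℤ) : ℚ) ((bc6 c4 c6 (1728 * ν) : ℤ) : ℚ) X ≠ 0 := by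
  obtain ⟨Y0, hY0⟩ := int_root c4 c6 ξ₀ h0
  have hΔ' : 4 * (-27 * c4) ^ 3 + 27 * (-54 * c6) ^ 2 ≠ 0 := by
    intro h
    apply hΔ
    have : 78732 * (c4 ^ 3 - c6 ^ 2) = 0 := by linear_combination -h
    omega
  obtain ⟨p, S, hp, h1, h2⟩ := local_cond (-27 * c4) (-54 * c6) hΔ' Y0 hY0
  set A2 : ℤ[X] := 18 * (-27 * bc4 (C c4) (C c6) X) with hA2
  set A1 : ℤ[X] := 108 * (-54 * bc6 (C c4) (C c6) X) with hA1
  set A0 : ℤ[X] := -27 * (-27 * bc4 (C c4) (C c6) X) ^ 2 with hA0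
  have e2 : ∀ m : ℤ, A2.eval m = 18 * (-27 * bc4 c4 c6 m) := by
    intro m
    rw [hA2]
    simp only [eval_mul, eval_neg, eval_ofNat, eval_bc4]
  have e1 : ∀ m : ℤ, A1.eval m = 108 * (-54 * bc6 c4 c6 m) := by
    intro m
    rw [hA1]
    simp only [eval_mul, eval_neg, eval_ofNat, eval_bc6]
  have e0 : ∀ m : ℤ, A0.eval m = -27 * (-27 * bc4 c4 c6 m) ^ 2 := by
    intro m
    rw [hA0]
    simp only [eval_mul, eval_neg, eval_ofNat, eval_bc4, eval_pow]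
  have z4 : bc4 c4 c6 0 = c4 := by simp [bc4]
  have z6 : bc6 c4 c6 0 = c6 := by simp [bc6]
  have h3 : ∀ P : ℚ[X], quart (A2.map (Int.castRingHom ℚ)) (A1.map (Int.castRingHom ℚ))
      (A0.map (Int.castRingHom ℚ)) P ≠ 0 := by
    intro P hP
    set φ : ℤ[X] →+* ℂ[X] := mapRingHom (Int.castRingHom ℂ) with hφ
    set ψ : ℚ[X] →+* ℂ[X] := mapRingHom (algebraMap ℚ ℂ) with hψ
    have hc : ∀ A : ℤ[X], ψ (A.map (Int.castRingHom ℚ)) = φ A := by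
      intro A
      rw [hψ, hφ, coe_mapRingHom, coe_mapRingHom, map_map]
      congr 1
    have h := congrArg ψ hP
    rw [map_quart, hc, hc, hc, map_zero] at h
    have hΔC : ((c4 : ℂ)) ^ 3 - (c6 : ℂ) ^ 2 ≠ 0 := by exact_mod_cast hΔ
    apply no_poly_root (c4 : ℂ) (c6 : ℂ) hΔC (C (1 / 3) * ψ P)
    have h4 : φ (bc4 (C c4) (C c6) X) = bc4 (C (c4 : ℂ)) (C (c6 : ℂ)) X := by
      rw [map_bc4', hφ]
      simp
    have h6 : φ (bc6 (C c4) (C c6) X) = bc6 (C (c4 : ℂ)) (C (c6 : ℂ)) X := by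
      rw [map_bc6', hφ]
      simp
    have hq := quart_eq_psi3EC (bc4 (C (c4 : ℂ)) (C (c6 : ℂ)) X) (bc6 (C (c4 : ℂ)) (C (c6 : ℂ)) X)
      (C (1 / 3) * ψ P)
    have h33 : (3 : ℂ[X]) * (C (1 / 3) * ψ P) = ψ P := by
      rw [← mul_assoc]
      have : (3 : ℂ[X]) * C (1 / 3) = 1 := by
        rw [← map_ofNat C 3, ← C_mul]
        norm_num
      rw [this, one_mul]
    rw [h33] at hq
    have hz : (27 : ℂ[X]) * psi3EC (bc4 (C (c4 : ℂ)) (C (c6 : ℂ)) X) (bc6 (C (c4 : ℂ)) (C (c6 : ℂ)) X)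
      (C (1 / 3) * ψ P) = 0 := by
      rw [← hq, ← h, hA2, hA1, hA0]
      simp only [map_mul, map_neg, map_ofNat, map_pow, h4, h6]
    have h27 : (27 : ℂ[X]) ≠ 0 := by
      rw [← map_ofNat C 27]
      exact C_ne_zero.mpr (by norm_num)
    exact (mul_eq_zero.mp hz).resolve_left h27
  have hM' : 1728 * M ≠ 0 := mul_ne_zero (by norm_num) hM
  obtain ⟨m, ⟨ν, hν⟩, hm⟩ := hilbert_padic A2 A1 A0 p hp S
    (by rw [e2, e1, e0, z4, z6]; exact h1) (by rw [e2, e1, e0, z4, z6]; exact h2) h3 (1728 * M) hM'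
  refine ⟨M * ν, Dvd.intro _ rfl, ?_⟩
  intro X hX
  have hmν : 1728 * (M * ν) = m := by rw [hν]; ring
  rw [hmν] at hX
  obtain ⟨Y, hY⟩ := int_root _ _ X hX
  apply hm Y
  rw [e2, e1, e0]
  exact hY

end Fermat.Agent.S52
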